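/-
GATE-K / N10-MODULAR (helper56): conjuncts (1)(2) of `SS.Modular.FibreFacts` — the coordinate ring
`CRing N' A` (helper15, `GK/QS/FrobStable.lean`: the integral closure of `k[j~]` in the residue
function field `FresBar N' A`) is a Dedekind domain and not a field.

* `not_regFin_inv_self` : `s⁻¹` is not integral over `K[s]` for `s` transcendental;
* `isDedekindDomain_CRing` : J1 `isDedekindDomain_integralClosure_adjoin` + separability of
  `FresBar N' A / k(j~)` (`ord_Q j~ = -1`), the two subalgebras having the same underlying type;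
* `not_isField_CRing`.
-/
import Fermat.Agent.GK.QS.FrobStable
import Fermat.Agent.GK.Val.Degrees
import Fermat.Agent.GJ.J1.ChartAKLB
import Fermat.Agent.GJ.J1.RiemannFibres
import Fermat.Agent.GJ.J1.Haupt.ChartRed

set_option autoImplicit false
set_option linter.style.haveILetI false
noncomputable section
namespace Fermat.Agent.GK.SS.Modular

open IntermediateField IsLocalRing ModularCurve HahnSeries Polynomial
open Fermat.Agent.S24 Fermat.Agent.GJ.J1 Fermat.Agent.GJ.J1.Val Fermat.Agent.GJ.J1.Haupt
open Fermat.Agent.GK.QS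

section Generic

variable {K F : Type*} [Field K] [Field F] [Algebra K F]

/-- the inverse of a transcendental element is not integral over `K[s]` -/
theorem not_regFin_inv_self {s : F} (hs : Transcendental K s) : ¬ RegFin K s s⁻¹ := by
  intro h
  have hs0 : s ≠ 0 := fun h0 => hs (h0 ▸ isAlgebraic_zero)
  -- `s⁻¹ ∈ K(s)` integral over `K[s]` lies in `K[s]`
  have hmem : s⁻¹ ∈ IntermediateField.adjoin K {s} :=
    (IntermediateField.adjoin K {s}).inv_mem (IntermediateField.mem_adjoin_simple_self K s)
  have := (regFin_coe_iff (K := K) s ⟨s⁻¹, hmem⟩).1 h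
  obtain ⟨⟨y, hy⟩, hy'⟩ := this
  have hy2 : y = s⁻¹ := congrArg Subtype.val hy'
  rw [Algebra.adjoin_singleton_eq_range_aeval] at hy
  obtain ⟨p, hp⟩ := hy
  have hp' : Polynomial.aeval s p = s⁻¹ := hp.trans hy2
  have hrel : Polynomial.aeval s (X * p - 1) = 0 := by
    rw [map_sub, map_mul, Polynomial.aeval_X, map_one, hp', mul_inv_cancel₀ hs0, sub_self]
  have hne : (X * p - 1 : K[X]) ≠ 0 := by
    intro h0
    have := congrArg (Polynomial.eval 0) h0
    simp at this
  exact hs ⟨X * p - 1, hne, hrel⟩

end Generic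

variable (N' : ℕ) [NeZero N'] (ℓ : ℕ) [Fact ℓ.Prime] (A : ValuationSubring Kbar)

/-- **the coordinate ring of the good level is a Dedekind domain** -/
theorem isDedekindDomain_CRing (hA : A.LiesOverPrime ℓ) : IsDedekindDomain (CRing N' A) := by
  have hℓ : ℓ.Prime := Fact.out
  haveI : CharP (ResidueField A) ℓ := charP_residue A hℓ hA
  haveI : FiniteDimensional (ResidueField A)⟮QS.jt N' A⟯ (FresBar N' A) :=
    (Fermat.Agent.GK.Val.Degrees.finiteDimensional_f1 N' A (jF_mem_Rw N' A)).1
  haveI : Algebra.IsSeparable (ResidueField A)⟮QS.jt N' A⟯ (FresBar N' A) :=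
    Fermat.Agent.GJ.J1.G1.isSeparable_adjoin_of_embedding ℓ (FresBar N' A).val (QS.jt N' A)
      (hord_jF N' A hℓ _)
  have hD : IsDedekindDomain
      (integralClosure (Algebra.adjoin (ResidueField A) {QS.jt N' A}) (FresBar N' A)) :=
    inferInstance
  exact hD

/-- the coordinate ring of the good level is not a field -/
theorem not_isField_CRing : ¬ IsField (CRing N' A) := by
  intro hF
  have htr : Transcendental (ResidueField A) (QS.jt N' A) := by
    apply Fres.transcendental_of_coe
    rw [QS.coe_jt]
    exact transcendental_jqModC _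
  have hj0 : (⟨QS.jt N' A, jt_mem_CRing N' A⟩ : CRing N' A) ≠ 0 := by
    intro h0
    have h1 : QS.jt N' A = 0 := congrArg Subtype.val h0
    exact htr (h1 ▸ isAlgebraic_zero)
  obtain ⟨b, hb⟩ := hF.mul_inv_cancel hj0
  have hb' : QS.jt N' A * (b : FresBar N' A) = 1 := congrArg Subtype.val hb
  have hbinv : (b : FresBar N' A) = (QS.jt N' A)⁻¹ := eq_inv_of_mul_eq_one_right hb'
  exact not_regFin_inv_self htr (hbinv ▸ b.2)

end Fermat.Agent.GK.SS.Modular
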