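/-
GATE-K / N10 (SS) ASSEMBLY, layer 1 (helper44): the abstract semistability lemma.

`Fx` is the unit group of a function field, `I` an inertia group acting on it (only the family
of endomorphisms `act σ` is used), `P` the subgroup of
`m`-divisible units, `Cst` the constants (all `m`-th powers), `U` the subgroup of "admissible"
units (both Gauss valuations `0`, constant reductions) and `ξ : U →* X` the glueing-constant
invariant.  If

* every `u ∈ P` can be normalised by a constant so that `σ(cu)/(cu) ∈ U` for all `σ`,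
* `ξ` is `I`-invariant, and
* `ξ z = 1` forces `z` to be a constant times an `m`-th power,

then `(τ - 1)(σ - 1)` kills `P` modulo `m`-th powers.
-/
import Mathlib

set_option autoImplicit false

namespace Fermat.Agent.GK.SS

variable {Fx : Type*} [CommGroup Fx] {I : Type*} (act : I → Fx →* Fx) (m : ℕ)

/-- **The abstract (SS) lemma**: `(τ - 1)(σ - 1) u` is an `m`-th power. -/
theorem ss_of_package (P Cst U : Subgroup Fx) {X : Type*} [CommGroup X] (ξ : U →* X)
    (hC : ∀ c ∈ Cst, ∃ d : Fx, c = d ^ m)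
    (hCI : ∀ (σ : I) (c : Fx), c ∈ Cst → act σ c ∈ Cst)
    (h1 : ∀ u ∈ P, ∃ c ∈ Cst, ∀ σ : I, act σ (c * u) / (c * u) ∈ U)
    (h2 : ∀ (τ : I) (z : U), ∃ hz : act τ (z : Fx) ∈ U, ξ ⟨act τ (z : Fx), hz⟩ = ξ z)
    (h3 : ∀ z : U, ξ z = 1 → ∃ c ∈ Cst, ∃ w : Fx, (z : Fx) = c * w ^ m) :
    ∀ (σ τ : I) (u : Fx), u ∈ P →
      ∃ w : Fx, act τ (act σ u) * u = act τ u * act σ u * w ^ m := by
  intro σ τ u hu
  obtain ⟨c, hc, hcU⟩ := h1 u hu
  -- z = σ(cu)/(cu)
  set z : U := ⟨act σ (c * u) / (c * u), hcU σ⟩ with hz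
  obtain ⟨hτz, hξ⟩ := h2 τ z
  -- y = τ z / z has ξ y = 1
  set y : U := ⟨act τ (z : Fx), hτz⟩ / z with hy
  have hξy : ξ y = 1 := by
    rw [hy, map_div, hξ, div_self']
  obtain ⟨c', hc', w, hw⟩ := h3 y hξy
  -- the constant parts are m-th powers
  obtain ⟨d', hd'⟩ := hC c' hc'
  have hk : act τ (act σ c) * c / (act τ c * act σ c) ∈ Cst :=
    Cst.div_mem (Cst.mul_mem (hCI τ _ (hCI σ _ hc)) hc) (Cst.mul_mem (hCI τ _ hc) (hCI σ _ hc))
  obtain ⟨d, hd⟩ := hC _ hk
  -- compute y
  have hyv : (y : Fx) = (act τ (act σ c) * c / (act τ c * act σ c)) *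
      (act τ (act σ u) * u / (act τ u * act σ u)) := by
    rw [hy]
    show act τ (act σ (c * u) / (c * u)) / (act σ (c * u) / (c * u)) = _
    simp only [div_eq_mul_inv, mul_inv_rev, map_mul, map_inv, inv_inv]
    ac_rfl
  refine ⟨d' * w / d, ?_⟩
  have h4 : act τ (act σ u) * u / (act τ u * act σ u) = (d' * w / d) ^ m := by
    have hB : act τ (act σ u) * u / (act τ u * act σ u) =
        (y : Fx) / (act τ (act σ c) * c / (act τ c * act σ c)) := by
      rw [hyv, mul_div_cancel_left]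
    rw [hB, hd, hw, hd', div_pow, mul_pow]
  rw [div_eq_iff_eq_mul] at h4
  rw [h4, mul_comm]

end Fermat.Agent.GK.SS
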