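/-
GATE-K / N10 (SS) ASSEMBLY, layer 2 (helper44): from an abstract semistability package at every
valuation subring `A` of `ℚ̄` over `q` to helper43's gate `SSGate2 N q m` (hence `SSGate N q m`,
hence the frozen S34 through `GK/Tate/S34Top.lean`).

* `ssGate2_iff_units` : the two-element twin of helper43's `ssGate_iff_units`;
* `cstUnits N` : the constants `ℚ̄ˣ ⊂ F_Nˣ`; they are `m`-th powers and Galois-stable;
* `SSPackage N m A` : admissible units `U`, the glueing invariant `ξ : U →* X` and the three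
  properties (normalisation, inertia-invariance, `ξ = 1 ⟹ constant · m-th power`);
* `ssGate2_of_package`, `ssGate_of_package`.
-/
import Fermat.Agent.GK.SS.Abstract
import Fermat.Agent.GK.Tate.SSUnits

set_option autoImplicit false

namespace Fermat.Agent.GK.SS

open Fermat.Agent.GJ.KumGroup Fermat.Agent.GJ.Kum.KumType Fermat.Agent.GK.Tate
open ModularCurve

/-- `ℚ̄`. -/
local notation "Qb" => AlgebraicClosure ℚ

variable {N : ℕ} [NeZero N] {q m : ℕ}

/-- **Unit form of the two-element semistability gate.** -/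
theorem ssGate2_iff_units :
    SSGate2 N q m ↔ ∀ A : ValuationSubring Qb, A.LiesOverPrime q →
      ∀ σ ∈ A.inertiaSubgroupIn ℚ, ∀ τ ∈ A.inertiaSubgroupIn ℚ,
      ∀ u : (FK N)ˣ, u ∈ pDivUnits Qb (FK N) m →
        ∃ w : (FK N)ˣ, galUnits N τ (galUnits N σ u) * u =
          galUnits N τ u * galUnits N σ u * w ^ m := by
  have key : ∀ (g h : Module.End (ZMod m) (Additive (Kum Qb (FK N) m))),
      (h - 1) * (g - 1) = 0 ↔ ∀ x, h x + g x = h (g x) + x := by
    intro g h
    constructor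
    · intro H x
      have h1 := LinearMap.congr_fun H x
      simp only [Module.End.mul_apply, LinearMap.sub_apply, Module.End.one_apply, map_sub,
        LinearMap.zero_apply] at h1
      rw [eq_comm, ← sub_eq_zero, ← h1]
      abel
    · intro H
      refine LinearMap.ext fun x => ?_
      simp only [Module.End.mul_apply, LinearMap.sub_apply, Module.End.one_apply, map_sub,
        LinearMap.zero_apply]
      have e : h (g x) - g x - (h x - x) = h (g x) + x - (h x + g x) := by abel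
      rw [e, H x, sub_self]
  unfold SSGate2
  constructor
  · intro H A hA σ hσ τ hτ u hu
    have h1 := (key _ _).1 (H A hA σ hσ τ hτ) (Additive.ofMul (Kum.mk ⟨u, hu⟩))
    rw [gal_mk, gal_mk, gal_mk, ← ofMul_mul, ← ofMul_mul, ← map_mul, ← map_mul] at h1
    have h2 := Additive.ofMul.injective h1
    rw [Kum.mk_eq_mk_iff] at h2
    obtain ⟨w, hw⟩ := h2
    exact ⟨w, hw⟩
  · intro H A hA σ hσ τ hτ
    refine (key _ _).2 fun x => ?_
    obtain ⟨u, rfl⟩ := exists_rep (K := Qb) (F := FK N) (p := m) x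
    obtain ⟨w, hw⟩ := H A hA σ hσ τ hτ u u.2
    rw [gal_mk, gal_mk, gal_mk, ← ofMul_mul, ← ofMul_mul, ← map_mul, ← map_mul]
    refine congrArg Additive.ofMul ?_
    rw [Kum.mk_eq_mk_iff]
    exact ⟨w, hw⟩

variable (N)

/-- the constants `ℚ̄ˣ` inside `F_Nˣ` -/
noncomputable def cstUnits : Subgroup (FK N)ˣ :=
  (Units.map ((algebraMap Qb (FK N) : Qb →+* FK N) : Qb →* FK N)).range

variable {N}

omit [NeZero N] in
theorem mem_cstUnits {c : (FK N)ˣ} :
    c ∈ cstUnits N ↔ ∃ a : Qbˣ, ((c : (FK N)ˣ) : FK N) = algebraMap Qb (FK N) (a : Qb) := by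
  constructor
  · rintro ⟨a, rfl⟩
    exact ⟨a, rfl⟩
  · rintro ⟨a, ha⟩
    exact ⟨a, Units.ext ha.symm⟩

omit [NeZero N] in
/-- constants are `m`-th powers (`ℚ̄` is algebraically closed) -/
theorem cstUnits_pow (hm : m ≠ 0) (c : (FK N)ˣ) (hc : c ∈ cstUnits N) :
    ∃ d : (FK N)ˣ, c = d ^ m := by
  obtain ⟨a, rfl⟩ := hc
  obtain ⟨b, hb⟩ := IsAlgClosed.exists_pow_nat_eq (a : Qb) (Nat.pos_of_ne_zero hm)
  have hb0 : b ≠ 0 := by
    rintro rfl
    rw [zero_pow hm] at hb
    exact a.ne_zero hb.symm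
  refine ⟨Units.map ((algebraMap Qb (FK N) : Qb →+* FK N) : Qb →* FK N) (Units.mk0 b hb0), ?_⟩
  rw [← map_pow]
  congr 1
  exact Units.ext (by simpa using hb.symm)

/-- the Galois action preserves the constants -/
theorem galUnits_cstUnits (σ : Qb ≃ₐ[ℚ] Qb) (c : (FK N)ˣ) (hc : c ∈ cstUnits N) :
    galUnits N σ c ∈ cstUnits N := by
  obtain ⟨a, ha⟩ := mem_cstUnits.1 hc
  refine mem_cstUnits.2 ⟨Units.map (σ : Qb →* Qb) a, ?_⟩
  rw [coe_galUnits, ha, arithmeticRingAut_algebraMap]
  rfl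

variable (N m)

/-- **The semistability package** at a valuation subring `A` of `ℚ̄`: what the geometry
(two Gauss valuations, nodal special fibre, abstract glueing constants, Claim 2) has to deliver. -/
structure SSPackage (A : ValuationSubring Qb) where
  /-- admissible units: both Gauss valuations `0`, constant reductions -/
  U : Subgroup (FK N)ˣ
  /-- the group of glueing constants `μ_m^Σ / μ_m` -/
  X : Type
  /-- its group structure -/
  instX : CommGroup X
  /-- the glueing-constant invariant -/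
  ξ : U →* X
  /-- normalisation: after scaling by a constant, `σ u / u` is admissible for all inertia `σ` -/
  norm : ∀ u ∈ pDivUnits Qb (FK N) m, ∃ c ∈ cstUnits N,
    ∀ σ ∈ A.inertiaSubgroupIn ℚ, galUnits N σ (c * u) / (c * u) ∈ U
  /-- inertia preserves admissibility and the invariant (`Λ_{τ z} = Λ_z`) -/
  inv : ∀ τ ∈ A.inertiaSubgroupIn ℚ, ∀ z : U,
    ∃ hz : galUnits N τ (z : (FK N)ˣ) ∈ U, ξ ⟨galUnits N τ (z : (FK N)ˣ), hz⟩ = ξ z
  /-- trivial invariant ⟹ constant times an `m`-th power (glue + Claim 2) -/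
  triv : ∀ z : U, ξ z = 1 → ∃ c ∈ cstUnits N, ∃ w : (FK N)ˣ, (z : (FK N)ˣ) = c * w ^ m

attribute [instance] SSPackage.instX

variable {N m}

/-- **(SS) from the package, at one valuation subring.** -/
theorem ss_units_of_package (hm : m ≠ 0) {A : ValuationSubring Qb} (Pk : SSPackage N m A)
    {σ τ : Qb ≃ₐ[ℚ] Qb} (hσ : σ ∈ A.inertiaSubgroupIn ℚ) (hτ : τ ∈ A.inertiaSubgroupIn ℚ)
    {u : (FK N)ˣ} (hu : u ∈ pDivUnits Qb (FK N) m) :
    ∃ w : (FK N)ˣ, galUnits N τ (galUnits N σ u) * u =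
      galUnits N τ u * galUnits N σ u * w ^ m := by
  have := ss_of_package (Fx := (FK N)ˣ) (I := ↥(A.inertiaSubgroupIn ℚ))
    (fun σ => galUnits N (σ : Qb ≃ₐ[ℚ] Qb)) m (pDivUnits Qb (FK N) m) (cstUnits N) Pk.U Pk.ξ
    (cstUnits_pow hm) (fun σ c hc => galUnits_cstUnits (σ : Qb ≃ₐ[ℚ] Qb) c hc)
    (fun u hu => by
      obtain ⟨c, hc, h⟩ := Pk.norm u hu
      exact ⟨c, hc, fun σ => h σ σ.2⟩)
    (fun τ z => Pk.inv τ τ.2 z) Pk.triv
  exact this ⟨σ, hσ⟩ ⟨τ, hτ⟩ u hu

/-- **N10**: the two-element semistability gate from packages at all `A ∣ q`. -/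
theorem ssGate2_of_package (hm : m ≠ 0)
    (h : ∀ A : ValuationSubring Qb, A.LiesOverPrime q → Nonempty (SSPackage N m A)) :
    SSGate2 N q m := by
  rw [ssGate2_iff_units]
  intro A hA σ hσ τ hτ u hu
  obtain ⟨Pk⟩ := h A hA
  exact ss_units_of_package hm Pk hσ hτ hu

/-- the gate consumed by `s34_of_gates` -/
theorem ssGate_of_package (hm : m ≠ 0)
    (h : ∀ A : ValuationSubring Qb, A.LiesOverPrime q → Nonempty (SSPackage N m A)) :
    SSGate N q m :=
  ssGate_of_ssGate2 (ssGate2_of_package hm h)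

end Fermat.Agent.GK.SS
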