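/-
GATE-K / N10-GAL (helper44): semilinear ring automorphisms preserve the chart language of
`GJ/J1/Defs.lean`.

`φ : F ≃+* F` is *semilinear* over `φ0 : K ≃+* K` when `φ (algebraMap K F c) = algebraMap K F (φ0 c)`
(e.g. the coefficientwise Galois action `arithmeticRingAut σ` on `ℚ̄(X₀(N))`, over `σ` on `ℚ̄`).  Then

* `regFin_map_iff`  : `RegFin K (φ s) (φ x) ↔ RegFin K s x`;
* `regOver_map_iff` : `RegOver K (φ s) (φ x) ↔ RegOver K s x`;
* `mem_Lspace_map_iff` : `φ x ∈ Lspace K (φ t) (m ∘ φ0.symm) mInf ↔ x ∈ Lspace K t m mInf`;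
* `mem_Lfib_map_iff` : `φ x ∈ Lfib K (φ t) n ↔ x ∈ Lfib K t n` (so `Lfib K t n` is `φ`-stable when
  `φ t = t`).
-/
import Fermat.Agent.GJ.J1.Defs

set_option autoImplicit false

namespace Fermat.Agent.GK.SS.Semilin

open Polynomial Fermat.Agent.GJ.J1

variable {K F : Type*} [Field K] [Field F] [Algebra K F]

/-- `φ : F ≃+* F` is semilinear over `φ0 : K ≃+* K`. -/
def IsSemilin (φ : F ≃+* F) (φ0 : K ≃+* K) : Prop :=
  ∀ c : K, φ (algebraMap K F c) = algebraMap K F (φ0 c)

namespace IsSemilin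

variable {φ : F ≃+* F} {φ0 : K ≃+* K}

theorem symm (h : IsSemilin φ φ0) : IsSemilin φ.symm φ0.symm := by
  intro c
  rw [RingEquiv.symm_apply_eq, h, RingEquiv.apply_symm_apply]

theorem map_aeval (h : IsSemilin φ φ0) (s : F) (b : K[X]) :
    φ (Polynomial.aeval s b) = Polynomial.aeval (φ s) (b.map (φ0 : K →+* K)) := by
  rw [Polynomial.aeval_def, Polynomial.aeval_def, Polynomial.eval₂_map]
  have := Polynomial.hom_eval₂ b (algebraMap K F) (φ : F →+* F) s
  rw [RingEquiv.coe_toRingHom] at this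
  rw [this]
  congr 1
  exact RingHom.ext fun c => h c

theorem map_mem_adjoin (h : IsSemilin φ φ0) {s y : F} (hy : y ∈ Algebra.adjoin K {s}) :
    φ y ∈ Algebra.adjoin K {φ s} := by
  rw [Algebra.adjoin_singleton_eq_range_aeval] at hy ⊢
  obtain ⟨b, rfl⟩ := hy
  exact ⟨b.map (φ0 : K →+* K), (h.map_aeval s b).symm⟩

/-- the ring homomorphism `K[s] → K[φ s]` induced by `φ` -/
noncomputable def adjoinHom (h : IsSemilin φ φ0) (s : F) :
    ↥(Algebra.adjoin K {s}) →+* ↥(Algebra.adjoin K {φ s}) :=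
  ((φ : F →+* F).comp (algebraMap ↥(Algebra.adjoin K {s}) F)).codRestrict
    (Algebra.adjoin K {φ s}) fun y => h.map_mem_adjoin y.2

theorem regFin_map (h : IsSemilin φ φ0) {s x : F} (hx : RegFin K s x) :
    RegFin K (φ s) (φ x) := by
  unfold RegFin at hx ⊢
  exact IsIntegral.map_of_comp_eq (h.adjoinHom s) (φ : F →+* F) (RingHom.ext fun y => rfl) hx

theorem regFin_map_iff (h : IsSemilin φ φ0) {s x : F} :
    RegFin K (φ s) (φ x) ↔ RegFin K s x := by
  refine ⟨fun hx => ?_, h.regFin_map⟩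
  have := h.symm.regFin_map hx
  rwa [RingEquiv.symm_apply_apply, RingEquiv.symm_apply_apply] at this

theorem regOver_map (h : IsSemilin φ φ0) {s x : F} (hx : RegOver K s x) :
    RegOver K (φ s) (φ x) := by
  obtain ⟨b, hb, hbx⟩ := hx
  refine ⟨b.map (φ0 : K →+* K), ?_, ?_⟩
  · rw [Polynomial.eval_map, ← Polynomial.coeff_zero_eq_eval_zero] at *
    rw [Polynomial.eval₂_at_zero] at *
    intro h0
    apply hb
    have : (φ0 : K →+* K) (b.coeff 0) = 0 := h0
    exact (map_eq_zero_iff _ φ0.injective).1 this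
  · rw [← h.map_aeval, ← map_mul]
    exact h.regFin_map hbx

theorem regOver_map_iff (h : IsSemilin φ φ0) {s x : F} :
    RegOver K (φ s) (φ x) ↔ RegOver K s x := by
  refine ⟨fun hx => ?_, h.regOver_map⟩
  have := h.symm.regOver_map hx
  rwa [RingEquiv.symm_apply_apply, RingEquiv.symm_apply_apply] at this

theorem mem_Lspace_map_iff (h : IsSemilin φ φ0) {t x : F} {m : K → ℤ} {mInf : ℤ} :
    φ x ∈ Lspace K (φ t) (fun c => m (φ0.symm c)) mInf ↔ x ∈ Lspace K t m mInf := by
  rw [mem_Lspace, mem_Lspace]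
  refine and_congr ⟨fun H c => ?_, fun H c => ?_⟩ ?_
  · have := H (φ0 c)
    rw [RingEquiv.symm_apply_apply, ← h c, ← map_sub, ← map_zpow₀, ← map_mul] at this
    exact h.regOver_map_iff.1 this
  · have := H (φ0.symm c)
    rw [← h.regOver_map_iff (φ := φ), map_mul, map_zpow₀, map_sub, h, RingEquiv.apply_symm_apply]
      at this
    exact this
  · rw [← map_inv₀, ← map_zpow₀, ← map_mul]
    exact h.regOver_map_iff

theorem mem_Lfib_map_iff (h : IsSemilin φ φ0) {t x : F} {n : ℤ} :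
    φ x ∈ Lfib K (φ t) n ↔ x ∈ Lfib K t n := by
  have := h.mem_Lspace_map_iff (t := t) (x := x) (m := 0) (mInf := n)
  exact this

/-- `Lfib K t n` is stable under a semilinear automorphism fixing the chart `t`. -/
theorem mem_Lfib_iff_of_fix (h : IsSemilin φ φ0) {t x : F} (ht : φ t = t) {n : ℤ} :
    φ x ∈ Lfib K t n ↔ x ∈ Lfib K t n := by
  have := h.mem_Lfib_map_iff (t := t) (x := x) (n := n)
  rwa [ht] at this

end IsSemilin

end Fermat.Agent.GK.SS.Semilin
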