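/-
GATE-K / N10-GAL (helper44): the Galois side of the (SS) package = the hypotheses `hnorm` and
`hinv` of helper47's `ssPackageOfLam` / `ssGate_of_lam` (`GK/SS/PackageOfLam.lean`).

* `GalVal N A` : an abstract `G_ℚ`-compatible "Gauss" valuation of `F_N = ℚ̄(X₀(N))` above the
  valuation subring `A` of `ℚ̄`: a valuation subring `W` with `W ∩ ℚ̄ = A`, unramified
  (`every u ≠ 0 is a constant times a W-unit`), stable under the decomposition group of `A`, and
  with the inertia group of `A` acting trivially on the residue field (valuation form, no residue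
  field in the interface).  N1b instantiates it twice (`w₁`: helper45 `GK/Val/Inertia.lean`;
  `w₂ = w₁ ∘ W_q`: helper42).
* `GalVal.IsCstUnit V y` : `y` is a `W`-unit with CONSTANT reduction (`y ≡ a mod 𝔪_W`, `a ∈ Aˣ`);
  `GalVal.cstRed V y : ResidueField A` that constant.
* `goodUnits V1 V2 m : Subgroup (FK N)ˣ` : the admissible units `U` of the package
  (`m ∣ div y`, `w₁ y = w₂ y = 0`, both reductions constant).
* `norm_goodUnits` : **`hnorm` verbatim**.
* `galUnits_mem_goodUnits`, `cstRed_gal` : inertia preserves `goodUnits` and the constants.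
* `image_eq_of_gal` : the set-level lemma behind `hinv` (`Lam (τ z) n = Lam z n`).
-/
import Fermat.Agent.GK.SS.Gate
import Fermat.Agent.GK.SS.SemilinReg
import Fermat.Agent.S13.BranchInertia

set_option autoImplicit false

namespace Fermat.Agent.GK.SS

open Fermat.Agent.GJ.KumGroup Fermat.Agent.GJ.Kum.KumType Fermat.Agent.GK.Tate
open ModularCurve

/-- `ℚ̄`. -/
local notation "Qb" => AlgebraicClosure ℚ

/-! ### valuation subrings: two elementary facts -/

section VS

variable {E : Type*} [Field E] (B : ValuationSubring E)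

theorem vs_val_eq_one_iff {x : E} : B.valuation x = 1 ↔ x ≠ 0 ∧ x ∈ B ∧ x⁻¹ ∈ B := by
  constructor
  · intro h
    refine ⟨fun h0 => ?_, ?_, ?_⟩
    · rw [h0, map_zero] at h; exact zero_ne_one h
    · rw [← B.valuation_le_one_iff, h]
    · rw [← B.valuation_le_one_iff, map_inv₀, h, inv_one]
  · rintro ⟨h0, h1, h2⟩
    rw [← B.valuation_le_one_iff] at h1 h2
    rw [map_inv₀] at h2
    have hv : B.valuation x ≠ 0 := (Valuation.ne_zero_iff _).2 h0
    have h3 : 1 ≤ B.valuation x := by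
      have := (inv_le_one₀ (zero_lt_iff.2 hv)).1 h2
      exact this
    exact le_antisymm h1 h3

theorem vs_val_sub_lt {x y z : E} (h1 : B.valuation (x - y) < 1) (h2 : B.valuation (y - z) < 1) :
    B.valuation (x - z) < 1 := by
  have : x - z = (x - y) + (y - z) := by ring
  rw [this]
  exact Valuation.map_add_lt _ h1 h2

end VS

/-! ### the abstract Galois-compatible valuation -/

/-- An abstract `G_ℚ`-compatible unramified valuation of `F_N` above `A`. -/
structure GalVal (N : ℕ) (A : ValuationSubring Qb) where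
  /-- the valuation subring of `F_N` -/
  W : ValuationSubring (FK N)
  /-- `W ∩ ℚ̄ = A` -/
  mem_const : ∀ a : Qb, algebraMap Qb (FK N) a ∈ W ↔ a ∈ A
  /-- unramified: every nonzero function is a constant times a `W`-unit -/
  unram : ∀ u : FK N, u ≠ 0 → ∃ c : Qb, c ≠ 0 ∧ algebraMap Qb (FK N) c * u ∈ W ∧
    (algebraMap Qb (FK N) c * u)⁻¹ ∈ W
  /-- the decomposition group of `A` preserves `W` -/
  stable : ∀ σ ∈ A.decompositionSubgroup ℚ, ∀ x ∈ W,
    arithmeticRingAut (modularFunctionFieldFull N) σ x ∈ W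
  /-- the inertia group of `A` acts trivially on the residue field of `W` -/
  inert : ∀ σ ∈ A.inertiaSubgroupIn ℚ, ∀ x ∈ W,
    W.valuation (arithmeticRingAut (modularFunctionFieldFull N) σ x - x) < 1

namespace GalVal

variable {N : ℕ} {A : ValuationSubring Qb} (V : GalVal N A)

theorem val_const_eq_one {a : Qb} (ha : A.valuation a = 1) :
    V.W.valuation (algebraMap Qb (FK N) a) = 1 := by
  obtain ⟨h0, h1, h2⟩ := (vs_val_eq_one_iff A).1 ha
  refine (vs_val_eq_one_iff V.W).2 ⟨?_, (V.mem_const a).2 h1, ?_⟩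
  · exact (map_ne_zero_iff _ (algebraMap Qb (FK N)).injective).2 h0
  · rw [← map_inv₀]; exact (V.mem_const _).2 h2

theorem val_const_lt_one {a : Qb} (ha : A.valuation a < 1) :
    V.W.valuation (algebraMap Qb (FK N) a) < 1 := by
  by_cases h0 : a = 0
  · rw [h0, map_zero, map_zero]; exact zero_lt_one
  have h1 : a⁻¹ ∉ A := by
    intro h
    have h2 : a ∈ A := (A.valuation_le_one_iff a).1 ha.le
    exact ha.ne ((vs_val_eq_one_iff A).2 ⟨h0, h2, h⟩)
  have h3 : (algebraMap Qb (FK N) a)⁻¹ ∉ V.W := by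
    rw [← map_inv₀]; exact fun h => h1 ((V.mem_const _).1 h)
  have h4 : algebraMap Qb (FK N) a ∈ V.W := (V.mem_const a).2 ((A.valuation_le_one_iff a).1 ha.le)
  refine lt_of_le_of_ne ((V.W.valuation_le_one_iff _).2 h4) fun h => h3 ?_
  exact ((vs_val_eq_one_iff V.W).1 h).2.2

theorem val_const_lt_one_iff {a : Qb} (ha : a ∈ A) :
    V.W.valuation (algebraMap Qb (FK N) a) < 1 ↔ A.valuation a < 1 := by
  refine ⟨fun h => ?_, V.val_const_lt_one⟩
  refine lt_of_le_of_ne ((A.valuation_le_one_iff a).2 ha) fun h1 => ?_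
  exact h.ne (V.val_const_eq_one h1)

/-- `y` is a `W`-unit with constant reduction. -/
def IsCstUnit (y : FK N) : Prop :=
  ∃ a : Qb, A.valuation a = 1 ∧ V.W.valuation (y - algebraMap Qb (FK N) a) < 1

variable {V}

theorem IsCstUnit.val_eq_one {y : FK N} (h : V.IsCstUnit y) : V.W.valuation y = 1 := by
  obtain ⟨a, ha, hy⟩ := h
  have h1 := V.val_const_eq_one ha
  have : y = algebraMap Qb (FK N) a + (y - algebraMap Qb (FK N) a) := by ring
  rw [this, Valuation.map_add_eq_of_lt_left _ (by rw [h1]; exact hy), h1]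

theorem IsCstUnit.mem {y : FK N} (h : V.IsCstUnit y) : y ∈ V.W :=
  (V.W.valuation_le_one_iff y).1 h.val_eq_one.le

theorem IsCstUnit.ne_zero {y : FK N} (h : V.IsCstUnit y) : y ≠ 0 :=
  ((vs_val_eq_one_iff V.W).1 h.val_eq_one).1

theorem IsCstUnit.inv_mem {y : FK N} (h : V.IsCstUnit y) : y⁻¹ ∈ V.W :=
  ((vs_val_eq_one_iff V.W).1 h.val_eq_one).2.2

variable (V)

theorem isCstUnit_const {a : Qb} (ha : A.valuation a = 1) :
    V.IsCstUnit (algebraMap Qb (FK N) a) :=
  ⟨a, ha, by rw [sub_self, map_zero]; exact zero_lt_one⟩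

theorem isCstUnit_one : V.IsCstUnit (1 : FK N) := by
  have := V.isCstUnit_const (a := 1) (map_one _)
  rwa [map_one] at this

variable {V}

/-- the witness version of multiplicativity -/
theorem val_mul_sub_lt {y y' : FK N} {a a' : Qb} (ha : A.valuation a = 1)
    (ha' : A.valuation a' = 1) (hy : V.W.valuation (y - algebraMap Qb (FK N) a) < 1)
    (hy' : V.W.valuation (y' - algebraMap Qb (FK N) a') < 1) :
    V.W.valuation (y * y' - algebraMap Qb (FK N) (a * a')) < 1 := by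
  have h1 : V.W.valuation y = 1 := IsCstUnit.val_eq_one ⟨a, ha, hy⟩
  have h2 := V.val_const_eq_one ha'
  have e : y * y' - algebraMap Qb (FK N) (a * a') =
      y * (y' - algebraMap Qb (FK N) a') + algebraMap Qb (FK N) a' *
        (y - algebraMap Qb (FK N) a) := by
    rw [map_mul]; ring
  rw [e]
  refine Valuation.map_add_lt _ ?_ ?_
  · rw [map_mul, h1, one_mul]; exact hy'
  · rw [map_mul, h2, one_mul]; exact hy

theorem IsCstUnit.mul {y y' : FK N} (h : V.IsCstUnit y) (h' : V.IsCstUnit y') :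
    V.IsCstUnit (y * y') := by
  obtain ⟨a, ha, hy⟩ := h
  obtain ⟨a', ha', hy'⟩ := h'
  exact ⟨a * a', by rw [map_mul, ha, ha', one_mul], val_mul_sub_lt ha ha' hy hy'⟩

theorem val_inv_sub_lt {y : FK N} {a : Qb} (ha : A.valuation a = 1)
    (hy : V.W.valuation (y - algebraMap Qb (FK N) a) < 1) :
    V.W.valuation (y⁻¹ - algebraMap Qb (FK N) a⁻¹) < 1 := by
  have h1 : V.W.valuation y = 1 := IsCstUnit.val_eq_one ⟨a, ha, hy⟩
  have h2 := V.val_const_eq_one ha
  have hy0 : y ≠ 0 := ((vs_val_eq_one_iff V.W).1 h1).1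
  have ha0 : algebraMap Qb (FK N) a ≠ 0 := ((vs_val_eq_one_iff V.W).1 h2).1
  have e : y⁻¹ - algebraMap Qb (FK N) a⁻¹ =
      -((y - algebraMap Qb (FK N) a) * (y⁻¹ * (algebraMap Qb (FK N) a)⁻¹)) := by
    rw [map_inv₀]; field_simp; ring
  rw [e, Valuation.map_neg, map_mul, map_mul, map_inv₀, map_inv₀, h1, h2, inv_one, one_mul,
    mul_one]
  exact hy

theorem IsCstUnit.inv {y : FK N} (h : V.IsCstUnit y) : V.IsCstUnit y⁻¹ := by
  obtain ⟨a, ha, hy⟩ := h
  exact ⟨a⁻¹, by rw [map_inv₀, ha, inv_one], val_inv_sub_lt ha hy⟩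

theorem IsCstUnit.div {y y' : FK N} (h : V.IsCstUnit y) (h' : V.IsCstUnit y') :
    V.IsCstUnit (y / y') := by
  rw [div_eq_mul_inv]; exact h.mul h'.inv

/-! ### the constant reduction -/

variable (V)

/-- the constant reduction of a `W`-unit with constant reduction (`0` otherwise) -/
noncomputable def cstRed (y : FK N) : IsLocalRing.ResidueField A :=
  open Classical in
  if h : V.IsCstUnit y then
    IsLocalRing.residue A ⟨h.choose, (A.valuation_le_one_iff _).1 h.choose_spec.1.le⟩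
  else 0

variable {V}

theorem cstRed_eq {y : FK N} {a : Qb} (ha : A.valuation a = 1)
    (hy : V.W.valuation (y - algebraMap Qb (FK N) a) < 1) :
    V.cstRed y = IsLocalRing.residue A ⟨a, (A.valuation_le_one_iff _).1 ha.le⟩ := by
  have h : V.IsCstUnit y := ⟨a, ha, hy⟩
  rw [cstRed, dif_pos h]
  set a' := h.choose
  have ha' : A.valuation a' = 1 := h.choose_spec.1
  have hy' : V.W.valuation (y - algebraMap Qb (FK N) a') < 1 := h.choose_spec.2
  have hmemA : a' - a ∈ A :=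
    sub_mem ((A.valuation_le_one_iff _).1 ha'.le) ((A.valuation_le_one_iff _).1 ha.le)
  have h1 : V.W.valuation (algebraMap Qb (FK N) (a' - a)) < 1 := by
    have e : algebraMap Qb (FK N) (a' - a) =
        (y - algebraMap Qb (FK N) a) - (y - algebraMap Qb (FK N) a') := by
      rw [map_sub]; ring
    rw [e]
    exact Valuation.map_sub_lt _ hy hy'
  have h2 : A.valuation (a' - a) < 1 := (V.val_const_lt_one_iff hmemA).1 h1
  rw [← sub_eq_zero, ← map_sub, IsLocalRing.residue_eq_zero_iff]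
  have h3 := (A.valuation_lt_one_iff ⟨a' - a, hmemA⟩).2 h2
  exact h3

theorem cstRed_ne_zero {y : FK N} (h : V.IsCstUnit y) : V.cstRed y ≠ 0 := by
  obtain ⟨a, ha, hy⟩ := h
  rw [cstRed_eq ha hy, Ne, IsLocalRing.residue_eq_zero_iff]
  intro h1
  have h2 := (A.valuation_lt_one_iff ⟨a, (A.valuation_le_one_iff _).1 ha.le⟩).1 h1
  exact h2.ne ha

theorem cstRed_mul {y y' : FK N} (h : V.IsCstUnit y) (h' : V.IsCstUnit y') :
    V.cstRed (y * y') = V.cstRed y * V.cstRed y' := by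
  obtain ⟨a, ha, hy⟩ := h
  obtain ⟨a', ha', hy'⟩ := h'
  rw [cstRed_eq ha hy, cstRed_eq ha' hy',
    cstRed_eq (a := a * a') (by rw [map_mul, ha, ha', one_mul]) (val_mul_sub_lt ha ha' hy hy')]
  exact map_mul (IsLocalRing.residue A) ⟨a, (A.valuation_le_one_iff _).1 ha.le⟩
    ⟨a', (A.valuation_le_one_iff _).1 ha'.le⟩

theorem cstRed_const {a : Qb} (ha : A.valuation a = 1) :
    V.cstRed (algebraMap Qb (FK N) a) =
      IsLocalRing.residue A ⟨a, (A.valuation_le_one_iff _).1 ha.le⟩ :=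
  cstRed_eq ha (by rw [sub_self, map_zero]; exact zero_lt_one)

theorem cstRed_one : V.cstRed (1 : FK N) = 1 := by
  have h := cstRed_const (V := V) (a := 1) (map_one _)
  rw [map_one] at h
  rw [h]
  exact map_one _

/-- a unit congruent to `1` has constant reduction `1` -/
theorem cstRed_eq_one {y : FK N} (hy : V.W.valuation (y - 1) < 1) : V.cstRed y = 1 := by
  have h := cstRed_eq (V := V) (y := y) (a := 1) (map_one _) (by rwa [map_one])
  rw [h]
  exact map_one _

/-! ### inertia -/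

/-- for a `W`-unit `w` and `σ` in the inertia group, `σ w / w ≡ 1`. -/
theorem val_gal_div_sub_one_lt {σ : Qb ≃ₐ[ℚ] Qb} (hσ : σ ∈ A.inertiaSubgroupIn ℚ) {w : FK N}
    (hw : w ∈ V.W) (hw' : w⁻¹ ∈ V.W) (hw0 : w ≠ 0) :
    V.W.valuation (arithmeticRingAut (modularFunctionFieldFull N) σ w / w - 1) < 1 := by
  have h1 : V.W.valuation w = 1 := (vs_val_eq_one_iff V.W).2 ⟨hw0, hw, hw'⟩
  have e : arithmeticRingAut (modularFunctionFieldFull N) σ w / w - 1 =
      (arithmeticRingAut (modularFunctionFieldFull N) σ w - w) * w⁻¹ := by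
    field_simp
  rw [e, map_mul, map_inv₀, h1, inv_one, mul_one]
  exact V.inert σ hσ w hw

/-- inertia preserves "constant reduction", with the same constant -/
theorem val_gal_sub_lt {σ : Qb ≃ₐ[ℚ] Qb} (hσ : σ ∈ A.inertiaSubgroupIn ℚ) {y : FK N} {a : Qb}
    (ha : A.valuation a = 1) (hy : V.W.valuation (y - algebraMap Qb (FK N) a) < 1) :
    V.W.valuation (arithmeticRingAut (modularFunctionFieldFull N) σ y -
      algebraMap Qb (FK N) a) < 1 :=
  vs_val_sub_lt V.W (V.inert σ hσ y (IsCstUnit.mem ⟨a, ha, hy⟩)) hy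

theorem IsCstUnit.gal {σ : Qb ≃ₐ[ℚ] Qb} (hσ : σ ∈ A.inertiaSubgroupIn ℚ) {y : FK N}
    (h : V.IsCstUnit y) : V.IsCstUnit (arithmeticRingAut (modularFunctionFieldFull N) σ y) := by
  obtain ⟨a, ha, hy⟩ := h
  exact ⟨a, ha, val_gal_sub_lt hσ ha hy⟩

theorem cstRed_gal {σ : Qb ≃ₐ[ℚ] Qb} (hσ : σ ∈ A.inertiaSubgroupIn ℚ) {y : FK N}
    (h : V.IsCstUnit y) :
    V.cstRed (arithmeticRingAut (modularFunctionFieldFull N) σ y) = V.cstRed y := by
  obtain ⟨a, ha, hy⟩ := h
  rw [cstRed_eq ha hy, cstRed_eq ha (val_gal_sub_lt hσ ha hy)]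

end GalVal

/-! ### the admissible units -/

section Good

variable {N : ℕ} {A : ValuationSubring Qb}

/-- **The admissible units** `U` of the (SS) package: `m ∣ div y`, both valuations `0`, both
reductions constant. -/
def goodUnits (V1 V2 : GalVal N A) (m : ℕ) : Subgroup (FK N)ˣ where
  carrier := {y | y ∈ pDivUnits Qb (FK N) m ∧ V1.IsCstUnit (y : FK N) ∧ V2.IsCstUnit (y : FK N)}
  one_mem' := ⟨one_mem _, by rw [Units.val_one]; exact V1.isCstUnit_one,
    by rw [Units.val_one]; exact V2.isCstUnit_one⟩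
  mul_mem' := by
    rintro a b ⟨ha, ha1, ha2⟩ ⟨hb, hb1, hb2⟩
    refine ⟨mul_mem ha hb, ?_, ?_⟩
    · rw [Units.val_mul]; exact ha1.mul hb1
    · rw [Units.val_mul]; exact ha2.mul hb2
  inv_mem' := by
    rintro a ⟨ha, ha1, ha2⟩
    refine ⟨inv_mem ha, ?_, ?_⟩
    · rw [Units.val_inv_eq_inv_val]; exact ha1.inv
    · rw [Units.val_inv_eq_inv_val]; exact ha2.inv

theorem mem_goodUnits {V1 V2 : GalVal N A} {m : ℕ} {y : (FK N)ˣ} :
    y ∈ goodUnits V1 V2 m ↔
      y ∈ pDivUnits Qb (FK N) m ∧ V1.IsCstUnit (y : FK N) ∧ V2.IsCstUnit (y : FK N) := Iff.rfl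

/-- constants are `m`-divisible units -/
theorem cstUnits_le_pDivUnits {m : ℕ} (hm : m ≠ 0) {c : (FK N)ˣ} (hc : c ∈ cstUnits N) :
    c ∈ pDivUnits Qb (FK N) m := by
  obtain ⟨d, rfl⟩ := cstUnits_pow hm c hc
  exact pow_mem_pDivUnits Qb (FK N) m d

/-- **inertia preserves the admissible units** -/
theorem galUnits_mem_goodUnits {V1 V2 : GalVal N A} {m : ℕ} {τ : Qb ≃ₐ[ℚ] Qb}
    (hτ : τ ∈ A.inertiaSubgroupIn ℚ) {z : (FK N)ˣ} (hz : z ∈ goodUnits V1 V2 m) :
    galUnits N τ z ∈ goodUnits V1 V2 m := by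
  obtain ⟨h0, h1, h2⟩ := hz
  exact ⟨galUnits_mem N m τ z h0, by rw [coe_galUnits]; exact h1.gal hτ,
    by rw [coe_galUnits]; exact h2.gal hτ⟩

/-- **`hnorm` of `ssPackageOfLam`, verbatim**: after scaling by ONE constant, `σ u / u` is
admissible for every `σ` in the inertia group. -/
theorem norm_goodUnits (V1 V2 : GalVal N A) {q m : ℕ} (hq : q.Prime) (hA : A.LiesOverPrime q)
    (hm : m ≠ 0) :
    ∀ u ∈ pDivUnits Qb (FK N) m, ∃ c ∈ cstUnits N,
      ∀ σ ∈ A.inertiaSubgroupIn ℚ, galUnits N σ (c * u) / (c * u) ∈ goodUnits V1 V2 m := by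
  intro u hu
  obtain ⟨c1, hc1, h1, h1'⟩ := V1.unram (u : FK N) u.ne_zero
  obtain ⟨c2, hc2, h2, h2'⟩ := V2.unram (u : FK N) u.ne_zero
  set c : (FK N)ˣ :=
    Units.map ((algebraMap Qb (FK N) : Qb →+* FK N) : Qb →* FK N) (Units.mk0 c1 hc1) with hc
  have hcmem : c ∈ cstUnits N := ⟨_, rfl⟩
  have hcval : ((c * u : (FK N)ˣ) : FK N) = algebraMap Qb (FK N) c1 * (u : FK N) := rfl
  have hcu : c * u ∈ pDivUnits Qb (FK N) m := mul_mem (cstUnits_le_pDivUnits hm hcmem) hu
  refine ⟨c, hcmem, fun σ hσ => ⟨div_mem (galUnits_mem N m σ _ hcu) hcu, ?_, ?_⟩⟩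
  · -- `w₁`
    rw [Units.val_div_eq_div_val, coe_galUnits, hcval]
    have hw0 : algebraMap Qb (FK N) c1 * (u : FK N) ≠ 0 :=
      mul_ne_zero ((map_ne_zero_iff _ (algebraMap Qb (FK N)).injective).2 hc1) u.ne_zero
    have := GalVal.val_gal_div_sub_one_lt (V := V1) hσ h1 h1' hw0
    exact ⟨1, map_one _, by rwa [map_one]⟩
  · -- `w₂`
    rw [Units.val_div_eq_div_val, coe_galUnits, hcval]
    have hdec := Fermat.Agent.S05.mem_decompositionSubgroup_of_mem_inertiaSubgroupIn hσ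
    set w2 : FK N := algebraMap Qb (FK N) c2 * (u : FK N) with hw2
    have hw20 : w2 ≠ 0 :=
      mul_ne_zero ((map_ne_zero_iff _ (algebraMap Qb (FK N)).injective).2 hc2) u.ne_zero
    set d : Qb := c1 / c2 with hd
    have hd0 : d ≠ 0 := div_ne_zero hc1 hc2
    have e1 : algebraMap Qb (FK N) c1 * (u : FK N) = algebraMap Qb (FK N) d * w2 := by
      rw [hw2, hd, map_div₀]
      have : algebraMap Qb (FK N) c2 ≠ 0 :=
        (map_ne_zero_iff _ (algebraMap Qb (FK N)).injective).2 hc2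
      field_simp
    have e2 : arithmeticRingAut (modularFunctionFieldFull N) σ
        (algebraMap Qb (FK N) c1 * (u : FK N)) / (algebraMap Qb (FK N) c1 * (u : FK N)) =
        algebraMap Qb (FK N) (σ d / d) *
          (arithmeticRingAut (modularFunctionFieldFull N) σ w2 / w2) := by
      rw [e1, map_mul, arithmeticRingAut_algebraMap, mul_div_mul_comm, ← map_div₀]
    rw [e2]
    have hval : A.valuation (σ d / d) = 1 := by
      rw [map_div₀, Fermat.Agent.S13.Branch.valuation_apply_eq_of_mem_decomposition A hq hA hdec d]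
      exact div_self ((Valuation.ne_zero_iff _).2 hd0)
    refine (V2.isCstUnit_const hval).mul ?_
    have := GalVal.val_gal_div_sub_one_lt (V := V2) hσ h2 h2' hw20
    exact ⟨1, map_one _, by rwa [map_one]⟩

end Good

/-! ### the set-level lemma behind `hinv` -/

section Image

variable {N : ℕ} {A : ValuationSubring Qb}

/-- Let `S, S'` be sets of functions inside `W₁ ∩ W₂` with `x ∈ S ⟹ τ x ∈ S'` and
`x ∈ S' ⟹ τ⁻¹ x ∈ S` for some `τ` in the inertia group.  Then `S` and `S'` have the same image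
under any pair of maps `r₁, r₂` which are constant on the residue classes of `W₁`, `W₂`. -/
theorem image_eq_of_gal (V1 V2 : GalVal N A) {τ : Qb ≃ₐ[ℚ] Qb} (hτ : τ ∈ A.inertiaSubgroupIn ℚ)
    {S S' : Set (FK N)} (hS1 : ∀ x ∈ S, x ∈ V1.W ∧ x ∈ V2.W) (hS'1 : ∀ x ∈ S', x ∈ V1.W ∧ x ∈ V2.W)
    (h : ∀ x ∈ S, arithmeticRingAut (modularFunctionFieldFull N) τ x ∈ S')
    (h' : ∀ x ∈ S', arithmeticRingAut (modularFunctionFieldFull N) τ⁻¹ x ∈ S)
    {X1 X2 : Type*} (r1 : FK N → X1) (r2 : FK N → X2)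
    (hr1 : ∀ x y, x ∈ V1.W → y ∈ V1.W → V1.W.valuation (x - y) < 1 → r1 x = r1 y)
    (hr2 : ∀ x y, x ∈ V2.W → y ∈ V2.W → V2.W.valuation (x - y) < 1 → r2 x = r2 y) :
    (fun x => (r1 x, r2 x)) '' S' = (fun x => (r1 x, r2 x)) '' S := by
  have hτ' : τ⁻¹ ∈ A.inertiaSubgroupIn ℚ := inv_mem hτ
  have hdec := Fermat.Agent.S05.mem_decompositionSubgroup_of_mem_inertiaSubgroupIn hτ
  have hdec' := Fermat.Agent.S05.mem_decompositionSubgroup_of_mem_inertiaSubgroupIn hτ'
  ext p
  constructor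
  · rintro ⟨x, hx, rfl⟩
    obtain ⟨hx1, hx2⟩ := hS'1 x hx
    refine ⟨_, h' x hx, ?_⟩
    simp only
    rw [hr1 _ x (V1.stable _ hdec' x hx1) hx1 (V1.inert _ hτ' x hx1),
      hr2 _ x (V2.stable _ hdec' x hx2) hx2 (V2.inert _ hτ' x hx2)]
  · rintro ⟨x, hx, rfl⟩
    obtain ⟨hx1, hx2⟩ := hS1 x hx
    refine ⟨_, h x hx, ?_⟩
    simp only
    rw [hr1 _ x (V1.stable _ hdec x hx1) hx1 (V1.inert _ hτ x hx1),
      hr2 _ x (V2.stable _ hdec x hx2) hx2 (V2.inert _ hτ x hx2)]

end Image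

end Fermat.Agent.GK.SS
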