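/-
GATE-K / N10-GAL (helper44): the two instances of `GalVal N A` (`GK/SS/GalSide.lean`).

* `GalVal.comap` : transport of a `G_ℚ`-compatible valuation along a `ℚ̄`-automorphism of `F_N`
  commuting with the Galois action;
* `galVal1 N A` : the Gauss valuation `w₁` (`(redDataBar N A).Rw`, helper45's
  `GK/Val/Inertia.lean`);
* `galVal2 N A h` : the second Gauss valuation `w₂ = w₁ ∘ W_q` (`(redData2 N A h).Rw`, helper42's
  `GK/AL/SecondVal.lean`), by transport along `wAut h`;
* `hnorm_modular` : **`hnorm` of `ssPackageOfLam` for `U := goodUnits (galVal1 N A) (galVal2 N A h) m`,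
  unconditionally**.
-/
import Fermat.Agent.GK.SS.GalSide
import Fermat.Agent.GK.Val.Inertia
import Fermat.Agent.GK.AL.SecondVal

set_option autoImplicit false

namespace Fermat.Agent.GK.SS

open Fermat.Agent.GJ.KumGroup Fermat.Agent.GJ.Kum.KumType Fermat.Agent.GK.Tate
open Fermat.Agent.GJ.J1 Fermat.Agent.GJ.J1.Val Fermat.Agent.GK.AL
open ModularCurve

/-- `ℚ̄`. -/
local notation "Qb" => AlgebraicClosure ℚ

section VS

variable {E : Type*} [Field E] (B : ValuationSubring E)

theorem vs_val_lt_one_iff {x : E} : B.valuation x < 1 ↔ x ∈ B ∧ (x = 0 ∨ x⁻¹ ∉ B) := by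
  constructor
  · intro h
    refine ⟨(B.valuation_le_one_iff x).1 h.le, ?_⟩
    by_cases h0 : x = 0
    · exact Or.inl h0
    · exact Or.inr fun h1 =>
        h.ne ((vs_val_eq_one_iff B).2 ⟨h0, (B.valuation_le_one_iff x).1 h.le, h1⟩)
  · rintro ⟨h1, h2⟩
    refine lt_of_le_of_ne ((B.valuation_le_one_iff x).2 h1) fun h => ?_
    obtain ⟨h0, -, h3⟩ := (vs_val_eq_one_iff B).1 h
    rcases h2 with h2 | h2
    · exact h0 h2
    · exact h2 h3

end VS

namespace GalVal

variable {N : ℕ} {A : ValuationSubring Qb}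

/-- **transport** of a `G_ℚ`-compatible valuation along a `ℚ̄`-automorphism commuting with the
Galois action. -/
noncomputable def comap (V : GalVal N A) (w : FK N ≃ₐ[Qb] FK N)
    (hw : ∀ (σ : Qb ≃ₐ[ℚ] Qb) (x : FK N),
      w (arithmeticRingAut (modularFunctionFieldFull N) σ x) =
        arithmeticRingAut (modularFunctionFieldFull N) σ (w x)) : GalVal N A where
  W := V.W.comap ((w : FK N ≃+* FK N) : FK N →+* FK N)
  mem_const a := by
    rw [ValuationSubring.mem_comap]
    show w (algebraMap Qb (FK N) a) ∈ V.W ↔ _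
    rw [w.commutes]
    exact V.mem_const a
  unram u hu := by
    obtain ⟨c, hc, h1, h2⟩ := V.unram (w u) ((map_ne_zero_iff _ w.injective).2 hu)
    refine ⟨c, hc, ?_, ?_⟩
    · rw [ValuationSubring.mem_comap]
      show w (algebraMap Qb (FK N) c * u) ∈ V.W
      rw [map_mul, w.commutes]
      exact h1
    · rw [ValuationSubring.mem_comap]
      show w (algebraMap Qb (FK N) c * u)⁻¹ ∈ V.W
      rw [map_inv₀, map_mul, w.commutes]
      exact h2
  stable σ hσ x hx := by
    rw [ValuationSubring.mem_comap] at hx ⊢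
    show w (arithmeticRingAut (modularFunctionFieldFull N) σ x) ∈ V.W
    rw [hw]
    exact V.stable σ hσ _ hx
  inert σ hσ x hx := by
    rw [ValuationSubring.mem_comap] at hx
    have h1 := V.inert σ hσ (w x) hx
    rw [← hw, ← map_sub] at h1
    rw [vs_val_lt_one_iff] at h1 ⊢
    refine ⟨h1.1, ?_⟩
    rcases h1.2 with h2 | h2
    · exact Or.inl ((map_eq_zero_iff _ w.injective).1 h2)
    · refine Or.inr fun h3 => h2 ?_
      rw [ValuationSubring.mem_comap] at h3
      have : w (arithmeticRingAut (modularFunctionFieldFull N) σ x - x)⁻¹ ∈ V.W := h3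
      rwa [map_inv₀] at this

@[simp]
theorem comap_W (V : GalVal N A) (w : FK N ≃ₐ[Qb] FK N)
    (hw : ∀ (σ : Qb ≃ₐ[ℚ] Qb) (x : FK N),
      w (arithmeticRingAut (modularFunctionFieldFull N) σ x) =
        arithmeticRingAut (modularFunctionFieldFull N) σ (w x)) :
    (V.comap w hw).W = V.W.comap ((w : FK N ≃+* FK N) : FK N →+* FK N) := rfl

end GalVal

section Modular

variable (N : ℕ) [NeZero N] (A : ValuationSubring Qb)

/-- **the Gauss valuation `w₁`** as a `G_ℚ`-compatible valuation -/
noncomputable def galVal1 : GalVal N A where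
  W := (redDataBar N A).Rw
  mem_const a := ((redDataBar N A).mem_A_iff a).symm
  unram u hu := Fermat.Agent.GK.Val.Inertia.exists_const_mul_unit N A u hu
  stable σ hσ x hx := Fermat.Agent.GK.Val.Inertia.arith_mem_RwBar N A σ hσ x hx
  inert σ hσ x hx := by
    have hdec := Fermat.Agent.S05.mem_decompositionSubgroup_of_mem_inertiaSubgroupIn hσ
    have hx' := Fermat.Agent.GK.Val.Inertia.arith_mem_RwBar N A σ hdec x hx
    have h1 := Fermat.Agent.GK.Val.Inertia.red_arith_of_inertia N A σ hσ x hx hx'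
    have hsub : arithmeticRingAut (modularFunctionFieldFull N) σ x - x ∈ (redDataBar N A).Rw :=
      sub_mem hx' hx
    have h2 : (redDataBar N A).red
        ⟨arithmeticRingAut (modularFunctionFieldFull N) σ x - x, hsub⟩ = 0 := by
      have e : (⟨arithmeticRingAut (modularFunctionFieldFull N) σ x - x, hsub⟩ :
          (redDataBar N A).Rw) =
          ⟨arithmeticRingAut (modularFunctionFieldFull N) σ x, hx'⟩ - ⟨x, hx⟩ := rfl
      rw [e, map_sub, h1, sub_self]
    have h3 := ((redDataBar N A).red_eq_zero_iff _).1 h2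
    exact ((redDataBar N A).Rw.valuation_lt_one_iff _).1 h3

@[simp] theorem galVal1_W : (galVal1 N A).W = (redDataBar N A).Rw := rfl

variable {q : ℕ} (h : ExactDvd q N)

/-- **the second Gauss valuation `w₂ = w₁ ∘ W_q`** as a `G_ℚ`-compatible valuation -/
noncomputable def galVal2 : GalVal N A :=
  (galVal1 N A).comap (wAut h) (wAut_arithmeticRingAut h)

@[simp] theorem galVal2_W : (galVal2 N A h).W = (redData2 N A h).Rw := rfl

/-- the admissible units of the (SS) package at `A` -/
noncomputable def goodUnitsMod (m : ℕ) : Subgroup (FK N)ˣ :=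
  goodUnits (galVal1 N A) (galVal2 N A h) m

/-- **`hnorm` of `ssPackageOfLam`, unconditionally** for `U := goodUnitsMod N A h m`. -/
theorem hnorm_modular {m : ℕ} (hm : m ≠ 0) (hA : A.LiesOverPrime q) :
    ∀ u ∈ pDivUnits Qb (FK N) m, ∃ c ∈ cstUnits N,
      ∀ σ ∈ A.inertiaSubgroupIn ℚ, galUnits N σ (c * u) / (c * u) ∈ goodUnitsMod N A h m :=
  norm_goodUnits (galVal1 N A) (galVal2 N A h) h.prime hA hm

/-- inertia preserves the admissible units -/
theorem galUnits_mem_goodUnitsMod {m : ℕ} {τ : Qb ≃ₐ[ℚ] Qb} (hτ : τ ∈ A.inertiaSubgroupIn ℚ)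
    {z : (FK N)ˣ} (hz : z ∈ goodUnitsMod N A h m) : galUnits N τ z ∈ goodUnitsMod N A h m :=
  galUnits_mem_goodUnits hτ hz

end Modular

end Fermat.Agent.GK.SS
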