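/-
GATE-K / N10 (SS) ASSEMBLY, bridge N8b → N10-TOP (helper47).

`ssPackageOfLam` : helper44's `SSPackage N m A` (`GK/SS/Gate.lean`) from

* a subgroup `U ≤ F_Nˣ` of admissible units (both Gauss valuations `0`, constant reductions),
* a reduced-lattice package `D : LamData k R1 R2 ι ↥U m` (`GK/Glue/GlueCore.lean`),
* `hnorm` : the normalisation field of `SSPackage` verbatim,
* `hinv` : inertia preserves `U` and the reduced lattices, `Lam (τ z) n = Lam z n`,
* `hclaim2` : **Claim 2** (N9) in consumer form: if the constant pair `(1, 1)` lies in `Lam z n`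
  for some `n ≥ n0`, then `z` is a constant times an `m`-th power.

The invariant is `ξ := U → U ⧸ glueKer D`, `glueKer D = {z | xi z (n0 + n0) = 1}` (trivial glueing
constants), so no unit-valued glueing map has to be built.
Hence `ssGate_of_lam : (∀ A ∣ q, such data) → SSGate N q m`.
-/
import Fermat.Agent.GK.Glue.GlueCore
import Fermat.Agent.GK.SS.Gate

set_option autoImplicit false

namespace Fermat.Agent.GK.SS

open Fermat.Agent.GJ.KumGroup Fermat.Agent.GJ.Kum.KumType Fermat.Agent.GK.Tate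
open Fermat.Agent.GK.Glue ModularCurve

/-- `ℚ̄`. -/
local notation "Qb" => AlgebraicClosure ℚ

section Ker

variable {k : Type*} [Field k] [Infinite k] {R1 R2 : Type*} [CommRing R1] [Algebra k R1]
  [CommRing R2] [Algebra k R2] {ι : Type*} [Fintype ι] [DecidableEq ι]
  {Y : Type*} [CommGroup Y] {m : ℕ} (D : LamData k R1 R2 ι Y m)

/-- the units with trivial glueing constants -/
def glueKer : Subgroup Y where
  carrier := {y | D.xi y (D.n0 + D.n0) = 1}
  one_mem' := D.xi_one _ (Nat.le_add_right _ _)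
  mul_mem' := by
    intro a b ha hb
    have ha' : D.xi a D.n0 = 1 := by
      rw [← D.xi_add a D.n0 D.n0 le_rfl le_rfl]; exact ha
    have hb' : D.xi b D.n0 = 1 := by
      rw [← D.xi_add b D.n0 D.n0 le_rfl le_rfl]; exact hb
    show D.xi (a * b) (D.n0 + D.n0) = 1
    rw [D.xi_mul a b D.n0 D.n0 le_rfl le_rfl, ha', hb', mul_one]
  inv_mem' := by
    intro a ha
    have ha' : D.xi a D.n0 = 1 := by
      rw [← D.xi_add a D.n0 D.n0 le_rfl le_rfl]; exact ha
    have h := D.xi_mul a a⁻¹ D.n0 D.n0 le_rfl le_rfl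
    rw [mul_inv_cancel, D.xi_one _ (Nat.le_add_right _ _), ha', one_mul] at h
    show D.xi a⁻¹ (D.n0 + D.n0) = 1
    rw [D.xi_add a⁻¹ D.n0 D.n0 le_rfl le_rfl]
    exact h.symm

theorem mem_glueKer {y : Y} : y ∈ glueKer D ↔ D.xi y (D.n0 + D.n0) = 1 := Iff.rfl

/-- Galois-invariance of the reduced lattice puts `τz / z` in the kernel -/
theorem div_mem_glueKer {z τz : Y} (h : ∀ n, D.Lam τz n = D.Lam z n) : τz / z ∈ glueKer D := by
  rw [mem_glueKer, div_eq_mul_inv, D.xi_mul τz z⁻¹ D.n0 D.n0 le_rfl le_rfl,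
    D.xi_congr D.n0 le_rfl (h D.n0), ← D.xi_mul z z⁻¹ D.n0 D.n0 le_rfl le_rfl, mul_inv_cancel]
  exact D.xi_one _ (Nat.le_add_right _ _)

/-- trivial glueing constants put the constant pair in the reduced lattice -/
theorem one_mem_Lam_of_mem_glueKer {y : Y} (h : y ∈ glueKer D) :
    ((1 : R1), (1 : R2)) ∈ D.Lam y (D.n0 + D.n0) :=
  D.one_mem_Lam_of_xi y _ (Nat.le_add_right _ _) h

end Ker

section Package

variable {N : ℕ} [NeZero N] {m : ℕ} {A : ValuationSubring Qb}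
variable {k : Type*} [Field k] [Infinite k] {R1 R2 : Type*} [CommRing R1] [Algebra k R1]
  [CommRing R2] [Algebra k R2] {ι : Type*} [Fintype ι] [DecidableEq ι]

/-- **The semistability package from a reduced-lattice package.** -/
noncomputable def ssPackageOfLam (U : Subgroup (FK N)ˣ) (D : LamData k R1 R2 ι ↥U m)
    (hnorm : ∀ u ∈ pDivUnits Qb (FK N) m, ∃ c ∈ cstUnits N,
      ∀ σ ∈ A.inertiaSubgroupIn ℚ, galUnits N σ (c * u) / (c * u) ∈ U)
    (hinv : ∀ τ ∈ A.inertiaSubgroupIn ℚ, ∀ z : U,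
      ∃ hz : galUnits N τ (z : (FK N)ˣ) ∈ U,
        ∀ n, D.Lam ⟨galUnits N τ (z : (FK N)ˣ), hz⟩ n = D.Lam z n)
    (hclaim2 : ∀ z : U, (∃ n, D.n0 ≤ n ∧ ((1 : R1), (1 : R2)) ∈ D.Lam z n) →
      ∃ c ∈ cstUnits N, ∃ w : (FK N)ˣ, (z : (FK N)ˣ) = c * w ^ m) :
    SSPackage N m A where
  U := U
  X := ↥U ⧸ glueKer D
  instX := inferInstance
  ξ := QuotientGroup.mk' (glueKer D)
  norm := hnorm
  inv := by
    intro τ hτ z
    obtain ⟨hz, h⟩ := hinv τ hτ z
    refine ⟨hz, ?_⟩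
    rw [QuotientGroup.mk'_apply, QuotientGroup.mk'_apply, QuotientGroup.eq, inv_mul_eq_div]
    have := div_mem_glueKer D (z := ⟨galUnits N τ (z : (FK N)ˣ), hz⟩) (τz := z)
      (fun n => (h n).symm)
    exact this
  triv := by
    intro z hz
    rw [QuotientGroup.mk'_apply, QuotientGroup.eq_one_iff] at hz
    exact hclaim2 z ⟨D.n0 + D.n0, Nat.le_add_right _ _, one_mem_Lam_of_mem_glueKer D hz⟩

end Package

section Gate

variable {N : ℕ} [NeZero N] {q m : ℕ}

/-- **(SS) gate from reduced-lattice packages at all `A ∣ q`** (universe-monomorphic form: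
all auxiliary types in `Type`). -/
theorem ssGate_of_lam (hm : m ≠ 0)
    (h : ∀ A : ValuationSubring Qb, A.LiesOverPrime q →
      ∃ (k : Type) (_ : Field k) (_ : Infinite k) (R1 R2 : Type) (_ : CommRing R1)
        (_ : Algebra k R1) (_ : CommRing R2) (_ : Algebra k R2) (ι : Type) (_ : Fintype ι)
        (_ : DecidableEq ι) (U : Subgroup (FK N)ˣ) (D : LamData k R1 R2 ι ↥U m),
        (∀ u ∈ pDivUnits Qb (FK N) m, ∃ c ∈ cstUnits N,
          ∀ σ ∈ A.inertiaSubgroupIn ℚ, galUnits N σ (c * u) / (c * u) ∈ U) ∧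
        (∀ τ ∈ A.inertiaSubgroupIn ℚ, ∀ z : U,
          ∃ hz : galUnits N τ (z : (FK N)ˣ) ∈ U,
            ∀ n, D.Lam ⟨galUnits N τ (z : (FK N)ˣ), hz⟩ n = D.Lam z n) ∧
        (∀ z : U, (∃ n, D.n0 ≤ n ∧ ((1 : R1), (1 : R2)) ∈ D.Lam z n) →
          ∃ c ∈ cstUnits N, ∃ w : (FK N)ˣ, (z : (FK N)ˣ) = c * w ^ m)) :
    SSGate N q m := by
  refine ssGate_of_package hm fun A hA => ?_
  obtain ⟨k, _, _, R1, R2, _, _, _, _, ι, _, _, U, D, h1, h2, h3⟩ := h A hA
  exact ⟨ssPackageOfLam U D h1 h2 h3⟩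

end Gate

end Fermat.Agent.GK.SS
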