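/-
GATE-K / (G1) "φ² = q² on K", abstract half, part 2 (helper40).

From the semilinearity of the glueing constants (`GK/Glue/GlueFrob.lean`) and Claim 2 in the
consumer form of helper47's `ssPackageOfLam` (`GK/SS/PackageOfLam.lean`):

* `frob_sq_div_mem_glueKer` : `s² y / y ^ (q²) ∈ glueKer D` for a Frobenius symmetry;
* `frob_sq_eq_of_claim2` : `φ² z = z ^ (q²) · c · w ^ m` for every admissible unit `z`
  (abstract group form);
* `frob_sq_units` : the same for `F_N = ℚ̄(X₀(N))` and `galUnits N φ`;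
* `frob_sq_kum` : `gal φ (gal φ [z]) = q² • [z]` in `Kum_m(F_N)` for admissible `m`-divisible `z`.
-/
import Fermat.Agent.GK.Glue.GlueFrob
import Fermat.Agent.GK.SS.PackageOfLam

set_option autoImplicit false

namespace Fermat.Agent.GK.SS

open Fermat.Agent.GJ.KumGroup Fermat.Agent.GJ.Kum.KumType Fermat.Agent.GK.Tate
open Fermat.Agent.GK.Glue ModularCurve

/-- `ℚ̄`. -/
local notation "Qb" => AlgebraicClosure ℚ

section Abstract

variable {k : Type*} [Field k] [Infinite k] {R1 R2 : Type*} [CommRing R1] [Algebra k R1]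
  [CommRing R2] [Algebra k R2] {ι : Type*} [Fintype ι] [DecidableEq ι]

/-- **(G1), glueing form**: `s² y / y ^ (q²)` has trivial glueing constants. -/
theorem frob_sq_div_mem_glueKer {Y : Type*} [CommGroup Y] {m : ℕ} (D : LamData k R1 R2 ι Y m)
    (T : D.SemiSymm) (q : ℕ) (hq : ∀ c, T.fk c = c ^ q)
    (hπ : ∀ x, T.π (T.π x) = x) (y : Y) :
    T.s (T.s y) / y ^ (q ^ 2) ∈ glueKer D := by
  rw [mem_glueKer]
  exact D.xi_div_eq_one _ (Nat.le_add_right _ _)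
    (D.xi_frob_sq T q hq hπ y _ (Nat.le_add_right _ _))

/-- **(G1), abstract unit form.**  `U ≤ Fx` the admissible units, `act` a Frobenius lift acting on
`Fx`, `T` the induced semilinear symmetry of the package (`fk = (·)^q`, `π² = 1`), Claim 2 in the
consumer form of `ssPackageOfLam`.  Then `φ² z = z ^ (q²) · c · w ^ m` for every `z ∈ U`. -/
theorem frob_sq_eq_of_claim2 {Fx : Type*} [CommGroup Fx] {m : ℕ} (U Cst : Subgroup Fx)
    (D : LamData k R1 R2 ι ↥U m) (act : Fx →* Fx) (T : D.SemiSymm)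
    (hs : ∀ z : U, ((T.s z : U) : Fx) = act (z : Fx))
    (q : ℕ) (hq : ∀ c, T.fk c = c ^ q) (hπ : ∀ x, T.π (T.π x) = x)
    (hclaim2 : ∀ z : U, (∃ n, D.n0 ≤ n ∧ ((1 : R1), (1 : R2)) ∈ D.Lam z n) →
      ∃ c ∈ Cst, ∃ w : Fx, (z : Fx) = c * w ^ m)
    (z : U) : ∃ c ∈ Cst, ∃ w : Fx, act (act (z : Fx)) = (z : Fx) ^ (q ^ 2) * (c * w ^ m) := by
  have hmem := frob_sq_div_mem_glueKer D T q hq hπ z
  obtain ⟨c, hc, w, hw⟩ := hclaim2 _
    ⟨D.n0 + D.n0, Nat.le_add_right _ _, one_mem_Lam_of_mem_glueKer D hmem⟩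
  refine ⟨c, hc, w, ?_⟩
  rw [← hw, Subgroup.coe_div, Subgroup.coe_pow, hs, hs, mul_div_cancel]

end Abstract

section Modular

variable {N : ℕ} [NeZero N] {m : ℕ}
variable {k : Type*} [Field k] [Infinite k] {R1 R2 : Type*} [CommRing R1] [Algebra k R1]
  [CommRing R2] [Algebra k R2] {ι : Type*} [Fintype ι] [DecidableEq ι]

/-- **(G1), unit form for `F_N`**: for a Frobenius lift `φ` whose shadow on the reduced-lattice
package is the semilinear symmetry `T` (`fk = (·)^q`, `π² = 1`), every admissible unit `z` satisfies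
`φ² z = z ^ (q²) · c · w ^ m` with `c` constant. -/
theorem frob_sq_units (U : Subgroup (FK N)ˣ) (D : LamData k R1 R2 ι ↥U m)
    (φ : Qb ≃ₐ[ℚ] Qb) (T : D.SemiSymm)
    (hs : ∀ z : U, ((T.s z : U) : (FK N)ˣ) = galUnits N φ (z : (FK N)ˣ))
    (q : ℕ) (hq : ∀ c, T.fk c = c ^ q) (hπ : ∀ x, T.π (T.π x) = x)
    (hclaim2 : ∀ z : U, (∃ n, D.n0 ≤ n ∧ ((1 : R1), (1 : R2)) ∈ D.Lam z n) →
      ∃ c ∈ cstUnits N, ∃ w : (FK N)ˣ, (z : (FK N)ˣ) = c * w ^ m)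
    (z : U) : ∃ c ∈ cstUnits N, ∃ w : (FK N)ˣ,
      galUnits N φ (galUnits N φ (z : (FK N)ˣ)) = (z : (FK N)ˣ) ^ (q ^ 2) * (c * w ^ m) :=
  frob_sq_eq_of_claim2 U (cstUnits N) D (galUnits N φ) T hs q hq hπ hclaim2 z

/-- **(G1), Kummer form**: `φ² [z] = q² • [z]` in `Kum_m(F_N)` for every admissible `m`-divisible
unit `z`. -/
theorem frob_sq_kum (hm : m ≠ 0) (U : Subgroup (FK N)ˣ) (D : LamData k R1 R2 ι ↥U m)
    (φ : Qb ≃ₐ[ℚ] Qb) (T : D.SemiSymm)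
    (hs : ∀ z : U, ((T.s z : U) : (FK N)ˣ) = galUnits N φ (z : (FK N)ˣ))
    (q : ℕ) (hq : ∀ c, T.fk c = c ^ q) (hπ : ∀ x, T.π (T.π x) = x)
    (hclaim2 : ∀ z : U, (∃ n, D.n0 ≤ n ∧ ((1 : R1), (1 : R2)) ∈ D.Lam z n) →
      ∃ c ∈ cstUnits N, ∃ w : (FK N)ˣ, (z : (FK N)ˣ) = c * w ^ m)
    (z : U) (hz : (z : (FK N)ˣ) ∈ pDivUnits Qb (FK N) m) :
    gal N m φ (gal N m φ (Additive.ofMul (Kum.mk ⟨(z : (FK N)ˣ), hz⟩))) =
      (q ^ 2) • (Additive.ofMul (Kum.mk ⟨(z : (FK N)ˣ), hz⟩) : Additive (Kum Qb (FK N) m)) := by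
  obtain ⟨c, hc, w, hw⟩ := frob_sq_units U D φ T hs q hq hπ hclaim2 z
  obtain ⟨d, hd⟩ := cstUnits_pow hm c hc
  rw [gal_mk, gal_mk, ← ofMul_pow, ← map_pow]
  symm
  refine ofMul_mk_eq_of (d * w) ?_
  show galUnits N φ (galUnits N φ (z : (FK N)ˣ)) = _
  rw [hw, hd, mul_pow]
  rfl

end Modular

end Fermat.Agent.GK.SS
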