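/-
GATE-K / N10-PACKAGE (helper47): joint evaluation at finitely many distinct `k`-points is onto a
large enough step of an exhaustive filtration — the field `surj` of `Glue.LamData` /
`TwoRed.ChartInput` by the Chinese remainder theorem, with NO Riemann–Roch and NO places.
Mathlib only.

* `exists_eval_eq` : characters `e x : C →ₐ[k] k` with pairwise distinct kernels take arbitrary
  prescribed values simultaneously;
* `exists_level_surj` : if `C = ⋃ L n` for a monotone family of `k`-subspaces, the prescribed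
  values are attained inside `L n` for all `n ≥ n0`;
* `exists_level_surj_pair` : the two-component form used by `LamData.surj`.
-/
import Mathlib

set_option autoImplicit false

namespace Fermat.Agent.GK.SS.NodeEval

variable {k C : Type*} [Field k] [CommRing C] [Algebra k C] {ι : Type*} [Fintype ι]

/-- the kernel of a character is a maximal ideal -/
theorem ker_isMaximal (e : C →ₐ[k] k) : (RingHom.ker (e : C →+* k)).IsMaximal := by
  refine RingHom.ker_isMaximal_of_surjective (e : C →+* k) fun r => ⟨algebraMap k C r, ?_⟩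
  show e (algebraMap k C r) = r
  rw [AlgHom.commutes]
  rfl

/-- **CRT for characters.** -/
theorem exists_eval_eq (e : ι → C →ₐ[k] k)
    (hker : ∀ x y, x ≠ y → RingHom.ker (e x : C →+* k) ≠ RingHom.ker (e y : C →+* k))
    (a : ι → k) : ∃ c : C, ∀ x, e x c = a x := by
  have hcop : Pairwise (Function.onFun IsCoprime fun x => RingHom.ker (e x : C →+* k)) := by
    intro x y hxy
    have := ker_isMaximal (e x)
    have := ker_isMaximal (e y)
    exact Ideal.isCoprime_of_isMaximal (hker x y hxy)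
  obtain ⟨r, hr⟩ := Ideal.pi_quotient_surjective hcop
    fun x => Ideal.Quotient.mk _ (algebraMap k C (a x))
  refine ⟨r, fun x => ?_⟩
  have h1 := hr x
  rw [Ideal.Quotient.eq, RingHom.mem_ker, map_sub, sub_eq_zero] at h1
  have h2 : e x r = e x (algebraMap k C (a x)) := h1
  rw [h2, AlgHom.commutes]
  rfl

/-- **joint evaluation is onto a large step of an exhaustive filtration.** -/
theorem exists_level_surj (L : ℕ → Submodule k C) (hmono : ∀ n n', n ≤ n' → L n ≤ L n')
    (hU : ∀ c : C, ∃ n, c ∈ L n) (e : ι → C →ₐ[k] k)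
    (hker : ∀ x y, x ≠ y → RingHom.ker (e x : C →+* k) ≠ RingHom.ker (e y : C →+* k)) :
    ∃ n0, ∀ n, n0 ≤ n → ∀ a : ι → k, ∃ z ∈ L n, ∀ x, e x z = a x := by
  classical
  choose c hc using fun x : ι => exists_eval_eq e hker fun y => if y = x then (1 : k) else 0
  choose N hN using fun x : ι => hU (c x)
  refine ⟨Finset.univ.sup N, fun n hn a => ⟨∑ x, a x • c x, ?_, fun y => ?_⟩⟩
  · refine Submodule.sum_mem _ fun x _ => Submodule.smul_mem _ _ ?_
    exact hmono _ _ (le_trans (Finset.le_sup (Finset.mem_univ x)) hn) (hN x)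
  · rw [map_sum, Finset.sum_eq_single y]
    · rw [map_smul, hc y y, if_pos rfl, smul_eq_mul, mul_one]
    · intro x _ hxy
      rw [map_smul, hc x y, if_neg (Ne.symm hxy), smul_zero]
    · intro h
      exact absurd (Finset.mem_univ y) h

/-- the two-component form: the field `surj` of `Glue.LamData`. -/
theorem exists_level_surj_pair {C' : Type*} [CommRing C'] [Algebra k C']
    (L : ℕ → Submodule k C) (hmono : ∀ n n', n ≤ n' → L n ≤ L n') (hU : ∀ c : C, ∃ n, c ∈ L n)
    (L' : ℕ → Submodule k C') (hmono' : ∀ n n', n ≤ n' → L' n ≤ L' n')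
    (hU' : ∀ c : C', ∃ n, c ∈ L' n)
    (e : ι → C →ₐ[k] k) (e' : ι → C' →ₐ[k] k)
    (hker : ∀ x y, x ≠ y → RingHom.ker (e x : C →+* k) ≠ RingHom.ker (e y : C →+* k))
    (hker' : ∀ x y, x ≠ y → RingHom.ker (e' x : C' →+* k) ≠ RingHom.ker (e' y : C' →+* k)) :
    ∃ n0, ∀ n, n0 ≤ n → ∀ a b : ι → k,
      ∃ z1 ∈ L n, ∃ z2 ∈ L' n, (∀ x, e x z1 = a x) ∧ ∀ x, e' x z2 = b x := by
  obtain ⟨n1, h1⟩ := exists_level_surj L hmono hU e hker
  obtain ⟨n2, h2⟩ := exists_level_surj L' hmono' hU' e' hker'
  refine ⟨max n1 n2, fun n hn a b => ?_⟩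
  obtain ⟨z1, hz1, ha⟩ := h1 n (le_trans (le_max_left _ _) hn) a
  obtain ⟨z2, hz2, hb⟩ := h2 n (le_trans (le_max_right _ _) hn) b
  exact ⟨z1, hz1, z2, hz2, ha, hb⟩

end Fermat.Agent.GK.SS.NodeEval
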