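/-
GATE-K / N10-PACKAGE (helper47): the NODE fields of `TwoRed.ChartInput` (`GK/SS/LamOfChart.lean`)
from helper29's Frobenius glueing (`GK/Nodal/FrobGlue.lean`, `FrobGlueNodes.lean`).

`C` the coordinate ring of (both copies of) the component, `Ψ : C →ₐ[k] C` the Frobenius twist,
`J' ⊇ fixIdeal Ψ` the ideal of the nodes, all nodes `k`-rational (`hk`).  Index type of the nodes:
`ι := ↥(nodes J')`.

* `e1 P = evalAt P` (first branch), `e2 P = evalAt P ∘ Ψ` (second branch) : `C →ₐ[k] k`;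
  `ker_e1`, `ker_e2`, pairwise distinct kernels (`e1_ker_ne`, `e2_ker_ne`: `π = comap Ψ` is
  injective on the nodes);
* `e1_eq_e2_of_mem_gluedAlg` : elements of `gluedAlg Ψ J'` take equal values on the two branches;
* `exists_nS_surj` : **the field `surj`**, in the shape of `ChartInput`, from integrality of `C`
  over `k[s_1]`, `k[s_2]` (Chinese remainder theorem through `NodeEval.exists_level_surj_pair`,
  no Riemann–Roch);
* `glue_one_of_gluedAlg` : **the field `glue_one`**, in the shape of `ChartInput`, from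
  `red2 (Lfib K t n ∩ Rw1 ∩ Rw2) ⊂ gluedAlg Ψ J'` (N6).
-/
import Fermat.Agent.GK.SS.NodeEval
import Fermat.Agent.GK.Nodal.FrobGlueNodes
import Fermat.Agent.GK.Flat.PencilInstS

set_option autoImplicit false

namespace Fermat.Agent.GK.SS.FrobNodes

open Fermat.Agent.GK.FrobGlue Fermat.Agent.GJ.J1

variable {k C : Type*} [Field k] [CommRing C] [Algebra k C] (Ψ : C →ₐ[k] C) (J' : Ideal C)
  (hk : ∀ P ∈ nodes J', Function.Surjective (algebraMap k (C ⧸ P)))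

/-- evaluation at the first branch of the node `P` -/
noncomputable def e1 (P : ↥(nodes J')) : C →ₐ[k] k := evalAt P.1 P.2.1 (hk P.1 P.2)

/-- evaluation at the second branch of the node `P` -/
noncomputable def e2 (P : ↥(nodes J')) : C →ₐ[k] k := evalAtComp Ψ P.1 P.2.1 (hk P.1 P.2)

theorem e1_apply (P : ↥(nodes J')) (c : C) : e1 J' hk P c = evalAt P.1 P.2.1 (hk P.1 P.2) c := rfl

theorem e2_apply (P : ↥(nodes J')) (c : C) :
    e2 Ψ J' hk P c = evalAt P.1 P.2.1 (hk P.1 P.2) (Ψ c) := rfl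

theorem ker_e1 (P : ↥(nodes J')) : RingHom.ker (e1 J' hk P : C →+* k) = P.1 := by
  ext c
  rw [RingHom.mem_ker]
  exact evalAt_eq_zero_iff P.1 P.2.1 (hk P.1 P.2) c

theorem ker_e2 (P : ↥(nodes J')) : RingHom.ker (e2 Ψ J' hk P : C →+* k) = P.1.comap Ψ := by
  ext c
  rw [RingHom.mem_ker, Ideal.mem_comap]
  exact evalAt_eq_zero_iff P.1 P.2.1 (hk P.1 P.2) (Ψ c)

theorem e1_ker_ne (x y : ↥(nodes J')) (hxy : x ≠ y) :
    RingHom.ker (e1 J' hk x : C →+* k) ≠ RingHom.ker (e1 J' hk y : C →+* k) := by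
  rw [ker_e1, ker_e1]
  exact fun h => hxy (Subtype.ext h)

theorem e2_ker_ne (hJ : fixIdeal Ψ ≤ J') (x y : ↥(nodes J')) (hxy : x ≠ y) :
    RingHom.ker (e2 Ψ J' hk x : C →+* k) ≠ RingHom.ker (e2 Ψ J' hk y : C →+* k) := by
  rw [ker_e2, ker_e2]
  exact fun h => hxy (Subtype.ext (comap_injOn_nodes Ψ hJ x.2 y.2 h))

/-- elements of the glueing take equal values on the two branches of every node -/
theorem e1_eq_e2_of_mem_gluedAlg {z : C × C} (hz : z ∈ gluedAlg Ψ J') (P : ↥(nodes J')) :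
    e1 J' hk P z.1 = e2 Ψ J' hk P z.2 := by
  rw [e1_apply, e2_apply, evalAt_eq_iff]
  exact P.2.2 hz

section Surj

variable [IsAlgClosed k] [Fintype ↥(nodes J')]
  {Ft1 Ft2 : Type*} [Field Ft1] [Algebra k Ft1] [Field Ft2] [Algebra k Ft2]
  (i1 : C →ₐ[k] Ft1) (i2 : C →ₐ[k] Ft2)

/-- the filtration of `C` by pole order along `s = ∞` -/
def filt {Ft : Type*} [Field Ft] [Algebra k Ft] (i : C →ₐ[k] Ft) (s : Ft) (n : ℕ) : Submodule k C :=
  (Lfib k s (n : ℤ)).comap i.toLinearMap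

omit [IsAlgClosed k] [Fintype ↥(nodes J')] in
theorem mem_filt {Ft : Type*} [Field Ft] [Algebra k Ft] {i : C →ₐ[k] Ft} {s : Ft} {n : ℕ} {c : C} :
    c ∈ filt i s n ↔ i c ∈ Lfib k s (n : ℤ) := Iff.rfl

/-- **the field `surj` of `ChartInput`** for the nodes of a Frobenius glueing. -/
theorem exists_nS_surj (hJ : fixIdeal Ψ ≤ J') {s1 : Ft1} {s2 : Ft2} (hs1 : s1 ≠ 0) (hs2 : s2 ≠ 0)
    (hint1 : ∀ c : C, RegFin k s1 (i1 c)) (hint2 : ∀ c : C, RegFin k s2 (i2 c)) :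
    ∃ nS : ℕ, ∀ n : ℕ, nS ≤ n → ∀ a b : ↥(nodes J') → k,
      ∃ z1, i1 z1 ∈ Lfib k s1 (n : ℤ) ∧ ∃ z2, i2 z2 ∈ Lfib k s2 (n : ℤ) ∧
        (∀ x, e1 J' hk x z1 = a x) ∧ ∀ x, e2 Ψ J' hk x z2 = b x := by
  obtain ⟨n0, h⟩ := NodeEval.exists_level_surj_pair (filt i1 s1)
    (fun n n' hn c hc => Fermat.Agent.GK.PencilInstS.Lfib_mono s1 hn hc)
    (fun c => by
      obtain ⟨M, hM⟩ := Fermat.Agent.GK.PencilInstS.exists_mem_Lfib_of_regFin hs1 (hint1 c)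
      exact ⟨M, hM M le_rfl⟩)
    (filt i2 s2)
    (fun n n' hn c hc => Fermat.Agent.GK.PencilInstS.Lfib_mono s2 hn hc)
    (fun c => by
      obtain ⟨M, hM⟩ := Fermat.Agent.GK.PencilInstS.exists_mem_Lfib_of_regFin hs2 (hint2 c)
      exact ⟨M, hM M le_rfl⟩)
    (e1 J' hk) (e2 Ψ J' hk) (e1_ker_ne J' hk) (e2_ker_ne Ψ J' hk hJ)
  refine ⟨n0, fun n hn a b => ?_⟩
  obtain ⟨z1, hz1, z2, hz2, ha, hb⟩ := h n hn a b
  exact ⟨z1, hz1, z2, hz2, ha, hb⟩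

end Surj

section GlueOne

variable {K F Ft1 Ft2 : Type*} [Field K] [Field F] [Algebra K F]
  [Field Ft1] [Algebra k Ft1] [Field Ft2] [Algebra k Ft2]
  (R1 : RedData K F k Ft1) (R2 : RedData K F k Ft2) (i1 : C →ₐ[k] Ft1) (i2 : C →ₐ[k] Ft2)

/-- **the field `glue_one` of `ChartInput`** from `red2 (Lfib K t n ∩ Rw1 ∩ Rw2) ⊂ gluedAlg Ψ J'`. -/
theorem glue_one_of_gluedAlg {t : F}
    (hB : ∀ (n : ℕ) x (h1 : x ∈ R1.Rw) (h2 : x ∈ R2.Rw), x ∈ Lfib K t (n : ℤ) →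
      ∀ z1 z2 : C, i1 z1 = R1.red ⟨x, h1⟩ → i2 z2 = R2.red ⟨x, h2⟩ → (z1, z2) ∈ gluedAlg Ψ J') :
    ∀ (n : ℕ) x (h1 : x ∈ R1.Rw) (h2 : x ∈ R2.Rw), x ∈ Lfib K t (n : ℤ) →
      ∀ (j : ↥(nodes J')) (z1 z2 : C), i1 z1 = R1.red ⟨x, h1⟩ → i2 z2 = R2.red ⟨x, h2⟩ →
        e1 J' hk j z1 = e2 Ψ J' hk j z2 :=
  fun n x h1 h2 hx j z1 z2 a b =>
    e1_eq_e2_of_mem_gluedAlg Ψ J' hk (z := (z1, z2)) (hB n x h1 h2 hx z1 z2 a b) j

end GlueOne

end Fermat.Agent.GK.SS.FrobNodes
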