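/-
GATE-K / (G1), node side (helper40): the FROBENIUS INVOLUTION OF THE NODES of helper29's Frobenius
glueing, in the shape consumed by `LamData.SemiSymm` / `TwoRedInput.SymmIn.semiSymm` /
`frob_sq_of_twoRedInput` (`e_j (perm x) (S_j a) = (e_j x a) ^ q`, `perm² = 1`).

Setting of helper47's `GK/SS/ChartOfFrobGlue.lean`: `C` the coordinate ring of the component,
`Ψ : C →ₐ[k] C` the `k`-linear Frobenius, `J' ⊇ fixIdeal Ψ` the ideal of the nodes,
`ι = ↥(nodes J')`, `e1 P = evalAt P`, `e2 P = evalAt P ∘ Ψ`.  Mathlib + these files only.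

* `comap_mem_nodes` : if `Ψ J' ⊆ J'` the nodes are stable under `π P = P.comap Ψ`;
  `map_mem_of_swap` (the glueing is symmetric under the swap of the two branches: Atkin–Lehner)
  and `map_mem_of_symm` (the glueing is stable under `(S', S')`, `Ψ d = (S' d) ^ q`: the INVERSE
  coefficientwise Frobenius, i.e. the Galois symmetry) both give `Ψ J' ⊆ J'`;
* `nodePerm` : the involution `P ↦ P.comap Ψ` of `↥(nodes J')`, `nodePerm_nodePerm`;
* `e1_nodePerm`, `e2_nodePerm` : for ANY map `S : C → C` with `Ψ (S a) = a ^ q` (the coefficientwise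
  Frobenius `τ`: `Ψ (τ a) = a ^ q`), `e_j (nodePerm P) (S a) = (e_j P a) ^ q`.
-/
import Fermat.Agent.GK.SS.ChartOfFrobGlue

set_option autoImplicit false

namespace Fermat.Agent.GK.SS.FrobNodes

open Fermat.Agent.GK.FrobGlue

variable {k C : Type*} [Field k] [CommRing C] [Algebra k C] (Ψ : C →ₐ[k] C) (J' : Ideal C)
  (hk : ∀ P ∈ nodes J', Function.Surjective (algebraMap k (C ⧸ P)))

include hk in
/-- the nodes are stable under `π = comap Ψ` as soon as `Ψ J' ⊆ J'` -/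
theorem comap_mem_nodes (hΨJ : ∀ d ∈ J', Ψ d ∈ J') {P : Ideal C} (hP : P ∈ nodes J') :
    P.comap Ψ ∈ nodes J' :=
  ⟨comap_isMaximal Ψ P hP.1 (hk P hP), fun d hd => hP.2 (hΨJ d hd)⟩

/-- `Ψ J' ⊆ J'` from the symmetry of the glueing under the swap of the two branches -/
theorem map_mem_of_swap (hswap : ∀ z ∈ gluedAlg Ψ J', z.swap ∈ gluedAlg Ψ J') :
    ∀ d ∈ J', Ψ d ∈ J' := by
  intro d hd
  have h1 : ((d, 0) : C × C) ∈ gluedAlg Ψ J' := by
    rw [mk_mem_gluedAlg, map_zero, sub_zero]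
    exact hd
  have h2 := hswap _ h1
  rw [Prod.swap_prod_mk, mk_mem_gluedAlg, zero_sub] at h2
  have := J'.neg_mem h2
  rwa [neg_neg] at this

/-- `Ψ J' ⊆ J'` from the stability of the glueing under `(S', S')` with `Ψ d = (S' d) ^ q`
(`S'` = the inverse coefficientwise Frobenius) -/
theorem map_mem_of_symm {q : ℕ} (hq : q ≠ 0) (S' : C → C) (hS'0 : S' 0 = 0)
    (hΨS' : ∀ d, Ψ d = S' d ^ q)
    (hsym : ∀ z ∈ gluedAlg Ψ J', ((S' z.1, S' z.2) : C × C) ∈ gluedAlg Ψ J') :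
    ∀ d ∈ J', Ψ d ∈ J' := by
  intro d hd
  have h1 : ((d, 0) : C × C) ∈ gluedAlg Ψ J' := by
    rw [mk_mem_gluedAlg, map_zero, sub_zero]
    exact hd
  have h2 := hsym _ h1
  rw [mk_mem_gluedAlg, hS'0, map_zero, sub_zero] at h2
  rw [hΨS']
  exact Ideal.pow_mem_of_mem J' h2 q (Nat.pos_of_ne_zero hq)

/-- **the Frobenius involution of the nodes** `P ↦ π P = P.comap Ψ` -/
noncomputable def nodePerm (hJ : fixIdeal Ψ ≤ J') (hΨJ : ∀ d ∈ J', Ψ d ∈ J') :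
    Equiv.Perm ↥(nodes J') where
  toFun P := ⟨P.1.comap Ψ, comap_mem_nodes Ψ J' hk hΨJ P.2⟩
  invFun P := ⟨P.1.comap Ψ, comap_mem_nodes Ψ J' hk hΨJ P.2⟩
  left_inv P := Subtype.ext (comap_comap_of_fixIdeal_le Ψ (hJ.trans P.2.2))
  right_inv P := Subtype.ext (comap_comap_of_fixIdeal_le Ψ (hJ.trans P.2.2))

variable (hJ : fixIdeal Ψ ≤ J') (hΨJ : ∀ d ∈ J', Ψ d ∈ J')

@[simp] theorem coe_nodePerm (P : ↥(nodes J')) :
    ((nodePerm Ψ J' hk hJ hΨJ P : ↥(nodes J')) : Ideal C) = P.1.comap Ψ := rfl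

/-- `π² = 1` on the nodes -/
theorem nodePerm_nodePerm (P : ↥(nodes J')) :
    nodePerm Ψ J' hk hJ hΨJ (nodePerm Ψ J' hk hJ hΨJ P) = P :=
  Subtype.ext (comap_comap_of_fixIdeal_le Ψ (hJ.trans P.2.2))

/-- the value at `π P` is the value of `Ψ ·` at `P` -/
theorem e1_nodePerm_apply (P : ↥(nodes J')) (c : C) :
    e1 J' hk (nodePerm Ψ J' hk hJ hΨJ P) c = e1 J' hk P (Ψ c) :=
  evalAt_comap Ψ P.1 P.2.1 (hk P.1 P.2) c

/-- **first branch**: `e1 (π P) (S a) = (e1 P a) ^ q` when `Ψ (S a) = a ^ q` -/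
theorem e1_nodePerm {q : ℕ} (S : C → C) (hΨS : ∀ a, Ψ (S a) = a ^ q) (P : ↥(nodes J')) (a : C) :
    e1 J' hk (nodePerm Ψ J' hk hJ hΨJ P) (S a) = e1 J' hk P a ^ q := by
  rw [e1_nodePerm_apply, hΨS, map_pow]

/-- **second branch**: `e2 (π P) (S b) = (e2 P b) ^ q` when `Ψ (S b) = b ^ q` -/
theorem e2_nodePerm {q : ℕ} (S : C → C) (hΨS : ∀ a, Ψ (S a) = a ^ q) (P : ↥(nodes J')) (b : C) :
    e2 Ψ J' hk (nodePerm Ψ J' hk hJ hΨJ P) (S b) = e2 Ψ J' hk P b ^ q := by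
  show e1 J' hk (nodePerm Ψ J' hk hJ hΨJ P) (Ψ (S b)) = e1 J' hk P (Ψ b) ^ q
  rw [hΨS, map_pow, e1_nodePerm_apply]

end Fermat.Agent.GK.SS.FrobNodes
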