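/-
GATE-K / (G1) BRIDGE (helper40): `(φ² − q²)` kills `K = ker r₁ ∩ ker r₂` in Kummer language.

`r₁` = reduction for the Gauss valuation `w₁` of `F_N` at `A`, `r₂ = r₁ ∘ W` (`W` a ring
automorphism of `F_N` fixing the constants, e.g. helper42's `wAut`); helper32's
`kerRed N A m`, `kerRedW N A W m` (`GK/UqKronecker.lean`) are their kernels in unit language.

* `isPrin_iff_valuation`, `isCPrin_iff_mem_sup`, `isCPrin_map_iff_mem_sup` : `IsCPrin` ⟺ membership
  in `constants ⊔ principalUnitGroup` for `Rw` resp. `Rw.comap W`;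
* `exists_rep_of_mem_kerRed_inf` : a class in `kerRed ⊓ kerRedW` has ONE representative `u` with
  `IsCPrin u` and `IsCPrin (W u)` (weak approximation, `GK/MultiVal/PrinRep.lean`);
* `frob_sq_on_kerRed_inf` : with the reduced-lattice package over a group `U` of admissible units
  containing all such `u`, a Frobenius symmetry `T` and Claim 2 (`GK/SS/FrobSq.lean`):
  `gal φ (gal φ x) = q² • x` for every `x ∈ kerRed ⊓ kerRedW`  — the hypothesis (G1)/(H1) of the
  S35 gate.
-/
import Fermat.Agent.GK.UqKronecker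
import Fermat.Agent.GK.SS.FrobSq
import Fermat.Agent.GK.MultiVal.PrinRep

set_option autoImplicit false

namespace Fermat.Agent.GK.SS

open HahnSeries ModularCurve IsLocalRing
open Fermat.Agent.GJ.J1 Fermat.Agent.GJ.J1.Val Fermat.Agent.GJ.Kum Fermat.Agent.GJ.KumGroup
open Fermat.Agent.GJ.Kum.KumType Fermat.Agent.GK.Tate Fermat.Agent.GK.Glue
open Fermat.Agent.GK.UqKronecker Fermat.Agent.GK.MultiVal

/-- `ℚ̄`. -/
local notation "Qb" => AlgebraicClosure ℚ

section Generic

variable {L : Type*} [Field L] {A : ValuationSubring L}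
  {F : IntermediateField L (LaurentSeries L)} (hGF : HasGaussFrac A F)

/-- principal units of the Gauss valuation in valuation language -/
theorem isPrin_iff_valuation {z : F} :
    IsPrin hGF z ↔ (Rw A F hGF).valuation (z - 1) < 1 := by
  constructor
  · rintro ⟨h, h1⟩
    have hm : (⟨z, h⟩ - 1 : Rw A F hGF) ∈ maximalIdeal (Rw A F hGF) := by
      rw [← redL_eq_zero_iff, map_sub, h1, map_one, sub_self]
    have := (ValuationSubring.valuation_lt_one_iff (Rw A F hGF) _).1 hm
    exact this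
  · intro h
    have hz1 : z - 1 ∈ Rw A F hGF :=
      (ValuationSubring.valuation_le_one_iff _ _).1 h.le
    have hz : z ∈ Rw A F hGF := by
      have := (Rw A F hGF).add_mem _ _ hz1 (Rw A F hGF).one_mem
      rwa [sub_add_cancel] at this
    refine ⟨hz, ?_⟩
    have hm : (⟨z - 1, hz1⟩ : Rw A F hGF) ∈ maximalIdeal (Rw A F hGF) :=
      (ValuationSubring.valuation_lt_one_iff (Rw A F hGF) _).2 h
    rw [← redL_eq_zero_iff] at hm
    have e : (⟨z, hz⟩ : Rw A F hGF) = ⟨z - 1, hz1⟩ + 1 := Subtype.ext (by simp)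
    rw [e, map_add, hm, zero_add, map_one]

variable (L F) in
/-- the constants `Lˣ` inside `Fˣ` -/
noncomputable def cstGen : Subgroup Fˣ := (Units.map ((algebraMap L F : L →+* F) : L →* F)).range

theorem mem_cstGen {c : Fˣ} :
    c ∈ cstGen L F ↔ ∃ a : Lˣ, (c : F) = algebraMap L F (a : L) := by
  constructor
  · rintro ⟨a, rfl⟩
    exact ⟨a, rfl⟩
  · rintro ⟨a, ha⟩
    exact ⟨a, Units.ext ha.symm⟩

/-- `IsCPrin` = constant times principal unit, in subgroup language -/
theorem isCPrin_iff_mem_sup (u : Fˣ) :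
    IsCPrin hGF (u : F) ↔ u ∈ cstGen L F ⊔ (Rw A F hGF).principalUnitGroup := by
  constructor
  · rintro ⟨c, hc, hp⟩
    set a : Fˣ := Units.map ((algebraMap L F : L →+* F) : L →* F) (Units.mk0 c hc) with ha
    have hau : ((u / a : Fˣ) : F) = (u : F) / algebraMap L F c := by
      rw [Units.val_div_eq_div_val]; rfl
    refine Subgroup.mem_sup.2 ⟨a, ⟨_, rfl⟩, u / a, ?_, mul_div_cancel _ _⟩
    rw [ValuationSubring.mem_principalUnitGroup_iff, hau]
    exact (isPrin_iff_valuation hGF).1 hp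
  · intro h
    obtain ⟨a, ⟨c, rfl⟩, p, hp, rfl⟩ := Subgroup.mem_sup.1 h
    refine ⟨(c : L), c.ne_zero, ?_⟩
    rw [isPrin_iff_valuation]
    rw [ValuationSubring.mem_principalUnitGroup_iff] at hp
    have e : ((Units.map ((algebraMap L F : L →+* F) : L →* F) c * p : Fˣ) : F) /
        algebraMap L F (c : L) = (p : F) := by
      rw [Units.val_mul]
      show algebraMap L F (c : L) * (p : F) / algebraMap L F (c : L) = (p : F)
      exact mul_div_cancel_left₀ _ ((map_ne_zero _).2 c.ne_zero)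
    rw [e]
    exact hp

end Generic

section Comap

variable {F : Type*} [Field F]

/-- the maximal ideal of a transported valuation subring -/
theorem valuation_comap_lt_one_iff (V : ValuationSubring F) (e : F ≃+* F) (x : F) :
    (V.comap (e : F →+* F)).valuation x < 1 ↔ V.valuation (e x) < 1 := by
  by_cases hx : x = 0
  · subst hx
    simp
  · have hex : e x ≠ 0 := (map_ne_zero_iff _ e.injective).2 hx
    rw [← not_le, ← not_le, Valuation.one_le_val_iff _ hx, Valuation.one_le_val_iff _ hex,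
      ValuationSubring.valuation_le_one_iff, ValuationSubring.valuation_le_one_iff,
      ValuationSubring.mem_comap]
    show ¬ e x⁻¹ ∈ V ↔ _
    rw [map_inv₀]

theorem mem_principalUnitGroup_comap_iff (V : ValuationSubring F) (e : F ≃+* F) (u : Fˣ) :
    u ∈ (V.comap (e : F →+* F)).principalUnitGroup ↔
      Units.map (e : F →* F) u ∈ V.principalUnitGroup := by
  rw [ValuationSubring.mem_principalUnitGroup_iff, ValuationSubring.mem_principalUnitGroup_iff,
    valuation_comap_lt_one_iff]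
  show V.valuation (e ((u : F) - 1)) < 1 ↔ V.valuation (e (u : F) - 1) < 1
  rw [map_sub, map_one]

end Comap

section Generic2

variable {L : Type*} [Field L] {A : ValuationSubring L}
  {F : IntermediateField L (LaurentSeries L)} (hGF : HasGaussFrac A F)

/-- `IsCPrin (W u)` in subgroup language, for `W` fixing the constants -/
theorem isCPrin_map_iff_mem_sup (W : F ≃+* F)
    (hWc : ∀ c : L, W (algebraMap L F c) = algebraMap L F c) (u : Fˣ) :
    IsCPrin hGF (W (u : F)) ↔
      u ∈ cstGen L F ⊔ ((Rw A F hGF).comap (W : F →+* F)).principalUnitGroup := by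
  have h0 := isCPrin_iff_mem_sup hGF (Units.map (W : F →* F) u)
  have e0 : ((Units.map (W : F →* F) u : Fˣ) : F) = W (u : F) := rfl
  rw [e0] at h0
  rw [h0]
  constructor
  · intro h
    obtain ⟨a, ha, p, hp, hap⟩ := Subgroup.mem_sup.1 h
    obtain ⟨c, hc⟩ := (mem_cstGen).1 ha
    -- pull back along W
    set p' : Fˣ := Units.map (W.symm : F →* F) p with hp'
    have hWp' : Units.map (W : F →* F) p' = p := Units.ext (W.apply_symm_apply _)
    refine Subgroup.mem_sup.2 ⟨a, ha, p', ?_, ?_⟩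
    · rw [mem_principalUnitGroup_comap_iff, hWp']
      exact hp
    · apply Units.ext
      apply W.injective
      have h1 : W ((a : F)) = (a : F) := by rw [hc, hWc]
      rw [Units.val_mul, map_mul, h1]
      have h2 : W ((p' : Fˣ) : F) = (p : F) := W.apply_symm_apply _
      rw [h2, ← e0, ← hap, Units.val_mul]
  · intro h
    obtain ⟨a, ha, p, hp, hap⟩ := Subgroup.mem_sup.1 h
    obtain ⟨c, hc⟩ := (mem_cstGen).1 ha
    refine Subgroup.mem_sup.2 ⟨a, ha, Units.map (W : F →* F) p,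
      (mem_principalUnitGroup_comap_iff _ W p).1 hp, ?_⟩
    apply Units.ext
    have h1 : W ((a : F)) = (a : F) := by rw [hc, hWc]
    rw [Units.val_mul, e0, ← hap, Units.val_mul, map_mul, h1]
    rfl

/-- the transported valuation is unramified over the constants -/
theorem exists_cst_div_mem_unitGroup_comap (W : F ≃+* F)
    (hWc : ∀ c : L, W (algebraMap L F c) = algebraMap L F c) (u : Fˣ) :
    ∃ a ∈ cstGen L F, u / a ∈ ((Rw A F hGF).comap (W : F →+* F)).unitGroup := by
  obtain ⟨c, hc, h1, h2⟩ := unramified A F hGF (W (u : F))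
    ((map_ne_zero_iff _ W.injective).2 u.ne_zero)
  set a : Fˣ := Units.map ((algebraMap L F : L →+* F) : L →* F) (Units.mk0 c hc) with ha
  refine ⟨a, ⟨_, rfl⟩, ?_⟩
  have e : W (((u / a : Fˣ) : F)) = W (u : F) / algebraMap L F c := by
    rw [Units.val_div_eq_div_val, map_div₀]
    show W (u : F) / W (algebraMap L F c) = _
    rw [hWc]
  rw [ValuationSubring.mem_unitGroup_iff]
  refine le_antisymm ?_ ?_
  · rw [ValuationSubring.valuation_le_one_iff, ValuationSubring.mem_comap]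
    show W ((u / a : Fˣ) : F) ∈ _
    rw [e]; exact h1
  · have hne : ((u / a : Fˣ) : F) ≠ 0 := (u / a).ne_zero
    rw [Valuation.one_le_val_iff _ hne, ValuationSubring.valuation_le_one_iff,
      ValuationSubring.mem_comap]
    show W (((u / a : Fˣ) : F))⁻¹ ∈ _
    rw [map_inv₀, e]; exact h2

end Generic2

section Modular

variable {N : ℕ} [NeZero N] {A : ValuationSubring Qb} {m : ℕ}

/-- **One representative for both reductions**: a class in `ker r₁ ∩ ker r₂` is the class of a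
unit `u` with `u` and `W u` both constant times a principal unit of `w₁`. -/
theorem exists_rep_of_mem_kerRed_inf (W : FK N ≃+* FK N)
    (hWc : ∀ c : Qb, W (algebraMap Qb (FK N) c) = algebraMap Qb (FK N) c)
    (hinc : Incomparable ![RwBar N A, (RwBar N A).comap (W : FK N →+* FK N)])
    {x : Additive (Kum Qb (FK N) m)} (hx1 : x ∈ kerRed N A m) (hx2 : x ∈ kerRedW N A W m) :
    ∃ u : pDivUnits Qb (FK N) m,
      IsCPrin (hasGaussFrac_bar N A) (((u : (FK N)ˣ) : FK N)) ∧
      IsCPrin (hasGaussFrac_bar N A) (W (((u : (FK N)ˣ) : FK N))) ∧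
      Additive.ofMul (Kum.mk u) = x := by
  obtain ⟨u1, h1, rfl⟩ := mem_kerRed.1 hx1
  obtain ⟨u2, h2, h21⟩ := mem_kerRedW.1 hx2
  have h21' : Kum.mk u2 = Kum.mk u1 := Additive.ofMul.injective h21
  obtain ⟨v, hv⟩ := Kum.mk_eq_mk_iff.1 h21'
  have hu1 := (isCPrin_iff_mem_sup (hasGaussFrac_bar N A) (u1 : (FK N)ˣ)).1 h1
  have hu2 := (isCPrin_map_iff_mem_sup (hasGaussFrac_bar N A) W hWc (u2 : (FK N)ˣ)).1 h2
  obtain ⟨t, ht1, ht2⟩ := exists_common_rep (RwBar N A)
    ((RwBar N A).comap (W : FK N →+* FK N)) hinc (cstGen Qb (modularFunctionFieldBar N))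
    (exists_cst_div_mem_unitGroup_comap (hasGaussFrac_bar N A) W hWc) m hu1 hu2 hv
  have hmem : (u1 : (FK N)ˣ) / t ^ m ∈ pDivUnits Qb (FK N) m :=
    Subgroup.div_mem _ u1.2 (pow_mem_pDivUnits Qb (FK N) m t)
  refine ⟨⟨(u1 : (FK N)ˣ) / t ^ m, hmem⟩,
    (isCPrin_iff_mem_sup (hasGaussFrac_bar N A) _).2 ht1,
    (isCPrin_map_iff_mem_sup (hasGaussFrac_bar N A) W hWc _).2 ht2, ?_⟩
  refine congrArg Additive.ofMul ?_
  symm
  rw [Kum.mk_eq_mk_iff]
  refine ⟨t⁻¹, ?_⟩
  show (u1 : (FK N)ˣ) / t ^ m = (u1 : (FK N)ˣ) * t⁻¹ ^ m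
  rw [inv_pow, div_eq_mul_inv]

variable {k : Type*} [Field k] [Infinite k] {R1 R2 : Type*} [CommRing R1] [Algebra k R1]
  [CommRing R2] [Algebra k R2] {ι : Type*} [Fintype ι] [DecidableEq ι]

/-- **(G1)/(H1) in Kummer language**: `φ² = q²` on `K = ker r₁ ∩ ker r₂`. -/
theorem frob_sq_on_kerRed_inf (hm : m ≠ 0) (W : FK N ≃+* FK N)
    (hWc : ∀ c : Qb, W (algebraMap Qb (FK N) c) = algebraMap Qb (FK N) c)
    (hinc : Incomparable ![RwBar N A, (RwBar N A).comap (W : FK N →+* FK N)])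
    (U : Subgroup (FK N)ˣ)
    (hU : ∀ u : (FK N)ˣ, IsCPrin (hasGaussFrac_bar N A) (u : FK N) →
      IsCPrin (hasGaussFrac_bar N A) (W (u : FK N)) → u ∈ U)
    (D : LamData k R1 R2 ι ↥U m) (φ : Qb ≃ₐ[ℚ] Qb) (T : D.SemiSymm)
    (hs : ∀ z : U, ((T.s z : U) : (FK N)ˣ) = galUnits N φ (z : (FK N)ˣ))
    (q : ℕ) (hq : ∀ c, T.fk c = c ^ q) (hπ : ∀ x, T.π (T.π x) = x)
    (hclaim2 : ∀ z : U, (∃ n, D.n0 ≤ n ∧ ((1 : R1), (1 : R2)) ∈ D.Lam z n) →
      ∃ c ∈ cstUnits N, ∃ w : (FK N)ˣ, (z : (FK N)ˣ) = c * w ^ m)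
    (x : Additive (Kum Qb (FK N) m)) (hx1 : x ∈ kerRed N A m) (hx2 : x ∈ kerRedW N A W m) :
    gal N m φ (gal N m φ x) = (q ^ 2) • x := by
  obtain ⟨u, hu1, hu2, rfl⟩ := exists_rep_of_mem_kerRed_inf W hWc hinc hx1 hx2
  have huU : (u : (FK N)ˣ) ∈ U := hU _ hu1 hu2
  exact frob_sq_kum hm U D φ T hs q hq hπ hclaim2 ⟨(u : (FK N)ˣ), huU⟩ u.2

end Modular

end Fermat.Agent.GK.SS
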