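/-
GATE-K / (G1) BRIDGE, part 2 (helper40): representatives with BOTH reductions equal to `1`,
and (G1) for helper44's `goodUnits`.

`FrobSqKer.lean` produced, for `x ∈ kerRed ⊓ kerRedW`, a representative `u` with `u` and `W u`
constant·principal — but the two constants may have different valuations (`w₁ u ≠ w₂ u`), so `u` is
in general NOT a constant multiple of an element of `goodUnits V1 V2 m` (`GK/SS/GalSide.lean`: both
valuations `0`).  Since the value group of `A ⊂ ℚ̄` over a prime `q` is archimedean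
(`S05/RankOne.lean`) and `ℚ̄ˣ` is divisible, the vertical part is an `m`-th power
(`GK/MultiVal/PrinAdjust.lean`):

* `exists_pow_val_lt` : archimedean property of `A.valuation`;
* `exists_prin_rep_of_mem_kerRed_inf` : every `x ∈ kerRed N A m ⊓ kerRedW N A W m` is the class of
  an `m`-divisible unit `u` with `u ≡ 1 mod 𝔪(w₁)` and `u ≡ 1 mod 𝔪(w₂)`, `w₂ = w₁ ∘ W`;
* `frob_sq_on_kerRed_inf'` : (G1) with the containment hypothesis on `U` reduced to such `u`;
* `mem_goodUnits_of_prin` + `frob_sq_on_kerRed_inf_goodUnits` : (G1) for `U = goodUnits V1 V2 m`.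
-/
import Fermat.Agent.GK.SS.FrobSqKer
import Fermat.Agent.GK.SS.GalSide
import Fermat.Agent.GK.MultiVal.PrinAdjust
import Fermat.Agent.S05.RankOne

set_option autoImplicit false

namespace Fermat.Agent.GK.SS

open HahnSeries ModularCurve IsLocalRing
open Fermat.Agent.GJ.J1 Fermat.Agent.GJ.J1.Val Fermat.Agent.GJ.Kum Fermat.Agent.GJ.KumGroup
open Fermat.Agent.GJ.Kum.KumType Fermat.Agent.GK.Tate Fermat.Agent.GK.Glue
open Fermat.Agent.GK.UqKronecker Fermat.Agent.GK.MultiVal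

/-- `ℚ̄`. -/
local notation "Qb" => AlgebraicClosure ℚ

section RankOne

/-- **archimedean property** of the valuation of a valuation subring of an algebraic extension of
`ℚ` lying over a prime. -/
theorem exists_pow_val_lt {K : Type*} [Field K] [Algebra ℚ K] [Algebra.IsAlgebraic ℚ K]
    (A : ValuationSubring K) {q : ℕ} (hq : q.Prime) (hA : A.LiesOverPrime q) {a b : K}
    (ha : A.valuation a < 1) (hb : b ≠ 0) : ∃ M : ℕ, A.valuation (a ^ M) < A.valuation b := by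
  have hbv : 0 < A.valuation b := zero_lt_iff.2 ((Valuation.ne_zero_iff _).2 hb)
  by_cases ha0 : a = 0
  · exact ⟨1, by rw [ha0, pow_one, map_zero]; exact hbv⟩
  set ν := Fermat.Agent.S05.RankOne.qvalOfSubring A hq hA with hν
  have hpos : 0 < ν.v a :=
    (Fermat.Agent.S05.RankOne.qvalOfSubring_pos_iff A hq hA ha0).2
      ((ValuationSubring.mem_nonunits_iff A).2 ha)
  obtain ⟨M, hM⟩ := exists_nat_gt (ν.v b / ν.v a)
  rw [div_lt_iff₀ hpos] at hM
  refine ⟨M, ?_⟩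
  have haM : a ^ M ≠ 0 := pow_ne_zero _ ha0
  have h1 : ν.v (a ^ M) = M * ν.v a := ν.map_pow ha0 M
  rw [← not_le, ← Fermat.Agent.S05.RankOne.qvalOfSubring_le_iff A hq hA haM hb, not_le, ← hν, h1]
  exact hM

end RankOne

section VS

variable {F : Type*} [Field F]

theorem vs_val_lt_one_iff_inv_notMem (V : ValuationSubring F) {x : F} (hx : x ≠ 0) :
    V.valuation x < 1 ↔ x⁻¹ ∉ V := by
  rw [← not_le, Valuation.one_le_val_iff _ hx, ValuationSubring.valuation_le_one_iff]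

theorem vs_val_eq_one_of_mem (V : ValuationSubring F) {x : F} (hx : x ≠ 0) (h1 : x ∈ V)
    (h2 : x⁻¹ ∈ V) : V.valuation x = 1 := by
  refine le_antisymm ((V.valuation_le_one_iff x).2 h1) ?_
  rw [Valuation.one_le_val_iff _ hx]
  exact (V.valuation_le_one_iff _).2 h2

end VS

section Generic

variable {L : Type*} [Field L] {A : ValuationSubring L}
  {F : IntermediateField L (LaurentSeries L)} (hGF : HasGaussFrac A F)

/-- the Gauss valuation restricted to the constants -/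
theorem val_algebraMap_lt_one_iff {z : L} (hz : z ≠ 0) :
    (Rw A F hGF).valuation (algebraMap L F z) < 1 ↔ A.valuation z < 1 := by
  have hz' : algebraMap L F z ≠ 0 := (map_ne_zero _).2 hz
  rw [vs_val_lt_one_iff_inv_notMem _ hz', vs_val_lt_one_iff_inv_notMem _ hz, ← map_inv₀,
    algebraMap_mem_Rw_iff]

/-- archimedean property of the transported Gauss valuation against the constants -/
theorem exists_pow_val_comap_lt (W : F ≃+* F)
    (hWc : ∀ c : L, W (algebraMap L F c) = algebraMap L F c)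
    (harchA : ∀ a b : L, A.valuation a < 1 → b ≠ 0 → ∃ M : ℕ, A.valuation (a ^ M) < A.valuation b)
    (y : F) (hy : ((Rw A F hGF).comap (W : F →+* F)).valuation y < 1) (c : Fˣ)
    (hc : c ∈ cstGen L F) :
    ∃ M : ℕ, ((Rw A F hGF).comap (W : F →+* F)).valuation (y ^ M) <
      ((Rw A F hGF).comap (W : F →+* F)).valuation ((c : Fˣ) : F) := by
  set V2 := (Rw A F hGF).comap (W : F →+* F) with hV2
  have hcv : 0 < V2.valuation ((c : Fˣ) : F) :=
    zero_lt_iff.2 ((Valuation.ne_zero_iff _).2 c.ne_zero)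
  by_cases hy0 : y = 0
  · exact ⟨1, by rw [hy0, pow_one, map_zero]; exact hcv⟩
  obtain ⟨b, hb⟩ := mem_cstGen.1 hc
  have hx0 : W y ≠ 0 := (map_ne_zero_iff _ W.injective).2 hy0
  obtain ⟨a, ha0, hw1, hw2⟩ := unramified A F hGF (W y) hx0
  have ha0' : algebraMap L F a ≠ 0 := (map_ne_zero _).2 ha0
  set w : F := W y / algebraMap L F a with hw
  have hw0 : w ≠ 0 := div_ne_zero hx0 ha0'
  have hwv : (Rw A F hGF).valuation w = 1 := vs_val_eq_one_of_mem _ hw0 hw1 hw2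
  have hxw : W y = algebraMap L F a * w := by rw [hw, mul_div_cancel₀ _ ha0']
  -- `a` is a nonunit of `A`
  have hya : A.valuation a < 1 := by
    rw [valuation_comap_lt_one_iff, hxw, map_mul, hwv, mul_one] at hy
    exact (val_algebraMap_lt_one_iff hGF ha0).1 hy
  obtain ⟨M, hM⟩ := harchA a (b : L) hya b.ne_zero
  refine ⟨M, ?_⟩
  have hzb : a ^ M / (b : L) ≠ 0 := div_ne_zero (pow_ne_zero _ ha0) b.ne_zero
  have hzv : A.valuation (a ^ M / (b : L)) < 1 := by
    rw [map_div₀, div_lt_one₀ (zero_lt_iff.2 ((Valuation.ne_zero_iff _).2 b.ne_zero))]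
    exact hM
  have h1 := (val_algebraMap_lt_one_iff hGF hzb).2 hzv
  have hq : V2.valuation (y ^ M / ((c : Fˣ) : F)) < 1 := by
    rw [valuation_comap_lt_one_iff, map_div₀, map_pow, hxw, hb, hWc, mul_pow]
    have e : (algebraMap L F a) ^ M * w ^ M / algebraMap L F (b : L)
        = algebraMap L F (a ^ M / (b : L)) * w ^ M := by
      rw [map_div₀, map_pow]; ring
    rw [e, map_mul, map_pow, hwv, one_pow, mul_one]
    exact h1
  rwa [map_div₀, div_lt_one₀ hcv] at hq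

/-- constants lie in `Rw` iff they lie in the transported ring -/
theorem cst_mem_iff_mem_comap (W : F ≃+* F)
    (hWc : ∀ c : L, W (algebraMap L F c) = algebraMap L F c) (c : Fˣ) (hc : c ∈ cstGen L F) :
    ((c : Fˣ) : F) ∈ Rw A F hGF ↔ ((c : Fˣ) : F) ∈ (Rw A F hGF).comap (W : F →+* F) := by
  obtain ⟨b, hb⟩ := mem_cstGen.1 hc
  rw [ValuationSubring.mem_comap]
  show _ ↔ W ((c : Fˣ) : F) ∈ _
  rw [hb, hWc]

end Generic

section Modular

variable {N : ℕ} [NeZero N] {A : ValuationSubring Qb} {m : ℕ}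

/-- the constants of `F_N` are `m`-divisible inside the constants -/
theorem exists_cstGen_pow_eq (hm : m ≠ 0) (c : (FK N)ˣ)
    (hc : c ∈ cstGen Qb (modularFunctionFieldBar N)) :
    ∃ d ∈ cstGen Qb (modularFunctionFieldBar N), d ^ m = c := by
  obtain ⟨a, rfl⟩ := hc
  obtain ⟨b, hb⟩ := IsAlgClosed.exists_pow_nat_eq (a : Qb) (Nat.pos_of_ne_zero hm)
  have hb0 : b ≠ 0 := by
    rintro rfl
    rw [zero_pow hm] at hb
    exact a.ne_zero hb.symm
  refine ⟨_, ⟨Units.mk0 b hb0, rfl⟩, ?_⟩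
  rw [← map_pow]
  congr 1
  exact Units.ext (by simpa using hb)

/-- **Representatives with both reductions `1`**: a class in `ker r₁ ∩ ker r₂` is the class of an
`m`-divisible unit `u ≡ 1` modulo the maximal ideals of both `w₁` and `w₂ = w₁ ∘ W`. -/
theorem exists_prin_rep_of_mem_kerRed_inf {q : ℕ} (hq : q.Prime) (hA : A.LiesOverPrime q)
    (hm : m ≠ 0) (W : FK N ≃+* FK N)
    (hWc : ∀ c : Qb, W (algebraMap Qb (FK N) c) = algebraMap Qb (FK N) c)
    (hinc : Incomparable ![RwBar N A, (RwBar N A).comap (W : FK N →+* FK N)])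
    {x : Additive (Kum Qb (FK N) m)} (hx1 : x ∈ kerRed N A m) (hx2 : x ∈ kerRedW N A W m) :
    ∃ u : pDivUnits Qb (FK N) m,
      (u : (FK N)ˣ) ∈ (RwBar N A).principalUnitGroup ∧
      (u : (FK N)ˣ) ∈ ((RwBar N A).comap (W : FK N →+* FK N)).principalUnitGroup ∧
      Additive.ofMul (Kum.mk u) = x := by
  obtain ⟨u1, h1, rfl⟩ := mem_kerRed.1 hx1
  obtain ⟨u2, h2, h21⟩ := mem_kerRedW.1 hx2
  have h21' : Kum.mk u2 = Kum.mk u1 := Additive.ofMul.injective h21
  obtain ⟨v, hv⟩ := Kum.mk_eq_mk_iff.1 h21'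
  have hu1 := (isCPrin_iff_mem_sup (hasGaussFrac_bar N A) (u1 : (FK N)ˣ)).1 h1
  have hu2 := (isCPrin_map_iff_mem_sup (hasGaussFrac_bar N A) W hWc (u2 : (FK N)ˣ)).1 h2
  obtain ⟨t, c0, hc0, ht1, ht2⟩ := exists_common_prin_rep (RwBar N A)
    ((RwBar N A).comap (W : FK N →+* FK N)) hinc (cstGen Qb (modularFunctionFieldBar N))
    (exists_cst_div_mem_unitGroup_comap (hasGaussFrac_bar N A) W hWc)
    (cst_mem_iff_mem_comap (hasGaussFrac_bar N A) W hWc)
    (exists_pow_val_comap_lt (hasGaussFrac_bar N A) W hWc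
      (fun a b ha hb => exists_pow_val_lt A hq hA ha hb))
    m (exists_cstGen_pow_eq hm) hu1 hu2 hv
  obtain ⟨d, -, hd⟩ := exists_cstGen_pow_eq hm c0 hc0
  have hmem : (u1 : (FK N)ˣ) / (c0 * t ^ m) ∈ pDivUnits Qb (FK N) m := by
    refine Subgroup.div_mem _ u1.2 (Subgroup.mul_mem _ ?_ (pow_mem_pDivUnits Qb (FK N) m t))
    rw [← hd]
    exact pow_mem_pDivUnits Qb (FK N) m d
  refine ⟨⟨(u1 : (FK N)ˣ) / (c0 * t ^ m), hmem⟩, ht1, ht2, ?_⟩
  refine congrArg Additive.ofMul ?_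
  symm
  rw [Kum.mk_eq_mk_iff]
  refine ⟨(d * t)⁻¹, ?_⟩
  show (u1 : (FK N)ˣ) / (c0 * t ^ m) = (u1 : (FK N)ˣ) * (d * t)⁻¹ ^ m
  rw [inv_pow, mul_pow, hd, div_eq_mul_inv]

variable {k : Type*} [Field k] [Infinite k] {R1 R2 : Type*} [CommRing R1] [Algebra k R1]
  [CommRing R2] [Algebra k R2] {ι : Type*} [Fintype ι] [DecidableEq ι]

/-- **(G1)/(H1) in Kummer language**, containment hypothesis on `U` in principal-unit form. -/
theorem frob_sq_on_kerRed_inf' {q' : ℕ} (hq' : q'.Prime) (hA : A.LiesOverPrime q') (hm : m ≠ 0)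
    (W : FK N ≃+* FK N)
    (hWc : ∀ c : Qb, W (algebraMap Qb (FK N) c) = algebraMap Qb (FK N) c)
    (hinc : Incomparable ![RwBar N A, (RwBar N A).comap (W : FK N →+* FK N)])
    (U : Subgroup (FK N)ˣ)
    (hU : ∀ u : (FK N)ˣ, u ∈ pDivUnits Qb (FK N) m → u ∈ (RwBar N A).principalUnitGroup →
      u ∈ ((RwBar N A).comap (W : FK N →+* FK N)).principalUnitGroup → u ∈ U)
    (D : LamData k R1 R2 ι ↥U m) (φ : Qb ≃ₐ[ℚ] Qb) (T : D.SemiSymm)
    (hs : ∀ z : U, ((T.s z : U) : (FK N)ˣ) = galUnits N φ (z : (FK N)ˣ))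
    (q : ℕ) (hq : ∀ c, T.fk c = c ^ q) (hπ : ∀ x, T.π (T.π x) = x)
    (hclaim2 : ∀ z : U, (∃ n, D.n0 ≤ n ∧ ((1 : R1), (1 : R2)) ∈ D.Lam z n) →
      ∃ c ∈ cstUnits N, ∃ w : (FK N)ˣ, (z : (FK N)ˣ) = c * w ^ m)
    (x : Additive (Kum Qb (FK N) m)) (hx1 : x ∈ kerRed N A m) (hx2 : x ∈ kerRedW N A W m) :
    gal N m φ (gal N m φ x) = (q ^ 2) • x := by
  obtain ⟨u, hu1, hu2, rfl⟩ := exists_prin_rep_of_mem_kerRed_inf hq' hA hm W hWc hinc hx1 hx2
  have huU : (u : (FK N)ˣ) ∈ U := hU _ u.2 hu1 hu2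
  exact frob_sq_kum hm U D φ T hs q hq hπ hclaim2 ⟨(u : (FK N)ˣ), huU⟩ u.2

/-- an `m`-divisible unit congruent to `1` for both valuations is a good unit -/
theorem mem_goodUnits_of_prin (V1 V2 : GalVal N A) {u : (FK N)ˣ}
    (hu : u ∈ pDivUnits Qb (FK N) m) (h1 : u ∈ V1.W.principalUnitGroup)
    (h2 : u ∈ V2.W.principalUnitGroup) : u ∈ goodUnits V1 V2 m := by
  rw [ValuationSubring.mem_principalUnitGroup_iff] at h1 h2
  refine mem_goodUnits.2 ⟨hu, ⟨1, map_one _, ?_⟩, ⟨1, map_one _, ?_⟩⟩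
  · rw [map_one]; exact h1
  · rw [map_one]; exact h2

/-- **(G1) for helper44's admissible units** `U = goodUnits V1 V2 m`, `V1.W = RwBar N A`,
`V2.W = (RwBar N A).comap W`. -/
theorem frob_sq_on_kerRed_inf_goodUnits {q' : ℕ} (hq' : q'.Prime) (hA : A.LiesOverPrime q')
    (hm : m ≠ 0) (W : FK N ≃+* FK N)
    (hWc : ∀ c : Qb, W (algebraMap Qb (FK N) c) = algebraMap Qb (FK N) c)
    (V1 V2 : GalVal N A) (hV1 : V1.W = RwBar N A)
    (hV2 : V2.W = (RwBar N A).comap (W : FK N →+* FK N))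
    (hinc : Incomparable ![RwBar N A, (RwBar N A).comap (W : FK N →+* FK N)])
    (D : LamData k R1 R2 ι ↥(goodUnits V1 V2 m) m) (φ : Qb ≃ₐ[ℚ] Qb) (T : D.SemiSymm)
    (hs : ∀ z : goodUnits V1 V2 m,
      ((T.s z : goodUnits V1 V2 m) : (FK N)ˣ) = galUnits N φ (z : (FK N)ˣ))
    (q : ℕ) (hq : ∀ c, T.fk c = c ^ q) (hπ : ∀ x, T.π (T.π x) = x)
    (hclaim2 : ∀ z : goodUnits V1 V2 m,
      (∃ n, D.n0 ≤ n ∧ ((1 : R1), (1 : R2)) ∈ D.Lam z n) →
      ∃ c ∈ cstUnits N, ∃ w : (FK N)ˣ, (z : (FK N)ˣ) = c * w ^ m)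
    (x : Additive (Kum Qb (FK N) m)) (hx1 : x ∈ kerRed N A m) (hx2 : x ∈ kerRedW N A W m) :
    gal N m φ (gal N m φ x) = (q ^ 2) • x :=
  frob_sq_on_kerRed_inf' hq' hA hm W hWc hinc (goodUnits V1 V2 m)
    (fun u hu h1 h2 => mem_goodUnits_of_prin V1 V2 hu (hV1 ▸ h1) (hV2 ▸ h2))
    D φ T hs q hq hπ hclaim2 x hx1 hx2

end Modular

end Fermat.Agent.GK.SS
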