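/-
GATE-K / (G1) at `q ∥ N`, modular instantiation (helper40).

Everything on the valuation side is now a theorem (helper42 `wAut`, `redData2`, incomparability
`SecondValNe`; helper44 `galVal1`, `galVal2`, `goodUnitsMod`; helper32 `kerRed`, `kerRed₂`):

* `incomparable_Rw1_Rw2` : the two Gauss valuations over `q ∥ N` are incomparable;
* `exists_goodUnit_rep` : every class of `ker r₁ ∩ ker r₂ = kerRed N A m ⊓ kerRed₂ h A m` is the
  class of an element of `goodUnitsMod N A h m` with both reductions `1`;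
* `frob_sq_on_kerRed₂_of_lam` : **(G1)** `gal φ (gal φ x) = q² • x` on `kerRed ⊓ kerRed₂` from
  ONE reduced-lattice package `D : LamData … ↥(goodUnitsMod N A h m) m`, a Frobenius semilinear
  symmetry `T` of it and Claim 2 in the consumer form of `ssPackageOfLam`
  (= the shape of helper82's `G1All`, pointwise in `(N, q, m, A, φ)`).
-/
import Fermat.Agent.GK.SS.FrobSqKer2
import Fermat.Agent.GK.SS.GalValInst
import Fermat.Agent.GK.AL.SecondValNe
import Fermat.Agent.GK.UqKroneckerU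

set_option autoImplicit false

namespace Fermat.Agent.GK.SS

open HahnSeries ModularCurve IsLocalRing
open Fermat.Agent.GJ.J1 Fermat.Agent.GJ.J1.Val Fermat.Agent.GJ.Kum Fermat.Agent.GJ.KumGroup
open Fermat.Agent.GJ.Kum.KumType Fermat.Agent.GK.Tate Fermat.Agent.GK.Glue
open Fermat.Agent.GK.UqKronecker Fermat.Agent.GK.MultiVal Fermat.Agent.GK.AL

/-- `ℚ̄`. -/
local notation "Qb" => AlgebraicClosure ℚ

variable {N : ℕ} [NeZero N] {q : ℕ} (h : ExactDvd q N) {A : ValuationSubring Qb} {m : ℕ}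

/-- the two Gauss valuations of `F_N` over `q ∥ N` are incomparable -/
theorem incomparable_Rw1_Rw2 (hA : A.LiesOverPrime q) :
    Incomparable ![RwBar N A, (RwBar N A).comap
      (((wAut h : FK N ≃ₐ[Qb] FK N) : FK N ≃+* FK N) : FK N →+* FK N)] := by
  intro i j hij
  fin_cases i <;> fin_cases j
  · exact absurd rfl hij
  · exact not_Rw1_le_Rw2 N A h hA
  · exact not_Rw2_le_Rw1 N A h hA
  · exact absurd rfl hij

/-- **Good representatives**: every class in `ker r₁ ∩ ker r₂` is the class of a good unit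
(both reductions equal to `1`). -/
theorem exists_goodUnit_rep (hA : A.LiesOverPrime q) (hm : m ≠ 0)
    {x : Additive (Kum Qb (FK N) m)} (hx1 : x ∈ kerRed N A m) (hx2 : x ∈ kerRed₂ h A m) :
    ∃ u : pDivUnits Qb (FK N) m, (u : (FK N)ˣ) ∈ goodUnitsMod N A h m ∧
      (u : (FK N)ˣ) ∈ (RwBar N A).principalUnitGroup ∧
      (u : (FK N)ˣ) ∈ ((RwBar N A).comap
        (((wAut h : FK N ≃ₐ[Qb] FK N) : FK N ≃+* FK N) : FK N →+* FK N)).principalUnitGroup ∧
      Additive.ofMul (Kum.mk u) = x := by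
  obtain ⟨u, hu1, hu2, hux⟩ := exists_prin_rep_of_mem_kerRed_inf h.prime hA hm
    ((wAut h : FK N ≃ₐ[Qb] FK N) : FK N ≃+* FK N) (fun c => (wAut h).commutes c)
    (incomparable_Rw1_Rw2 h hA) hx1 hx2
  exact ⟨u, mem_goodUnits_of_prin (galVal1 N A) (galVal2 N A h) u.2 hu1 hu2, hu1, hu2, hux⟩

variable {k : Type*} [Field k] [Infinite k] {R1 R2 : Type*} [CommRing R1] [Algebra k R1]
  [CommRing R2] [Algebra k R2] {ι : Type*} [Fintype ι] [DecidableEq ι]

/-- **(G1) at `q ∥ N`**: `φ² = q²` on `ker r₁ ∩ ker r₂`, from the reduced-lattice package over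
`goodUnitsMod N A h m`, a Frobenius semilinear symmetry and Claim 2. -/
theorem frob_sq_on_kerRed₂_of_lam (hA : A.LiesOverPrime q) (hm : m ≠ 0)
    (D : LamData k R1 R2 ι ↥(goodUnitsMod N A h m) m) (φ : Qb ≃ₐ[ℚ] Qb) (T : D.SemiSymm)
    (hs : ∀ z : goodUnitsMod N A h m,
      ((T.s z : goodUnitsMod N A h m) : (FK N)ˣ) = galUnits N φ (z : (FK N)ˣ))
    (hq : ∀ c, T.fk c = c ^ q) (hπ : ∀ x, T.π (T.π x) = x)
    (hclaim2 : ∀ z : goodUnitsMod N A h m,
      (∃ n, D.n0 ≤ n ∧ ((1 : R1), (1 : R2)) ∈ D.Lam z n) →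
      ∃ c ∈ cstUnits N, ∃ w : (FK N)ˣ, (z : (FK N)ˣ) = c * w ^ m)
    (x : Additive (Kum Qb (FK N) m)) (hx : x ∈ kerRed N A m ⊓ kerRed₂ h A m) :
    gal N m φ (gal N m φ x) = (q ^ 2) • x := by
  obtain ⟨u, huU, -, -, rfl⟩ := exists_goodUnit_rep h hA hm hx.1 hx.2
  exact frob_sq_kum hm (goodUnitsMod N A h m) D φ T hs q hq hπ hclaim2 ⟨(u : (FK N)ˣ), huU⟩ u.2

end Fermat.Agent.GK.SS
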