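/-
GATE-K / N10-PACKAGE, `LamOfRed` (helper47): the reduced-lattice package `Glue.LamData`
(`GK/Glue/GlueCore.lean`) from a *reduction core*.  Mathlib + `GlueCore` only.

`RedCore K F k R1 R2 Y m` is what the two-valuation reduction theory delivers, in a form that does
not commit to a language for the special fibre (`R1`, `R2` are arbitrary commutative `k`-algebras:
coordinate rings of the two components, subalgebras of the residue fields, ...):

* `A ⊂ K` with residue map `π : A → k` (onto);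
* a subring `S ⊂ F` and two TOTAL maps `ρ1 : F → R1`, `ρ2 : F → R2` which are ring homomorphisms
  on `S`, compatible with `π` on constants (`ρ x = 0` or junk outside `S`: never used);
* the lattices `LA y n ⊂ S` (`= L(D_y + nE) ∩ Rw₁ ∩ Rw₂`, `D_y = div y / m`), closed under `+`,
  `A`-scaling, products `LA y n * LA y' n' ⊂ LA (y y') (n + n')`, and the power trick
  `x ∈ LA y n ⟹ x ^ m * y ∈ LA 1 (m n)`;
* the units `y ∈ Y` lie in `S` with CONSTANT nonzero reductions `c1 y`, `c2 y`.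

`RedCore.Lam y n = {(ρ1 x, ρ2 x) | x ∈ LA y n}` is then a `k`-submodule of `R1 × R2`
(`mem_Lam`, `mk_mem_Lam`), of `k`-dimension `r` as soon as `LA y n` has an `A`-basis of `r`
elements with `k`-independent reductions (`finrank_Lam_of_basis`: the shape of helper39's
`ResFam.exists_rd_indep`).

`RedCore.toLamData` : the remaining inputs are
* the two families `Lt1 n`, `Lt2 n` with evaluations at the nodes, onto for `n ≥ n0` (Riemann–Roch
  on the components),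
* `le`   : `ρ_i (LA y n) ⊂ Lt_i n` (K-RED + the `x ^ e * y` trick),
* `dim`  : `dim Lam y n + #nodes = dim Lt1 n + dim Lt2 n` (`dim_of_numerics`: from the three
  Riemann–Roch counts, `d = d1 + d2` and the node count `#Σ + g1 + g2 = 1 + g`),
* `glue_one` : reductions of `LA 1 n` take EQUAL values on the two branches of every node (N6).
The fields `pow`, `mul`, `one` of `LamData` are derived; `c y = c2 y / c1 y`.
-/
import Fermat.Agent.GK.Glue.GlueCore

set_option autoImplicit false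

namespace Fermat.Agent.GK.SS

open Module Fermat.Agent.GK.Glue

/-- The reduction core (see the file header). -/
structure RedCore (K F k R1 R2 : Type*) [Field K] [Field F] [Algebra K F] [Field k]
    [CommRing R1] [Algebra k R1] [CommRing R2] [Algebra k R2] (Y : Subgroup Fˣ) (m : ℕ) where
  /-- the valuation ring of the base -/
  A : ValuationSubring K
  /-- its residue map -/
  π : A →+* k
  π_surj : Function.Surjective π
  /-- the ring on which the reductions are ring homomorphisms -/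
  S : Subring F
  /-- reduction to the first component -/
  ρ1 : F → R1
  /-- reduction to the second component -/
  ρ2 : F → R2
  A_mem : ∀ a : A, algebraMap K F (a : K) ∈ S
  ρ1_alg : ∀ a : A, ρ1 (algebraMap K F (a : K)) = algebraMap k R1 (π a)
  ρ2_alg : ∀ a : A, ρ2 (algebraMap K F (a : K)) = algebraMap k R2 (π a)
  ρ1_add : ∀ x x', x ∈ S → x' ∈ S → ρ1 (x + x') = ρ1 x + ρ1 x'
  ρ2_add : ∀ x x', x ∈ S → x' ∈ S → ρ2 (x + x') = ρ2 x + ρ2 x'
  ρ1_mul : ∀ x x', x ∈ S → x' ∈ S → ρ1 (x * x') = ρ1 x * ρ1 x'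
  ρ2_mul : ∀ x x', x ∈ S → x' ∈ S → ρ2 (x * x') = ρ2 x * ρ2 x'
  /-- the lattice `L(D_y + nE) ∩ Rw₁ ∩ Rw₂` -/
  LA : Y → ℕ → Set F
  LA_sub : ∀ y n x, x ∈ LA y n → x ∈ S
  LA_zero : ∀ y n, (0 : F) ∈ LA y n
  LA_add : ∀ y n x x', x ∈ LA y n → x' ∈ LA y n → x + x' ∈ LA y n
  LA_smul : ∀ y n (a : A) x, x ∈ LA y n → algebraMap K F (a : K) * x ∈ LA y n
  LA_mul : ∀ y y' n n' x x', x ∈ LA y n → x' ∈ LA y' n' → x * x' ∈ LA (y * y') (n + n')
  LA_pow : ∀ y n x, x ∈ LA y n → x ^ m * ((y : Fˣ) : F) ∈ LA 1 (m * n)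
  /-- the constant reduction of `y` on the first component -/
  c1 : Y → k
  /-- the constant reduction of `y` on the second component -/
  c2 : Y → k
  y_mem : ∀ y : Y, ((y : Fˣ) : F) ∈ S
  ρ1_y : ∀ y : Y, ρ1 ((y : Fˣ) : F) = algebraMap k R1 (c1 y)
  ρ2_y : ∀ y : Y, ρ2 ((y : Fˣ) : F) = algebraMap k R2 (c2 y)
  c1_ne : ∀ y : Y, c1 y ≠ 0

namespace RedCore

variable {K F k R1 R2 : Type*} [Field K] [Field F] [Algebra K F] [Field k]
  [CommRing R1] [Algebra k R1] [CommRing R2] [Algebra k R2] {Y : Subgroup Fˣ} {m : ℕ}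
  (C : RedCore K F k R1 R2 Y m)

theorem ρ1_pow {x : F} (hx : x ∈ C.S) (j : ℕ) : C.ρ1 (x ^ j) = C.ρ1 x ^ j := by
  induction j with
  | zero =>
    have := C.ρ1_alg 1
    simpa using this
  | succ j ih => rw [pow_succ, C.ρ1_mul _ _ (Subring.pow_mem _ hx j) hx, ih, pow_succ]

theorem ρ2_pow {x : F} (hx : x ∈ C.S) (j : ℕ) : C.ρ2 (x ^ j) = C.ρ2 x ^ j := by
  induction j with
  | zero =>
    have := C.ρ2_alg 1
    simpa using this
  | succ j ih => rw [pow_succ, C.ρ2_mul _ _ (Subring.pow_mem _ hx j) hx, ih, pow_succ]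

theorem ρ1_zero : C.ρ1 0 = 0 := by
  have := C.ρ1_alg 0
  simpa using this

theorem ρ2_zero : C.ρ2 0 = 0 := by
  have := C.ρ2_alg 0
  simpa using this

theorem ρ1_smul (a : C.A) {x : F} (hx : x ∈ C.S) :
    C.ρ1 (algebraMap K F (a : K) * x) = C.π a • C.ρ1 x := by
  rw [C.ρ1_mul _ _ (C.A_mem a) hx, C.ρ1_alg, Algebra.smul_def]

theorem ρ2_smul (a : C.A) {x : F} (hx : x ∈ C.S) :
    C.ρ2 (algebraMap K F (a : K) * x) = C.π a • C.ρ2 x := by
  rw [C.ρ2_mul _ _ (C.A_mem a) hx, C.ρ2_alg, Algebra.smul_def]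

/-- **the reduced lattice** `Λ_y(n) = red (L(D_y + nE)_A) ⊂ R1 × R2`. -/
def Lam (y : Y) (n : ℕ) : Submodule k (R1 × R2) where
  carrier := {z | ∃ x ∈ C.LA y n, z = (C.ρ1 x, C.ρ2 x)}
  zero_mem' := ⟨0, C.LA_zero y n, by rw [C.ρ1_zero, C.ρ2_zero]; rfl⟩
  add_mem' := by
    rintro _ _ ⟨x, hx, rfl⟩ ⟨x', hx', rfl⟩
    refine ⟨x + x', C.LA_add y n x x' hx hx', ?_⟩
    rw [C.ρ1_add _ _ (C.LA_sub y n x hx) (C.LA_sub y n x' hx'),
      C.ρ2_add _ _ (C.LA_sub y n x hx) (C.LA_sub y n x' hx')]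
    rfl
  smul_mem' := by
    rintro c _ ⟨x, hx, rfl⟩
    obtain ⟨a, rfl⟩ := C.π_surj c
    refine ⟨algebraMap K F (a : K) * x, C.LA_smul y n a x hx, ?_⟩
    rw [C.ρ1_smul a (C.LA_sub y n x hx), C.ρ2_smul a (C.LA_sub y n x hx)]
    rfl

theorem mem_Lam {y : Y} {n : ℕ} {z : R1 × R2} :
    z ∈ C.Lam y n ↔ ∃ x ∈ C.LA y n, z = (C.ρ1 x, C.ρ2 x) := Iff.rfl

theorem mk_mem_Lam {y : Y} {n : ℕ} {x : F} (hx : x ∈ C.LA y n) :
    (C.ρ1 x, C.ρ2 x) ∈ C.Lam y n := ⟨x, hx, rfl⟩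

/-- reduction of an `A`-linear combination -/
theorem ρ_sum {y : Y} {n : ℕ} {r : ℕ} (e : Fin r → F) (he : ∀ j, e j ∈ C.LA y n)
    (c : Fin r → C.A) :
    (∑ j, algebraMap K F (c j : K) * e j) ∈ C.LA y n ∧
      (C.ρ1 (∑ j, algebraMap K F (c j : K) * e j), C.ρ2 (∑ j, algebraMap K F (c j : K) * e j))
        = ∑ j, C.π (c j) • ((C.ρ1 (e j), C.ρ2 (e j)) : R1 × R2) := by
  classical
  have key : ∀ s : Finset (Fin r),
      (∑ j ∈ s, algebraMap K F (c j : K) * e j) ∈ C.LA y n ∧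
      (C.ρ1 (∑ j ∈ s, algebraMap K F (c j : K) * e j),
        C.ρ2 (∑ j ∈ s, algebraMap K F (c j : K) * e j))
        = ∑ j ∈ s, C.π (c j) • ((C.ρ1 (e j), C.ρ2 (e j)) : R1 × R2) := by
    intro s
    induction s using Finset.induction_on with
    | empty =>
      refine ⟨by simpa using C.LA_zero y n, ?_⟩
      simp only [Finset.sum_empty]
      rw [C.ρ1_zero, C.ρ2_zero]
      rfl
    | insert a s ha ih =>
      obtain ⟨ih1, ih2⟩ := ih
      have h1 : algebraMap K F (c a : K) * e a ∈ C.LA y n := C.LA_smul y n (c a) _ (he a)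
      rw [Finset.sum_insert ha, Finset.sum_insert ha]
      refine ⟨C.LA_add y n _ _ h1 ih1, ?_⟩
      rw [C.ρ1_add _ _ (C.LA_sub y n _ h1) (C.LA_sub y n _ ih1),
        C.ρ2_add _ _ (C.LA_sub y n _ h1) (C.LA_sub y n _ ih1), ← ih2,
        C.ρ1_smul (c a) (C.LA_sub y n _ (he a)), C.ρ2_smul (c a) (C.LA_sub y n _ (he a))]
      rfl
  exact key Finset.univ

/-- **dimension of the reduced lattice** from an `A`-basis with `k`-independent reductions
(the output shape of `ResFam.exists_rd_indep`). -/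
theorem finrank_Lam_of_basis (y : Y) (n : ℕ) {r : ℕ} (e : Fin r → F)
    (he : ∀ j, e j ∈ C.LA y n)
    (hli : LinearIndependent k (fun j => ((C.ρ1 (e j), C.ρ2 (e j)) : R1 × R2)))
    (hgen : ∀ x ∈ C.LA y n, ∃ c : Fin r → C.A, x = ∑ j, algebraMap K F (c j : K) * e j) :
    finrank k (C.Lam y n) = r := by
  have hspan : C.Lam y n
      = Submodule.span k (Set.range fun j => ((C.ρ1 (e j), C.ρ2 (e j)) : R1 × R2)) := by
    refine le_antisymm ?_ ?_
    · rintro _ ⟨x, hx, rfl⟩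
      obtain ⟨c, rfl⟩ := hgen x hx
      rw [(C.ρ_sum e he c).2]
      exact Submodule.sum_mem _ fun j _ =>
        Submodule.smul_mem _ _ (Submodule.subset_span ⟨j, rfl⟩)
    · rw [Submodule.span_le]
      rintro _ ⟨j, rfl⟩
      exact C.mk_mem_Lam (he j)
  rw [hspan, finrank_span_eq_card hli, Fintype.card_fin]

section ToLamData

variable {ι : Type*} [Fintype ι]

/-- **The reduced-lattice package from a reduction core.** -/
def toLamData (e1 : ι → R1 →ₐ[k] k) (e2 : ι → R2 →ₐ[k] k)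
    (Lt1 : ℕ → Submodule k R1) (Lt2 : ℕ → Submodule k R2)
    (fin1 : ∀ n, FiniteDimensional k (Lt1 n)) (fin2 : ∀ n, FiniteDimensional k (Lt2 n))
    (one_mem1 : ∀ n, (1 : R1) ∈ Lt1 n) (one_mem2 : ∀ n, (1 : R2) ∈ Lt2 n) (n0 : ℕ)
    (surj : ∀ n, n0 ≤ n → ∀ a b : ι → k,
      ∃ z1 ∈ Lt1 n, ∃ z2 ∈ Lt2 n, (∀ x, e1 x z1 = a x) ∧ ∀ x, e2 x z2 = b x)
    (le : ∀ y n, ∀ x ∈ C.LA y n, C.ρ1 x ∈ Lt1 n ∧ C.ρ2 x ∈ Lt2 n)
    (dim : ∀ y n, n0 ≤ n →
      finrank k (C.Lam y n) + Fintype.card ι = finrank k (Lt1 n) + finrank k (Lt2 n))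
    (glue_one : ∀ n, ∀ x ∈ C.LA 1 n, ∀ j, e1 j (C.ρ1 x) = e2 j (C.ρ2 x))
    (hm : 0 < m) : LamData k R1 R2 ι ↥Y m where
  e1 := e1
  e2 := e2
  Lt1 := Lt1
  Lt2 := Lt2
  fin1 := fin1
  fin2 := fin2
  one_mem1 := one_mem1
  one_mem2 := one_mem2
  n0 := n0
  surj := surj
  Lam := C.Lam
  c := fun y => C.c2 y / C.c1 y
  le := by
    rintro y n _ ⟨x, hx, rfl⟩
    exact le y n x hx
  dim := dim
  pow := by
    rintro y n _ ⟨x, hx, rfl⟩ j
    have hxS := C.LA_sub y n x hx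
    have hw := C.LA_pow y n x hx
    have h := glue_one (m * n) _ hw j
    rw [C.ρ1_mul _ _ (Subring.pow_mem _ hxS m) (C.y_mem y),
      C.ρ2_mul _ _ (Subring.pow_mem _ hxS m) (C.y_mem y), C.ρ1_pow hxS, C.ρ2_pow hxS,
      C.ρ1_y, C.ρ2_y, map_mul, map_mul, map_pow, map_pow, AlgHom.commutes, AlgHom.commutes]
      at h
    simp only [Algebra.algebraMap_self, RingHom.id_apply] at h
    have h1 := C.c1_ne y
    show e1 j (C.ρ1 x) ^ m = C.c2 y / C.c1 y * e2 j (C.ρ2 x) ^ m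
    rw [div_mul_eq_mul_div, eq_div_iff h1, h, mul_comm]
  mul := by
    rintro y y' n n' _ ⟨x, hx, rfl⟩ _ ⟨x', hx', rfl⟩
    refine ⟨x * x', C.LA_mul y y' n n' x x' hx hx', ?_⟩
    rw [C.ρ1_mul _ _ (C.LA_sub y n x hx) (C.LA_sub y' n' x' hx'),
      C.ρ2_mul _ _ (C.LA_sub y n x hx) (C.LA_sub y' n' x' hx')]
    rfl
  one := by
    rintro n _ ⟨x, hx, rfl⟩ j
    exact glue_one n x hx j
  hm := hm

end ToLamData

/-- **`dim` from the Riemann–Roch numerics**: `dim_K L(D_y + nE) = nd + 1 - g`,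
`dim_k Lt_i(n) = n d_i + 1 - g_i`, `d = d1 + d2`, and the node count `#Σ + g1 + g2 = 1 + g`. -/
theorem dim_of_numerics {a l1 l2 s n d d1 d2 g g1 g2 : ℕ}
    (ha : a + g = n * d + 1) (h1 : l1 + g1 = n * d1 + 1) (h2 : l2 + g2 = n * d2 + 1)
    (hd : d = d1 + d2) (hs : s + g1 + g2 = 1 + g) : a + s = l1 + l2 := by
  subst hd
  rw [Nat.mul_add] at ha
  omega

end RedCore

end Fermat.Agent.GK.SS
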