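/-
GATE-K / (G1), builder side (helper40): the semilinear symmetry `LamData.SemiSymm`
(`GK/Glue/GlueFrob.lean`) of the reduced-lattice package `RedCore.toLamData`
(helper47, `GK/SS/LamOfRed.lean`) from a *symmetry of the reduction core*.

`RedCore.Symm C` : a ring automorphism `g` of `F` (an element of the decomposition group acting on
the function field) with
* `gY`   : `g` preserves the group `Y` of admissible units,
* `ρ1_g`, `ρ2_g` : `ρ_i (g x) = S_i (ρ_i x)` on `S` (the reductions are `g`-semilinear; `S_i` = the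
  coefficientwise action of the induced residue automorphism on the component rings),
* `LA_g` : `g (LA y n) ⊆ LA (g y) n` (`g L(D_y + nE)_A = L(D_{g y} + nE)_A`).

`RedCore.toSemiSymm` : together with a permutation `perm` of the nodes and
`e_i (perm x) (S_i a) = fk (e_i x a)`, this is a `SemiSymm` of `C.toLamData …`, with
`s y = g y`.  For a Frobenius lift (`fk = (·)^q`, `perm² = 1`) feed it to
`frob_sq_units` / `frob_sq_kum` / `frob_sq_on_kerRed_inf`; for an inertia element (`fk = id`,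
`perm = 1`) `LamData.xi_of_trivial` gives the invariance of the glueing constants.
-/
import Fermat.Agent.GK.SS.LamOfRed
import Fermat.Agent.GK.Glue.GlueFrob

set_option autoImplicit false

namespace Fermat.Agent.GK.SS

open Module Fermat.Agent.GK.Glue

namespace RedCore

variable {K F k R1 R2 : Type*} [Field K] [Field F] [Algebra K F] [Field k]
  [CommRing R1] [Algebra k R1] [CommRing R2] [Algebra k R2] {Y : Subgroup Fˣ} {m : ℕ}
  (C : RedCore K F k R1 R2 Y m)

/-- A symmetry of the reduction core (the action of an element of the decomposition group). -/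
structure Symm where
  /-- the automorphism of the function field -/
  g : F ≃+* F
  /-- the induced map on the first component ring -/
  S1 : R1 → R1
  /-- the induced map on the second component ring -/
  S2 : R2 → R2
  gY : ∀ y : Y, Units.map (g : F →* F) (y : Fˣ) ∈ Y
  ρ1_g : ∀ x ∈ C.S, C.ρ1 (g x) = S1 (C.ρ1 x)
  ρ2_g : ∀ x ∈ C.S, C.ρ2 (g x) = S2 (C.ρ2 x)
  LA_g : ∀ (y : Y) (n : ℕ) (x : F), x ∈ C.LA y n → g x ∈ C.LA ⟨_, gY y⟩ n

variable {C}

/-- the action of a symmetry on the admissible units -/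
def Symm.act (Sy : C.Symm) (y : Y) : Y := ⟨_, Sy.gY y⟩

@[simp] theorem Symm.coe_act (Sy : C.Symm) (y : Y) :
    ((Sy.act y : Y) : Fˣ) = Units.map (Sy.g : F →* F) (y : Fˣ) := rfl

/-- a symmetry of the core maps reduced lattices to reduced lattices -/
theorem Symm.map_Lam (Sy : C.Symm) (y : Y) (n : ℕ) {z : R1 × R2} (hz : z ∈ C.Lam y n) :
    (Sy.S1 z.1, Sy.S2 z.2) ∈ C.Lam (Sy.act y) n := by
  obtain ⟨x, hx, rfl⟩ := hz
  refine ⟨Sy.g x, Sy.LA_g y n x hx, ?_⟩
  rw [Sy.ρ1_g x (C.LA_sub y n x hx), Sy.ρ2_g x (C.LA_sub y n x hx)]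

variable {ι : Type*} [Fintype ι]

/-- **The semilinear symmetry of the reduced-lattice package** induced by a symmetry of the
reduction core. -/
def toSemiSymm (e1 : ι → R1 →ₐ[k] k) (e2 : ι → R2 →ₐ[k] k)
    (Lt1 : ℕ → Submodule k R1) (Lt2 : ℕ → Submodule k R2)
    (fin1 : ∀ n, FiniteDimensional k (Lt1 n)) (fin2 : ∀ n, FiniteDimensional k (Lt2 n))
    (one_mem1 : ∀ n, (1 : R1) ∈ Lt1 n) (one_mem2 : ∀ n, (1 : R2) ∈ Lt2 n) (n0 : ℕ)
    (surj : ∀ n, n0 ≤ n → ∀ a b : ι → k,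
      ∃ z1 ∈ Lt1 n, ∃ z2 ∈ Lt2 n, (∀ x, e1 x z1 = a x) ∧ ∀ x, e2 x z2 = b x)
    (le : ∀ y n, ∀ x ∈ C.LA y n, C.ρ1 x ∈ Lt1 n ∧ C.ρ2 x ∈ Lt2 n)
    (dim : ∀ y n, n0 ≤ n →
      finrank k (C.Lam y n) + Fintype.card ι = finrank k (Lt1 n) + finrank k (Lt2 n))
    (glue_one : ∀ n, ∀ x ∈ C.LA 1 n, ∀ j, e1 j (C.ρ1 x) = e2 j (C.ρ2 x))
    (hm : 0 < m) (Sy : C.Symm) (fk : k →+* k) (perm : Equiv.Perm ι)
    (he1 : ∀ x a, e1 (perm x) (Sy.S1 a) = fk (e1 x a))
    (he2 : ∀ x b, e2 (perm x) (Sy.S2 b) = fk (e2 x b)) :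
    (C.toLamData e1 e2 Lt1 Lt2 fin1 fin2 one_mem1 one_mem2 n0 surj le dim glue_one hm).SemiSymm
      where
  fk := fk
  S1 := Sy.S1
  S2 := Sy.S2
  π := perm
  s := Sy.act
  e1_S := he1
  e2_S := he2
  map_Lam := fun y n _ hz => Sy.map_Lam y n hz

end RedCore

end Fermat.Agent.GK.SS
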