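/-
GATE-K / (G1), builder side, layer 2 (helper40): the semilinear symmetry `LamData.SemiSymm`
(`GK/Glue/GlueFrob.lean`) of helper47's two-reduction package `TwoRedInput.lamData`
(`GK/SS/LamOfTwoRed.lean`), from primitive hypotheses on an automorphism `g` of the function field.

`TwoRedInput.SymmIn T` : a ring automorphism `g : F ≃+* F` (an element of the decomposition group)
with
* `gU`  : `g` preserves the admissible units `U`;
* `g1`, `g2` : `g` preserves the two valuation rings `R1.Rw`, `R2.Rw`;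
* `σ1`, `σ2` : maps of the two residue fields with `red_i (g x) = σ_i (red_i x)`;
* `S1`, `S2` : maps of the two coordinate rings with `i_j (S_j r) = σ_j (i_j r)`;
* `gL`  : `g L(D_y + nE) ⊆ L(D_{g y} + nE)`.

`SymmIn.toSymm` : the symmetry `RedCore.Symm` of `T.core`;
`SymmIn.semiSymm` : with a node permutation `perm` and `e_j (perm x) (S_j a) = fk (e_j x a)`, the
`SemiSymm` of `T.lamData`, with `s y = g y` (`semiSymm_s`).
-/
import Fermat.Agent.GK.SS.LamOfTwoRed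
import Fermat.Agent.GK.SS.LamOfRedFrob

set_option autoImplicit false

namespace Fermat.Agent.GK.SS.TwoRed

open Module Fermat.Agent.GJ.J1 Fermat.Agent.GK.MultiVal Fermat.Agent.GK.Glue

variable {K F k Ft1 Ft2 : Type*} [Field K] [Field F] [Algebra K F] [Field k]
  [Field Ft1] [Algebra k Ft1] [Field Ft2] [Algebra k Ft2]
  {C1 C2 : Type*} [CommRing C1] [Algebra k C1] [CommRing C2] [Algebra k C2]

namespace TwoRedInput

variable {R1 : RedData K F k Ft1} {R2 : RedData K F k Ft2}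
  {i1 : C1 →ₐ[k] Ft1} {i2 : C2 →ₐ[k] Ft2} {U : Subgroup Fˣ} {m : ℕ}
  {ι : Type*} [Fintype ι] (T : TwoRedInput R1 R2 i1 i2 U m ι)

/-- The primitive inputs of a symmetry of the two-reduction package (see the file header). -/
structure SymmIn where
  /-- the automorphism of the function field -/
  g : F ≃+* F
  gU : ∀ y : U, Units.map (g : F →* F) (y : Fˣ) ∈ U
  g1 : ∀ x ∈ R1.Rw, g x ∈ R1.Rw
  g2 : ∀ x ∈ R2.Rw, g x ∈ R2.Rw
  /-- the induced map of the first residue field -/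
  σ1 : Ft1 → Ft1
  /-- the induced map of the second residue field -/
  σ2 : Ft2 → Ft2
  red1_g : ∀ x (h : x ∈ R1.Rw), R1.red ⟨g x, g1 x h⟩ = σ1 (R1.red ⟨x, h⟩)
  red2_g : ∀ x (h : x ∈ R2.Rw), R2.red ⟨g x, g2 x h⟩ = σ2 (R2.red ⟨x, h⟩)
  /-- the induced map of the first coordinate ring -/
  S1 : C1 → C1
  /-- the induced map of the second coordinate ring -/
  S2 : C2 → C2
  i1_S : ∀ r, i1 (S1 r) = σ1 (i1 r)
  i2_S : ∀ r, i2 (S2 r) = σ2 (i2 r)
  gL : ∀ (y : U) (n : ℕ) (x : F), x ∈ T.L y n → g x ∈ T.L ⟨_, gU y⟩ n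

variable {T}
variable (hc : RedCompat R1 R2) (hi1 : Function.Injective i1) (hi2 : Function.Injective i2)

/-- the symmetry of the reduction core -/
def SymmIn.toSymm (Sy : T.SymmIn) : (T.core hc hi1 hi2).Symm where
  g := Sy.g
  S1 := Sy.S1
  S2 := Sy.S2
  gY := Sy.gU
  ρ1_g := by
    rintro x ⟨h1, -, hr, -⟩
    show pull i1 (redT R1 (Sy.g x)) = Sy.S1 (pull i1 (redT R1 x))
    refine pull_eq i1 hi1 ?_
    rw [Sy.i1_S, apply_pull i1 hr, redT_of_mem R1 h1, redT_of_mem R1 (Sy.g1 x h1), Sy.red1_g]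
  ρ2_g := by
    rintro x ⟨-, h2, -, hr⟩
    show pull i2 (redT R2 (Sy.g x)) = Sy.S2 (pull i2 (redT R2 x))
    refine pull_eq i2 hi2 ?_
    rw [Sy.i2_S, apply_pull i2 hr, redT_of_mem R2 h2, redT_of_mem R2 (Sy.g2 x h2), Sy.red2_g]
  LA_g := by
    rintro y n x ⟨hL, h1, h2⟩
    exact ⟨Sy.gL y n x hL, Sy.g1 x h1, Sy.g2 x h2⟩

@[simp] theorem SymmIn.toSymm_g (Sy : T.SymmIn) : (Sy.toSymm hc hi1 hi2).g = Sy.g := rfl

variable [Infinite k] [DecidableEq ι]

/-- **The semilinear symmetry of the two-reduction package.** -/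
noncomputable def SymmIn.semiSymm (Sy : T.SymmIn) (ho : HasOrthoBases R1.A (ball2 R1 R2) (rad2 R1 R2))
    (fk : k →+* k) (perm : Equiv.Perm ι)
    (he1 : ∀ x a, T.e1 (perm x) (Sy.S1 a) = fk (T.e1 x a))
    (he2 : ∀ x b, T.e2 (perm x) (Sy.S2 b) = fk (T.e2 x b)) :
    (T.lamData hc hi1 hi2 ho).SemiSymm where
  fk := fk
  S1 := Sy.S1
  S2 := Sy.S2
  π := perm
  s := (Sy.toSymm hc hi1 hi2).act
  e1_S := he1
  e2_S := he2
  map_Lam := fun y n _ hz => (Sy.toSymm hc hi1 hi2).map_Lam y n hz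

section

variable (Sy : T.SymmIn) (ho : HasOrthoBases R1.A (ball2 R1 R2) (rad2 R1 R2))
  (fk : k →+* k) (perm : Equiv.Perm ι)
  (he1 : ∀ x a, T.e1 (perm x) (Sy.S1 a) = fk (T.e1 x a))
  (he2 : ∀ x b, T.e2 (perm x) (Sy.S2 b) = fk (T.e2 x b))

@[simp] theorem SymmIn.semiSymm_fk : (Sy.semiSymm hc hi1 hi2 ho fk perm he1 he2).fk = fk := rfl

@[simp] theorem SymmIn.semiSymm_π : (Sy.semiSymm hc hi1 hi2 ho fk perm he1 he2).π = perm := rfl

/-- the action on the admissible units is `y ↦ g y` -/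
theorem SymmIn.semiSymm_s (y : U) :
    (((Sy.semiSymm hc hi1 hi2 ho fk perm he1 he2).s y : U) : Fˣ) =
      Units.map (Sy.g : F →* F) (y : Fˣ) := rfl

end

end TwoRedInput

end Fermat.Agent.GK.SS.TwoRed
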