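/-
GATE-K / (G1) at `q ∥ N`, builder side, layer 3 (helper40): the DECOMPOSITION-GROUP layer for the
modular two-reduction package.

For `σ ∈ D(A)` (decomposition group of the valuation subring `A` of `ℚ̄`) acting on
`F_N = ℚ̄(X₀(N))` by `galF N σ = arithmeticRingAut … σ`:

* `GalVal.gal_mem_iff`, `GalVal.val_gal_lt_one`, `GalVal.IsCstUnit.gal_dec`,
  `galUnits_mem_goodUnits_dec` : `D(A)` preserves the maximal ideal of every `GalVal`, the units
  with constant reduction, and the admissible units `goodUnits V1 V2 m`;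
* `resFres σ hσ : FresBar N A →+* FresBar N A` : the automorphism of the common residue field of
  `w₁`, `w₂` induced by `σ` (coefficientwise `resk A σ hσ`), with
  `red1_galF`, `red2_galF` : `red_i (σ f) = resFres σ (red_i f)` (helper42 `SecondValGal`);
* `resk_of_frobenius` : for a Frobenius `φ` at `A`, `resk A φ _ c = c ^ q`;
* `modSymmIn` : the `TwoRedInput.SymmIn` of ANY two-reduction package over
  `(redDataBar N A, redData2 N A h, goodUnitsMod N A h m)` attached to `σ ∈ D(A)`, from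
  `S_j` on the coordinate rings (`i_j (S_j r) = resFres σ (i_j r)`) and the generic-fibre input
  `σ L(D_y + nE) ⊆ L(D_{σ y} + nE)`;
* `frob_sq_of_twoRedInput` : **(G1)** `gal φ (gal φ x) = q² • x` on `kerRed ⊓ kerRed₂` for a
  Frobenius `φ` at `A`, from one `TwoRedInput`, the node involution `perm` with
  `e_j (perm x) (S_j a) = (e_j x a) ^ q`, and Claim 2.
-/
import Fermat.Agent.GK.SS.LamOfTwoRedFrob
import Fermat.Agent.GK.SS.FrobSqMod
import Fermat.Agent.GK.AL.SecondValGal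
import Fermat.Agent.GJ.J1.ResidueAlgClosed

set_option autoImplicit false

namespace Fermat.Agent.GK.SS

open HahnSeries ModularCurve IsLocalRing
open Fermat.Agent.GJ.J1 Fermat.Agent.GJ.J1.Val Fermat.Agent.GJ.Kum Fermat.Agent.GJ.KumGroup
open Fermat.Agent.GJ.Kum.KumType Fermat.Agent.GK.Tate Fermat.Agent.GK.Glue
open Fermat.Agent.GK.UqKronecker Fermat.Agent.GK.MultiVal Fermat.Agent.GK.AL
open Fermat.Agent.GK.SS.TwoRed

/-- `ℚ̄`. -/
local notation "Qb" => AlgebraicClosure ℚ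

/-! ### the decomposition group and the admissible units -/

namespace GalVal

variable {N : ℕ} {A : ValuationSubring Qb} (V : GalVal N A)

/-- `D(A)` preserves `W` in both directions -/
theorem gal_mem_iff {σ : Qb ≃ₐ[ℚ] Qb} (hσ : σ ∈ A.decompositionSubgroup ℚ) (x : FK N) :
    arithmeticRingAut (modularFunctionFieldFull N) σ x ∈ V.W ↔ x ∈ V.W := by
  refine ⟨fun hx => ?_, V.stable σ hσ x⟩
  have h1 := V.stable σ⁻¹ (inv_mem hσ) _ hx
  have h2 : arithmeticRingAut (modularFunctionFieldFull N) σ⁻¹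
      (arithmeticRingAut (modularFunctionFieldFull N) σ x) = x :=
    (arithmeticRingAut (modularFunctionFieldFull N) σ).symm_apply_apply x
  rwa [h2] at h1

/-- `D(A)` preserves the maximal ideal of `W` -/
theorem val_gal_lt_one {σ : Qb ≃ₐ[ℚ] Qb} (hσ : σ ∈ A.decompositionSubgroup ℚ) {x : FK N}
    (hx : V.W.valuation x < 1) :
    V.W.valuation (arithmeticRingAut (modularFunctionFieldFull N) σ x) < 1 := by
  rw [vs_val_lt_one_iff] at hx ⊢
  refine ⟨V.stable σ hσ x hx.1, ?_⟩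
  rcases hx.2 with h0 | h0
  · exact Or.inl (by rw [h0, map_zero])
  · refine Or.inr fun h1 => h0 ?_
    rw [← map_inv₀] at h1
    exact (V.gal_mem_iff hσ _).1 h1

variable {V}

/-- **`D(A)` preserves "constant reduction"** (the constant `a` becomes `σ a`) -/
theorem IsCstUnit.gal_dec {σ : Qb ≃ₐ[ℚ] Qb} (hσ : σ ∈ A.decompositionSubgroup ℚ) {y : FK N}
    (h : V.IsCstUnit y) : V.IsCstUnit (arithmeticRingAut (modularFunctionFieldFull N) σ y) := by
  obtain ⟨a, ha, hy⟩ := h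
  obtain ⟨h0, h1, h2⟩ := (vs_val_eq_one_iff A).1 ha
  refine ⟨σ a, (vs_val_eq_one_iff A).2 ⟨?_, ?_, ?_⟩, ?_⟩
  · exact (map_ne_zero_iff _ σ.injective).2 h0
  · exact Fermat.Agent.S05.apply_mem_of_mem_decompositionSubgroup hσ h1
  · rw [← map_inv₀]
    exact Fermat.Agent.S05.apply_mem_of_mem_decompositionSubgroup hσ h2
  · have h3 := V.val_gal_lt_one hσ hy
    rwa [map_sub, arithmeticRingAut_algebraMap] at h3

end GalVal

section Good

variable {N : ℕ} {A : ValuationSubring Qb}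

/-- **the decomposition group preserves the admissible units** -/
theorem galUnits_mem_goodUnits_dec {V1 V2 : GalVal N A} {m : ℕ} {σ : Qb ≃ₐ[ℚ] Qb}
    (hσ : σ ∈ A.decompositionSubgroup ℚ) {z : (FK N)ˣ} (hz : z ∈ goodUnits V1 V2 m) :
    galUnits N σ z ∈ goodUnits V1 V2 m := by
  obtain ⟨h0, h1, h2⟩ := hz
  exact ⟨galUnits_mem N m σ z h0, by rw [coe_galUnits]; exact h1.gal_dec hσ,
    by rw [coe_galUnits]; exact h2.gal_dec hσ⟩

end Good

/-! ### the induced automorphism of the common residue field -/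

section ResFres

variable (N : ℕ) [NeZero N] (A : ValuationSubring Qb)

local notation "𝕜" => ResidueField A

/-- coefficientwise `resk A σ hσ` preserves the residue field `FresBar N A ⊂ 𝕜((q))` -/
theorem coeffMap_resk_mem_FresBar (σ : Qb ≃ₐ[ℚ] Qb) (hσ : σ ∈ A.decompositionSubgroup ℚ)
    (z : FresBar N A) :
    coeffMap (resk A σ hσ) (z : LaurentSeries 𝕜) ∈ FresBar N A := by
  obtain ⟨x, hx⟩ := z.2
  have hx' : galF N σ (x : FK N) ∈ (redDataBar N A).Rw := galF_mem_Rw1 hσ x.2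
  have h1 := coe_red1_galF hσ x.2 hx'
  have h2 : (((redDataBar N A).red ⟨(x : FK N), x.2⟩ : FresBar N A) : LaurentSeries 𝕜) =
      (z : LaurentSeries 𝕜) := hx
  rw [h2] at h1
  rw [← h1]
  exact ((redDataBar N A).red ⟨galF N σ (x : FK N), hx'⟩).2

/-- **the automorphism of the residue field `FresBar N A` of `w₁`, `w₂` induced by `σ ∈ D(A)`** -/
noncomputable def resFres (σ : Qb ≃ₐ[ℚ] Qb) (hσ : σ ∈ A.decompositionSubgroup ℚ) :
    FresBar N A →+* FresBar N A :=
  RingHom.codRestrict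
    ((coeffMap (resk A σ hσ)).comp (algebraMap (FresBar N A) (LaurentSeries 𝕜))) (FresBar N A)
    (coeffMap_resk_mem_FresBar N A σ hσ)

@[simp] theorem coe_resFres (σ : Qb ≃ₐ[ℚ] Qb) (hσ : σ ∈ A.decompositionSubgroup ℚ)
    (z : FresBar N A) :
    ((resFres N A σ hσ z : FresBar N A) : LaurentSeries 𝕜) =
      coeffMap (resk A σ hσ) (z : LaurentSeries 𝕜) := rfl

/-- `resFres` on constants -/
theorem resFres_algebraMap (σ : Qb ≃ₐ[ℚ] Qb) (hσ : σ ∈ A.decompositionSubgroup ℚ) (c : 𝕜) :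
    resFres N A σ hσ (algebraMap 𝕜 (FresBar N A) c) =
      algebraMap 𝕜 (FresBar N A) (resk A σ hσ c) := by
  apply Subtype.ext
  rw [coe_resFres]
  show coeffMap (resk A σ hσ) (algebraMap 𝕜 (LaurentSeries 𝕜) c) =
    algebraMap 𝕜 (LaurentSeries 𝕜) (resk A σ hσ c)
  rw [algebraMap_laurentSeries_eq_single, algebraMap_laurentSeries_eq_single]
  ext n
  rw [coeffMap_coeff]
  by_cases hn : n = 0
  · subst hn
    rw [HahnSeries.coeff_single_same, HahnSeries.coeff_single_same]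
  · rw [HahnSeries.coeff_single_of_ne hn, HahnSeries.coeff_single_of_ne hn, map_zero]

variable {N A}

/-- **`red₁ (σ f) = resFres σ (red₁ f)`** -/
theorem red1_galF {σ : Qb ≃ₐ[ℚ] Qb} (hσ : σ ∈ A.decompositionSubgroup ℚ) {f : FK N}
    (hf : f ∈ (redDataBar N A).Rw) (hf' : galF N σ f ∈ (redDataBar N A).Rw) :
    (redDataBar N A).red ⟨galF N σ f, hf'⟩ = resFres N A σ hσ ((redDataBar N A).red ⟨f, hf⟩) :=
  Subtype.ext (coe_red1_galF hσ hf hf')

variable {q : ℕ} {h : ExactDvd q N}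

/-- **`red₂ (σ f) = resFres σ (red₂ f)`** -/
theorem red2_galF {σ : Qb ≃ₐ[ℚ] Qb} (hσ : σ ∈ A.decompositionSubgroup ℚ) {f : FK N}
    (hf : f ∈ (redData2 N A h).Rw) (hf' : galF N σ f ∈ (redData2 N A h).Rw) :
    (redData2 N A h).red ⟨galF N σ f, hf'⟩ = resFres N A σ hσ ((redData2 N A h).red ⟨f, hf⟩) :=
  Subtype.ext (coe_red2_galF hσ hf hf')

/-- a Frobenius at `A` induces `c ↦ c ^ q` on the residue field -/
theorem resk_of_frobenius {φ : Qb ≃ₐ[ℚ] Qb} (hφ : A.IsFrobeniusAt φ q) (c : 𝕜) :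
    resk A φ hφ.mem_decompositionSubgroup c = c ^ q :=
  hφ.smul_residue_eq c

end ResFres

/-! ### the symmetry of the modular two-reduction package -/

section Package

variable {N : ℕ} [NeZero N] {q : ℕ} {h : ExactDvd q N} {A : ValuationSubring Qb} {m : ℕ}

variable {C1 C2 : Type*} [CommRing C1] [Algebra (ResidueField A) C1] [CommRing C2]
  [Algebra (ResidueField A) C2]
  {i1 : C1 →ₐ[ResidueField A] FresBar N A} {i2 : C2 →ₐ[ResidueField A] FresBar N A}
  {ι : Type*} [Fintype ι]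
  (T : TwoRedInput (redDataBar N A) (redData2 N A h) i1 i2 (goodUnitsMod N A h m) m ι)

/-- **The symmetry inputs attached to `σ ∈ D(A)`**, for ANY two-reduction package over the two
Gauss valuations of `F_N` and the admissible units `goodUnitsMod N A h m`. -/
noncomputable def modSymmIn {σ : Qb ≃ₐ[ℚ] Qb} (hσ : σ ∈ A.decompositionSubgroup ℚ)
    (S1 : C1 → C1) (S2 : C2 → C2)
    (hS1 : ∀ r, i1 (S1 r) = resFres N A σ hσ (i1 r))
    (hS2 : ∀ r, i2 (S2 r) = resFres N A σ hσ (i2 r))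
    (gL : ∀ (y : goodUnitsMod N A h m) (n : ℕ) (x : FK N), x ∈ T.L y n →
      galF N σ x ∈ T.L ⟨galUnits N σ (y : (FK N)ˣ), galUnits_mem_goodUnits_dec hσ y.2⟩ n) :
    T.SymmIn where
  g := galF N σ
  gU := fun y => galUnits_mem_goodUnits_dec hσ y.2
  g1 := fun _ hx => galF_mem_Rw1 hσ hx
  g2 := fun _ hx => galF_mem_Rw2 hσ hx
  σ1 := resFres N A σ hσ
  σ2 := resFres N A σ hσ
  red1_g := fun _ hx => red1_galF hσ hx _
  red2_g := fun _ hx => red2_galF hσ hx _
  S1 := S1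
  S2 := S2
  i1_S := hS1
  i2_S := hS2
  gL := gL

variable [DecidableEq ι]

/-- **(G1) at `q ∥ N` from a two-reduction package**: for a Frobenius `φ` at `A`,
`gal φ (gal φ x) = q² • x` on `kerRed ⊓ kerRed₂ = ker r₁ ∩ ker r₂`. -/
theorem frob_sq_of_twoRedInput (hA : A.LiesOverPrime q) (hm : m ≠ 0)
    (hc : RedCompat (redDataBar N A) (redData2 N A h))
    (hi1 : Function.Injective i1) (hi2 : Function.Injective i2)
    (ho : HasOrthoBases (redDataBar N A).A (ball2 (redDataBar N A) (redData2 N A h))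
      (rad2 (redDataBar N A) (redData2 N A h)))
    {φ : Qb ≃ₐ[ℚ] Qb} (hφ : A.IsFrobeniusAt φ q)
    (S1 : C1 → C1) (S2 : C2 → C2)
    (hS1 : ∀ r, i1 (S1 r) = resFres N A φ hφ.mem_decompositionSubgroup (i1 r))
    (hS2 : ∀ r, i2 (S2 r) = resFres N A φ hφ.mem_decompositionSubgroup (i2 r))
    (gL : ∀ (y : goodUnitsMod N A h m) (n : ℕ) (x : FK N), x ∈ T.L y n →
      galF N φ x ∈ T.L ⟨galUnits N φ (y : (FK N)ˣ),
        galUnits_mem_goodUnits_dec hφ.mem_decompositionSubgroup y.2⟩ n)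
    (perm : Equiv.Perm ι) (hperm : ∀ x, perm (perm x) = x)
    (he1 : ∀ x a, T.e1 (perm x) (S1 a) = T.e1 x a ^ q)
    (he2 : ∀ x b, T.e2 (perm x) (S2 b) = T.e2 x b ^ q)
    (hclaim2 : ∀ z : goodUnitsMod N A h m,
      (∃ n, T.n0 ≤ n ∧ ((1 : C1), (1 : C2)) ∈ (T.lamData hc hi1 hi2 ho).Lam z n) →
      ∃ c ∈ cstUnits N, ∃ w : (FK N)ˣ, (z : (FK N)ˣ) = c * w ^ m)
    (x : Additive (Kum Qb (FK N) m)) (hx : x ∈ kerRed N A m ⊓ kerRed₂ h A m) :
    gal N m φ (gal N m φ x) = (q ^ 2) • x := by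
  have hφd := hφ.mem_decompositionSubgroup
  have hfk : ∀ c, resk A φ hφd c = c ^ q := resk_of_frobenius hφ
  let Sy := modSymmIn T hφd S1 S2 hS1 hS2 gL
  exact frob_sq_on_kerRed₂_of_lam h hA hm (T.lamData hc hi1 hi2 ho) φ
    (Sy.semiSymm hc hi1 hi2 ho (resk A φ hφd) perm
      (fun x a => by rw [hfk]; exact he1 x a) (fun x b => by rw [hfk]; exact he2 x b))
    (fun _ => rfl) hfk hperm hclaim2 x hx

end Package

end Fermat.Agent.GK.SS
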