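/-
GATE-K / N10-GAL (helper44): Galois equivariance of the generic-fibre lattices
`L((1/m) div z + n (t)_∞)`, in the two languages in use:

* lattice language (`GJ/J1/Defs.lean`): `Lz m z t n = {x | x ^ m * z ∈ Lfib K t (m n)}`,
  `mem_Lz_gal` (semilinear automorphisms fixing the chart `t`);
* place language: `ordSet Φ y t = {x | ∀ P, x = 0 ∨ Φ (ord_P x) (ord_P y) (ord_P t)}` for an ARBITRARY
  `Φ : ℤ → ℤ → ℤ → Prop` (helper30's `LDCond`, the Kummer lattices `L(D_y + nE)`, … are of this form),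
  `smul_mem_ordSet_iff` (semilinear automorphisms of the prelude, `SemilinearAut K F`);
* the modular case: `arith_mem_Lz_iff`, `arith_mem_ordSet_iff` for `arithmeticRingAut σ` on `F_N`
  and the chart `t` with rational `q`-expansion (`arithmeticRingAut σ t = t`).
-/
import Fermat.Agent.GK.SS.SemilinReg
import Fermat.Agent.GJ.Kum.GalDiv

set_option autoImplicit false

namespace Fermat.Agent.GK.SS

open Fermat.Agent.GJ.J1 Fermat.Agent.GK.SS.Semilin AlgebraicCurve ModularCurve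

section Lattice

variable {K F : Type*} [Field K] [Field F] [Algebra K F]

/-- `L((1/m) div z + n (t)_∞)` in the lattice language: `x ^ m * z ∈ L(m n (t)_∞)`. -/
def Lz (K : Type*) {F : Type*} [Field K] [Field F] [Algebra K F] (m : ℕ) (z t : F) (n : ℕ) :
    Set F :=
  {x | x ^ m * z ∈ Lfib K t ((m * n : ℕ) : ℤ)}

theorem mem_Lz {m : ℕ} {z t : F} {n : ℕ} {x : F} :
    x ∈ Lz K m z t n ↔ x ^ m * z ∈ Lfib K t ((m * n : ℕ) : ℤ) := Iff.rfl

theorem mem_Lz_gal {φ : F ≃+* F} {φ0 : K ≃+* K} (h : IsSemilin φ φ0) {t : F} (ht : φ t = t)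
    {m : ℕ} {z : F} {n : ℕ} {x : F} : φ x ∈ Lz K m (φ z) t n ↔ x ∈ Lz K m z t n := by
  rw [mem_Lz, mem_Lz, ← map_pow, ← map_mul]
  exact h.mem_Lfib_iff_of_fix ht

end Lattice

section Places

variable {K F : Type*} [Field K] [Field F] [Algebra K F]

/-- a set of functions cut out by conditions on the orders of `x`, `y`, `t` at all places -/
def ordSet (K : Type*) {F : Type*} [Field K] [Field F] [Algebra K F] (Φ : ℤ → ℤ → ℤ → Prop)
    (y t : F) : Set F :=
  {x | ∀ P : Place K F, x = 0 ∨ Φ (P.ord x) (P.ord y) (P.ord t)}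

theorem mem_ordSet {Φ : ℤ → ℤ → ℤ → Prop} {y t x : F} :
    x ∈ ordSet K Φ y t ↔ ∀ P : Place K F, x = 0 ∨ Φ (P.ord x) (P.ord y) (P.ord t) := Iff.rfl

theorem smul_mem_ordSet_iff (g : SemilinearAut K F) {Φ : ℤ → ℤ → ℤ → Prop} {y t x : F}
    (ht : g • t = t) : g • x ∈ ordSet K Φ (g • y) t ↔ x ∈ ordSet K Φ y t := by
  have key : ∀ (P : Place K F), (g • x = 0 ∨ Φ (P.ord (g • x)) (P.ord (g • y)) (P.ord t)) ↔
      (x = 0 ∨ Φ ((g⁻¹ • P).ord x) ((g⁻¹ • P).ord y) ((g⁻¹ • P).ord t)) := by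
    intro P
    have h1 : P.ord t = (g⁻¹ • P).ord t := by
      conv_lhs => rw [← ht]
      exact Fermat.Agent.GJ.Kum.GalDiv.ord_smul_eq g P t
    rw [Fermat.Agent.GJ.Kum.GalDiv.ord_smul_eq g P x, Fermat.Agent.GJ.Kum.GalDiv.ord_smul_eq g P y,
      h1, smul_eq_zero_iff_eq]
  rw [mem_ordSet, mem_ordSet]
  constructor
  · intro H P
    have := (key (g • P)).1 (H (g • P))
    rwa [inv_smul_smul] at this
  · intro H P
    exact (key P).2 (H (g⁻¹ • P))

end Places

section Modular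

variable {L : Type*} [Field L] [Algebra ℚ L] (F₀ : IntermediateField ℚ (LaurentSeries ℚ))

/-- the coefficientwise Galois action is semilinear -/
theorem isSemilin_arith (σ : L ≃ₐ[ℚ] L) :
    IsSemilin (arithmeticRingAut F₀ σ) (σ.toRingEquiv) :=
  fun a => arithmeticRingAut_algebraMap F₀ σ a

theorem arith_mem_Lz_iff (σ : L ≃ₐ[ℚ] L) {t : laurentBaseChange L F₀}
    (ht : arithmeticRingAut F₀ σ t = t) {m : ℕ} {z : laurentBaseChange L F₀} {n : ℕ}
    {x : laurentBaseChange L F₀} :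
    arithmeticRingAut F₀ σ x ∈ Lz L m (arithmeticRingAut F₀ σ z) t n ↔ x ∈ Lz L m z t n :=
  mem_Lz_gal (isSemilin_arith F₀ σ) ht

theorem arith_mem_ordSet_iff (σ : L ≃ₐ[ℚ] L) {t : laurentBaseChange L F₀}
    (ht : arithmeticRingAut F₀ σ t = t) {Φ : ℤ → ℤ → ℤ → Prop} {y x : laurentBaseChange L F₀} :
    arithmeticRingAut F₀ σ x ∈ ordSet L Φ (arithmeticRingAut F₀ σ y) t ↔ x ∈ ordSet L Φ y t :=
  smul_mem_ordSet_iff (arithmeticGalois F₀ σ) ht

end Modular

end Fermat.Agent.GK.SS
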