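/-
GATE-K / (G1) at `q ∥ N`, assembled over the concrete node model (helper40).

* `gL_of_Lz` : the generic-fibre input `σ L(D_y + nE) ⊆ L(D_{σ y} + nE)` of `modSymmIn` /
  `frob_sq_of_twoRedInput` for EVERY `σ ∈ D(A)`, when `T.L y n` is the `Lz` lattice of a chart `t`
  fixed by the Galois action (the `D(A)` version of helper44's `hLgal_of_Lz`; same hypotheses
  `ht`, `hTL` as `ssPackage_twoRed`);
* `frob_sq_of_twoRedInput_Lz` : (G1) with `gL` discharged;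
* `frob_sq_of_frobNodes` : **(G1) for the Frobenius-glueing node model** of helper47's
  `GK/SS/ChartOfFrobGlue.lean` (`C1 = C2 = C`, `ι = ↥(nodes J')`, `e1 = FrobNodes.e1`,
  `e2 = FrobNodes.e2`): the node involution is `FrobNodes.nodePerm` (`P ↦ P.comap Ψ`), and the only
  Frobenius-specific inputs left are ONE semilinear map `S : C → C` with
  `Ψ (S a) = a ^ q` and `i_j (S r) = resFres φ (i_j r)` (the coefficientwise Frobenius,
  `QS.coeffC` / `QS.psiC_coeffC`) and `Ψ J' ⊆ J'`.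
-/
import Fermat.Agent.GK.SS.FrobSymmMod
import Fermat.Agent.GK.SS.FrobNodesSymm
import Fermat.Agent.GK.SS.GalLz

set_option autoImplicit false

namespace Fermat.Agent.GK.SS

open HahnSeries ModularCurve IsLocalRing
open Fermat.Agent.GJ.J1 Fermat.Agent.GJ.J1.Val Fermat.Agent.GJ.Kum Fermat.Agent.GJ.KumGroup
open Fermat.Agent.GJ.Kum.KumType Fermat.Agent.GK.Tate Fermat.Agent.GK.Glue
open Fermat.Agent.GK.UqKronecker Fermat.Agent.GK.MultiVal Fermat.Agent.GK.AL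
open Fermat.Agent.GK.SS.TwoRed Fermat.Agent.GK.FrobGlue

/-- `ℚ̄`. -/
local notation "Qb" => AlgebraicClosure ℚ

variable {N : ℕ} [NeZero N] {q : ℕ} {h : ExactDvd q N} {A : ValuationSubring Qb} {m : ℕ}

section Lz

variable {C1 C2 : Type*} [CommRing C1] [Algebra (ResidueField A) C1] [CommRing C2]
  [Algebra (ResidueField A) C2]
  {i1 : C1 →ₐ[ResidueField A] FresBar N A} {i2 : C2 →ₐ[ResidueField A] FresBar N A}
  {ι : Type*} [Fintype ι]
  (T : TwoRedInput (redDataBar N A) (redData2 N A h) i1 i2 (goodUnitsMod N A h m) m ι)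

/-- **the generic-fibre equivariance for the decomposition group** when `T.L y n` is the `Lz`
lattice of a Galois-fixed chart -/
theorem gL_of_Lz (t : FK N)
    (ht : ∀ τ : Qb ≃ₐ[ℚ] Qb, arithmeticRingAut (modularFunctionFieldFull N) τ t = t)
    (hTL : ∀ (y : goodUnitsMod N A h m) (n : ℕ) (x : FK N),
      x ∈ T.L y n ↔ x ∈ Lz Qb m ((y : (FK N)ˣ) : FK N) t n)
    {σ : Qb ≃ₐ[ℚ] Qb} (hσ : σ ∈ A.decompositionSubgroup ℚ) :
    ∀ (y : goodUnitsMod N A h m) (n : ℕ) (x : FK N), x ∈ T.L y n →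
      galF N σ x ∈ T.L ⟨galUnits N σ (y : (FK N)ˣ), galUnits_mem_goodUnits_dec hσ y.2⟩ n := by
  intro y n x hx
  rw [hTL] at hx ⊢
  exact (arith_mem_Lz_iff (modularFunctionFieldFull N) σ (ht σ)).2 hx

variable [DecidableEq ι]

/-- **(G1) at `q ∥ N`** from a two-reduction package whose generic lattices are the `Lz` lattices
of a Galois-fixed chart. -/
theorem frob_sq_of_twoRedInput_Lz (hA : A.LiesOverPrime q) (hm : m ≠ 0)
    (hc : RedCompat (redDataBar N A) (redData2 N A h))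
    (hi1 : Function.Injective i1) (hi2 : Function.Injective i2)
    (ho : HasOrthoBases (redDataBar N A).A (ball2 (redDataBar N A) (redData2 N A h))
      (rad2 (redDataBar N A) (redData2 N A h)))
    (t : FK N)
    (ht : ∀ τ : Qb ≃ₐ[ℚ] Qb, arithmeticRingAut (modularFunctionFieldFull N) τ t = t)
    (hTL : ∀ (y : goodUnitsMod N A h m) (n : ℕ) (x : FK N),
      x ∈ T.L y n ↔ x ∈ Lz Qb m ((y : (FK N)ˣ) : FK N) t n)
    {φ : Qb ≃ₐ[ℚ] Qb} (hφ : A.IsFrobeniusAt φ q)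
    (S1 : C1 → C1) (S2 : C2 → C2)
    (hS1 : ∀ r, i1 (S1 r) = resFres N A φ hφ.mem_decompositionSubgroup (i1 r))
    (hS2 : ∀ r, i2 (S2 r) = resFres N A φ hφ.mem_decompositionSubgroup (i2 r))
    (perm : Equiv.Perm ι) (hperm : ∀ x, perm (perm x) = x)
    (he1 : ∀ x a, T.e1 (perm x) (S1 a) = T.e1 x a ^ q)
    (he2 : ∀ x b, T.e2 (perm x) (S2 b) = T.e2 x b ^ q)
    (hclaim2 : ∀ z : goodUnitsMod N A h m,
      (∃ n, T.n0 ≤ n ∧ ((1 : C1), (1 : C2)) ∈ (T.lamData hc hi1 hi2 ho).Lam z n) →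
      ∃ c ∈ cstUnits N, ∃ w : (FK N)ˣ, (z : (FK N)ˣ) = c * w ^ m)
    (x : Additive (Kum Qb (FK N) m)) (hx : x ∈ kerRed N A m ⊓ kerRed₂ h A m) :
    gal N m φ (gal N m φ x) = (q ^ 2) • x :=
  frob_sq_of_twoRedInput T hA hm hc hi1 hi2 ho hφ S1 S2 hS1 hS2
    (gL_of_Lz T t ht hTL hφ.mem_decompositionSubgroup) perm hperm he1 he2 hclaim2 x hx

end Lz

section Nodes

variable {C : Type*} [CommRing C] [Algebra (ResidueField A) C]
  {i1 i2 : C →ₐ[ResidueField A] FresBar N A}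
  (Ψ : C →ₐ[ResidueField A] C) (J' : Ideal C)
  (hk : ∀ P ∈ nodes J', Function.Surjective (algebraMap (ResidueField A) (C ⧸ P)))
  [Fintype ↥(nodes J')] [DecidableEq ↥(nodes J')]
  (T : TwoRedInput (redDataBar N A) (redData2 N A h) i1 i2 (goodUnitsMod N A h m) m
    ↥(nodes J'))

/-- **(G1) at `q ∥ N` for the Frobenius-glueing node model.** -/
theorem frob_sq_of_frobNodes (hA : A.LiesOverPrime q) (hm : m ≠ 0)
    (hc : RedCompat (redDataBar N A) (redData2 N A h))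
    (hi1 : Function.Injective i1) (hi2 : Function.Injective i2)
    (ho : HasOrthoBases (redDataBar N A).A (ball2 (redDataBar N A) (redData2 N A h))
      (rad2 (redDataBar N A) (redData2 N A h)))
    (t : FK N)
    (ht : ∀ τ : Qb ≃ₐ[ℚ] Qb, arithmeticRingAut (modularFunctionFieldFull N) τ t = t)
    (hTL : ∀ (y : goodUnitsMod N A h m) (n : ℕ) (x : FK N),
      x ∈ T.L y n ↔ x ∈ Lz Qb m ((y : (FK N)ˣ) : FK N) t n)
    (hTe1 : T.e1 = FrobNodes.e1 J' hk) (hTe2 : T.e2 = FrobNodes.e2 Ψ J' hk)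
    (hJ : fixIdeal Ψ ≤ J') (hΨJ : ∀ d ∈ J', Ψ d ∈ J')
    {φ : Qb ≃ₐ[ℚ] Qb} (hφ : A.IsFrobeniusAt φ q)
    (S : C → C) (hΨS : ∀ a, Ψ (S a) = a ^ q)
    (hS1 : ∀ r, i1 (S r) = resFres N A φ hφ.mem_decompositionSubgroup (i1 r))
    (hS2 : ∀ r, i2 (S r) = resFres N A φ hφ.mem_decompositionSubgroup (i2 r))
    (hclaim2 : ∀ z : goodUnitsMod N A h m,
      (∃ n, T.n0 ≤ n ∧ ((1 : C), (1 : C)) ∈ (T.lamData hc hi1 hi2 ho).Lam z n) →
      ∃ c ∈ cstUnits N, ∃ w : (FK N)ˣ, (z : (FK N)ˣ) = c * w ^ m)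
    (x : Additive (Kum Qb (FK N) m)) (hx : x ∈ kerRed N A m ⊓ kerRed₂ h A m) :
    gal N m φ (gal N m φ x) = (q ^ 2) • x :=
  frob_sq_of_twoRedInput_Lz T hA hm hc hi1 hi2 ho t ht hTL hφ S S hS1 hS2
    (FrobNodes.nodePerm Ψ J' hk hJ hΨJ) (FrobNodes.nodePerm_nodePerm Ψ J' hk hJ hΨJ)
    (fun P a => by rw [hTe1]; exact FrobNodes.e1_nodePerm Ψ J' hk hJ hΨJ S hΨS P a)
    (fun P b => by rw [hTe2]; exact FrobNodes.e2_nodePerm Ψ J' hk hJ hΨJ S hΨS P b)
    hclaim2 x hx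

end Nodes

end Fermat.Agent.GK.SS
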