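/-
GATE-K / N9-INST, generic-fibre side (helper30).

`exists_genSide_of_dvd_LD` : the J1 generic side `Inst.GenSide K F` of a Kummer pair `(a, b, m)`
(`GJ/J1/InstGenSide.lean`, frozen) with the space `G.LD b' = L(D + b' E₂)` EXPORTED in ord-form
(`D = (1/m) div (a/b)`, `E₂ = (t - t2)_0`).  In J1 `red_LD` was derived from `red_L`; with two
valuations (nodal special fibre) `red_LD` needs the glueing argument on `L(D + b' E₂)` itself, so
consumers need to know what `G.LD` is.

`mul_mem_LD_of_pow_mul` : the bookkeeping of the "move to the cusps" step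
`γ := β ^ m * y` : `x ∈ LD_γ b' ⟹ x * β ∈ LD_y b'`.
-/
import Fermat.Agent.GJ.J1.InstGenSide

set_option autoImplicit false

noncomputable section

open AlgebraicCurve IntermediateField

namespace Fermat.Agent.GK.SS.GenSideLD

open Fermat.Agent.RRh45 Fermat.Agent.RR.Bound Fermat.Agent.GJ.FF.PrincipalOf
open Fermat.Agent.GJ.J1 Fermat.Agent.GJ.J1.InstGen Fermat.Agent.S24

variable {K F : Type*} [Field K] [Field F] [Algebra K F]
variable [IsAlgClosed K] (x₀ : F) [IsGen K x₀]

/-- ord-form of the condition `x ∈ L((1/m) div (a/b) + b' (t - t2)_0)`. -/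
def LDCond (t : F) (m : ℕ) (a b : F) (t2 : K) (b' : ℕ) (x : F) : Prop :=
  ∀ P : Place K F, x = 0 ∨
    0 ≤ (m : ℤ) * P.ord x + (P.ord a - P.ord b) +
      (m : ℤ) * ((b' : ℤ) * max (P.ord (t - algebraMap K F t2)) 0)

/-- **The generic-fibre side of the Kummer core with `LD` exported.** -/
theorem exists_genSide_of_dvd_LD {t : F} (ht : Transcendental K t) {m : ℕ} (hm : m ≠ 0) {a b : F}
    (ha : a ≠ 0) (hb : b ≠ 0) (hdvd : ∀ P : Place K F, (m : ℤ) ∣ P.ord a - P.ord b)
    (T : Finset K)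
    (hT : ∀ P : Place K F, P.ord a - P.ord b ≠ 0 → 0 ≤ P.ord t →
      ∃ s ∈ T, 0 < P.ord (t - algebraMap K F s))
    (t2 : K) (ht2 : t2 ∉ T) :
    ∃ G : Inst.GenSide K F, G.m = m ∧ G.u = a / b ∧
      G.d1 = (T.card + 1) * Module.finrank K⟮t⟯ F ∧ G.d2 = Module.finrank K⟮t⟯ F ∧
      (G.g : ℤ) = @genusRR K F _ _ _ (Fermat.Agent.GJ.FF.finiteResidues x₀)
        (hasPrincipalDivisors_gen x₀) (Fermat.Agent.GJ.FF.nonempty_place x₀) ∧
      (∀ a' b' : ℕ, G.L a' b' = Lspace K t (weight T t2 a' b') (a' : ℤ)) ∧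
      (∀ (b' : ℕ) (x : F), x ∈ G.LD b' ↔ LDCond t m a b t2 b' x) ∧
      ∀ (a' b' : ℕ) (x : F), x ≠ 0 → x ∈ G.L a' 0 → x ∈ G.LD b' →
        ∀ P : Place K F, 0 ≤ (m : ℤ) * P.ord x + (P.ord a - P.ord b) := by
  have : FiniteResidues K F := Fermat.Agent.GJ.FF.finiteResidues x₀
  have : HasPrincipalDivisors K F := hasPrincipalDivisors_gen x₀
  have : Nonempty (Place K F) := Fermat.Agent.GJ.FF.nonempty_place x₀
  have H : Hyp K F := hyp_of_isGen x₀
  have hu0 : a / b ≠ 0 := div_ne_zero ha hb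
  have hdvd' : ∀ P : Place K F, (m : ℤ) ∣ P.ord (a / b) := fun P => by
    rw [ord_div ha hb]; exact hdvd P
  set D : Divisor K F := kummerDivisor H (a / b) m with hDdef
  have hdiv : ∀ v : Place K F, v.ord (a / b) = m * D v := ord_eq_mul_kummerDivisor H hdvd'
  have hdeg : Divisor.degree D = 0 := degree_kummerDivisor H hu0 hm hdvd'
  have hD : ∀ v : Place K F, D v ≠ 0 →
      (∃ s ∈ T, 0 < v.ord (t - algebraMap K F s)) ∨ (0 < 1 ∧ v.ord t < 0) := by
    intro v hv
    by_cases hvt : 0 ≤ v.ord t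
    · left
      refine hT v ?_ hvt
      rw [← ord_div ha hb, hdiv v]
      have hm' : (m : ℤ) ≠ 0 := by exact_mod_cast hm
      exact mul_ne_zero hm' hv
    · exact Or.inr ⟨one_pos, not_le.mp hvt⟩
  set S : Setup K F := Setup.ofChartTwo H t T 1 t2 ht2 D hD with hS
  have hn : 0 < Module.finrank K⟮t⟯ F := by
    have : FiniteDimensional K⟮t⟯ F := H.fd t ht
    exact Module.finrank_pos
  have hg0 : 0 ≤ genusRR K F := genusRR_nonneg H
  have h1 : Divisor.degree S.E1 = (((T.card + 1) * Module.finrank K⟮t⟯ F : ℕ) : ℤ) :=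
    Setup.degree_ofChartTwo_E1' H t T 1 t2 ht2 D hD ht
  have h2 : Divisor.degree S.E2 = ((Module.finrank K⟮t⟯ F : ℕ) : ℤ) :=
    Setup.degree_ofChartTwo_E2 H t T 1 t2 ht2 D hD ht
  have hgn : genusRR K F ≤ ((genusRR K F).toNat : ℤ) := Int.self_le_toNat _
  refine ⟨S.toGenSide ((T.card + 1) * Module.finrank K⟮t⟯ F) (Module.finrank K⟮t⟯ F)
    (genusRR K F).toNat m (a / b) h1 h2 (Nat.mul_pos (Nat.succ_pos _) hn) hn hgn hdeg hdiv,
    rfl, rfl, rfl, rfl, Int.toNat_of_nonneg hg0, fun a' b' => ?_, fun b' x => ?_, ?_⟩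
  · have := Setup.L_ofChartTwo_eq_Lspace x₀ H ht T 1 t2 ht2 D hD a' b'
    rw [mul_one] at this
    exact this
  · show x ∈ S.LD b' ↔ _
    rw [S.mem_LD_iff_ord]
    refine forall_congr' fun P => or_congr_right ?_
    have hE2 : S.E2 P = max (P.ord (t - algebraMap K F t2)) 0 := by
      rw [hS, Setup.ofChartTwo_E2, zeroDivisor_apply]
    have hSD : S.D P = D P := rfl
    have e : P.ord a - P.ord b = m * D P := by rw [← ord_div ha hb, hdiv P]
    have hmpos : (0 : ℤ) < (m : ℤ) := by exact_mod_cast Nat.pos_of_ne_zero hm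
    rw [hE2, hSD, e]
    constructor
    · intro h
      have h3 : 0 ≤ P.ord x + (D P + (b' : ℤ) * max (P.ord (t - algebraMap K F t2)) 0) := by
        linarith
      have := mul_nonneg hmpos.le h3
      linarith
    · intro h
      have h3 : 0 ≤ (m : ℤ) *
          (P.ord x + (D P + (b' : ℤ) * max (P.ord (t - algebraMap K F t2)) 0)) := by
        linarith
      have := nonneg_of_mul_nonneg_right h3 hmpos
      linarith
  · intro a' b' x hx h1x h2x P
    have hxP := S.ord_eq_neg_D hx h1x h2x hdeg P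
    have e : P.ord a - P.ord b = m * D P := by rw [← ord_div ha hb, hdiv P]
    rw [hxP, e]
    have : S.D = D := rfl
    rw [this]
    ring_nf
    exact le_refl _

omit [IsAlgClosed K] in
/-- **Move-to-the-cusps bookkeeping.**  With `γ = β ^ m * y`: if `x` satisfies the `LD`-condition
for `(γ, 1)`, then `x * β` satisfies it for `(y, 1)`. -/
theorem ldCond_mul_of_pow_mul {t : F} {m : ℕ} {y β : F} (hy : y ≠ 0) (hβ : β ≠ 0) (t2 : K)
    (b' : ℕ) {x : F} (hx : LDCond t m (β ^ m * y) 1 t2 b' x) :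
    LDCond t m y 1 t2 b' (x * β) := by
  intro P
  rcases hx P with h | h
  · left; rw [h, zero_mul]
  · by_cases hx0 : x = 0
    · left; rw [hx0, zero_mul]
    right
    rw [P.ord_mul hx0 hβ]
    rw [P.ord_mul (pow_ne_zero m hβ) hy, InstGen.ord_pow] at h
    linarith

omit [IsAlgClosed K] in
/-- the converse direction (`β` invertible) -/
theorem ldCond_of_mul {t : F} {m : ℕ} {y β : F} (hy : y ≠ 0) (hβ : β ≠ 0) (t2 : K)
    (b' : ℕ) {x : F} (hx : LDCond t m y 1 t2 b' (x * β)) :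
    LDCond t m (β ^ m * y) 1 t2 b' x := by
  intro P
  by_cases hx0 : x = 0
  · left; exact hx0
  right
  rcases hx P with h | h
  · exact absurd h (mul_ne_zero hx0 hβ)
  · rw [P.ord_mul hx0 hβ] at h
    rw [P.ord_mul (pow_ne_zero m hβ) hy, InstGen.ord_pow]
    linarith

end Fermat.Agent.GK.SS.GenSideLD
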