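/-
GATE-K / N9-INST (helper30): the KUMMER CHAIN for TWO reduction data (nodal special fibre), in
hypothesis form on the special-fibre half.

Two-valuation analogue of `GJ/J1/KummerRedData.kummer_chain`:

`exists_genSide_of_dvd_LD` (generic side of `γ`, `LD` exported) → `CoreDataNP` over helper90's norm
pair `(ball2 R1 R2, rad2 R1 R2)` (`GK/MultiVal/TwoRedData.lean`) → `absCoreNP` →
`KummerFinish.kummer_finish`.

Inputs on the special fibre (to be supplied by the glued spaces, e.g. helper33's `TwistLt`):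
`Lt a b ⊆ Ft1 × Ft2` with `Lt_mono`, `Lt_fin`, `Lt_inf`, `(1, 1) ∈ Lt 0 0`, the upper bound
`dim_Lt` (with any `g' ≥ genusRR K F`), and the two reduction statements `red_L`, `red_LD`, stated
against the EXPLICIT generic spaces `Lspace K t (weight T t2 a b) a` and `LDCond t m γ 1 t2 b`.
-/
import Fermat.Agent.GK.Core.AbsCoreNP
import Fermat.Agent.GK.MultiVal.TwoRedData
import Fermat.Agent.GK.SS.GenSideLD
import Fermat.Agent.GJ.J1.KummerFinish
import Fermat.Agent.GJ.FF.Instances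

set_option autoImplicit false

noncomputable section

open AlgebraicCurve IntermediateField Module

namespace Fermat.Agent.GK.SS.Chain2

open Fermat.Agent.S24 Fermat.Agent.RRh45 Fermat.Agent.GJ.J1 Fermat.Agent.GJ.J1.InstGen
open Fermat.Agent.GK.MultiVal Fermat.Agent.GK.Core Fermat.Agent.GK.SS.GenSideLD
open Fermat.Agent.GJ.FF.PrincipalOf

variable {K F k Ft1 Ft2 : Type*} [Field K] [Field F] [Algebra K F] [Field k]
  [Field Ft1] [Algebra k Ft1] [Field Ft2] [Algebra k Ft2]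

variable [IsAlgClosed K] (x₀ : F) [IsGen K x₀]

include x₀ in
/-- **The Kummer chain for two reduction data.**  `γ ≡ 1` for both valuations and
`m ∣ div γ` force `γ ∈ F^{×m}`, given the special-fibre half in hypothesis form. -/
theorem kummer_chain2 (R1 : RedData K F k Ft1) (R2 : RedData K F k Ft2) (hc : RedCompat R1 R2)
    (ho : HasOrthoBases R1.A (ball2 R1 R2) (rad2 R1 R2)) (hrk : RankOne R1.A)
    {t : F} (htK : Transcendental K t)
    {m : ℕ} (hm : (m : k) ≠ 0) {γ : F} (hγ : γ - 1 ∈ rad2 R1 R2)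
    (hdvd : ∀ P : Place K F, (m : ℤ) ∣ P.ord γ)
    (T : Finset K)
    (hT : ∀ P : Place K F, P.ord γ ≠ 0 → 0 ≤ P.ord t →
      ∃ s ∈ T, 0 < P.ord (t - algebraMap K F s))
    (t2 : K) (ht2 : t2 ∉ T)
    -- the special-fibre half
    (Lt : ℕ → ℕ → Submodule k (Ft1 × Ft2))
    (Lt_mono : ∀ {a a' b b' : ℕ}, a ≤ a' → b ≤ b' → Lt a b ≤ Lt a' b')
    (Lt_fin : ∀ a b : ℕ, FiniteDimensional k (Lt a b))
    (Lt_inf : ∀ a b a' b' : ℕ, Lt a b ⊓ Lt a' b' = Lt (min a a') (min b b'))
    (one_mem_Lt : (1 : Ft1 × Ft2) ∈ Lt 0 0)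
    (g' c : ℕ)
    (hg' : @genusRR K F _ _ _ (Fermat.Agent.GJ.FF.finiteResidues x₀)
        (hasPrincipalDivisors_gen x₀) (Fermat.Agent.GJ.FF.nonempty_place x₀) ≤ (g' : ℤ))
    (dim_Lt : ∀ a b : ℕ,
      c ≤ a * ((T.card + 1) * finrank K⟮t⟯ F) + b * finrank K⟮t⟯ F →
      finrank k (Lt a b) + g' ≤
        a * ((T.card + 1) * finrank K⟮t⟯ F) + b * finrank K⟮t⟯ F + 1)
    (red_L : ∀ (a b : ℕ) (x : ball2 R1 R2),
      (x : F) ∈ Lspace K t (weight T t2 a b) (a : ℤ) → red2 R1 R2 x ∈ Lt a b)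
    (red_LD : ∀ b : ℕ, c ≤ b * finrank K⟮t⟯ F → ∀ x : ball2 R1 R2,
      LDCond t m γ 1 t2 b (x : F) → red2 R1 R2 x ∈ Lt 0 b) :
    ∃ v : F, v ≠ 0 ∧ γ = v ^ m := by
  classical
  have hFR : FiniteResidues K F := Fermat.Agent.GJ.FF.finiteResidues x₀
  have hPD : HasPrincipalDivisors K F := hasPrincipalDivisors_gen x₀
  have hNE : Nonempty (Place K F) := Fermat.Agent.GJ.FF.nonempty_place x₀
  have hnp : IsNormPair R1.A (ball2 R1 R2) (rad2 R1 R2) := isNormPair2 hc
  have hRs := isRedSystem2 hc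
  have hm0 : m ≠ 0 := by
    rintro rfl
    simp at hm
  have hγ0 : γ ≠ 0 := np_ne_zero_of_sub_one hnp hγ
  have h10 : (1 : F) ≠ 0 := one_ne_zero
  have hord1 : ∀ P : Place K F, P.ord (1 : F) = 0 := fun P => P.ord_one
  -- the generic side
  obtain ⟨G, hGm, hGu, hGd1, hGd2, hGg, hGL, hGLD, hGsec⟩ :=
    exists_genSide_of_dvd_LD x₀ htK hm0 hγ0 h10
      (fun P => by rw [hord1 P, sub_zero]; exact hdvd P) T
      (fun P hP hPt => hT P (by rwa [hord1 P, sub_zero] at hP) hPt) t2 ht2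
  have hGu' : G.u = γ := by rw [hGu, div_one]
  have hGg' : G.g ≤ g' := by
    have : (G.g : ℤ) ≤ (g' : ℤ) := hGg ▸ hg'
    exact_mod_cast this
  -- the abstract core datum
  let D : CoreDataNP R1.A (ball2 R1 R2) (rad2 R1 R2) R1.res (red2 R1 R2).toAddMonoidHom :=
    { L := G.L
      LD := G.LD
      Lt := Lt
      d1 := G.d1
      d2 := G.d2
      g := G.g
      c := c
      a0 := G.a0
      m := G.m
      u := G.u
      n1 := G.n1
      L_mono := G.L_mono
      LD_mono := G.LD_mono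
      Lt_mono := Lt_mono
      one_mem := G.one_mem
      L_mul := G.L_mul
      LD_mul := G.LD_mul
      LD_le := G.LD_le
      book := G.book
      L_fin := G.L_fin
      Lt_fin := Lt_fin
      red_L := fun a b x hx => red_L a b x (by rw [← hGL a b]; exact hx)
      red_LD := fun b hb x hx => red_LD b (by rw [← hGd2]; exact hb) x ((hGLD b x).mp hx)
      one_mem_Lt := by
        show (red2 R1 R2) 1 ∈ Lt 0 0
        rw [map_one]; exact one_mem_Lt
      d1_pos := G.d1_pos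
      d2_pos := G.d2_pos
      dim_L := G.dim_L
      dim_LD := G.dim_LD
      dim_Lt := by
        intro a b hcab
        rw [hGd1, hGd2] at hcab ⊢
        have := dim_Lt a b hcab
        omega
      Lt_inf := Lt_inf
      hm := by rw [hGm]; exact hm
      u_mem := G.u_mem
      u_val := by rw [hGu']; exact hγ
      u_trick := G.u_trick }
  obtain ⟨a', b', x, hx0, hx1, hx2⟩ := absCoreNP hnp ho hRs hrk D
  have hsec := hGsec a' b' x hx0 hx1 hx2
  obtain ⟨v, hv0, hv⟩ := Fermat.Agent.GJ.J1.KummerFinish.kummer_finish (fun P => deg_pos P)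
    (fun g hg0 h0 => Fermat.Agent.GJ.FF.Fibre.exists_const_of_forall_ord_eq_zero' x₀ h0)
    hm0 hγ0 h10 hx0 hsec
  exact ⟨v, hv0, by rw [hv, one_mul]⟩

end Fermat.Agent.GK.SS.Chain2
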