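/-
GATE-K / N9-INST-GEN (helper30): the generic-fibre half of the UNIT TWIST and the CORE of Claim 2
(`hclaim2` of `GK/SS/PackageOfLam.lean` / `OfLamData.lean`).

* `phi`, `Phi1` : the twisting functions `t - c` (`c ∈ A`), `1 - t / c` (`c ∉ A`) on the generic
  fibre; `twist_L` : `x ∈ L(a E₁ + b E₂) ⟹ x Φ₁^a Φ₂^b ∈ Lfib K t (a (|T| + 1) + b)`;
  `twist_LD` : `x ∈ L(D_y + b E₂) ⟹ (x Φ₂^b)^m y ∈ Lfib K t (m b)`.
* `claim2_core` : two reduction data `R1 R2` (helper90 `TwoRedData`), a cusp-only graded family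
  `P.T n` on `Ft1 × Ft2` (helper33 `Twist.ChartPair`) receiving the reductions of `Lfib K t n ∩ B`
  with the Riemann upper bound, and for the unit `y ≡ (1, 1)` the inclusion
  `red (L(D_y + b (t)_∞) ∩ B) ⊆ P.T b` (= all glueing constants of `y` are `1`)
  ⟹ `y` is an `m`-th power.
-/
import Fermat.Agent.GK.SS.KummerChain2
import Fermat.Agent.GK.Core.TwistLt
import Fermat.Agent.GJ.J1.KummerRedData
import Fermat.Agent.GJ.J1.LspaceCalc
import Fermat.Agent.GJ.J1.PlaceLattice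

set_option autoImplicit false

noncomputable section

open AlgebraicCurve IntermediateField Module

namespace Fermat.Agent.GK.SS.Claim2

open Fermat.Agent.S24 Fermat.Agent.RRh45 Fermat.Agent.GJ.J1 Fermat.Agent.GJ.J1.InstGen
open Fermat.Agent.GK.MultiVal Fermat.Agent.GK.Core Fermat.Agent.GK.SS.GenSideLD
open Fermat.Agent.GJ.FF.PrincipalOf Fermat.Agent.GJ.J1.G1

variable {K F : Type*} [Field K] [Field F] [Algebra K F]

/-! ### The twisting functions on the generic fibre -/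

section generic

variable (A : ValuationSubring K) (t : F)

open Classical in
/-- `t - c` for `c ∈ A`, `1 - t / c` for `c ∉ A` -/
def phi (c : K) : F :=
  if c ∈ A then t - algebraMap K F c else 1 - algebraMap K F c⁻¹ * t

/-- the normalising constant of `phi` -/
def phiConst (c : K) : K := by
  classical exact if c ∈ A then 1 else -c⁻¹

theorem phiConst_ne_zero (c : K) : phiConst A c ≠ 0 := by
  unfold phiConst
  split_ifs with h
  · exact one_ne_zero
  · have hc : c ≠ 0 := fun h0 => h (h0 ▸ A.zero_mem)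
    exact neg_ne_zero.mpr (inv_ne_zero hc)

theorem phi_eq_smul (c : K) : phi A t c = phiConst A c • (t - algebraMap K F c) := by
  unfold phi phiConst
  split_ifs with h
  · rw [one_smul]
  · have hc : c ≠ 0 := fun h0 => h (h0 ▸ A.zero_mem)
    have hcF : algebraMap K F c ≠ 0 := (map_ne_zero _).mpr hc
    rw [Algebra.smul_def, map_neg, map_inv₀]
    field_simp
    ring

/-- `Φ₁ = ∏_{c ∈ T} phi c` -/
def Phi1 (T : Finset K) : F := ∏ c ∈ T, phi A t c

theorem Phi1_eq_smul (T : Finset K) :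
    Phi1 A t T = (∏ c ∈ T, phiConst A c) • ∏ c ∈ T, (t - algebraMap K F c) := by
  classical
  unfold Phi1
  induction T using Finset.induction_on with
  | empty => simp
  | insert c T hc ih =>
    rw [Finset.prod_insert hc, Finset.prod_insert hc, Finset.prod_insert hc, ih, phi_eq_smul,
      smul_mul_smul_comm]

theorem prod_phiConst_ne_zero (T : Finset K) : (∏ c ∈ T, phiConst A c) ≠ 0 :=
  Finset.prod_ne_zero_iff.mpr fun c _ => phiConst_ne_zero A c

variable {A t}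

/-- **The twist on the generic fibre, `L a b`.** -/
theorem twist_L (ht : ∀ c : K, t ≠ algebraMap K F c) (T : Finset K) (t2 : K) (ht2 : t2 ∉ T)
    (a b : ℕ) {x : F} (hx : x ∈ Lspace K t (weight T t2 a b) (a : ℤ)) :
    x * Phi1 A t T ^ a * (t - algebraMap K F t2) ^ b ∈
      Lfib K t ((a * (T.card + 1) + b : ℕ) : ℤ) := by
  classical
  have hw : ∀ c, c ∉ insert t2 T → weight T t2 a b c = 0 := by
    intro c hc
    rw [Finset.mem_insert, not_or] at hc
    unfold weight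
    rw [if_neg hc.2, if_neg hc.1, add_zero]
  have hwt2 : weight T t2 a b t2 = (b : ℤ) := by
    unfold weight
    rw [if_neg ht2, if_pos rfl, zero_add]
  have hwT : ∀ c ∈ T, weight T t2 a b c = (a : ℤ) := by
    intro c hc
    have hne : c ≠ t2 := fun h => ht2 (h ▸ hc)
    unfold weight
    rw [if_pos hc, if_neg hne, add_zero]
  have h1 := (mem_Lspace_iff_mul_mem_Lfib ht (insert t2 T) (weight T t2 a b) hw (a : ℤ) x).mp hx
  rw [Finset.prod_insert ht2, Finset.sum_insert ht2, hwt2,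
    Finset.prod_congr rfl (fun c hc => by rw [hwT c hc]),
    Finset.sum_congr rfl (fun c hc => hwT c hc), Finset.sum_const, nsmul_eq_mul] at h1
  simp only [zpow_natCast] at h1
  rw [Finset.prod_pow] at h1
  have hidx : (a : ℤ) + ((b : ℤ) + (T.card : ℤ) * (a : ℤ)) = ((a * (T.card + 1) + b : ℕ) : ℤ) := by
    push_cast; ring
  rw [hidx] at h1
  have h2 := (Lfib K t ((a * (T.card + 1) + b : ℕ) : ℤ)).smul_mem ((∏ c ∈ T, phiConst A c) ^ a) h1
  have e : x * Phi1 A t T ^ a * (t - algebraMap K F t2) ^ b =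
      (∏ c ∈ T, phiConst A c) ^ a •
        ((t - algebraMap K F t2) ^ b * (∏ c ∈ T, (t - algebraMap K F c)) ^ a * x) := by
    rw [Phi1_eq_smul, smul_pow, Algebra.smul_def, Algebra.smul_def]
    ring
  rw [e]
  exact h2

end generic

/-! ### `twist_LD` -/

section LD

variable [IsAlgClosed K] (x₀ : F) [IsGen K x₀]

omit [IsAlgClosed K] in
/-- at a pole of `t`, `ord (t - c) ≥ ord t` -/
theorem ord_le_ord_sub_const_of_ord_neg {t : F} {v : Place K F} (ht : v.ord t < 0) (c : K)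
    (hne : t - algebraMap K F c ≠ 0) : v.ord t ≤ v.ord (t - algebraMap K F c) := by
  have ht0 : t ≠ 0 := by
    rintro rfl
    simp at ht
  have h1 : Fermat.Agent.RR.Bound.Vle v t (-(v.ord t)) := vle_of_neg_le_ord (by omega)
  have h2 : Fermat.Agent.RR.Bound.Vle v (algebraMap K F c) (-(v.ord t)) :=
    (Fermat.Agent.RR.Bound.Vle.algebraMap v c).mono (by omega)
  have h3 := neg_le_ord_of_vle hne (h1.sub h2)
  omega

omit [IsAlgClosed K] in
/-- where `t` is regular, so is `t - c` -/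
theorem ord_sub_const_nonneg {t : F} {v : Place K F} (ht : 0 ≤ v.ord t) (c : K)
    (hne : t - algebraMap K F c ≠ 0) : 0 ≤ v.ord (t - algebraMap K F c) := by
  have h1 : Fermat.Agent.RR.Bound.Vle v t 0 := vle_of_neg_le_ord (by omega)
  have h3 := neg_le_ord_of_vle hne (h1.sub (Fermat.Agent.RR.Bound.Vle.algebraMap v c))
  omega

include x₀ in
/-- **The twist on the generic fibre, `LD b`.** -/
theorem twist_LD {t : F} (ht : Transcendental K t) {m : ℕ} (hm : m ≠ 0) {y : F} (hy : y ≠ 0)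
    (t2 : K) (b : ℕ) {x : F} (hx : LDCond t m y 1 t2 b x) :
    (x * (t - algebraMap K F t2) ^ b) ^ m * y ∈ Lfib K t ((m * b : ℕ) : ℤ) := by
  by_cases hx0 : x = 0
  · rw [hx0, zero_mul, zero_pow hm, zero_mul]
    exact zero_mem _
  have hΦ0 : t - algebraMap K F t2 ≠ 0 := fun h =>
    InstGen.transcendental_sub_algebraMap ht t2 (h ▸ isAlgebraic_zero)
  have hX0 : x * (t - algebraMap K F t2) ^ b ≠ 0 := mul_ne_zero hx0 (pow_ne_zero b hΦ0)
  have hne : (x * (t - algebraMap K F t2) ^ b) ^ m * y ≠ 0 := mul_ne_zero (pow_ne_zero m hX0) hy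
  rw [Fermat.Agent.GJ.J1.PlaceLattice.mem_Lfib_iff_ord x₀ ht _ hne]
  intro v
  have hord : v.ord ((x * (t - algebraMap K F t2) ^ b) ^ m * y) =
      (m : ℤ) * (v.ord x + (b : ℤ) * v.ord (t - algebraMap K F t2)) + v.ord y := by
    rw [v.ord_mul (pow_ne_zero m hX0) hy, InstGen.ord_pow, v.ord_mul hx0 (pow_ne_zero b hΦ0),
      InstGen.ord_pow]
  have hL := (hx v).resolve_left hx0
  rw [v.ord_one, sub_zero] at hL
  rw [hord]
  refine ⟨fun hv => ?_, fun hv => ?_⟩
  · have h2 : 0 ≤ v.ord (t - algebraMap K F t2) := ord_sub_const_nonneg hv t2 hΦ0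
    rw [max_eq_left h2] at hL
    linarith
  · have h2 : v.ord t ≤ v.ord (t - algebraMap K F t2) :=
      ord_le_ord_sub_const_of_ord_neg hv t2 hΦ0
    have h3 : v.ord (t - algebraMap K F t2) ≤ 0 := ord_sub_nonpos_of_ord_neg hv t2
    rw [max_eq_right h3] at hL
    have hb : (0 : ℤ) ≤ (b : ℤ) := Int.natCast_nonneg b
    have hm' : (0 : ℤ) ≤ (m : ℤ) := Int.natCast_nonneg m
    have h4 : (b : ℤ) * v.ord t ≤ (b : ℤ) * v.ord (t - algebraMap K F t2) :=
      mul_le_mul_of_nonneg_left h2 hb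
    have h5 : (m : ℤ) * ((b : ℤ) * v.ord t) ≤ (m : ℤ) * ((b : ℤ) * v.ord (t - algebraMap K F t2)) :=
      mul_le_mul_of_nonneg_left h4 hm'
    push_cast
    linarith

end LD

/-! ### Reductions of the twisting functions -/

section Core

open Fermat.Agent.GJ.J1.KummerRedData Fermat.Agent.GK.Core.Twist

variable {k Ft1 Ft2 : Type*} [Field k] [Field Ft1] [Algebra k Ft1] [Field Ft2] [Algebra k Ft2]
variable {R1 : RedData K F k Ft1} {R2 : RedData K F k Ft2}

theorem algebraMap_mem_ball2 (hc : RedCompat R1 R2) {c : K} (hcA : c ∈ R1.A) :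
    algebraMap K F c ∈ ball2 R1 R2 :=
  mem_ball2.mpr ⟨(R1.mem_A_iff c).1 hcA, (hc.mem_iff₂ c).2 hcA⟩

theorem red2_algebraMap (hc : RedCompat R1 R2) {c : K} (hcA : c ∈ R1.A) :
    red2 R1 R2 ⟨algebraMap K F c, algebraMap_mem_ball2 hc hcA⟩ =
      algebraMap k (Ft1 × Ft2) (R1.res ⟨c, hcA⟩) := by
  have hcA2 : c ∈ R2.A := hc.A_eq ▸ hcA
  rw [Prod.algebraMap_apply]
  refine Prod.ext ?_ ?_
  · exact R1.red_algebraMap ⟨c, hcA⟩
  · show R2.red ⟨algebraMap K F c, _⟩ = algebraMap k Ft2 (R1.res ⟨c, hcA⟩)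
    rw [hc.res_eq c hcA hcA2]
    exact R2.red_algebraMap ⟨c, hcA2⟩

theorem phi_mem_ball2 (hc : RedCompat R1 R2) {t : F} (htB : t ∈ ball2 R1 R2) (c : K) :
    phi R1.A t c ∈ ball2 R1 R2 := by
  unfold phi
  split_ifs with h
  · exact (ball2 R1 R2).sub_mem htB (algebraMap_mem_ball2 hc h)
  · have hinv : c⁻¹ ∈ R1.A := (R1.A.mem_or_inv_mem c).resolve_left h
    exact (ball2 R1 R2).sub_mem (ball2 R1 R2).one_mem
      ((ball2 R1 R2).mul_mem (algebraMap_mem_ball2 hc hinv) htB)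

open Classical in
theorem red2_phi (hc : RedCompat R1 R2) {t : F} (htB : t ∈ ball2 R1 R2) (c : K) :
    red2 R1 R2 ⟨phi R1.A t c, phi_mem_ball2 hc htB c⟩ =
      if c ∈ R1.A then red2 R1 R2 ⟨t, htB⟩ - algebraMap k (Ft1 × Ft2) (resK R1 c) else 1 := by
  by_cases h : c ∈ R1.A
  · rw [if_pos h, resK_of_mem R1 h, ← red2_algebraMap hc h, ← map_sub]
    congr 1
    apply Subtype.ext
    show phi R1.A t c = t - algebraMap K F c
    unfold phi
    rw [if_pos h]
  · rw [if_neg h]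
    have hinv : c⁻¹ ∈ R1.A := (R1.A.mem_or_inv_mem c).resolve_left h
    have hnon : c⁻¹ ∈ R1.A.nonunits := by
      rw [ValuationSubring.mem_nonunits_iff, map_inv₀]
      have : 1 < R1.A.valuation c := by
        rw [← not_le, ValuationSubring.valuation_le_one_iff]; exact h
      exact inv_lt_one_of_one_lt₀ this
    have hres : R1.res ⟨c⁻¹, hinv⟩ = 0 := ((isRedSystem2 hc).res_ker ⟨c⁻¹, hinv⟩).mpr hnon
    have e : (⟨phi R1.A t c, phi_mem_ball2 hc htB c⟩ : ball2 R1 R2) =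
        1 - ⟨algebraMap K F c⁻¹, algebraMap_mem_ball2 hc hinv⟩ * ⟨t, htB⟩ := by
      apply Subtype.ext
      show phi R1.A t c = 1 - algebraMap K F c⁻¹ * t
      unfold phi
      rw [if_neg h]
    rw [e, map_sub, map_one, map_mul, red2_algebraMap hc hinv, hres, map_zero, zero_mul, sub_zero]

/-- `Φ₁` as an element of the ball -/
def Phi1B (hc : RedCompat R1 R2) {t : F} (htB : t ∈ ball2 R1 R2) (T : Finset K) : ball2 R1 R2 :=
  ∏ c ∈ T, (⟨phi R1.A t c, phi_mem_ball2 hc htB c⟩ : ball2 R1 R2)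

theorem coe_Phi1B (hc : RedCompat R1 R2) {t : F} (htB : t ∈ ball2 R1 R2) (T : Finset K) :
    ((Phi1B hc htB T : ball2 R1 R2) : F) = Phi1 R1.A t T := by
  unfold Phi1B Phi1
  rw [← Subring.coe_subtype, map_prod]
  rfl

theorem red2_Phi1B (hc : RedCompat R1 R2) {t : F} (htB : t ∈ ball2 R1 R2) (T : Finset K) :
    red2 R1 R2 (Phi1B hc htB T) =
      ∏ σ ∈ resImage R1 T,
        (red2 R1 R2 ⟨t, htB⟩ - algebraMap k (Ft1 × Ft2) σ) ^ mult R1 T σ := by
  classical
  unfold Phi1B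
  rw [map_prod]
  simp only [red2_phi hc htB]
  rw [← Finset.prod_filter]
  rw [Finset.prod_comp (fun σ => red2 R1 R2 ⟨t, htB⟩ - algebraMap k (Ft1 × Ft2) σ) (resK R1)]
  have himg : (T.filter fun c => c ∈ R1.A).image (resK R1) = resImage R1 T := by
    unfold resImage
    congr
  rw [himg]
  refine Finset.prod_congr rfl fun σ _ => ?_
  congr 1
  unfold mult
  rw [Finset.filter_filter]
  congr 1
  refine Finset.filter_congr fun c _ => ?_
  constructor
  · rintro ⟨hcA, hres⟩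
    exact ⟨hcA, by rw [← resK_of_mem R1 hcA]; exact hres⟩
  · rintro ⟨hcA, hres⟩
    exact ⟨hcA, by rw [resK_of_mem R1 hcA]; exact hres⟩

/-- `Φ₂ = t - t2` as an element of the ball -/
def Phi2B (hc : RedCompat R1 R2) {t : F} (htB : t ∈ ball2 R1 R2) {t2 : K} (ht2A : t2 ∈ R1.A) :
    ball2 R1 R2 :=
  ⟨t, htB⟩ - ⟨algebraMap K F t2, algebraMap_mem_ball2 hc ht2A⟩

theorem coe_Phi2B (hc : RedCompat R1 R2) {t : F} (htB : t ∈ ball2 R1 R2) {t2 : K}
    (ht2A : t2 ∈ R1.A) : ((Phi2B hc htB ht2A : ball2 R1 R2) : F) = t - algebraMap K F t2 := rfl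

theorem red2_Phi2B (hc : RedCompat R1 R2) {t : F} (htB : t ∈ ball2 R1 R2) {t2 : K}
    (ht2A : t2 ∈ R1.A) :
    red2 R1 R2 (Phi2B hc htB ht2A) =
      red2 R1 R2 ⟨t, htB⟩ - algebraMap k (Ft1 × Ft2) (R1.res ⟨t2, ht2A⟩) := by
  unfold Phi2B
  rw [map_sub, red2_algebraMap hc ht2A]

/-! ### The core of Claim 2 -/

variable [IsAlgClosed K] (x₀ : F) [IsGen K x₀]

include x₀ in
/-- **Claim 2, core form.**  If the reductions of `Lfib K t n ∩ B` land in the cusp-only graded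
family `P.T n` (with the Riemann upper bound) and, for the unit `y ≡ (1, 1)` with `m ∣ div y`,
the reductions of `L((1/m) div y + b (t)_∞) ∩ B` land in `P.T b` too for `b ≥ c0` (all glueing
constants of `y` are `1`), then `y` is an `m`-th power. -/
theorem claim2_core [Infinite k] (hc : RedCompat R1 R2)
    (ho : HasOrthoBases R1.A (ball2 R1 R2) (rad2 R1 R2)) (hrk : RankOne R1.A)
    {t : F} (htB : t ∈ ball2 R1 R2) (htK : Transcendental K t)
    (P : ChartPair k (Ft1 × Ft2)) (hs : P.s = red2 R1 R2 ⟨t, htB⟩)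
    (hunit : ∀ c : k, IsUnit (P.s - algebraMap k (Ft1 × Ft2) c))
    (hTfin : ∀ n, FiniteDimensional k (P.T n))
    (hT : ∀ (n : ℕ) (x : ball2 R1 R2), (x : F) ∈ Lfib K t (n : ℤ) → red2 R1 R2 x ∈ P.T n)
    (g' c0 : ℕ)
    (hg' : @genusRR K F _ _ _ (Fermat.Agent.GJ.FF.finiteResidues x₀)
        (hasPrincipalDivisors_gen x₀) (Fermat.Agent.GJ.FF.nonempty_place x₀) ≤ (g' : ℤ))
    (hdimT : ∀ n, c0 ≤ n → finrank k (P.T n) + g' ≤ n * finrank K⟮t⟯ F + 1)
    {m : ℕ} (hm : (m : k) ≠ 0) {y : F} (hy1 : y - 1 ∈ rad2 R1 R2)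
    (hdvd : ∀ v : Place K F, (m : ℤ) ∣ v.ord y)
    (hLam : ∀ b : ℕ, c0 ≤ b → ∀ x : ball2 R1 R2,
      (x : F) ^ m * y ∈ Lfib K t ((m * b : ℕ) : ℤ) → red2 R1 R2 x ∈ P.T b) :
    ∃ v : F, v ≠ 0 ∧ y = v ^ m := by
  classical
  have H : Hyp K F := hyp_of_isGen x₀
  have hm0 : m ≠ 0 := by
    rintro rfl
    simp at hm
  have hy0 : y ≠ 0 := np_ne_zero_of_sub_one (isNormPair2 hc) hy1
  have htc : ∀ c : K, t ≠ algebraMap K F c := fun c h => htK (h ▸ isAlgebraic_algebraMap c)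
  -- the value set and `t2`
  obtain ⟨T, hTv⟩ := exists_valueSet x₀ htK y
  obtain ⟨t2, ht2A, ht2T, hsep⟩ := exists_t2 R1 T
  have ht2img : R1.res ⟨t2, ht2A⟩ ∉ resImage R1 T := by
    intro h
    obtain ⟨c, hcT, hcA, hres⟩ := (mem_resImage R1).mp h
    exact hsep c hcT hcA hres
  -- the twisting pair
  set Q : TwistPair P :=
    P.ofRoots (resImage R1 T) (mult R1 T) (1 + big R1 T) (R1.res ⟨t2, ht2A⟩) ht2img hunit with hQ
  have he1 : Q.e1 = T.card + 1 := by
    rw [hQ, ChartPair.ofRoots_e1]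
    have := sum_mult_add_big R1 T
    omega
  have he2 : Q.e2 = 1 := rfl
  have hp1 : Q.p1 = red2 R1 R2 (Phi1B hc htB T) := by
    rw [hQ, ChartPair.ofRoots_p1, red2_Phi1B, hs]
  have hp2 : Q.p2 = red2 R1 R2 (Phi2B hc htB ht2A) := by
    rw [hQ, ChartPair.ofRoots_p2, red2_Phi2B, hs]
  have hn : 0 < finrank K⟮t⟯ F := by
    have : FiniteDimensional K⟮t⟯ F := H.fd t htK
    exact Module.finrank_pos
  refine Chain2.kummer_chain2 x₀ R1 R2 hc ho hrk htK hm hy1 hdvd T hTv t2 ht2T Q.Lt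
    (fun ha hb => Q.Lt_mono ha hb) (Q.Lt_fin hTfin) Q.Lt_inf Q.one_mem_Lt g'
    (c0 * finrank K⟮t⟯ F) hg' ?_ ?_ ?_
  · -- `dim_Lt`
    intro a b hcab
    have := Q.dim_Lt (d := finrank K⟮t⟯ F) (g := g') (c0 := c0) hn hdimT a b
      (by rw [he1, he2, one_mul]; exact hcab)
    rwa [he1, he2, one_mul] at this
  · -- `red_L`
    intro a b x hx
    have h1 := twist_L (A := R1.A) htc T t2 ht2T a b hx
    set X : ball2 R1 R2 := x * Phi1B hc htB T ^ a * Phi2B hc htB ht2A ^ b with hX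
    have hXcoe : ((X : ball2 R1 R2) : F) =
        (x : F) * Phi1 R1.A t T ^ a * (t - algebraMap K F t2) ^ b := by
      rw [hX]
      push_cast
      rw [coe_Phi1B, coe_Phi2B]
    have h2 := hT (a * (T.card + 1) + b) X (by rw [hXcoe]; exact h1)
    rw [Q.mem_Lt', he1, he2, mul_one, hp1, hp2]
    rw [hX, map_mul, map_mul, map_pow, map_pow] at h2
    exact h2
  · -- `red_LD`
    intro b hb x hx
    have hb' : c0 ≤ b := Nat.le_of_mul_le_mul_right hb hn
    have h1 := twist_LD x₀ htK hm0 hy0 t2 b hx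
    set X : ball2 R1 R2 := x * Phi2B hc htB ht2A ^ b with hX
    have hXcoe : ((X : ball2 R1 R2) : F) = (x : F) * (t - algebraMap K F t2) ^ b := by
      rw [hX]
      push_cast
      rw [coe_Phi2B]
    have h2 := hLam b hb' X (by rw [hXcoe]; exact h1)
    rw [Q.mem_Lt_zero_left, he2, mul_one, hp2]
    rw [hX, map_mul, map_pow] at h2
    exact h2

end Core

end Fermat.Agent.GK.SS.Claim2
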