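/-
GATE-K / N10, `Σ ≠ ∅` (helper39): **connectedness of the special fibre** in the binders of
helper30's `Claim2.claim2_core` (`GK/SS/Claim2Core.lean`).

* `idem_const_core` : two reduction data `R1 R2`, a cusp-only graded family `P.T n` on `Ft1 × Ft2`
  receiving the reductions of `Lfib K t n ∩ B` (`hT`) with the Riemann upper bound (`hdimT`, any
  `g' ≥ genusRR K F`)  ⟹  every idempotent of `P.T 0` is a CONSTANT pair `(κ, κ)`.
  (No arithmetic: `CoreDataNP.idem_const` = squeeze + Newton + bounded torsion for `γ = 1`.)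
* `not_mem_T_zero` : in particular `((1 : Ft1), (0 : Ft2)) ∉ P.T 0`.
* `nonempty_of_chartPair` : for helper33's `P = chartPair ht1 ht2 hs`
  (`P.T n = NodalGraded.T P Q D₁ D₂ n`) the index type of the nodes is NONEMPTY — the hypothesis
  `[Nonempty ι]` of `ssPackage_twoRed` / `hclaim2_of_core`.
-/
import Fermat.Agent.GK.SS.Claim2Core
import Fermat.Agent.GK.Core.IdemNP
import Fermat.Agent.GK.Core.TwistNodal

set_option autoImplicit false

noncomputable section

open AlgebraicCurve IntermediateField Module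

namespace Fermat.Agent.GK.SS.Conn

open Fermat.Agent.S24 Fermat.Agent.RRh45 Fermat.Agent.GJ.J1 Fermat.Agent.GJ.J1.InstGen
open Fermat.Agent.GK.MultiVal Fermat.Agent.GK.Core Fermat.Agent.GK.SS.GenSideLD
open Fermat.Agent.GJ.FF.PrincipalOf Fermat.Agent.GJ.J1.G1 Fermat.Agent.GK.SS.Claim2
open Fermat.Agent.GJ.J1.KummerRedData Fermat.Agent.GK.Core.Twist Fermat.Agent.RR.Bound

variable {K F : Type*} [Field K] [Field F] [Algebra K F]
variable {k Ft1 Ft2 : Type*} [Field k] [Field Ft1] [Algebra k Ft1] [Field Ft2] [Algebra k Ft2]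
variable {R1 : RedData K F k Ft1} {R2 : RedData K F k Ft2}
variable [IsAlgClosed K] (x₀ : F) [IsGen K x₀]

include x₀ in
/-- **Connectedness, core form.**  Every idempotent of `P.T 0` is a constant pair. -/
theorem idem_const_core [Infinite k] (hc : RedCompat R1 R2)
    (ho : HasOrthoBases R1.A (ball2 R1 R2) (rad2 R1 R2)) (hrk : RankOne R1.A)
    {t : F} (htB : t ∈ ball2 R1 R2) (htK : Transcendental K t)
    (P : ChartPair k (Ft1 × Ft2)) (hs : P.s = red2 R1 R2 ⟨t, htB⟩)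
    (hunit : ∀ c : k, IsUnit (P.s - algebraMap k (Ft1 × Ft2) c))
    (hTfin : ∀ n, FiniteDimensional k (P.T n))
    (hT : ∀ (n : ℕ) (x : ball2 R1 R2), (x : F) ∈ Lfib K t (n : ℤ) → red2 R1 R2 x ∈ P.T n)
    (g' c0 : ℕ)
    (hg' : @genusRR K F _ _ _ (Fermat.Agent.GJ.FF.finiteResidues x₀)
        (hasPrincipalDivisors_gen x₀) (Fermat.Agent.GJ.FF.nonempty_place x₀) ≤ (g' : ℤ))
    (hdimT : ∀ n, c0 ≤ n → finrank k (P.T n) + g' ≤ n * finrank K⟮t⟯ F + 1)
    {ξ : Ft1 × Ft2} (hξ : ξ ∈ P.T 0) (hid : ξ * ξ = ξ) :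
    ∃ κ : k, ξ = algebraMap k (Ft1 × Ft2) κ := by
  classical
  have hFR : FiniteResidues K F := Fermat.Agent.GJ.FF.finiteResidues x₀
  have hPD : HasPrincipalDivisors K F := hasPrincipalDivisors_gen x₀
  have hNE : Nonempty (Place K F) := Fermat.Agent.GJ.FF.nonempty_place x₀
  have H : Hyp K F := hyp_of_isGen x₀
  have hnp : IsNormPair R1.A (ball2 R1 R2) (rad2 R1 R2) := isNormPair2 hc
  have hRs := isRedSystem2 hc
  have htc : ∀ c : K, t ≠ algebraMap K F c := fun c h => htK (h ▸ isAlgebraic_algebraMap c)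
  -- the (empty) value set and `t2`
  obtain ⟨T, hTe⟩ : ∃ T : Finset K, T = ∅ := ⟨_, rfl⟩
  obtain ⟨t2, ht2A, ht2T, hsep⟩ := exists_t2 R1 T
  have ht2img : R1.res ⟨t2, ht2A⟩ ∉ resImage R1 T := by
    intro h
    obtain ⟨c, hcT, hcA, hres⟩ := (mem_resImage R1).mp h
    exact hsep c hcT hcA hres
  -- the twisting pair
  set Q : TwistPair P :=
    P.ofRoots (resImage R1 T) (mult R1 T) (1 + big R1 T) (R1.res ⟨t2, ht2A⟩) ht2img hunit with hQ
  have he1 : Q.e1 = T.card + 1 := by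
    rw [hQ, ChartPair.ofRoots_e1]
    have := sum_mult_add_big R1 T
    omega
  have he2 : Q.e2 = 1 := rfl
  have hp1 : Q.p1 = red2 R1 R2 (Phi1B hc htB T) := by
    rw [hQ, ChartPair.ofRoots_p1, red2_Phi1B, hs]
  have hp2 : Q.p2 = red2 R1 R2 (Phi2B hc htB ht2A) := by
    rw [hQ, ChartPair.ofRoots_p2, red2_Phi2B, hs]
  have hn : 0 < finrank K⟮t⟯ F := by
    have : FiniteDimensional K⟮t⟯ F := H.fd t htK
    exact Module.finrank_pos
  -- the generic side, `D = 0`
  have hD0 : ∀ v : Place K F, (0 : Divisor K F) v ≠ 0 →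
      (∃ s ∈ T, 0 < v.ord (t - algebraMap K F s)) ∨ (0 < 1 ∧ v.ord t < 0) := by
    intro v hv
    exact absurd rfl hv
  set S : Setup K F := Setup.ofChartTwo H t T 1 t2 ht2T 0 hD0 with hS
  have h1 : Divisor.degree S.E1 = (((T.card + 1) * finrank K⟮t⟯ F : ℕ) : ℤ) :=
    Setup.degree_ofChartTwo_E1' H t T 1 t2 ht2T 0 hD0 htK
  have h2 : Divisor.degree S.E2 = ((finrank K⟮t⟯ F : ℕ) : ℤ) :=
    Setup.degree_ofChartTwo_E2 H t T 1 t2 ht2T 0 hD0 htK
  have hSD : S.D = 0 := rfl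
  have hdeg : Divisor.degree S.D = 0 := by rw [hSD, map_zero]
  have hdiv : ∀ v : Place K F, v.ord (1 : F) = ((1 : ℕ) : ℤ) * S.D v := by
    intro v
    rw [v.ord_one, hSD]
    simp
  set G : Inst.GenSide K F :=
    S.toGenSide ((T.card + 1) * finrank K⟮t⟯ F) (finrank K⟮t⟯ F) g' 1 1 h1 h2
      (Nat.mul_pos (Nat.succ_pos _) hn) hn hg' hdeg hdiv with hG
  have hGL : ∀ a' b' : ℕ, G.L a' b' = Lspace K t (weight T t2 a' b') (a' : ℤ) := by
    intro a' b'
    have := Setup.L_ofChartTwo_eq_Lspace x₀ H htK T 1 t2 ht2T 0 hD0 a' b'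
    rw [mul_one] at this
    exact this
  have hLDeq : ∀ b : ℕ, G.LD b = G.L 0 b := by
    intro b
    ext x
    show x ∈ S.LD b ↔ x ∈ S.L 0 b
    rw [S.mem_LD, S.mem_L]
    refine forall_congr' fun v => ?_
    rw [hSD]
    simp
  -- the abstract core datum
  let D : CoreDataNP R1.A (ball2 R1 R2) (rad2 R1 R2) R1.res (red2 R1 R2).toAddMonoidHom :=
    { L := G.L
      LD := G.LD
      Lt := Q.Lt
      d1 := G.d1
      d2 := G.d2
      g := G.g
      c := c0 * finrank K⟮t⟯ F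
      a0 := G.a0
      m := G.m
      u := G.u
      n1 := G.n1
      L_mono := G.L_mono
      LD_mono := G.LD_mono
      Lt_mono := fun ha hb => Q.Lt_mono ha hb
      one_mem := G.one_mem
      L_mul := G.L_mul
      LD_mul := G.LD_mul
      LD_le := G.LD_le
      book := G.book
      L_fin := G.L_fin
      Lt_fin := Q.Lt_fin hTfin
      red_L := by
        intro a b x hx
        have hx' : (x : F) ∈ Lspace K t (weight T t2 a b) (a : ℤ) := by rw [← hGL a b]; exact hx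
        have h1 := twist_L (A := R1.A) htc T t2 ht2T a b hx'
        set X : ball2 R1 R2 := x * Phi1B hc htB T ^ a * Phi2B hc htB ht2A ^ b with hX
        have hXcoe : ((X : ball2 R1 R2) : F) =
            (x : F) * Phi1 R1.A t T ^ a * (t - algebraMap K F t2) ^ b := by
          rw [hX]
          push_cast
          rw [coe_Phi1B, coe_Phi2B]
        have h2 := hT (a * (T.card + 1) + b) X (by rw [hXcoe]; exact h1)
        show red2 R1 R2 x ∈ Q.Lt a b
        rw [Q.mem_Lt', he1, he2, mul_one, hp1, hp2]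
        rw [hX, map_mul, map_mul, map_pow, map_pow] at h2
        exact h2
      red_LD := by
        intro b _ x hx
        have hx0 : (x : F) ∈ G.L 0 b := by rw [← hLDeq b]; exact hx
        have hx' : (x : F) ∈ Lspace K t (weight T t2 0 b) ((0 : ℕ) : ℤ) := by
          rw [← hGL 0 b]; exact hx0
        have h1 := twist_L (A := R1.A) htc T t2 ht2T 0 b hx'
        set X : ball2 R1 R2 := x * Phi1B hc htB T ^ 0 * Phi2B hc htB ht2A ^ b with hX
        have hXcoe : ((X : ball2 R1 R2) : F) =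
            (x : F) * Phi1 R1.A t T ^ 0 * (t - algebraMap K F t2) ^ b := by
          rw [hX]
          push_cast
          rw [coe_Phi1B, coe_Phi2B]
        have h2 := hT (0 * (T.card + 1) + b) X (by rw [hXcoe]; exact h1)
        show red2 R1 R2 x ∈ Q.Lt 0 b
        rw [Q.mem_Lt', he1, he2, mul_one, hp1, hp2]
        rw [hX, map_mul, map_mul, map_pow, map_pow] at h2
        exact h2
      one_mem_Lt := by
        show (red2 R1 R2) 1 ∈ Q.Lt 0 0
        rw [map_one]; exact Q.one_mem_Lt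
      d1_pos := G.d1_pos
      d2_pos := G.d2_pos
      dim_L := G.dim_L
      dim_LD := G.dim_LD
      dim_Lt := by
        intro a b hcab
        have := Q.dim_Lt (d := finrank K⟮t⟯ F) (g := g') (c0 := c0) hn hdimT a b
          (by rw [he1, he2, one_mul]; exact hcab)
        rwa [he1, he2, one_mul] at this
      Lt_inf := Q.Lt_inf
      hm := by
        show (((1 : ℕ) : k)) ≠ 0
        rw [Nat.cast_one]; exact one_ne_zero
      u_mem := G.u_mem
      u_val := by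
        show (1 : F) - 1 ∈ rad2 R1 R2
        rw [sub_self]; exact (rad2 R1 R2).zero_mem
      u_trick := G.u_trick }
  -- `ξ ∈ Lt 0 0`
  have hξ0 : ξ ∈ D.Lt 0 0 := by
    show ξ ∈ Q.Lt 0 0
    rw [Q.mem_Lt', pow_zero, pow_zero, mul_one, mul_one, Nat.zero_mul, Nat.zero_mul, Nat.zero_add]
    exact hξ
  obtain ⟨κ, hκ, hκξ⟩ := CoreDataNP.idem_const (red2 R1 R2) D hnp ho hRs hrk
    (fun b => by
      show G.L 0 b ≤ G.LD b
      rw [hLDeq b])
    (fun a b x hxa hxb => by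
      by_cases hx0 : x = 0
      · exact ⟨0, by rw [hx0, map_zero]⟩
      · have hord : ∀ v : Place K F, v.ord x = 0 := fun v => by
          have := S.ord_eq_neg_D hx0 hxa hxb hdeg v
          rw [this, hSD]
          simp
        exact Fermat.Agent.GJ.FF.Fibre.exists_const_of_forall_ord_eq_zero' x₀ hord)
    hξ0 hid
  have hκA : κ ∈ R1.A := (hnp.algebraMap_mem_iff κ).1 hκ
  exact ⟨R1.res ⟨κ, hκA⟩, by rw [← hκξ]; exact red2_algebraMap hc hκA⟩

include x₀ in
/-- the pair `(1, 0)` is not a global section of degree zero -/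
theorem not_mem_T_zero [Infinite k] (hc : RedCompat R1 R2)
    (ho : HasOrthoBases R1.A (ball2 R1 R2) (rad2 R1 R2)) (hrk : RankOne R1.A)
    {t : F} (htB : t ∈ ball2 R1 R2) (htK : Transcendental K t)
    (P : ChartPair k (Ft1 × Ft2)) (hs : P.s = red2 R1 R2 ⟨t, htB⟩)
    (hunit : ∀ c : k, IsUnit (P.s - algebraMap k (Ft1 × Ft2) c))
    (hTfin : ∀ n, FiniteDimensional k (P.T n))
    (hT : ∀ (n : ℕ) (x : ball2 R1 R2), (x : F) ∈ Lfib K t (n : ℤ) → red2 R1 R2 x ∈ P.T n)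
    (g' c0 : ℕ)
    (hg' : @genusRR K F _ _ _ (Fermat.Agent.GJ.FF.finiteResidues x₀)
        (hasPrincipalDivisors_gen x₀) (Fermat.Agent.GJ.FF.nonempty_place x₀) ≤ (g' : ℤ))
    (hdimT : ∀ n, c0 ≤ n → finrank k (P.T n) + g' ≤ n * finrank K⟮t⟯ F + 1) :
    (((1 : Ft1), (0 : Ft2)) : Ft1 × Ft2) ∉ P.T 0 := by
  intro hmem
  obtain ⟨κ, hκ⟩ := idem_const_core x₀ hc ho hrk htB htK P hs hunit hTfin hT g' c0 hg' hdimT hmem
    (by ext <;> simp)
  rw [Prod.algebraMap_apply, Prod.ext_iff] at hκ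
  obtain ⟨h1, h2⟩ := hκ
  simp only at h1 h2
  have hκ0 : κ = 0 := by
    have : algebraMap k Ft2 κ = algebraMap k Ft2 0 := by rw [← h2, map_zero]
    exact (algebraMap k Ft2).injective this
  rw [hκ0, map_zero] at h1
  exact one_ne_zero h1

/-! ### The nodes are nonempty -/

section Nodes

open Fermat.Agent.GK.NodalGraded Fermat.Agent.GK.Core.TwistNodal

omit [IsAlgClosed K] in
/-- without nodes, `(1, 0)` is a glued section of degree zero -/
theorem one_zero_mem_T_of_isEmpty {ι : Type*} [IsEmpty ι] (Pn : ι → Place k Ft1)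
    (Qn : ι → Place k Ft2) (D₁ : Divisor k Ft1) (D₂ : Divisor k Ft2) :
    (((1 : Ft1), (0 : Ft2)) : Ft1 × Ft2) ∈ NodalGraded.T Pn Qn D₁ D₂ 0 := by
  refine ⟨?_, Submodule.zero_mem _, fun j => isEmptyElim j⟩
  show (1 : Ft1) ∈ riemannRochSpace ((0 : ℕ) • D₁)
  rw [zero_smul]
  exact one_mem_riemannRochSpace_zero

include x₀ in
/-- **`Σ ≠ ∅`**: if the degree-zero piece of the cusp-only graded family is the glued
Riemann–Roch space of a nodal datum, the set of nodes is nonempty. -/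
theorem nonempty_nodes [Infinite k] (hc : RedCompat R1 R2)
    (ho : HasOrthoBases R1.A (ball2 R1 R2) (rad2 R1 R2)) (hrk : RankOne R1.A)
    {t : F} (htB : t ∈ ball2 R1 R2) (htK : Transcendental K t)
    (P : ChartPair k (Ft1 × Ft2)) (hs : P.s = red2 R1 R2 ⟨t, htB⟩)
    (hunit : ∀ c : k, IsUnit (P.s - algebraMap k (Ft1 × Ft2) c))
    (hTfin : ∀ n, FiniteDimensional k (P.T n))
    (hT : ∀ (n : ℕ) (x : ball2 R1 R2), (x : F) ∈ Lfib K t (n : ℤ) → red2 R1 R2 x ∈ P.T n)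
    (g' c0 : ℕ)
    (hg' : @genusRR K F _ _ _ (Fermat.Agent.GJ.FF.finiteResidues x₀)
        (hasPrincipalDivisors_gen x₀) (Fermat.Agent.GJ.FF.nonempty_place x₀) ≤ (g' : ℤ))
    (hdimT : ∀ n, c0 ≤ n → finrank k (P.T n) + g' ≤ n * finrank K⟮t⟯ F + 1)
    {ι : Type*} (Pn : ι → Place k Ft1) (Qn : ι → Place k Ft2)
    (D₁ : Divisor k Ft1) (D₂ : Divisor k Ft2)
    (hPT : P.T 0 = NodalGraded.T Pn Qn D₁ D₂ 0) : Nonempty ι := by
  by_contra hne
  rw [not_nonempty_iff] at hne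
  refine not_mem_T_zero x₀ hc ho hrk htB htK P hs hunit hTfin hT g' c0 hg' hdimT ?_
  rw [hPT]
  exact one_zero_mem_T_of_isEmpty Pn Qn D₁ D₂

include x₀ in
/-- **`Σ ≠ ∅` for helper33's `chartPair`** : the hypothesis `[Nonempty ι]` of `ssPackage_twoRed`,
from the other hypotheses of its `P`-block. -/
theorem nonempty_of_chartPair [Infinite k] (hc : RedCompat R1 R2)
    (ho : HasOrthoBases R1.A (ball2 R1 R2) (rad2 R1 R2)) (hrk : RankOne R1.A)
    {t : F} (htB : t ∈ ball2 R1 R2) (htK : Transcendental K t)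
    {ι : Type*} {Pn : ι → Place k Ft1} {Qn : ι → Place k Ft2}
    {D₁ : Divisor k Ft1} {D₂ : Divisor k Ft2} {t₁ : Ft1} {t₂ : Ft2}
    (ht₁ : ExactPoles t₁ D₁) (ht₂ : ExactPoles t₂ D₂)
    (hst : ((t₁, t₂) : Ft1 × Ft2) ∈ NodalGraded.T Pn Qn D₁ D₂ 1)
    (hs : (chartPair ht₁ ht₂ hst).s = red2 R1 R2 ⟨t, htB⟩)
    (hunit : ∀ c : k, IsUnit ((chartPair ht₁ ht₂ hst).s - algebraMap k (Ft1 × Ft2) c))
    (hTfin : ∀ n, FiniteDimensional k ((chartPair ht₁ ht₂ hst).T n))
    (hT : ∀ (n : ℕ) (x : ball2 R1 R2), (x : F) ∈ Lfib K t (n : ℤ) →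
      red2 R1 R2 x ∈ (chartPair ht₁ ht₂ hst).T n)
    (g' c0 : ℕ)
    (hg' : @genusRR K F _ _ _ (Fermat.Agent.GJ.FF.finiteResidues x₀)
        (hasPrincipalDivisors_gen x₀) (Fermat.Agent.GJ.FF.nonempty_place x₀) ≤ (g' : ℤ))
    (hdimT : ∀ n, c0 ≤ n →
      finrank k ((chartPair ht₁ ht₂ hst).T n) + g' ≤ n * finrank K⟮t⟯ F + 1) :
    Nonempty ι :=
  nonempty_nodes x₀ hc ho hrk htB htK (chartPair ht₁ ht₂ hst) hs hunit hTfin hT g' c0 hg' hdimT
    Pn Qn D₁ D₂ (chartPair_T ht₁ ht₂ hst 0)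

end Nodes

end Fermat.Agent.GK.SS.Conn
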