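/-
GATE-K / N10, the `hT` adapter (helper94, per STACK RULING 2 (4)).

Two J1 reduction data `R1 R2 : RedData K F k Ft` (same residue function field `Ft`, as for
`redDataBar N A` / `redData2 N A h`) with a common Gauss chart `t`, and the glueing data
`(C, Ψ, J')` of the special fibre (`GK/NodalBridge.lean`).  From the ONE fibre fact

  `hB : x ∈ Rw1 ⊓ Rw2, RegFin K t x ⟹ (red₁ x, red₂ x) = (g, h)` with `g - Ψ h ∈ J'`   (N6)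

we get the hypothesis `hT` of helper30's `Claim2.claim2_core` / helper44's `ssPackage_twoRed`
for helper33's nodal chart pair `P := TwistNodal.chartPair …`:

* `hT_Tglue`     : `x ∈ L(n (t)_∞) ∩ Rw1 ∩ Rw2 ⟹ red2 x ∈ Tglue Ψ J' D₁ D₂ n`;
* `hT_chartPair` : the same with values in `(chartPair ht₁ ht₂ hs).T n`, given
  `Tglue n = NodalGraded.T P Q D₁ D₂ n` (helper34 `exists_places_T`);
* `chartPair_s_eq`, `hunit_chartPair`, `hTfin_chartPair` : the other three `P`-hypotheses.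
-/
import Fermat.Agent.GK.Red.TwoRed
import Fermat.Agent.GK.NodalBridge
import Fermat.Agent.GK.Core.TwistNodal

set_option autoImplicit false

noncomputable section

open AlgebraicCurve IntermediateField Module

namespace Fermat.Agent.GK.SS.HTGlue

open Fermat.Agent.RRh45 Fermat.Agent.RR Fermat.Agent.S24 Fermat.Agent.GK.NodalGraded
open Fermat.Agent.GJ.J1 Fermat.Agent.GJ.J1.PlaceLattice Fermat.Agent.GK.NodalPole
open Fermat.Agent.GK.NodalBridge Fermat.Agent.GK.MultiVal Fermat.Agent.GK.Red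
open Fermat.Agent.GK.Core.Twist Fermat.Agent.GK.Core.TwistNodal

variable {K F k Ft : Type*} [Field K] [Field F] [Algebra K F] [Field k] [Field Ft] [Algebra k Ft]
  {R1 R2 : RedData K F k Ft}

section Comp

variable [IsAlgClosed k] [HasPrincipalDivisors k Ft]

/-- `Lfib k s n ⊂ L(n D)` when `D` is the exact pole divisor of a transcendental `s` -/
theorem mem_rr_of_mem_Lfib (x₀ : Ft) [IsGen k x₀] {s : Ft} {D : Divisor k Ft}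
    (hs : Transcendental k s) (hD : ExactPoles s D) {n : ℕ} {y : Ft}
    (hy : y ∈ Lfib k s (n : ℤ)) : y ∈ riemannRochSpace (n • D) := by
  rw [Lfib_eq_riemannRochSpace x₀ hs (n : ℤ), natCast_zsmul, ← eq_poleDiv hD] at hy
  exact hy

end Comp

section Main

variable [IsAlgClosed K] [IsAlgClosed k] [HasPrincipalDivisors k Ft]
variable {C : Type*} [CommRing C] [Algebra k C] [Algebra C Ft] [IsScalarTower k C Ft]

/-- **`hT` in ideal language**: both reductions of `x ∈ L(n (t)_∞) ∩ Rw1 ∩ Rw2` form an element of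
the glued family `Tglue Ψ J' D₁ D₂ n`. -/
theorem hT_Tglue (x₀ : Ft) [IsGen k x₀] (hc : RedCompat R1 R2) (hne : R1.Rw ≠ R2.Rw) {t : F}
    (ht1 : R1.IsGaussChart t) (ht2 : R2.IsGaussChart t) [FiniteDimensional K⟮t⟯ F]
    (hdeg : finrank K⟮t⟯ F ≤
      finrank k⟮R1.red ⟨t, ht1.1⟩⟯ Ft + finrank k⟮R2.red ⟨t, ht2.1⟩⟯ Ft)
    (hti1 : t⁻¹ ∈ R1.Rw) (hti2 : t⁻¹ ∈ R2.Rw)
    (Ψ : C →ₐ[k] C) (J' : Ideal C) {D₁ D₂ : Divisor k Ft}
    (hD₁ : ExactPoles (R1.red ⟨t, ht1.1⟩) D₁) (hD₂ : ExactPoles (R2.red ⟨t, ht2.1⟩) D₂)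
    (hB : ∀ (x : F) (h1 : x ∈ R1.Rw) (h2 : x ∈ R2.Rw), RegFin K t x →
      ∃ g h : C, algebraMap C Ft g = R1.red ⟨x, h1⟩ ∧ algebraMap C Ft h = R2.red ⟨x, h2⟩ ∧
        g - Ψ h ∈ J')
    (n : ℕ) (x : ball2 R1 R2) (hx : (x : F) ∈ Lfib K t (n : ℤ)) :
    red2 R1 R2 x ∈ Tglue Ψ J' D₁ D₂ n := by
  have h1 : (x : F) ∈ R1.Rw := (mem_ball2.mp x.2).1
  have h2 : (x : F) ∈ R2.Rw := (mem_ball2.mp x.2).2
  obtain ⟨hr1, hr2⟩ := red_mem_Lfib_ball2 hc hne ht1 ht2 hdeg hti1 hti2 n hx h1 h2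
  have hreg : RegFin K t (x : F) := (Fermat.Agent.GJ.J1.G1.mem_Lfib_iff_of_isAlgClosed.mp hx).1
  obtain ⟨g, h, hg, hh, hgh⟩ := hB (x : F) h1 h2 hreg
  rw [mem_Tglue]
  refine ⟨mem_rr_of_mem_Lfib x₀ ht1.2 hD₁ hr1, mem_rr_of_mem_Lfib x₀ ht2.2 hD₂ hr2,
    g, h, hg, hh, hgh⟩

variable {ι : Type*} {P Q : ι → Place k Ft}

/-- **`hT` of `claim2_core` for helper33's nodal chart pair.** -/
theorem hT_chartPair (x₀ : Ft) [IsGen k x₀] (hc : RedCompat R1 R2) (hne : R1.Rw ≠ R2.Rw) {t : F}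
    (ht1 : R1.IsGaussChart t) (ht2 : R2.IsGaussChart t) [FiniteDimensional K⟮t⟯ F]
    (hdeg : finrank K⟮t⟯ F ≤
      finrank k⟮R1.red ⟨t, ht1.1⟩⟯ Ft + finrank k⟮R2.red ⟨t, ht2.1⟩⟯ Ft)
    (hti1 : t⁻¹ ∈ R1.Rw) (hti2 : t⁻¹ ∈ R2.Rw)
    (Ψ : C →ₐ[k] C) (J' : Ideal C) {D₁ D₂ : Divisor k Ft}
    (hD₁ : ExactPoles (R1.red ⟨t, ht1.1⟩) D₁) (hD₂ : ExactPoles (R2.red ⟨t, ht2.1⟩) D₂)
    (hB : ∀ (x : F) (h1 : x ∈ R1.Rw) (h2 : x ∈ R2.Rw), RegFin K t x →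
      ∃ g h : C, algebraMap C Ft g = R1.red ⟨x, h1⟩ ∧ algebraMap C Ft h = R2.red ⟨x, h2⟩ ∧
        g - Ψ h ∈ J')
    (hTeq : ∀ n, Tglue Ψ J' D₁ D₂ n = T P Q D₁ D₂ n)
    (hs : ((R1.red ⟨t, ht1.1⟩, R2.red ⟨t, ht2.1⟩) : Ft × Ft) ∈ T P Q D₁ D₂ 1)
    (n : ℕ) (x : ball2 R1 R2) (hx : (x : F) ∈ Lfib K t (n : ℤ)) :
    red2 R1 R2 x ∈ (chartPair hD₁ hD₂ hs).T n := by
  rw [chartPair_T, ← hTeq]
  exact hT_Tglue x₀ hc hne ht1 ht2 hdeg hti1 hti2 Ψ J' hD₁ hD₂ hB n x hx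

end Main

section Rest

variable {ι : Type*} {P Q : ι → Place k Ft} {D₁ D₂ : Divisor k Ft}

/-- `hs` of `claim2_core`: the chart of the nodal pair is `red2 t` -/
theorem chartPair_s_eq {t : F} (ht1 : R1.IsGaussChart t) (ht2 : R2.IsGaussChart t)
    (hD₁ : ExactPoles (R1.red ⟨t, ht1.1⟩) D₁) (hD₂ : ExactPoles (R2.red ⟨t, ht2.1⟩) D₂)
    (hs : ((R1.red ⟨t, ht1.1⟩, R2.red ⟨t, ht2.1⟩) : Ft × Ft) ∈ T P Q D₁ D₂ 1)
    (htB : t ∈ ball2 R1 R2) :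
    (chartPair hD₁ hD₂ hs).s = red2 R1 R2 ⟨t, htB⟩ := rfl

/-- `hunit` of `claim2_core` -/
theorem hunit_chartPair {t : F} (ht1 : R1.IsGaussChart t) (ht2 : R2.IsGaussChart t)
    (hD₁ : ExactPoles (R1.red ⟨t, ht1.1⟩) D₁) (hD₂ : ExactPoles (R2.red ⟨t, ht2.1⟩) D₂)
    (hs : ((R1.red ⟨t, ht1.1⟩, R2.red ⟨t, ht2.1⟩) : Ft × Ft) ∈ T P Q D₁ D₂ 1) (c : k) :
    IsUnit ((chartPair hD₁ hD₂ hs).s - algebraMap k (Ft × Ft) c) := by
  refine isUnit_s_sub hD₁ hD₂ hs (fun c' h => ?_) (fun c' h => ?_) c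
  · exact ht1.2 (h ▸ isAlgebraic_algebraMap c')
  · exact ht2.2 (h ▸ isAlgebraic_algebraMap c')

/-- `hTfin` of `claim2_core` -/
theorem hTfin_chartPair [FiniteResidues k Ft] [HasPrincipalDivisors k Ft]
    [Nonempty (Place k Ft)] {s₁ s₂ : Ft}
    (hD₁ : ExactPoles s₁ D₁) (hD₂ : ExactPoles s₂ D₂)
    (hs : ((s₁, s₂) : Ft × Ft) ∈ T P Q D₁ D₂ 1) (n : ℕ) :
    FiniteDimensional k ((chartPair hD₁ hD₂ hs).T n) := by
  rw [chartPair_T]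
  infer_instance

end Rest

end Fermat.Agent.GK.SS.HTGlue
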