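/-
GATE-K / N10-PACKAGE (helper47): the COMPONENT fields `fin_i`, `dim_i`, `range_i` of
`TwoRed.ChartInput` (`GK/SS/LamOfChart.lean`) for a residue function field `Ft / k`
(`k` algebraically closed, `[IsGen k x₀]`) and ANY chart `s` (transcendental):

* `finiteDimensional_Lfib` : `Lfib k s n` is finite dimensional;
* `exists_dim_Lfib` : `∃ n0, ∀ n ≥ n0, dim Lfib k s n + g = n [Ft : k(s)] + 1`, `g = (genusRR k Ft).toNat`
  (J1 `G0Genus.finrank_Lfib_eq_genusRR` + `genusRR_nonneg`);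
* `regFin_of_mem_Lfib` : `Lfib k s n` lies in the integral closure of `k[s]`; hence in the range of
  `i : C →ₐ[k] Ft` as soon as `C` maps onto the integral closure (`exists_of_mem_Lfib`).
-/
import Fermat.Agent.GJ.J1.GenusBridge
import Fermat.Agent.GJ.J1.InstGenSide
import Fermat.Agent.GJ.J1.LspaceCalc

set_option autoImplicit false

noncomputable section

open AlgebraicCurve IntermediateField Module

namespace Fermat.Agent.GK.SS.CompRiemann

open Fermat.Agent.S24 Fermat.Agent.RRh45 Fermat.Agent.GJ.J1 Fermat.Agent.GJ.J1.InstGen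
open Fermat.Agent.GJ.FF.PrincipalOf

variable {k Ft : Type*} [Field k] [Field Ft] [Algebra k Ft] [IsAlgClosed k]
variable [FiniteResidues k Ft] [HasPrincipalDivisors k Ft] [Nonempty (Place k Ft)]

/-- `Lfib k s n` is finite dimensional. -/
theorem finiteDimensional_Lfib (x₀ : Ft) [IsGen k x₀] {s : Ft} (hs : Transcendental k s) (n : ℕ) :
    FiniteDimensional k (Lfib k s (n : ℤ)) := by
  rw [PlaceLattice.Lfib_eq_riemannRochSpace x₀ hs (n : ℤ)]
  infer_instance

/-- **component Riemann**, in the shape of `ChartInput.dim1` / `dim2`. -/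
theorem exists_dim_Lfib (H : Hyp k Ft) (x₀ : Ft) [IsGen k x₀] {s : Ft} (hs : Transcendental k s) :
    ∃ n0 : ℕ, ∀ n : ℕ, n0 ≤ n →
      finrank k (Lfib k s (n : ℤ)) + (genusRR k Ft).toNat = n * finrank k⟮s⟯ Ft + 1 := by
  have : IsGen k s := IsGen.of_transcendental x₀ hs
  obtain ⟨n0, h⟩ := G0Genus.finrank_Lfib_eq_genusRR (K := k) s
  have hg : 0 ≤ genusRR k Ft := genusRR_nonneg H
  refine ⟨n0, fun n hn => ?_⟩
  have h1 := h n hn
  have h2 : ((genusRR k Ft).toNat : ℤ) = genusRR k Ft := Int.toNat_of_nonneg hg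
  have h3 : ((finrank k (Lfib k s (n : ℤ)) + (genusRR k Ft).toNat : ℕ) : ℤ)
      = ((n * finrank k⟮s⟯ Ft + 1 : ℕ) : ℤ) := by
    push_cast
    rw [h2, h1]
    ring
  exact_mod_cast h3

omit [FiniteResidues k Ft] [HasPrincipalDivisors k Ft] [Nonempty (Place k Ft)] in
/-- `Lfib k s n` lies in the integral closure of `k[s]`. -/
theorem regFin_of_mem_Lfib {s z : Ft} {n : ℤ} (h : z ∈ Lfib k s n) : RegFin k s z :=
  (G1.mem_Lfib_iff_of_isAlgClosed.1 h).1

omit [FiniteResidues k Ft] [HasPrincipalDivisors k Ft] [Nonempty (Place k Ft)] in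
/-- the field `range_i` of `ChartInput` when `C` maps onto the integral closure of `k[s]`. -/
theorem exists_of_mem_Lfib {C : Type*} [CommRing C] [Algebra k C] (i : C →ₐ[k] Ft) {s : Ft}
    (hC : ∀ z : Ft, RegFin k s z → ∃ r, i r = z) (n : ℕ) (z : Ft) (h : z ∈ Lfib k s (n : ℤ)) :
    ∃ r, i r = z :=
  hC z (regFin_of_mem_Lfib h)

end Fermat.Agent.GK.SS.CompRiemann
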