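/-
GATE-K / N10-GAL (helper44): the constant reductions of the admissible units, in `RedData` form
(fields `c1 c2 y_red1 y_red2 c1_ne` of helper47's `TwoRedInput`, `GK/SS/LamOfTwoRed.lean`).

For `y ∈ goodUnitsMod N A h m` (both Gauss valuations `0`, both reductions constant):

* `red1_goodUnitsMod` : `red₁ y = algebraMap k (FresBar N A) (cstRed (galVal1 N A) y)`;
* `red2_goodUnitsMod` : `red₂ y = algebraMap k (FresBar N A) (cstRed (galVal2 N A h) y)`;
* `cstRed_ne_zero_goodUnitsMod`.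

Generic: `GalVal.red_eq_cstRed` for any `RedData` whose valuation ring is `V.W`, base ring `A` and
residue map `IsLocalRing.residue A`.
-/
import Fermat.Agent.GK.SS.GalValInst

set_option autoImplicit false

namespace Fermat.Agent.GK.SS

open Fermat.Agent.GJ.KumGroup Fermat.Agent.GJ.Kum.KumType Fermat.Agent.GK.Tate
open Fermat.Agent.GJ.J1 Fermat.Agent.GJ.J1.Val Fermat.Agent.GK.AL
open ModularCurve IsLocalRing

/-- `ℚ̄`. -/
local notation "Qb" => AlgebraicClosure ℚ

section Generic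

variable {N : ℕ} {A : ValuationSubring Qb} {Ft : Type*} [Field Ft] [Algebra (ResidueField A) Ft]

/-- a unit with constant reduction (valuation form) reduces to that constant (`RedData` form) -/
theorem GalVal.red_eq_cstRed (V : GalVal N A) (R : RedData Qb (FK N) (ResidueField A) Ft)
    (hW : R.Rw = V.W)
    (hconst : ∀ (a : Qb) (ha : a ∈ A) (h : algebraMap Qb (FK N) a ∈ R.Rw),
      R.red ⟨algebraMap Qb (FK N) a, h⟩ = algebraMap (ResidueField A) Ft (residue A ⟨a, ha⟩))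
    {y : FK N} (hy : V.IsCstUnit y) :
    ∃ h : y ∈ R.Rw, R.red ⟨y, h⟩ = algebraMap (ResidueField A) Ft (V.cstRed y) := by
  obtain ⟨a, ha, hya⟩ := hy
  have hyW : y ∈ R.Rw := by rw [hW]; exact GalVal.IsCstUnit.mem ⟨a, ha, hya⟩
  have haA : a ∈ A := (A.valuation_le_one_iff a).1 ha.le
  have haW : algebraMap Qb (FK N) a ∈ R.Rw := by rw [hW]; exact (V.mem_const a).2 haA
  refine ⟨hyW, ?_⟩
  rw [GalVal.cstRed_eq ha hya, ← hconst a haA haW, ← sub_eq_zero, ← map_sub, R.red_eq_zero_iff]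
  have hsub : y - algebraMap Qb (FK N) a ∈ R.Rw := sub_mem hyW haW
  have h1 : R.Rw.valuation (y - algebraMap Qb (FK N) a) < 1 := by rw [hW]; exact hya
  exact (R.Rw.valuation_lt_one_iff ⟨y - algebraMap Qb (FK N) a, hsub⟩).2 h1

/-- **scaling to reduction `(1, 1)`**: an admissible unit whose two constant reductions agree is,
after division by ONE constant `a ∈ Aˣ`, congruent to `1` for both valuations. -/
theorem exists_scale_of_cstRed_eq {V1 V2 : GalVal N A} {y : FK N} (h1 : V1.IsCstUnit y)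
    (h2 : V2.IsCstUnit y) (hc : V1.cstRed y = V2.cstRed y) :
    ∃ a : Qb, A.valuation a = 1 ∧ V1.W.valuation (y / algebraMap Qb (FK N) a - 1) < 1 ∧
      V2.W.valuation (y / algebraMap Qb (FK N) a - 1) < 1 := by
  obtain ⟨a1, ha1, hy1⟩ := h1
  obtain ⟨a2, ha2, hy2⟩ := h2
  rw [GalVal.cstRed_eq ha1 hy1, GalVal.cstRed_eq ha2 hy2] at hc
  have hm1 : a1 ∈ A := (A.valuation_le_one_iff a1).1 ha1.le
  have hm2 : a2 ∈ A := (A.valuation_le_one_iff a2).1 ha2.le
  have hsub : a2 - a1 ∈ A := sub_mem hm2 hm1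
  have h3 : A.valuation (a2 - a1) < 1 := by
    have h4 : residue A (⟨a2, hm2⟩ - ⟨a1, hm1⟩) = 0 := by rw [map_sub, hc, sub_self]
    rw [residue_eq_zero_iff] at h4
    exact (A.valuation_lt_one_iff ⟨a2 - a1, hsub⟩).1 h4
  have h5 : V2.W.valuation (algebraMap Qb (FK N) a2 - algebraMap Qb (FK N) a1) < 1 := by
    rw [← map_sub]; exact V2.val_const_lt_one h3
  have hy2' : V2.W.valuation (y - algebraMap Qb (FK N) a1) < 1 := vs_val_sub_lt V2.W hy2 h5
  have ha0 : algebraMap Qb (FK N) a1 ≠ 0 :=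
    ((vs_val_eq_one_iff V1.W).1 (V1.val_const_eq_one ha1)).1
  have e : y / algebraMap Qb (FK N) a1 - 1 =
      (y - algebraMap Qb (FK N) a1) * (algebraMap Qb (FK N) a1)⁻¹ := by
    field_simp
  refine ⟨a1, ha1, ?_, ?_⟩
  · rw [e, map_mul, map_inv₀, V1.val_const_eq_one ha1, inv_one, mul_one]; exact hy1
  · rw [e, map_mul, map_inv₀, V2.val_const_eq_one ha1, inv_one, mul_one]; exact hy2'

end Generic

section Modular

variable (N : ℕ) [NeZero N] (A : ValuationSubring Qb) {q : ℕ} (h : ExactDvd q N)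

theorem red1_const (a : Qb) (ha : a ∈ A)
    (h' : algebraMap Qb (FK N) a ∈ (redDataBar N A).Rw) :
    (redDataBar N A).red ⟨algebraMap Qb (FK N) a, h'⟩ =
      algebraMap (ResidueField A) (FresBar N A) (residue A ⟨a, ha⟩) :=
  (redDataBar N A).red_algebraMap ⟨a, ha⟩

theorem red2_const (a : Qb) (ha : a ∈ A)
    (h' : algebraMap Qb (FK N) a ∈ (redData2 N A h).Rw) :
    (redData2 N A h).red ⟨algebraMap Qb (FK N) a, h'⟩ =
      algebraMap (ResidueField A) (FresBar N A) (residue A ⟨a, ha⟩) :=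
  (redData2 N A h).red_algebraMap ⟨a, ha⟩

/-- `red₁ y = c₁(y)` for an admissible unit -/
theorem red1_goodUnitsMod {m : ℕ} {y : (FK N)ˣ} (hy : y ∈ goodUnitsMod N A h m) :
    ∃ h' : (y : FK N) ∈ (redDataBar N A).Rw, (redDataBar N A).red ⟨(y : FK N), h'⟩ =
      algebraMap (ResidueField A) (FresBar N A) ((galVal1 N A).cstRed (y : FK N)) :=
  (galVal1 N A).red_eq_cstRed (redDataBar N A) rfl (red1_const N A) hy.2.1

/-- `red₂ y = c₂(y)` for an admissible unit -/
theorem red2_goodUnitsMod {m : ℕ} {y : (FK N)ˣ} (hy : y ∈ goodUnitsMod N A h m) :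
    ∃ h' : (y : FK N) ∈ (redData2 N A h).Rw, (redData2 N A h).red ⟨(y : FK N), h'⟩ =
      algebraMap (ResidueField A) (FresBar N A) ((galVal2 N A h).cstRed (y : FK N)) :=
  (galVal2 N A h).red_eq_cstRed (redData2 N A h) rfl (red2_const N A h) hy.2.2

theorem cstRed1_ne_zero_goodUnitsMod {m : ℕ} {y : (FK N)ˣ} (hy : y ∈ goodUnitsMod N A h m) :
    (galVal1 N A).cstRed (y : FK N) ≠ 0 :=
  GalVal.cstRed_ne_zero hy.2.1

theorem cstRed2_ne_zero_goodUnitsMod {m : ℕ} {y : (FK N)ˣ} (hy : y ∈ goodUnitsMod N A h m) :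
    (galVal2 N A h).cstRed (y : FK N) ≠ 0 :=
  GalVal.cstRed_ne_zero hy.2.2

end Modular

end Fermat.Agent.GK.SS
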