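/-
GATE-K / N10-PACKAGE, generic-fibre input of `TwoRedInput` (helper47): the spaces

  `Lgen H t m y n = L((1/m) div y + n (t)_∞)`     (Prelude `riemannRochSpace`)

on a function field `F / K` (`K` algebraically closed, `[IsGen K x₀]`), for ANY chart `t`
(transcendental) and any `y ≠ 0` with `m ∣ div y`:

* `mem_Lgen_iff` : `x ∈ Lgen y n ↔ x ^ m * y ∈ Lfib K t (m n)` — the `Lz` form of helper44's
  `GalLz.lean` and of the hypothesis `hLam` of helper30's `claim2_core`;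
* `Lgen_mul` (`L y n * L y' n' ⊂ L (y y') (n + n')`), `Lgen_pow` (`x ∈ L y n ⟹ x ^ m * y ∈ L 1 (m n)`),
  `Lgen_one` (`L 1 n = Lfib K t n`), finite dimensionality (instance);
* `finrank_Lgen` : **uniform Riemann**: `dim_K Lgen y n = n [F : K(t)] + 1 - g` as soon as
  `n [F : K(t)] ≥ boundRR K F` — the threshold does NOT depend on `y` (`deg (1/m) div y = 0`);
  `exists_n0_finrank_Lgen` packages the threshold.
These are the fields `L`, `L_fin`, `L_mul`, `L_pow` and the generic third of `dim` of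
`TwoRed.TwoRedInput` (`GK/SS/LamOfTwoRed.lean`).
-/
import Fermat.Agent.GJ.J1.InstGenSide
import Fermat.Agent.GJ.J1.PlaceLattice
import Fermat.Agent.GJ.FF.PrincipalGen

set_option autoImplicit false

noncomputable section

open AlgebraicCurve IntermediateField Module

namespace Fermat.Agent.GK.SS.LGen

open Fermat.Agent.S24 Fermat.Agent.RRh45 Fermat.Agent.RR Fermat.Agent.GJ.J1
open Fermat.Agent.GJ.J1.InstGen Fermat.Agent.GJ.J1.PlaceLattice Fermat.Agent.GJ.FF.PrincipalOf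

variable {K F : Type*} [Field K] [Field F] [Algebra K F]
variable [FiniteResidues K F] [HasPrincipalDivisors K F] (H : Hyp K F) (t : F) (m : ℕ)

/-- `L((1/m) div y + n (t)_∞)`. -/
def Lgen (y : F) (n : ℕ) : Submodule K F :=
  riemannRochSpace (kummerDivisor H y m + n • Bound.poleDiv K t)

instance finite_Lgen [Nonempty (Place K F)] (y : F) (n : ℕ) :
    Module.Finite K (Lgen H t m y n) :=
  inferInstanceAs (Module.Finite K (riemannRochSpace (kummerDivisor H y m + n • Bound.poleDiv K t)))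

variable {H t m}

omit [FiniteResidues K F] [HasPrincipalDivisors K F] in
theorem ord_pow_nat' (v : Place K F) (f : F) (n : ℕ) : v.ord (f ^ n) = n * v.ord f := by
  have := v.ord_zpow f (n : ℤ)
  rwa [zpow_natCast] at this

theorem mem_Lgen_iff_ord {y : F} {n : ℕ} {x : F} (hx : x ≠ 0) :
    x ∈ Lgen H t m y n ↔
      ∀ v : Place K F, 0 ≤ v.ord x + v.ord y / (m : ℤ) + n * Bound.poleDiv K t v := by
  unfold Lgen
  rw [mem_riemannRochSpace_iff]
  refine forall_congr' fun v => ?_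
  rw [Finsupp.add_apply, Finsupp.smul_apply, kummerDivisor_apply, nsmul_eq_mul]
  constructor
  · rintro (h | h)
    · exact absurd h hx
    · omega
  · intro h
    right
    omega

/-- the exact-division bookkeeping: `m ∣ a` and `0 < m` give `0 ≤ x + a / m + c ↔ 0 ≤ m x + a + m c` -/
theorem nonneg_iff_of_dvd {m : ℕ} (hm : m ≠ 0) {a : ℤ} (hdvd : (m : ℤ) ∣ a) (x c : ℤ) :
    0 ≤ x + a / (m : ℤ) + c ↔ 0 ≤ (m : ℤ) * x + a + (m : ℤ) * c := by
  obtain ⟨b, rfl⟩ := hdvd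
  have hm' : (0 : ℤ) < m := by exact_mod_cast Nat.pos_of_ne_zero hm
  rw [Int.mul_ediv_cancel_left _ hm'.ne']
  have : (m : ℤ) * x + (m : ℤ) * b + (m : ℤ) * c = (m : ℤ) * (x + b + c) := by ring
  rw [this]
  constructor
  · intro h
    exact mul_nonneg hm'.le h
  · intro h
    exact nonneg_of_mul_nonneg_right h hm'

section Bridge

variable [IsAlgClosed K] (x₀ : F) [IsGen K x₀]

include x₀ in
/-- **the `Lz` form**: `x ∈ L((1/m) div y + n (t)_∞) ↔ x ^ m * y ∈ L(m n (t)_∞)`. -/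
theorem mem_Lgen_iff (ht : Transcendental K t) (hm : m ≠ 0) {y : F} (hy : y ≠ 0)
    (hdvd : ∀ v : Place K F, (m : ℤ) ∣ v.ord y) {n : ℕ} {x : F} :
    x ∈ Lgen H t m y n ↔ x ^ m * y ∈ Lfib K t ((m * n : ℕ) : ℤ) := by
  rcases eq_or_ne x 0 with rfl | hx
  · rw [zero_pow hm, zero_mul]
    exact ⟨fun _ => Submodule.zero_mem _, fun _ => Submodule.zero_mem _⟩
  have hxm : x ^ m ≠ 0 := pow_ne_zero m hx
  have hxy : x ^ m * y ≠ 0 := mul_ne_zero hxm hy
  rw [mem_Lgen_iff_ord hx, Lfib_eq_riemannRochSpace x₀ ht, mem_riemannRochSpace_iff]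
  refine forall_congr' fun v => ?_
  rw [nonneg_iff_of_dvd hm (hdvd v), Finsupp.smul_apply, v.ord_mul hxm hy,
    ord_pow_nat']
  constructor
  · intro h
    right
    rw [smul_eq_mul]
    push_cast
    nlinarith
  · rintro (h | h)
    · exact absurd h hxy
    · rw [smul_eq_mul] at h
      push_cast at h
      nlinarith

include x₀ in
/-- `L 1 n = L(n (t)_∞)`. -/
theorem Lgen_one (ht : Transcendental K t) (n : ℕ) :
    Lgen H t m 1 n = Lfib K t (n : ℤ) := by
  rw [Lfib_eq_riemannRochSpace x₀ ht]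
  unfold Lgen
  congr 1
  ext v
  rw [Finsupp.add_apply, kummerDivisor_apply, v.ord_one, Int.zero_ediv, zero_add,
    Finsupp.smul_apply, Finsupp.smul_apply, nsmul_eq_mul, smul_eq_mul]

end Bridge

/-- multiplicativity -/
theorem Lgen_mul {y y' : F} (hy : y ≠ 0) (hy' : y' ≠ 0)
    (hdvd : ∀ v : Place K F, (m : ℤ) ∣ v.ord y)
    {n n' : ℕ} {x x' : F} (hx : x ∈ Lgen H t m y n) (hx' : x' ∈ Lgen H t m y' n') :
    x * x' ∈ Lgen H t m (y * y') (n + n') := by
  rcases eq_or_ne x 0 with rfl | hx0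
  · rw [zero_mul]; exact Submodule.zero_mem _
  rcases eq_or_ne x' 0 with rfl | hx0'
  · rw [mul_zero]; exact Submodule.zero_mem _
  rw [mem_Lgen_iff_ord hx0] at hx
  rw [mem_Lgen_iff_ord hx0'] at hx'
  rw [mem_Lgen_iff_ord (mul_ne_zero hx0 hx0')]
  intro v
  have h1 := hx v
  have h2 := hx' v
  rw [v.ord_mul hx0 hx0', v.ord_mul hy hy', Int.add_ediv_of_dvd_left (hdvd v)]
  push_cast
  nlinarith

/-- the power trick -/
theorem Lgen_pow (hm : m ≠ 0) {y : F} (hy : y ≠ 0)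
    (hdvd : ∀ v : Place K F, (m : ℤ) ∣ v.ord y) {n : ℕ} {x : F} (hx : x ∈ Lgen H t m y n) :
    x ^ m * y ∈ Lgen H t m 1 (m * n) := by
  rcases eq_or_ne x 0 with rfl | hx0
  · rw [zero_pow hm, zero_mul]; exact Submodule.zero_mem _
  have hxm : x ^ m ≠ 0 := pow_ne_zero m hx0
  rw [mem_Lgen_iff_ord hx0] at hx
  rw [mem_Lgen_iff_ord (mul_ne_zero hxm hy)]
  intro v
  have h1 := (nonneg_iff_of_dvd hm (hdvd v) (v.ord x) (n * Bound.poleDiv K t v)).1 (hx v)
  rw [v.ord_mul hxm hy, ord_pow_nat', v.ord_one, Int.zero_ediv, add_zero]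
  push_cast
  nlinarith

section Dim

variable [Nonempty (Place K F)] (x₀ : F) [IsGen K x₀]

omit [Nonempty (Place K F)] in
include x₀ in
theorem degree_Lgen_divisor (ht : Transcendental K t) (hm : m ≠ 0) {y : F} (hy : y ≠ 0)
    (hdvd : ∀ v : Place K F, (m : ℤ) ∣ v.ord y) (n : ℕ) :
    Divisor.degree (kummerDivisor H y m + n • Bound.poleDiv K t)
      = (n : ℤ) * (finrank K⟮t⟯ F : ℤ) := by
  have ht0 : t ≠ 0 := fun h0 => ht (h0 ▸ isAlgebraic_zero)
  have hd : Divisor.degree (Bound.poleDiv K t) = (finrank K⟮t⟯ F : ℤ) :=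
    Fermat.Agent.GJ.FF.PrincipalOf.degree_eq_finrank_of_poles (K := K) x₀ ht
      (Bound.poleDiv K t) (fun v => Bound.poleDiv_apply ht0 v)
  rw [map_add, degree_kummerDivisor H hy hm hdvd, zero_add, map_nsmul, hd, nsmul_eq_mul]

include x₀ in
/-- **uniform Riemann** for the spaces `Lgen y n`. -/
theorem finrank_Lgen (ht : Transcendental K t) (hm : m ≠ 0) {y : F} (hy : y ≠ 0)
    (hdvd : ∀ v : Place K F, (m : ℤ) ∣ v.ord y) {n : ℕ}
    (hn : boundRR K F ≤ (n : ℤ) * (finrank K⟮t⟯ F : ℤ)) :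
    (finrank K (Lgen H t m y n) : ℤ) = (n : ℤ) * (finrank K⟮t⟯ F : ℤ) + 1 - genusRR K F := by
  have hdeg := degree_Lgen_divisor (H := H) x₀ ht hm hy hdvd n
  have := finrank_eq_of_boundRR_le (K := K) (F := F)
    (D := kummerDivisor H y m + n • Bound.poleDiv K t) (by rw [hdeg]; exact hn)
  rw [hdeg] at this
  exact this

include x₀ in
/-- the threshold, packaged: there is `n0` (independent of `y`) from which on
`dim Lgen y n + g = n d + 1` in `ℕ`, for any `g : ℕ` with `genusRR K F = g`. -/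
theorem exists_n0_finrank_Lgen (ht : Transcendental K t) (hm : m ≠ 0) {g : ℕ}
    (hg : genusRR K F = (g : ℤ)) :
    ∃ n0 : ℕ, ∀ n, n0 ≤ n → ∀ y : F, y ≠ 0 → (∀ v : Place K F, (m : ℤ) ∣ v.ord y) →
      finrank K (Lgen H t m y n) + g = n * finrank K⟮t⟯ F + 1 := by
  have hfd : FiniteDimensional K⟮t⟯ F := (IsGen.of_transcendental x₀ ht).finite
  have hd : 0 < finrank K⟮t⟯ F := Module.finrank_pos
  refine ⟨(boundRR K F).toNat, fun n hn y hy hdvd => ?_⟩
  have h1 : boundRR K F ≤ (n : ℤ) * (finrank K⟮t⟯ F : ℤ) := by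
    have h2 : boundRR K F ≤ ((boundRR K F).toNat : ℤ) := Int.self_le_toNat _
    have h3 : ((boundRR K F).toNat : ℤ) ≤ (n : ℤ) := by exact_mod_cast hn
    have h4 : (1 : ℤ) ≤ (finrank K⟮t⟯ F : ℤ) := by exact_mod_cast hd
    have h5 : (0 : ℤ) ≤ (n : ℤ) := Int.natCast_nonneg n
    nlinarith
  have := finrank_Lgen (H := H) x₀ ht hm hy hdvd h1
  rw [hg] at this
  have h6 : ((finrank K (Lgen H t m y n) + g : ℕ) : ℤ) = ((n * finrank K⟮t⟯ F + 1 : ℕ) : ℤ) := by
    push_cast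
    omega
  exact_mod_cast h6

end Dim

end Fermat.Agent.GK.SS.LGen
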