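/-
GATE-K / N10-PACKAGE, STACK RULING 2 (helper39): the reduced-lattice package `Glue.LamData` from a
reduction core `RedCore` with the dimension INEQUALITY only.

`LamData.dim` is the equality `dim Lam y n + #nodes = dim Lt1 n + dim Lt2 n`; numerically it is the
exact node count `#Σ + g1 + g2 = 1 + g`.  The flatness count (N7d, `GK/Flat/NodesGe.lean`) delivers
the inequality `1 + g ≤ #Σ + g1 + g2` only.  The other inequality is free: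

* `Glue.finrank_add_card_le_of_pow` : a subspace `Λ ≤ V1 × V2` all of whose elements satisfy the
  power relation at every node has `dim Λ + #nodes ≤ dim V1 + dim V2` (`exists_glue_of_pow` +
  `finrank_glueSub` of `GlueAbs`);
* `RedCore.pow_of_glue_one` : the power relation of the reduced lattices of a reduction core;
* `RedCore.finrank_Lam_add_card_le`, `RedCore.dim_of_ge` : hence `dim_ge ⟹ dim`;
* `RedCore.toLamDataGe` : `RedCore.toLamData` with `dim_ge` instead of `dim`;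
* `RedCore.dim_ge_of_numerics` : `dim_ge` from the Riemann–Roch numerics and
  `1 + g ≤ #Σ + g1 + g2`.
-/
import Fermat.Agent.GK.SS.LamOfRed

set_option autoImplicit false

namespace Fermat.Agent.GK.Glue

open Module

section UpperBound

variable {k : Type*} [Field k] [Infinite k]
variable {V1 V2 : Type*} [AddCommGroup V1] [Module k V1] [AddCommGroup V2] [Module k V2]
variable [FiniteDimensional k V1] [FiniteDimensional k V2]
variable {ι : Type*} [Fintype ι] [DecidableEq ι]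

/-- **The free half of the node count.**  A subspace all of whose elements satisfy the power
relation at every node has codimension at least the number of nodes. -/
theorem finrank_add_card_le_of_pow (e1 : ι → V1 →ₗ[k] k) (e2 : ι → V2 →ₗ[k] k)
    (hsurj : Function.Surjective (evPair e1 e2)) (Λ : Submodule k (V1 × V2))
    {m : ℕ} (hm : 0 < m) (c : k)
    (h : ∀ z ∈ Λ, ∀ x, (e1 x z.1) ^ m = c * (e2 x z.2) ^ m) :
    finrank k Λ + Fintype.card ι ≤ finrank k V1 + finrank k V2 := by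
  obtain ⟨J, ξ, -, hle⟩ := exists_glue_of_pow e1 e2 Λ hm c h
  have hB := finrank_glueSub e1 e2 J ξ hsurj
  have hmono : finrank k Λ ≤ finrank k (glueSub e1 e2 J ξ) := Submodule.finrank_mono hle
  omega

end UpperBound

end Fermat.Agent.GK.Glue

namespace Fermat.Agent.GK.SS

open Module Fermat.Agent.GK.Glue

namespace RedCore

variable {K F k R1 R2 : Type*} [Field K] [Field F] [Algebra K F] [Field k]
  [CommRing R1] [Algebra k R1] [CommRing R2] [Algebra k R2] {Y : Subgroup Fˣ} {m : ℕ}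
  (C : RedCore K F k R1 R2 Y m) {ι : Type*} [Fintype ι]

omit [Fintype ι] in
/-- the power relation `z₁(x)^m = (c2 y / c1 y) * z₂(x)^m` on the reduced lattice -/
theorem pow_of_glue_one (e1 : ι → R1 →ₐ[k] k) (e2 : ι → R2 →ₐ[k] k)
    (glue_one : ∀ n, ∀ x ∈ C.LA 1 n, ∀ j, e1 j (C.ρ1 x) = e2 j (C.ρ2 x))
    (y : Y) (n : ℕ) :
    ∀ z ∈ C.Lam y n, ∀ j, (e1 j z.1) ^ m = C.c2 y / C.c1 y * (e2 j z.2) ^ m := by
  rintro _ ⟨x, hx, rfl⟩ j
  have hxS := C.LA_sub y n x hx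
  have hw := C.LA_pow y n x hx
  have h := glue_one (m * n) _ hw j
  rw [C.ρ1_mul _ _ (Subring.pow_mem _ hxS m) (C.y_mem y),
    C.ρ2_mul _ _ (Subring.pow_mem _ hxS m) (C.y_mem y), C.ρ1_pow hxS, C.ρ2_pow hxS,
    C.ρ1_y, C.ρ2_y, map_mul, map_mul, map_pow, map_pow, AlgHom.commutes, AlgHom.commutes]
    at h
  simp only [Algebra.algebraMap_self, RingHom.id_apply] at h
  have h1 := C.c1_ne y
  show e1 j (C.ρ1 x) ^ m = C.c2 y / C.c1 y * e2 j (C.ρ2 x) ^ m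
  rw [div_mul_eq_mul_div, eq_div_iff h1, h, mul_comm]

variable [Infinite k] [DecidableEq ι]

/-- **the free inequality** `dim Lam y n + #nodes ≤ dim Lt1 n + dim Lt2 n`. -/
theorem finrank_Lam_add_card_le (e1 : ι → R1 →ₐ[k] k) (e2 : ι → R2 →ₐ[k] k)
    (Lt1 : ℕ → Submodule k R1) (Lt2 : ℕ → Submodule k R2)
    (fin1 : ∀ n, FiniteDimensional k (Lt1 n)) (fin2 : ∀ n, FiniteDimensional k (Lt2 n))
    (n0 : ℕ)
    (surj : ∀ n, n0 ≤ n → ∀ a b : ι → k,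
      ∃ z1 ∈ Lt1 n, ∃ z2 ∈ Lt2 n, (∀ x, e1 x z1 = a x) ∧ ∀ x, e2 x z2 = b x)
    (le : ∀ y n, ∀ x ∈ C.LA y n, C.ρ1 x ∈ Lt1 n ∧ C.ρ2 x ∈ Lt2 n)
    (glue_one : ∀ n, ∀ x ∈ C.LA 1 n, ∀ j, e1 j (C.ρ1 x) = e2 j (C.ρ2 x))
    (hm : 0 < m) (y : Y) (n : ℕ) (hn : n0 ≤ n) :
    finrank k (C.Lam y n) + Fintype.card ι ≤ finrank k (Lt1 n) + finrank k (Lt2 n) := by
  have := fin1 n
  have := fin2 n
  -- the evaluations restricted to `Lt1 n`, `Lt2 n`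
  let E1 : ι → ↥(Lt1 n) →ₗ[k] k := fun x => (e1 x).toLinearMap ∘ₗ (Lt1 n).subtype
  let E2 : ι → ↥(Lt2 n) →ₗ[k] k := fun x => (e2 x).toLinearMap ∘ₗ (Lt2 n).subtype
  let incl : ↥(Lt1 n) × ↥(Lt2 n) →ₗ[k] R1 × R2 :=
    LinearMap.prodMap (Lt1 n).subtype (Lt2 n).subtype
  have hincl : Function.Injective incl := by
    intro a b h
    have h' : ((a.1 : R1), (a.2 : R2)) = ((b.1 : R1), (b.2 : R2)) := h
    rw [Prod.ext_iff] at h'
    exact Prod.ext (Subtype.ext h'.1) (Subtype.ext h'.2)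
  let Λ' : Submodule k (↥(Lt1 n) × ↥(Lt2 n)) := (C.Lam y n).comap incl
  have hmap : Λ'.map incl = C.Lam y n := by
    refine Submodule.map_comap_eq_of_le ?_
    rintro _ ⟨x, hx, rfl⟩
    obtain ⟨h1, h2⟩ := le y n x hx
    exact ⟨(⟨C.ρ1 x, h1⟩, ⟨C.ρ2 x, h2⟩), rfl⟩
  have hfr : finrank k Λ' = finrank k (C.Lam y n) := by
    have e := Submodule.equivMapOfInjective incl hincl Λ'
    rw [e.finrank_eq, hmap]
  have hsurj : Function.Surjective (evPair E1 E2) := by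
    rintro ⟨a, b⟩
    obtain ⟨z1, hz1, z2, hz2, h1, h2⟩ := surj n hn a b
    refine ⟨(⟨z1, hz1⟩, ⟨z2, hz2⟩), ?_⟩
    rw [evPair_apply]
    exact Prod.ext (funext fun x => h1 x) (funext fun x => h2 x)
  have hpow : ∀ z ∈ Λ', ∀ x, (E1 x z.1) ^ m = C.c2 y / C.c1 y * (E2 x z.2) ^ m := by
    intro z hz x
    exact C.pow_of_glue_one e1 e2 glue_one y n (incl z) hz x
  have := finrank_add_card_le_of_pow E1 E2 hsurj Λ' hm (C.c2 y / C.c1 y) hpow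
  rwa [hfr] at this

/-- **`dim` from `dim_ge`.** -/
theorem dim_of_ge (e1 : ι → R1 →ₐ[k] k) (e2 : ι → R2 →ₐ[k] k)
    (Lt1 : ℕ → Submodule k R1) (Lt2 : ℕ → Submodule k R2)
    (fin1 : ∀ n, FiniteDimensional k (Lt1 n)) (fin2 : ∀ n, FiniteDimensional k (Lt2 n))
    (n0 : ℕ)
    (surj : ∀ n, n0 ≤ n → ∀ a b : ι → k,
      ∃ z1 ∈ Lt1 n, ∃ z2 ∈ Lt2 n, (∀ x, e1 x z1 = a x) ∧ ∀ x, e2 x z2 = b x)
    (le : ∀ y n, ∀ x ∈ C.LA y n, C.ρ1 x ∈ Lt1 n ∧ C.ρ2 x ∈ Lt2 n)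
    (dim_ge : ∀ y n, n0 ≤ n →
      finrank k (Lt1 n) + finrank k (Lt2 n) ≤ finrank k (C.Lam y n) + Fintype.card ι)
    (glue_one : ∀ n, ∀ x ∈ C.LA 1 n, ∀ j, e1 j (C.ρ1 x) = e2 j (C.ρ2 x))
    (hm : 0 < m) (y : Y) (n : ℕ) (hn : n0 ≤ n) :
    finrank k (C.Lam y n) + Fintype.card ι = finrank k (Lt1 n) + finrank k (Lt2 n) :=
  le_antisymm (C.finrank_Lam_add_card_le e1 e2 Lt1 Lt2 fin1 fin2 n0 surj le glue_one hm y n hn)
    (dim_ge y n hn)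

/-- **The reduced-lattice package from a reduction core, with the dimension INEQUALITY only**
(`RedCore.toLamData` with `dim_ge` instead of `dim`). -/
noncomputable def toLamDataGe (e1 : ι → R1 →ₐ[k] k) (e2 : ι → R2 →ₐ[k] k)
    (Lt1 : ℕ → Submodule k R1) (Lt2 : ℕ → Submodule k R2)
    (fin1 : ∀ n, FiniteDimensional k (Lt1 n)) (fin2 : ∀ n, FiniteDimensional k (Lt2 n))
    (one_mem1 : ∀ n, (1 : R1) ∈ Lt1 n) (one_mem2 : ∀ n, (1 : R2) ∈ Lt2 n) (n0 : ℕ)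
    (surj : ∀ n, n0 ≤ n → ∀ a b : ι → k,
      ∃ z1 ∈ Lt1 n, ∃ z2 ∈ Lt2 n, (∀ x, e1 x z1 = a x) ∧ ∀ x, e2 x z2 = b x)
    (le : ∀ y n, ∀ x ∈ C.LA y n, C.ρ1 x ∈ Lt1 n ∧ C.ρ2 x ∈ Lt2 n)
    (dim_ge : ∀ y n, n0 ≤ n →
      finrank k (Lt1 n) + finrank k (Lt2 n) ≤ finrank k (C.Lam y n) + Fintype.card ι)
    (glue_one : ∀ n, ∀ x ∈ C.LA 1 n, ∀ j, e1 j (C.ρ1 x) = e2 j (C.ρ2 x))
    (hm : 0 < m) : LamData k R1 R2 ι ↥Y m :=
  C.toLamData e1 e2 Lt1 Lt2 fin1 fin2 one_mem1 one_mem2 n0 surj le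
    (C.dim_of_ge e1 e2 Lt1 Lt2 fin1 fin2 n0 surj le dim_ge glue_one hm) glue_one hm

section Rfl

variable (e1 : ι → R1 →ₐ[k] k) (e2 : ι → R2 →ₐ[k] k)
    (Lt1 : ℕ → Submodule k R1) (Lt2 : ℕ → Submodule k R2)
    (fin1 : ∀ n, FiniteDimensional k (Lt1 n)) (fin2 : ∀ n, FiniteDimensional k (Lt2 n))
    (one_mem1 : ∀ n, (1 : R1) ∈ Lt1 n) (one_mem2 : ∀ n, (1 : R2) ∈ Lt2 n) (n0 : ℕ)
    (surj : ∀ n, n0 ≤ n → ∀ a b : ι → k,
      ∃ z1 ∈ Lt1 n, ∃ z2 ∈ Lt2 n, (∀ x, e1 x z1 = a x) ∧ ∀ x, e2 x z2 = b x)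
    (le : ∀ y n, ∀ x ∈ C.LA y n, C.ρ1 x ∈ Lt1 n ∧ C.ρ2 x ∈ Lt2 n)
    (dim_ge : ∀ y n, n0 ≤ n →
      finrank k (Lt1 n) + finrank k (Lt2 n) ≤ finrank k (C.Lam y n) + Fintype.card ι)
    (glue_one : ∀ n, ∀ x ∈ C.LA 1 n, ∀ j, e1 j (C.ρ1 x) = e2 j (C.ρ2 x))
    (hm : 0 < m)

theorem toLamDataGe_eq :
    C.toLamDataGe e1 e2 Lt1 Lt2 fin1 fin2 one_mem1 one_mem2 n0 surj le dim_ge glue_one hm =
      C.toLamData e1 e2 Lt1 Lt2 fin1 fin2 one_mem1 one_mem2 n0 surj le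
        (C.dim_of_ge e1 e2 Lt1 Lt2 fin1 fin2 n0 surj le dim_ge glue_one hm) glue_one hm := rfl

theorem toLamDataGe_Lam (y : Y) (n : ℕ) :
    (C.toLamDataGe e1 e2 Lt1 Lt2 fin1 fin2 one_mem1 one_mem2 n0 surj le dim_ge glue_one hm).Lam
      y n = C.Lam y n := rfl

theorem toLamDataGe_n0 :
    (C.toLamDataGe e1 e2 Lt1 Lt2 fin1 fin2 one_mem1 one_mem2 n0 surj le dim_ge glue_one hm).n0
      = n0 := rfl

theorem toLamDataGe_e1 :
    (C.toLamDataGe e1 e2 Lt1 Lt2 fin1 fin2 one_mem1 one_mem2 n0 surj le dim_ge glue_one hm).e1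
      = e1 := rfl

theorem toLamDataGe_e2 :
    (C.toLamDataGe e1 e2 Lt1 Lt2 fin1 fin2 one_mem1 one_mem2 n0 surj le dim_ge glue_one hm).e2
      = e2 := rfl

theorem toLamDataGe_Lt1 :
    (C.toLamDataGe e1 e2 Lt1 Lt2 fin1 fin2 one_mem1 one_mem2 n0 surj le dim_ge glue_one hm).Lt1
      = Lt1 := rfl

theorem toLamDataGe_Lt2 :
    (C.toLamDataGe e1 e2 Lt1 Lt2 fin1 fin2 one_mem1 one_mem2 n0 surj le dim_ge glue_one hm).Lt2
      = Lt2 := rfl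

theorem toLamDataGe_c (y : Y) :
    (C.toLamDataGe e1 e2 Lt1 Lt2 fin1 fin2 one_mem1 one_mem2 n0 surj le dim_ge glue_one hm).c y
      = C.c2 y / C.c1 y := rfl

end Rfl

end RedCore

/-- **`dim_ge` from the Riemann–Roch numerics**: `dim_K L(D_y + nE) = nd + 1 - g`,
`dim_k Lt_i(n) = n d_i + 1 - g_i`, `d = d1 + d2`, and the node-count INEQUALITY
`1 + g ≤ #Σ + g1 + g2` (the output of the flatness count). -/
theorem RedCore.dim_ge_of_numerics {a l1 l2 s n d d1 d2 g g1 g2 : ℕ}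
    (ha : a + g = n * d + 1) (h1 : l1 + g1 = n * d1 + 1) (h2 : l2 + g2 = n * d2 + 1)
    (hd : d = d1 + d2) (hs : 1 + g ≤ s + g1 + g2) : l1 + l2 ≤ a + s := by
  subst hd
  rw [Nat.mul_add] at ha
  omega

end Fermat.Agent.GK.SS
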