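/-
GATE-K / N10-PACKAGE, `LamOfRed` layer 2 (helper47): the reduction core `RedCore`
(`GK/SS/LamOfRed.lean`), hence the reduced-lattice package `Glue.LamData`, from TWO J1 reduction
data `R1 : RedData K F k Ft1`, `R2 : RedData K F k Ft2` on the same field (helper90's
`GK/MultiVal/TwoRedData.lean`: `RedCompat`, `ball2`, `red2`, `HasOrthoBases`).

The coordinate rings of the two components are ARBITRARY commutative `k`-algebras `C1`, `C2` with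
injective `k`-algebra maps `i1 : C1 →ₐ[k] Ft1`, `i2 : C2 →ₐ[k] Ft2` into the residue fields
(subalgebra inclusions, or helper29's `C × C` model with `Ft2` identified through the
Atkin–Lehner transport).  The nodes are pairs of `k`-points `e1 j : C1 →ₐ[k] k`,
`e2 j : C2 →ₐ[k] k`.

* `redT R x` : the total reduction (`0` outside `R.Rw`); `pull i z` : the preimage under `i`
  (`0` outside the range);
* `regRing` : the subring of `Rw1 ⊓ Rw2` whose two reductions lie in the coordinate rings;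
* `TwoRedInput` : the inputs (generic spaces `L y n = L(D_y + n E)` as `K`-subspaces, abstract;
  constant reductions of the units; the spaces `Ltf_i n ⊂ Ft_i` inside the coordinate rings; `le`;
  nodes, `surj`; the numerical INEQUALITY `dim_ge`; `glue_one`);
* `TwoRedInput.core : RedCore K F k C1 C2 U m` and
  `finrank_Lam : finrank k (core.Lam y n) = finrank K (L y n)` (from `finrank_redBall2`);
* `TwoRedInput.lamData : LamData k C1 C2 ι ↥U m`, with the transparent membership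
  `mk_mem_lamData_Lam`, `mem_lamData_Lam`.
-/
import Fermat.Agent.GK.SS.LamGe
import Fermat.Agent.GK.MultiVal.TwoRedData

set_option autoImplicit false

namespace Fermat.Agent.GK.SS.TwoRed

open Module Fermat.Agent.GJ.J1 Fermat.Agent.GK.MultiVal Fermat.Agent.GK.Glue

section Pull

variable {k C Ft : Type*} [Field k] [CommRing C] [Algebra k C] [Field Ft] [Algebra k Ft]

open Classical in
/-- the preimage under `i` (junk value `0` outside the range) -/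
noncomputable def pull (i : C →ₐ[k] Ft) (z : Ft) : C :=
  if h : ∃ r, i r = z then h.choose else 0

theorem apply_pull (i : C →ₐ[k] Ft) {z : Ft} (h : ∃ r, i r = z) : i (pull i z) = z := by
  unfold pull
  rw [dif_pos h]
  exact h.choose_spec

theorem pull_apply (i : C →ₐ[k] Ft) (hi : Function.Injective i) (r : C) : pull i (i r) = r :=
  hi (apply_pull i ⟨r, rfl⟩)

theorem pull_eq (i : C →ₐ[k] Ft) (hi : Function.Injective i) {z : Ft} {r : C} (h : i r = z) :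
    pull i z = r := by
  rw [← h]
  exact pull_apply i hi r

end Pull

section RedT

variable {K F k Ft : Type*} [Field K] [Field F] [Algebra K F] [Field k] [Field Ft] [Algebra k Ft]
  (R : RedData K F k Ft)

open Classical in
/-- the total reduction map (junk value `0` outside `R.Rw`) -/
noncomputable def redT (x : F) : Ft := if h : x ∈ R.Rw then R.red ⟨x, h⟩ else 0

theorem redT_of_mem {x : F} (h : x ∈ R.Rw) : redT R x = R.red ⟨x, h⟩ := dif_pos h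

theorem redT_add {x x' : F} (h : x ∈ R.Rw) (h' : x' ∈ R.Rw) :
    redT R (x + x') = redT R x + redT R x' := by
  rw [redT_of_mem R h, redT_of_mem R h', redT_of_mem R (R.Rw.add_mem _ _ h h'), ← map_add]
  rfl

theorem redT_mul {x x' : F} (h : x ∈ R.Rw) (h' : x' ∈ R.Rw) :
    redT R (x * x') = redT R x * redT R x' := by
  rw [redT_of_mem R h, redT_of_mem R h', redT_of_mem R (R.Rw.mul_mem _ _ h h'), ← map_mul]
  rfl

theorem redT_neg {x : F} (h : x ∈ R.Rw) : redT R (-x) = -redT R x := by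
  rw [redT_of_mem R h, redT_of_mem R (R.Rw.neg_mem _ h), ← map_neg]
  rfl

theorem redT_zero : redT R 0 = 0 := by
  rw [redT_of_mem R R.Rw.zero_mem]
  exact map_zero R.red

theorem redT_one : redT R 1 = 1 := by
  rw [redT_of_mem R R.Rw.one_mem]
  exact map_one R.red

theorem redT_algebraMap (a : R.A) :
    redT R (algebraMap K F (a : K)) = algebraMap k Ft (R.res a) := by
  rw [redT_of_mem R ((R.mem_A_iff a).1 a.2), R.red_algebraMap]

end RedT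

variable {K F k Ft1 Ft2 : Type*} [Field K] [Field F] [Algebra K F] [Field k]
  [Field Ft1] [Algebra k Ft1] [Field Ft2] [Algebra k Ft2]
  {C1 C2 : Type*} [CommRing C1] [Algebra k C1] [CommRing C2] [Algebra k C2]

section RegRing

variable (R1 : RedData K F k Ft1) (R2 : RedData K F k Ft2)
  (i1 : C1 →ₐ[k] Ft1) (i2 : C2 →ₐ[k] Ft2)

/-- the subring of `Rw1 ⊓ Rw2` whose two reductions lie in the coordinate rings -/
def regRing : Subring F where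
  carrier := {x | x ∈ R1.Rw ∧ x ∈ R2.Rw ∧ (∃ r, i1 r = redT R1 x) ∧ ∃ r, i2 r = redT R2 x}
  mul_mem' := by
    rintro x x' ⟨h1, h2, ⟨r1, hr1⟩, ⟨r2, hr2⟩⟩ ⟨h1', h2', ⟨r1', hr1'⟩, ⟨r2', hr2'⟩⟩
    refine ⟨R1.Rw.mul_mem _ _ h1 h1', R2.Rw.mul_mem _ _ h2 h2', ⟨r1 * r1', ?_⟩, ⟨r2 * r2', ?_⟩⟩
    · rw [map_mul, hr1, hr1', redT_mul R1 h1 h1']
    · rw [map_mul, hr2, hr2', redT_mul R2 h2 h2']
  one_mem' := ⟨R1.Rw.one_mem, R2.Rw.one_mem, ⟨1, by rw [map_one, redT_one]⟩,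
    ⟨1, by rw [map_one, redT_one]⟩⟩
  add_mem' := by
    rintro x x' ⟨h1, h2, ⟨r1, hr1⟩, ⟨r2, hr2⟩⟩ ⟨h1', h2', ⟨r1', hr1'⟩, ⟨r2', hr2'⟩⟩
    refine ⟨R1.Rw.add_mem _ _ h1 h1', R2.Rw.add_mem _ _ h2 h2', ⟨r1 + r1', ?_⟩, ⟨r2 + r2', ?_⟩⟩
    · rw [map_add, hr1, hr1', redT_add R1 h1 h1']
    · rw [map_add, hr2, hr2', redT_add R2 h2 h2']
  zero_mem' := ⟨R1.Rw.zero_mem, R2.Rw.zero_mem, ⟨0, by rw [map_zero, redT_zero]⟩,
    ⟨0, by rw [map_zero, redT_zero]⟩⟩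
  neg_mem' := by
    rintro x ⟨h1, h2, ⟨r1, hr1⟩, ⟨r2, hr2⟩⟩
    refine ⟨R1.Rw.neg_mem _ h1, R2.Rw.neg_mem _ h2, ⟨-r1, ?_⟩, ⟨-r2, ?_⟩⟩
    · rw [map_neg, hr1, redT_neg R1 h1]
    · rw [map_neg, hr2, redT_neg R2 h2]

variable {R1 R2 i1 i2}

theorem mem_regRing {x : F} :
    x ∈ regRing R1 R2 i1 i2 ↔
      x ∈ R1.Rw ∧ x ∈ R2.Rw ∧ (∃ r, i1 r = redT R1 x) ∧ ∃ r, i2 r = redT R2 x := Iff.rfl

end RegRing

/-- **The inputs of the reduced-lattice package for two reduction data** (see the file header). -/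
structure TwoRedInput (R1 : RedData K F k Ft1) (R2 : RedData K F k Ft2)
    (i1 : C1 →ₐ[k] Ft1) (i2 : C2 →ₐ[k] Ft2) (U : Subgroup Fˣ) (m : ℕ)
    (ι : Type*) [Fintype ι] where
  /-- `L(D_y + n E)`, `D_y = div y / m`, `E` the polar divisor of the chart -/
  L : ↥U → ℕ → Submodule K F
  L_fin : ∀ y n, FiniteDimensional K (L y n)
  L_mul : ∀ y y' n n' x x', x ∈ L y n → x' ∈ L y' n' → x * x' ∈ L (y * y') (n + n')
  L_pow : ∀ y n x, x ∈ L y n → x ^ m * ((y : Fˣ) : F) ∈ L 1 (m * n)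
  /-- the constant reduction of `y` on the first component -/
  c1 : ↥U → k
  /-- the constant reduction of `y` on the second component -/
  c2 : ↥U → k
  y_red1 : ∀ y : ↥U, ∃ h : ((y : Fˣ) : F) ∈ R1.Rw,
    R1.red ⟨((y : Fˣ) : F), h⟩ = algebraMap k Ft1 (c1 y)
  y_red2 : ∀ y : ↥U, ∃ h : ((y : Fˣ) : F) ∈ R2.Rw,
    R2.red ⟨((y : Fˣ) : F), h⟩ = algebraMap k Ft2 (c2 y)
  c1_ne : ∀ y, c1 y ≠ 0
  /-- `L~_1(n E~_1)` inside the first residue field -/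
  Ltf1 : ℕ → Submodule k Ft1
  /-- `L~_2(n E~_2)` inside the second residue field -/
  Ltf2 : ℕ → Submodule k Ft2
  Ltf1_fin : ∀ n, FiniteDimensional k (Ltf1 n)
  Ltf2_fin : ∀ n, FiniteDimensional k (Ltf2 n)
  Ltf1_range : ∀ n z, z ∈ Ltf1 n → ∃ r, i1 r = z
  Ltf2_range : ∀ n z, z ∈ Ltf2 n → ∃ r, i2 r = z
  one_mem1 : ∀ n, (1 : Ft1) ∈ Ltf1 n
  one_mem2 : ∀ n, (1 : Ft2) ∈ Ltf2 n
  le : ∀ y n x (h1 : x ∈ R1.Rw) (h2 : x ∈ R2.Rw), x ∈ L y n →
    R1.red ⟨x, h1⟩ ∈ Ltf1 n ∧ R2.red ⟨x, h2⟩ ∈ Ltf2 n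
  /-- evaluation at the first branch of the node -/
  e1 : ι → C1 →ₐ[k] k
  /-- evaluation at the second branch of the node -/
  e2 : ι → C2 →ₐ[k] k
  /-- the Riemann–Roch threshold -/
  n0 : ℕ
  surj : ∀ n, n0 ≤ n → ∀ a b : ι → k,
    ∃ z1, i1 z1 ∈ Ltf1 n ∧ ∃ z2, i2 z2 ∈ Ltf2 n ∧ (∀ x, e1 x z1 = a x) ∧ ∀ x, e2 x z2 = b x
  /-- the dimension INEQUALITY (helper39's STACK RULING 2: the flatness count N7d gives `≥` only;
  the other inequality is free, `RedCore.dim_of_ge`) -/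
  dim_ge : ∀ y n, n0 ≤ n →
    finrank k (Ltf1 n) + finrank k (Ltf2 n) ≤ finrank K (L y n) + Fintype.card ι
  glue_one : ∀ n x (h1 : x ∈ R1.Rw) (h2 : x ∈ R2.Rw), x ∈ L 1 n → ∀ j z1 z2,
    i1 z1 = R1.red ⟨x, h1⟩ → i2 z2 = R2.red ⟨x, h2⟩ → e1 j z1 = e2 j z2
  hm : 0 < m

namespace TwoRedInput

variable {R1 : RedData K F k Ft1} {R2 : RedData K F k Ft2}
  {i1 : C1 →ₐ[k] Ft1} {i2 : C2 →ₐ[k] Ft2} {U : Subgroup Fˣ} {m : ℕ}
  {ι : Type*} [Fintype ι] (T : TwoRedInput R1 R2 i1 i2 U m ι)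
  (hc : RedCompat R1 R2) (hi1 : Function.Injective i1) (hi2 : Function.Injective i2)

/-- the lattice `L(D_y + nE) ∩ Rw1 ∩ Rw2` -/
def LA (y : ↥U) (n : ℕ) : Set F := {x | x ∈ T.L y n ∧ x ∈ R1.Rw ∧ x ∈ R2.Rw}

theorem mem_LA {y : ↥U} {n : ℕ} {x : F} :
    x ∈ T.LA y n ↔ x ∈ T.L y n ∧ x ∈ R1.Rw ∧ x ∈ R2.Rw := Iff.rfl

theorem LA_sub_regRing {y : ↥U} {n : ℕ} {x : F} (hx : x ∈ T.LA y n) :
    x ∈ regRing R1 R2 i1 i2 := by
  obtain ⟨hL, h1, h2⟩ := hx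
  obtain ⟨a, b⟩ := T.le y n x h1 h2 hL
  refine ⟨h1, h2, ?_, ?_⟩
  · rw [redT_of_mem R1 h1]
    exact T.Ltf1_range n _ a
  · rw [redT_of_mem R2 h2]
    exact T.Ltf2_range n _ b

include hc in
theorem algebraMap_mem_Rw2 (a : R1.A) : algebraMap K F (a : K) ∈ R2.Rw :=
  (hc.mem_iff₂ (a : K)).2 a.2

include hc in
theorem redT2_algebraMap (a : R1.A) :
    redT R2 (algebraMap K F (a : K)) = algebraMap k Ft2 (R1.res a) := by
  have ha2 : (a : K) ∈ R2.A := hc.A_eq ▸ a.2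
  have := redT_algebraMap R2 ⟨(a : K), ha2⟩
  rw [this, ← hc.res_eq (a : K) a.2 ha2]

/-- **the reduction core of two reduction data** -/
noncomputable def core : RedCore K F k C1 C2 U m where
  A := R1.A
  π := R1.res
  π_surj := R1.res_surjective
  S := regRing R1 R2 i1 i2
  ρ1 := fun x => pull i1 (redT R1 x)
  ρ2 := fun x => pull i2 (redT R2 x)
  A_mem := by
    intro a
    refine ⟨(R1.mem_A_iff a).1 a.2, algebraMap_mem_Rw2 hc a, ⟨algebraMap k C1 (R1.res a), ?_⟩,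
      ⟨algebraMap k C2 (R1.res a), ?_⟩⟩
    · rw [redT_algebraMap, AlgHom.commutes]
    · rw [redT2_algebraMap hc, AlgHom.commutes]
  ρ1_alg := by
    intro a
    refine pull_eq i1 hi1 ?_
    rw [redT_algebraMap, AlgHom.commutes]
  ρ2_alg := by
    intro a
    refine pull_eq i2 hi2 ?_
    rw [redT2_algebraMap hc, AlgHom.commutes]
  ρ1_add := by
    rintro x x' ⟨h1, -, hr, -⟩ ⟨h1', -, hr', -⟩
    refine pull_eq i1 hi1 ?_
    rw [map_add, apply_pull i1 hr, apply_pull i1 hr', redT_add R1 h1 h1']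
  ρ2_add := by
    rintro x x' ⟨-, h2, -, hr⟩ ⟨-, h2', -, hr'⟩
    refine pull_eq i2 hi2 ?_
    rw [map_add, apply_pull i2 hr, apply_pull i2 hr', redT_add R2 h2 h2']
  ρ1_mul := by
    rintro x x' ⟨h1, -, hr, -⟩ ⟨h1', -, hr', -⟩
    refine pull_eq i1 hi1 ?_
    rw [map_mul, apply_pull i1 hr, apply_pull i1 hr', redT_mul R1 h1 h1']
  ρ2_mul := by
    rintro x x' ⟨-, h2, -, hr⟩ ⟨-, h2', -, hr'⟩
    refine pull_eq i2 hi2 ?_
    rw [map_mul, apply_pull i2 hr, apply_pull i2 hr', redT_mul R2 h2 h2']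
  LA := T.LA
  LA_sub := fun y n x hx => T.LA_sub_regRing hx
  LA_zero := fun y n => ⟨(T.L y n).zero_mem, R1.Rw.zero_mem, R2.Rw.zero_mem⟩
  LA_add := by
    rintro y n x x' ⟨hL, h1, h2⟩ ⟨hL', h1', h2'⟩
    exact ⟨(T.L y n).add_mem hL hL', R1.Rw.add_mem _ _ h1 h1', R2.Rw.add_mem _ _ h2 h2'⟩
  LA_smul := by
    rintro y n a x ⟨hL, h1, h2⟩
    refine ⟨?_, R1.Rw.mul_mem _ _ ((R1.mem_A_iff a).1 a.2) h1,
      R2.Rw.mul_mem _ _ (algebraMap_mem_Rw2 hc a) h2⟩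
    rw [← Algebra.smul_def]
    exact (T.L y n).smul_mem _ hL
  LA_mul := by
    rintro y y' n n' x x' ⟨hL, h1, h2⟩ ⟨hL', h1', h2'⟩
    exact ⟨T.L_mul y y' n n' x x' hL hL', R1.Rw.mul_mem _ _ h1 h1', R2.Rw.mul_mem _ _ h2 h2'⟩
  LA_pow := by
    rintro y n x ⟨hL, h1, h2⟩
    obtain ⟨hy1, -⟩ := T.y_red1 y
    obtain ⟨hy2, -⟩ := T.y_red2 y
    exact ⟨T.L_pow y n x hL, R1.Rw.mul_mem _ _ (pow_mem h1 m) hy1,
      R2.Rw.mul_mem _ _ (pow_mem h2 m) hy2⟩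
  c1 := T.c1
  c2 := T.c2
  y_mem := by
    intro y
    obtain ⟨hy1, e1⟩ := T.y_red1 y
    obtain ⟨hy2, e2⟩ := T.y_red2 y
    refine ⟨hy1, hy2, ⟨algebraMap k C1 (T.c1 y), ?_⟩, ⟨algebraMap k C2 (T.c2 y), ?_⟩⟩
    · rw [redT_of_mem R1 hy1, e1, AlgHom.commutes]
    · rw [redT_of_mem R2 hy2, e2, AlgHom.commutes]
  ρ1_y := by
    intro y
    obtain ⟨hy1, e1⟩ := T.y_red1 y
    refine pull_eq i1 hi1 ?_
    rw [redT_of_mem R1 hy1, e1, AlgHom.commutes]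
  ρ2_y := by
    intro y
    obtain ⟨hy2, e2⟩ := T.y_red2 y
    refine pull_eq i2 hi2 ?_
    rw [redT_of_mem R2 hy2, e2, AlgHom.commutes]
  c1_ne := T.c1_ne

theorem core_LA : (T.core hc hi1 hi2).LA = T.LA := rfl

theorem core_ρ1 (x : F) : (T.core hc hi1 hi2).ρ1 x = pull i1 (redT R1 x) := rfl

theorem core_ρ2 (x : F) : (T.core hc hi1 hi2).ρ2 x = pull i2 (redT R2 x) := rfl

/-- the two reductions of an element of the lattice, pushed to the residue fields -/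
theorem apply_core_ρ {y : ↥U} {n : ℕ} {x : F} (hL : x ∈ T.L y n) (h1 : x ∈ R1.Rw)
    (h2 : x ∈ R2.Rw) :
    i1 ((T.core hc hi1 hi2).ρ1 x) = R1.red ⟨x, h1⟩ ∧
      i2 ((T.core hc hi1 hi2).ρ2 x) = R2.red ⟨x, h2⟩ := by
  obtain ⟨-, -, hr1, hr2⟩ := T.LA_sub_regRing (y := y) (n := n) ⟨hL, h1, h2⟩
  rw [core_ρ1, core_ρ2, apply_pull i1 hr1, apply_pull i2 hr2, redT_of_mem R1 h1,
    redT_of_mem R2 h2]
  exact ⟨rfl, rfl⟩

/-- the product of the two inclusions of the coordinate rings -/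
def inclF : C1 × C2 →ₗ[k] Ft1 × Ft2 := LinearMap.prodMap i1.toLinearMap i2.toLinearMap

theorem inclF_apply (z : C1 × C2) : inclF (i1 := i1) (i2 := i2) z = (i1 z.1, i2 z.2) := rfl

include hi1 hi2 in
theorem inclF_injective : Function.Injective (inclF (i1 := i1) (i2 := i2)) := by
  rintro ⟨a, b⟩ ⟨a', b'⟩ h
  have h' : (i1 a, i2 b) = (i1 a', i2 b') := h
  rw [Prod.ext_iff] at h'
  exact Prod.ext (hi1 h'.1) (hi2 h'.2)

/-- the reduced lattice, pushed to `Ft1 × Ft2`, is helper90's `redBall` -/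
theorem map_Lam (y : ↥U) (n : ℕ) :
    ((T.core hc hi1 hi2).Lam y n).map (inclF (i1 := i1) (i2 := i2))
      = redBall (k := k) (ball2 R1 R2) (red2 R1 R2).toAddMonoidHom (T.L y n) := by
  refine le_antisymm ?_ ?_
  · rintro _ ⟨_, ⟨x, hx, rfl⟩, rfl⟩
    obtain ⟨hL, h1, h2⟩ := (hx : x ∈ T.LA y n)
    obtain ⟨a, b⟩ := T.apply_core_ρ hc hi1 hi2 hL h1 h2
    have : inclF (i1 := i1) (i2 := i2) ((T.core hc hi1 hi2).ρ1 x, (T.core hc hi1 hi2).ρ2 x)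
        = (red2 R1 R2).toAddMonoidHom ⟨x, mem_ball2.mpr ⟨h1, h2⟩⟩ := by
      rw [inclF_apply, a, b]
      rfl
    rw [this]
    exact red_mem_redBall _ hL
  · unfold redBall
    rw [Submodule.span_le]
    rintro _ ⟨x, hxV, rfl⟩
    have hxb := mem_ball2.mp x.2
    have hL : (x : F) ∈ T.L y n := hxV
    obtain ⟨a, b⟩ := T.apply_core_ρ hc hi1 hi2 hL hxb.1 hxb.2
    refine ⟨((T.core hc hi1 hi2).ρ1 (x : F), (T.core hc hi1 hi2).ρ2 (x : F)),
      (T.core hc hi1 hi2).mk_mem_Lam (y := y) (n := n) ⟨hL, hxb.1, hxb.2⟩, ?_⟩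
    rw [inclF_apply, a, b]
    rfl

/-- **rank preservation**: `dim_k Λ_y(n) = dim_K L(D_y + nE)`. -/
theorem finrank_Lam (ho : HasOrthoBases R1.A (ball2 R1 R2) (rad2 R1 R2)) (y : ↥U) (n : ℕ) :
    finrank k ((T.core hc hi1 hi2).Lam y n) = finrank K (T.L y n) := by
  have := T.L_fin y n
  rw [← finrank_redBall2 hc ho (T.L y n), ← T.map_Lam hc hi1 hi2 y n]
  exact (LinearEquiv.finrank_eq (Submodule.equivMapOfInjective _
    (inclF_injective hi1 hi2) _))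

/-- `Lt_i n` pulled back to the coordinate rings -/
def Lt1 (n : ℕ) : Submodule k C1 := (T.Ltf1 n).comap i1.toLinearMap

/-- `Lt_i n` pulled back to the coordinate rings -/
def Lt2 (n : ℕ) : Submodule k C2 := (T.Ltf2 n).comap i2.toLinearMap

theorem mem_Lt1 {n : ℕ} {z : C1} : z ∈ T.Lt1 n ↔ i1 z ∈ T.Ltf1 n := Iff.rfl

theorem mem_Lt2 {n : ℕ} {z : C2} : z ∈ T.Lt2 n ↔ i2 z ∈ T.Ltf2 n := Iff.rfl

theorem map_Lt1 (n : ℕ) : (T.Lt1 n).map i1.toLinearMap = T.Ltf1 n := by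
  refine Submodule.map_comap_eq_of_le ?_
  intro z hz
  obtain ⟨r, rfl⟩ := T.Ltf1_range n z hz
  exact ⟨r, rfl⟩

theorem map_Lt2 (n : ℕ) : (T.Lt2 n).map i2.toLinearMap = T.Ltf2 n := by
  refine Submodule.map_comap_eq_of_le ?_
  intro z hz
  obtain ⟨r, rfl⟩ := T.Ltf2_range n z hz
  exact ⟨r, rfl⟩

include hi1 in
theorem finrank_Lt1 (n : ℕ) : finrank k (T.Lt1 n) = finrank k (T.Ltf1 n) := by
  have e := Submodule.equivMapOfInjective i1.toLinearMap hi1 (T.Lt1 n)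
  rw [e.finrank_eq, T.map_Lt1]

include hi2 in
theorem finrank_Lt2 (n : ℕ) : finrank k (T.Lt2 n) = finrank k (T.Ltf2 n) := by
  have e := Submodule.equivMapOfInjective i2.toLinearMap hi2 (T.Lt2 n)
  rw [e.finrank_eq, T.map_Lt2]

include hi1 in
theorem fin_Lt1 (n : ℕ) : FiniteDimensional k (T.Lt1 n) := by
  have := T.Ltf1_fin n
  have e := Submodule.equivMapOfInjective i1.toLinearMap hi1 (T.Lt1 n)
  rw [T.map_Lt1] at e
  exact e.symm.finiteDimensional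

include hi2 in
theorem fin_Lt2 (n : ℕ) : FiniteDimensional k (T.Lt2 n) := by
  have := T.Ltf2_fin n
  have e := Submodule.equivMapOfInjective i2.toLinearMap hi2 (T.Lt2 n)
  rw [T.map_Lt2] at e
  exact e.symm.finiteDimensional

variable [Infinite k] [DecidableEq ι]

/-- **The reduced-lattice package of two reduction data.** -/
noncomputable def lamData (ho : HasOrthoBases R1.A (ball2 R1 R2) (rad2 R1 R2)) :
    LamData k C1 C2 ι ↥U m :=
  (T.core hc hi1 hi2).toLamDataGe T.e1 T.e2 T.Lt1 T.Lt2 (T.fin_Lt1 hi1) (T.fin_Lt2 hi2)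
    (fun n => by rw [mem_Lt1, map_one]; exact T.one_mem1 n)
    (fun n => by rw [mem_Lt2, map_one]; exact T.one_mem2 n)
    T.n0
    (fun n hn a b => by
      obtain ⟨z1, h1, z2, h2, h3, h4⟩ := T.surj n hn a b
      exact ⟨z1, h1, z2, h2, h3, h4⟩)
    (fun y n x hx => by
      obtain ⟨hL, h1, h2⟩ := (hx : x ∈ T.LA y n)
      obtain ⟨a, b⟩ := T.apply_core_ρ hc hi1 hi2 hL h1 h2
      obtain ⟨c, d⟩ := T.le y n x h1 h2 hL
      exact ⟨by rw [mem_Lt1, a]; exact c, by rw [mem_Lt2, b]; exact d⟩)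
    (fun y n hn => by
      rw [T.finrank_Lam hc hi1 hi2 ho, T.finrank_Lt1 hi1, T.finrank_Lt2 hi2]
      exact T.dim_ge y n hn)
    (fun n x hx j => by
      obtain ⟨hL, h1, h2⟩ := (hx : x ∈ T.LA 1 n)
      obtain ⟨a, b⟩ := T.apply_core_ρ hc hi1 hi2 hL h1 h2
      exact T.glue_one n x h1 h2 hL j _ _ a b)
    T.hm

variable (ho : HasOrthoBases R1.A (ball2 R1 R2) (rad2 R1 R2))

theorem lamData_Lam (y : ↥U) (n : ℕ) :
    (T.lamData hc hi1 hi2 ho).Lam y n = (T.core hc hi1 hi2).Lam y n := rfl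

theorem lamData_n0 : (T.lamData hc hi1 hi2 ho).n0 = T.n0 := rfl

theorem lamData_e1 : (T.lamData hc hi1 hi2 ho).e1 = T.e1 := rfl

theorem lamData_e2 : (T.lamData hc hi1 hi2 ho).e2 = T.e2 := rfl

/-- **transparent membership**: `z ∈ Λ_y(n)` iff `z` is the pair of reductions of some
`x ∈ L(D_y + nE) ∩ Rw1 ∩ Rw2`. -/
theorem mem_lamData_Lam {y : ↥U} {n : ℕ} {z : C1 × C2} :
    z ∈ (T.lamData hc hi1 hi2 ho).Lam y n ↔
      ∃ x, ∃ (h1 : x ∈ R1.Rw) (h2 : x ∈ R2.Rw), x ∈ T.L y n ∧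
        i1 z.1 = R1.red ⟨x, h1⟩ ∧ i2 z.2 = R2.red ⟨x, h2⟩ := by
  rw [lamData_Lam, RedCore.mem_Lam]
  constructor
  · rintro ⟨x, hx, rfl⟩
    obtain ⟨hL, h1, h2⟩ := (hx : x ∈ T.LA y n)
    obtain ⟨a, b⟩ := T.apply_core_ρ hc hi1 hi2 hL h1 h2
    exact ⟨x, h1, h2, hL, a, b⟩
  · rintro ⟨x, h1, h2, hL, a, b⟩
    obtain ⟨a', b'⟩ := T.apply_core_ρ hc hi1 hi2 hL h1 h2
    refine ⟨x, ⟨hL, h1, h2⟩, Prod.ext (hi1 ?_) (hi2 ?_)⟩
    · rw [a, a']
    · rw [b, b']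

/-- the pair of reductions of a lattice element lies in the reduced lattice -/
theorem mk_mem_lamData_Lam {y : ↥U} {n : ℕ} {x : F} (h1 : x ∈ R1.Rw) (h2 : x ∈ R2.Rw)
    (hL : x ∈ T.L y n) {z1 : C1} {z2 : C2} (a : i1 z1 = R1.red ⟨x, h1⟩)
    (b : i2 z2 = R2.red ⟨x, h2⟩) : (z1, z2) ∈ (T.lamData hc hi1 hi2 ho).Lam y n :=
  (T.mem_lamData_Lam hc hi1 hi2 ho).2 ⟨x, h1, h2, hL, a, b⟩

end TwoRedInput

end Fermat.Agent.GK.SS.TwoRed
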