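/-
GATE-K / N10-PACKAGE, `LamOfRed` layer 3 (helper47): the reduced-lattice package for a common
Gauss chart `t` of two reduction data, with every generic-fibre and valuation-theoretic field of
`TwoRed.TwoRedInput` DISCHARGED:

* `L y n := LGen.Lgen H t m y n = L((1/m) div y + n (t)_∞)` (`GK/SS/LGeneric.lean`: `L_fin`,
  `L_mul`, `L_pow`, uniform Riemann);
* `Ltf_i n := Lfib k (red_i t) n`, and `le` is helper96's `red_mem_Lfib_ball2_of_pow`
  (`GK/Red/TwoRed.lean`) through the `Lz` bridge `LGen.mem_Lgen_iff`.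

`ChartInput` lists EXACTLY what is left (all on the special fibre, all chart-generic):
* the units: `U_dvd` (`m ∣ div y`), constant nonzero reductions `c1 c2`;
* the coordinate rings `i_1 : C1 →ₐ[k] Ft1`, `i_2 : C2 →ₐ[k] Ft2` contain `Lfib k (red_i t) n`
  (`range1`, `range2`), finite dimensionality (`fin1`, `fin2`);
* the nodes `e1 e2`, `surj` (joint evaluation onto for `n ≥ nS`);
* the numerics: `genusRR K F = g`, component Riemann `dim Lfib k (red_i t) n + g_i = n d_i + 1`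
  (`n ≥ nS`), `[F : K(t)] = d1 + d2`, node-count INEQUALITY `1 + g ≤ #ι + g1 + g2` (N7d);
* `glue_one` : reductions of `Lfib K t n ∩ Rw1 ∩ Rw2` take equal values on the two branches (N6).

Outputs: `ChartInput.twoRedInput`, `ChartInput.lamData : LamData k C1 C2 ι ↥U m`, and

* `hLam_of_one_mem` : **the hypothesis `hLam` of helper30's `claim2_core`** (STACK RULING 1 C):
  if `(1, 1) ∈ Λ_y(n)` for one `n ≥ n0`, then for all `b ≥ n0` and `x ∈ Rw1 ⊓ Rw2` with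
  `x ^ m * y ∈ Lfib K t (m b)`, `red2 x ∈ M b`, for ANY family `M` of subspaces receiving the
  reductions of `Lfib K t b ∩ Rw1 ∩ Rw2` (`hT` of `claim2_core`).
-/
import Fermat.Agent.GK.SS.LamOfTwoRed
import Fermat.Agent.GK.SS.LGeneric
import Fermat.Agent.GK.Glue.GlueCoreExt
import Fermat.Agent.GK.Red.TwoRed

set_option autoImplicit false

noncomputable section

open AlgebraicCurve IntermediateField Module

namespace Fermat.Agent.GK.SS.TwoRed

open Fermat.Agent.S24 Fermat.Agent.RRh45 Fermat.Agent.GJ.J1 Fermat.Agent.GJ.J1.InstGen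
open Fermat.Agent.GJ.FF.PrincipalOf Fermat.Agent.GK.MultiVal Fermat.Agent.GK.Glue
open Fermat.Agent.GK.SS.LGen Fermat.Agent.GK.Red

variable {K F k Ft1 Ft2 : Type*} [Field K] [Field F] [Algebra K F] [Field k]
  [Field Ft1] [Algebra k Ft1] [Field Ft2] [Algebra k Ft2]
  {C1 C2 : Type*} [CommRing C1] [Algebra k C1] [CommRing C2] [Algebra k C2]
  [FiniteResidues K F] [HasPrincipalDivisors K F] [Nonempty (Place K F)]

/-- **What is left for the reduced-lattice package at a common Gauss chart** (see the header). -/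
structure ChartInput (R1 : RedData K F k Ft1) (R2 : RedData K F k Ft2)
    (i1 : C1 →ₐ[k] Ft1) (i2 : C2 →ₐ[k] Ft2) (U : Subgroup Fˣ) (m : ℕ)
    (ι : Type*) [Fintype ι] (t : F) (ht1 : R1.IsGaussChart t) (ht2 : R2.IsGaussChart t) where
  U_dvd : ∀ y : ↥U, ∀ v : Place K F, (m : ℤ) ∣ v.ord ((y : Fˣ) : F)
  /-- the constant reduction of `y` on the first component -/
  c1 : ↥U → k
  /-- the constant reduction of `y` on the second component -/
  c2 : ↥U → k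
  y_red1 : ∀ y : ↥U, ∃ h : ((y : Fˣ) : F) ∈ R1.Rw,
    R1.red ⟨((y : Fˣ) : F), h⟩ = algebraMap k Ft1 (c1 y)
  y_red2 : ∀ y : ↥U, ∃ h : ((y : Fˣ) : F) ∈ R2.Rw,
    R2.red ⟨((y : Fˣ) : F), h⟩ = algebraMap k Ft2 (c2 y)
  c1_ne : ∀ y, c1 y ≠ 0
  c2_ne : ∀ y, c2 y ≠ 0
  fin1 : ∀ n : ℕ, FiniteDimensional k (Lfib k (R1.red ⟨t, ht1.1⟩) (n : ℤ))
  fin2 : ∀ n : ℕ, FiniteDimensional k (Lfib k (R2.red ⟨t, ht2.1⟩) (n : ℤ))
  range1 : ∀ (n : ℕ) (z : Ft1), z ∈ Lfib k (R1.red ⟨t, ht1.1⟩) (n : ℤ) → ∃ r, i1 r = z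
  range2 : ∀ (n : ℕ) (z : Ft2), z ∈ Lfib k (R2.red ⟨t, ht2.1⟩) (n : ℤ) → ∃ r, i2 r = z
  /-- evaluation at the first branch of the node -/
  e1 : ι → C1 →ₐ[k] k
  /-- evaluation at the second branch of the node -/
  e2 : ι → C2 →ₐ[k] k
  /-- the special-fibre threshold -/
  nS : ℕ
  surj : ∀ n : ℕ, nS ≤ n → ∀ a b : ι → k,
    ∃ z1, i1 z1 ∈ Lfib k (R1.red ⟨t, ht1.1⟩) (n : ℤ) ∧
      ∃ z2, i2 z2 ∈ Lfib k (R2.red ⟨t, ht2.1⟩) (n : ℤ) ∧
        (∀ x, e1 x z1 = a x) ∧ ∀ x, e2 x z2 = b x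
  /-- the genus of the generic fibre -/
  g : ℕ
  /-- the genus of the first component -/
  g1 : ℕ
  /-- the genus of the second component -/
  g2 : ℕ
  /-- the degree of the chart on the first component -/
  d1 : ℕ
  /-- the degree of the chart on the second component -/
  d2 : ℕ
  hg : genusRR K F = (g : ℤ)
  dim1 : ∀ n : ℕ, nS ≤ n →
    finrank k (Lfib k (R1.red ⟨t, ht1.1⟩) (n : ℤ)) + g1 = n * d1 + 1
  dim2 : ∀ n : ℕ, nS ≤ n →
    finrank k (Lfib k (R2.red ⟨t, ht2.1⟩) (n : ℤ)) + g2 = n * d2 + 1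
  hd : finrank K⟮t⟯ F = d1 + d2
  /-- the node-count INEQUALITY (output of the flatness count N7d) -/
  nodes : 1 + g ≤ Fintype.card ι + g1 + g2
  glue_one : ∀ (n : ℕ) x (h1 : x ∈ R1.Rw) (h2 : x ∈ R2.Rw), x ∈ Lfib K t (n : ℤ) →
    ∀ j z1 z2, i1 z1 = R1.red ⟨x, h1⟩ → i2 z2 = R2.red ⟨x, h2⟩ → e1 j z1 = e2 j z2
  hm : 0 < m

omit [FiniteResidues K F] [HasPrincipalDivisors K F] [Nonempty (Place K F)] in
/-- `1 ∈ L(n (s)_∞)` for `n ≥ 0` -/
theorem one_mem_Lfib_nat {k' Ft : Type*} [Field k'] [Field Ft] [Algebra k' Ft] (s : Ft) (n : ℕ) :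
    (1 : Ft) ∈ Lfib k' s (n : ℤ) := by
  rw [mem_Lfib]
  refine ⟨fun c => regOver_one _, ?_⟩
  rw [mul_one, zpow_natCast]
  exact ((regFin_self (K := k') s⁻¹).pow n).regOver

namespace ChartInput

variable {R1 : RedData K F k Ft1} {R2 : RedData K F k Ft2}
  {i1 : C1 →ₐ[k] Ft1} {i2 : C2 →ₐ[k] Ft2} {U : Subgroup Fˣ} {m : ℕ}
  {ι : Type*} [Fintype ι] {t : F} {ht1 : R1.IsGaussChart t} {ht2 : R2.IsGaussChart t}
  (I : ChartInput R1 R2 i1 i2 U m ι t ht1 ht2)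
  [IsAlgClosed K] (H : Hyp K F) (x₀ : F) [IsGen K x₀] (htK : Transcendental K t)
  (hc : RedCompat R1 R2) (hne : R1.Rw ≠ R2.Rw) [FiniteDimensional K⟮t⟯ F]
  (hdeg : finrank K⟮t⟯ F ≤
    finrank k⟮R1.red ⟨t, ht1.1⟩⟯ Ft1 + finrank k⟮R2.red ⟨t, ht2.1⟩⟯ Ft2)
  (hti1 : t⁻¹ ∈ R1.Rw) (hti2 : t⁻¹ ∈ R2.Rw)

theorem y_ne_zero (y : ↥U) : ((y : Fˣ) : F) ≠ 0 := (y : Fˣ).ne_zero

omit [IsAlgClosed K] [FiniteDimensional K⟮t⟯ F] in
include I in
theorem m_ne_zero : m ≠ 0 := Nat.pos_iff_ne_zero.mp I.hm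

/-- the generic threshold of `LGen.exists_n0_finrank_Lgen` -/
def nG : ℕ := (exists_n0_finrank_Lgen (H := H) x₀ htK I.m_ne_zero I.hg).choose

omit [IsAlgClosed K] [FiniteDimensional K⟮t⟯ F] in
theorem nG_spec (n : ℕ) (hn : I.nG H x₀ htK ≤ n) (y : ↥U) :
    finrank K (Lgen H t m ((y : Fˣ) : F) n) + I.g = n * finrank K⟮t⟯ F + 1 :=
  (exists_n0_finrank_Lgen (H := H) x₀ htK I.m_ne_zero I.hg).choose_spec n hn _
    (y_ne_zero y) (I.U_dvd y)

/-- **the `TwoRedInput` of a common Gauss chart** -/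
def twoRedInput : TwoRedInput R1 R2 i1 i2 U m ι where
  L := fun y n => Lgen H t m ((y : Fˣ) : F) n
  L_fin := fun y n => inferInstance
  L_mul := by
    intro y y' n n' x x' hx hx'
    have := Lgen_mul (y_ne_zero y) (y_ne_zero y') (I.U_dvd y) hx hx'
    simpa using this
  L_pow := by
    intro y n x hx
    have := Lgen_pow I.m_ne_zero (y_ne_zero y) (I.U_dvd y) hx
    simpa using this
  c1 := I.c1
  c2 := I.c2
  y_red1 := I.y_red1
  y_red2 := I.y_red2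
  c1_ne := I.c1_ne
  Ltf1 := fun n => Lfib k (R1.red ⟨t, ht1.1⟩) (n : ℤ)
  Ltf2 := fun n => Lfib k (R2.red ⟨t, ht2.1⟩) (n : ℤ)
  Ltf1_fin := I.fin1
  Ltf2_fin := I.fin2
  Ltf1_range := I.range1
  Ltf2_range := I.range2
  one_mem1 := fun n => one_mem_Lfib_nat _ n
  one_mem2 := fun n => one_mem_Lfib_nat _ n
  le := by
    intro y n x h1 h2 hx
    obtain ⟨hy1, hr1⟩ := I.y_red1 y
    obtain ⟨hy2, hr2⟩ := I.y_red2 y
    have hxy := (mem_Lgen_iff (H := H) x₀ htK I.m_ne_zero (y_ne_zero y) (I.U_dvd y)).1 hx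
    rw [Nat.cast_mul] at hxy
    exact red_mem_Lfib_ball2_of_pow hc hne ht1 ht2 hdeg hti1 hti2 n I.hm h1 h2 hy1 hy2
      (I.c1_ne y) (I.c2_ne y) hr1 hr2 hxy
  e1 := I.e1
  e2 := I.e2
  n0 := max I.nS (I.nG H x₀ htK)
  surj := fun n hn a b => I.surj n (le_trans (le_max_left _ _) hn) a b
  dim_ge := by
    intro y n hn
    have hS := le_trans (le_max_left _ _) hn
    have hG := le_trans (le_max_right _ _) hn
    exact RedCore.dim_ge_of_numerics (I.nG_spec H x₀ htK n hG y) (I.dim1 n hS) (I.dim2 n hS)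
      I.hd I.nodes
  glue_one := by
    intro n x h1 h2 hx j z1 z2 a b
    have hx' : x ∈ Lfib K t (n : ℤ) := by
      have := Lgen_one (H := H) (m := m) x₀ htK n
      rw [← this]
      simpa using hx
    exact I.glue_one n x h1 h2 hx' j z1 z2 a b
  hm := I.hm

variable (ho : HasOrthoBases R1.A (ball2 R1 R2) (rad2 R1 R2))
  (hi1 : Function.Injective i1) (hi2 : Function.Injective i2) [Infinite k] [DecidableEq ι]

/-- **the reduced-lattice package of a common Gauss chart** -/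
def lamData : LamData k C1 C2 ι ↥U m :=
  (I.twoRedInput H x₀ htK hc hne hdeg hti1 hti2).lamData hc hi1 hi2 ho

theorem lamData_n0 :
    (I.lamData H x₀ htK hc hne hdeg hti1 hti2 ho hi1 hi2).n0 = max I.nS (I.nG H x₀ htK) := rfl

theorem lamData_e1 : (I.lamData H x₀ htK hc hne hdeg hti1 hti2 ho hi1 hi2).e1 = I.e1 := rfl

theorem lamData_e2 : (I.lamData H x₀ htK hc hne hdeg hti1 hti2 ho hi1 hi2).e2 = I.e2 := rfl

/-- transparent membership in the reduced lattice, `Lz` form -/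
theorem mem_lamData_Lam {y : ↥U} {n : ℕ} {z : C1 × C2} :
    z ∈ (I.lamData H x₀ htK hc hne hdeg hti1 hti2 ho hi1 hi2).Lam y n ↔
      ∃ x, ∃ (h1 : x ∈ R1.Rw) (h2 : x ∈ R2.Rw),
        x ^ m * ((y : Fˣ) : F) ∈ Lfib K t ((m * n : ℕ) : ℤ) ∧
        i1 z.1 = R1.red ⟨x, h1⟩ ∧ i2 z.2 = R2.red ⟨x, h2⟩ := by
  unfold lamData
  rw [TwoRedInput.mem_lamData_Lam]
  refine exists_congr fun x => exists_congr fun h1 => exists_congr fun h2 => and_congr_left fun _ => ?_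
  exact mem_Lgen_iff (H := H) x₀ htK I.m_ne_zero (y_ne_zero y) (I.U_dvd y)

/-- **the hypothesis `hLam` of `claim2_core`** (helper39's STACK RULING 1, part C): if the constant
pair lies in `Λ_y(n)` for ONE `n ≥ n0`, then for all `b ≥ n0` the reductions of
`L((1/m) div y + b (t)_∞) ∩ Rw1 ∩ Rw2` land in any family `M b` receiving the reductions of
`Lfib K t b ∩ Rw1 ∩ Rw2`. -/
theorem hLam_of_one_mem (y : ↥U) {n : ℕ}
    (hn : (I.lamData H x₀ htK hc hne hdeg hti1 hti2 ho hi1 hi2).n0 ≤ n)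
    (h11 : ((1 : C1), (1 : C2)) ∈ (I.lamData H x₀ htK hc hne hdeg hti1 hti2 ho hi1 hi2).Lam y n)
    (M : ℕ → Submodule k (Ft1 × Ft2))
    (hT : ∀ (n : ℕ) (x : ball2 R1 R2), (x : F) ∈ Lfib K t (n : ℤ) → red2 R1 R2 x ∈ M n) :
    ∀ b : ℕ, (I.lamData H x₀ htK hc hne hdeg hti1 hti2 ho hi1 hi2).n0 ≤ b →
      ∀ x : ball2 R1 R2, (x : F) ^ m * ((y : Fˣ) : F) ∈ Lfib K t ((m * b : ℕ) : ℤ) →
        red2 R1 R2 x ∈ M b := by
  intro b hb x hx
  have hxb := mem_ball2.mp x.2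
  -- the reductions of `x` in the coordinate rings
  have hle := (I.twoRedInput H x₀ htK hc hne hdeg hti1 hti2).le y b (x : F) hxb.1 hxb.2
    ((mem_Lgen_iff (H := H) x₀ htK I.m_ne_zero (y_ne_zero y) (I.U_dvd y)).2 hx)
  obtain ⟨r1, hr1⟩ := I.range1 b _ hle.1
  obtain ⟨r2, hr2⟩ := I.range2 b _ hle.2
  have hmem : (r1, r2) ∈ (I.lamData H x₀ htK hc hne hdeg hti1 hti2 ho hi1 hi2).Lam y b :=
    (I.mem_lamData_Lam H x₀ htK hc hne hdeg hti1 hti2 ho hi1 hi2).2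
      ⟨(x : F), hxb.1, hxb.2, hx, hr1, hr2⟩
  rw [LamData.Lam_eq_Lam_one_of_one_mem _ y n hn h11 b hb] at hmem
  obtain ⟨x', h1', h2', hx', a, c⟩ :=
    (I.mem_lamData_Lam H x₀ htK hc hne hdeg hti1 hti2 ho hi1 hi2).1 hmem
  have hx'L : x' ∈ Lfib K t (b : ℤ) := by
    have h0 : x' ^ m * (1 : F) ∈ Lfib K t ((m * b : ℕ) : ℤ) := by simpa using hx'
    rw [mul_one, Nat.cast_mul] at h0
    exact mem_Lfib_of_pow_mem I.hm _ h0
  have h := hT b ⟨x', mem_ball2.mpr ⟨h1', h2'⟩⟩ hx'L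
  have e : red2 R1 R2 x = red2 R1 R2 ⟨x', mem_ball2.mpr ⟨h1', h2'⟩⟩ := by
    rw [red2_apply, red2_apply]
    refine Prod.ext ?_ ?_
    · show R1.red ⟨(x : F), _⟩ = R1.red ⟨x', _⟩
      rw [← hr1, a]
    · show R2.red ⟨(x : F), _⟩ = R2.red ⟨x', _⟩
      rw [← hr2, c]
  rw [e]
  exact h

end ChartInput

end Fermat.Agent.GK.SS.TwoRed
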