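/-
GATE-K / N10 (helper44): **`hclaim2` of `ssPackageOfLam` from the core of Claim 2.**

`hclaim2` (consumer form, `GK/SS/PackageOfLam.lean`): for `z ∈ U`, if the constant pair `(1, 1)`
lies in `Λ_z(n)` for some `n ≥ n0` then `z ∈ ℚ̄ˣ · F_N^{×m}`.

helper30's `Claim2.claim2_core` (`GK/SS/Claim2Core.lean`) proves: a unit `y ≡ (1, 1)` (both
reductions equal to `1`) with `m ∣ div y` whose lattices `L((1/m) div y + b (t)_∞) ∩ Rw₁ ∩ Rw₂`
reduce into the glued family is an `m`-th power.  The wrapper does the remaining bookkeeping: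

1. `(1, 1) ∈ Λ_z(n)` and ONE node give `c z = 1`, i.e. the two constant reductions of `z` agree;
2. `z = a · y` with `a ∈ Aˣ` constant and `y ≡ (1, 1)` (`exists_scale_of_cstRed_eq`);
3. the lattices of `y` and `z` coincide (`Lz` is insensitive to constants), `m ∣ div y`;
4. core ⟹ `y = v ^ m` ⟹ `z = a · v ^ m`.

* `hclaim2_of_core` : abstract form (any `LamData` on `goodUnits V1 V2 m`, abstract predicate
  `GLUED b x` = "the pair of reductions of `x` is glued with constants `1` at level `b`");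
* (`(1, 1) ∈ Λ_y(n)` ⟹ `Λ_y(b) = Λ_1(b)` for all `b ≥ n0` is helper47's
  `LamData.Lam_eq_Lam_one_of_one_mem`, `GK/Glue/GlueCoreExt.lean`.)
-/
import Fermat.Agent.GK.SS.CstRedInst
import Fermat.Agent.GK.SS.GalLz
import Fermat.Agent.GK.Glue.GlueCoreExt

set_option autoImplicit false

namespace Fermat.Agent.GK.SS

open Fermat.Agent.GJ.KumGroup Fermat.Agent.GJ.Kum.KumType Fermat.Agent.GK.Tate
open Fermat.Agent.GK.Glue AlgebraicCurve ModularCurve

/-- `ℚ̄`. -/
local notation "Qb" => AlgebraicClosure ℚ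

section Lz

variable {K F : Type*} [Field K] [Field F] [Algebra K F]

/-- the lattice `Lz` is insensitive to constant factors of `z` -/
theorem mem_Lz_div_const {m : ℕ} {z t : F} {n : ℕ} {x : F} {a : K} (ha : a ≠ 0) :
    x ∈ Lz K m (z / algebraMap K F a) t n ↔ x ∈ Lz K m z t n := by
  have ha' : algebraMap K F a ≠ 0 := (map_ne_zero_iff _ (algebraMap K F).injective).2 ha
  rw [mem_Lz, mem_Lz]
  constructor
  · intro h
    have := Submodule.smul_mem _ a h
    rwa [Algebra.smul_def, ← mul_assoc, mul_comm (algebraMap K F a), mul_assoc,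
      mul_div_cancel₀ _ ha'] at this
  · intro h
    have := Submodule.smul_mem _ a⁻¹ h
    rwa [Algebra.smul_def, map_inv₀, ← mul_assoc, mul_comm (algebraMap K F a)⁻¹, mul_assoc,
      mul_comm (algebraMap K F a)⁻¹, ← div_eq_mul_inv] at this

end Lz

section Wrap

variable {N : ℕ} {A : ValuationSubring Qb} {m : ℕ}
variable {k : Type*} [Field k] [Infinite k] {R1 R2 : Type*} [CommRing R1] [Algebra k R1]
  [CommRing R2] [Algebra k R2] {ι : Type*} [Fintype ι] [DecidableEq ι]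

omit [Infinite k] [DecidableEq ι] in
/-- **`hclaim2` from the core of Claim 2** (abstract form). -/
theorem hclaim2_of_core (V1 V2 : GalVal N A) (hm : m ≠ 0)
    (D : LamData k R1 R2 ι ↥(goodUnits V1 V2 m) m) [Nonempty ι]
    (hDc : ∀ y : goodUnits V1 V2 m, D.c y = 1 →
      V1.cstRed ((y : (FK N)ˣ) : FK N) = V2.cstRed ((y : (FK N)ˣ) : FK N))
    (t : FK N) (c0 : ℕ) (GLUED : ℕ → FK N → Prop)
    (hglue : ∀ z : goodUnits V1 V2 m, (∃ n, D.n0 ≤ n ∧ ((1 : R1), (1 : R2)) ∈ D.Lam z n) →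
      ∀ b, c0 ≤ b → ∀ x, x ∈ V1.W → x ∈ V2.W →
        x ∈ Lz Qb m ((z : (FK N)ˣ) : FK N) t b → GLUED b x)
    (core : ∀ y : FK N, V1.W.valuation (y - 1) < 1 → V2.W.valuation (y - 1) < 1 →
      (∀ P : Place Qb (FK N), (m : ℤ) ∣ P.ord y) →
      (∀ b, c0 ≤ b → ∀ x, x ∈ V1.W → x ∈ V2.W → x ∈ Lz Qb m y t b → GLUED b x) →
      ∃ v : FK N, v ≠ 0 ∧ y = v ^ m) :
    ∀ z : goodUnits V1 V2 m, (∃ n, D.n0 ≤ n ∧ ((1 : R1), (1 : R2)) ∈ D.Lam z n) →
      ∃ c ∈ cstUnits N, ∃ w : (FK N)ˣ, (z : (FK N)ˣ) = c * w ^ m := by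
  intro z hz
  obtain ⟨n, hn, h11⟩ := hz
  -- step 1: the two constant reductions agree
  have hc1 : D.c z = 1 := by
    obtain ⟨x⟩ := ‹Nonempty ι›
    have := D.pow z n _ h11 x
    simpa using this.symm
  have hcst := hDc z hc1
  -- step 2: scaling
  obtain ⟨a, ha, hv1, hv2⟩ := exists_scale_of_cstRed_eq z.2.2.1 z.2.2.2 hcst
  have ha0 : a ≠ 0 := ((vs_val_eq_one_iff A).1 ha).1
  set c : (FK N)ˣ :=
    Units.map ((algebraMap Qb (FK N) : Qb →+* FK N) : Qb →* FK N) (Units.mk0 a ha0) with hc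
  have hcmem : c ∈ cstUnits N := ⟨_, rfl⟩
  have hcval : ((c : (FK N)ˣ) : FK N) = algebraMap Qb (FK N) a := rfl
  -- step 3: divisibility of the divisor of `y = z / a`
  have hdvd : ∀ P : Place Qb (FK N),
      (m : ℤ) ∣ P.ord (((z : (FK N)ˣ) : FK N) / algebraMap Qb (FK N) a) := by
    have h1 : (z : (FK N)ˣ) / c ∈ pDivUnits Qb (FK N) m :=
      div_mem z.2.1 (cstUnits_le_pDivUnits hm hcmem)
    intro P
    have := h1 P
    rwa [Units.val_div_eq_div_val, hcval] at this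
  -- step 4: the core
  obtain ⟨v, hv0, hv⟩ := core _ hv1 hv2 hdvd fun b hb x h1 h2 hx =>
    hglue z ⟨n, hn, h11⟩ b hb x h1 h2 ((mem_Lz_div_const ha0).1 hx)
  refine ⟨c, hcmem, Units.mk0 v hv0, Units.ext ?_⟩
  rw [Units.val_mul, Units.val_pow_eq_pow_val, hcval, Units.val_mk0, ← hv]
  have ha' : algebraMap Qb (FK N) a ≠ 0 :=
    (map_ne_zero_iff _ (algebraMap Qb (FK N)).injective).2 ha0
  rw [mul_div_cancel₀ _ ha']

end Wrap

end Fermat.Agent.GK.SS
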