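/-
GATE-K / N10-GAL (helper44): **`hinv` of `ssPackageOfLam` for helper47's `TwoRedInput.lamData`**
at the two Gauss valuations `R₁ = redDataBar N A`, `R₂ = redData2 N A h` of `F_N`, with
`U := goodUnitsMod N A h m`.

The only hypothesis is the Galois equivariance of the generic lattices,
`x ∈ T.L y n ⟹ τ x ∈ T.L (τ y) n` for `τ` in the inertia group (for `T.L y n` given by `Lz` or by an
order condition at all places this is `arith_mem_Lz_iff` / `arith_mem_ordSet_iff` of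
`GK/SS/GalLz.lean`).

* `hinv_twoRed` : the hypothesis `hinv` of `ssPackageOfLam` / `ssGate_of_lam`, verbatim;
* `hLgal_of_Lz` : the equivariance hypothesis when `T.L y n` is the `Lz` lattice of a chart `t`
  with rational `q`-expansion.
-/
import Fermat.Agent.GK.SS.CstRedInst
import Fermat.Agent.GK.SS.GalLz
import Fermat.Agent.GK.SS.LamOfTwoRed
import Fermat.Agent.GK.AL.SecondValGal

set_option autoImplicit false

namespace Fermat.Agent.GK.SS

open Fermat.Agent.GJ.KumGroup Fermat.Agent.GJ.Kum.KumType Fermat.Agent.GK.Tate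
open Fermat.Agent.GJ.J1 Fermat.Agent.GJ.J1.Val Fermat.Agent.GK.AL Fermat.Agent.GK.MultiVal
open Fermat.Agent.GK.SS.TwoRed Fermat.Agent.GK.Glue
open ModularCurve IsLocalRing

/-- `ℚ̄`. -/
local notation "Qb" => AlgebraicClosure ℚ

section

variable (N : ℕ) [NeZero N] (A : ValuationSubring Qb) {q : ℕ} (h : ExactDvd q N) {m : ℕ}
variable {C1 C2 : Type*} [CommRing C1] [Algebra (ResidueField A) C1] [CommRing C2]
  [Algebra (ResidueField A) C2]
  {i1 : C1 →ₐ[ResidueField A] FresBar N A} {i2 : C2 →ₐ[ResidueField A] FresBar N A}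
  {ι : Type*} [Fintype ι] [DecidableEq ι] [Infinite (ResidueField A)]

omit [NeZero N] in
theorem galUnits_inv_galUnits (τ : Qb ≃ₐ[ℚ] Qb) (z : (FK N)ˣ) :
    galUnits N τ⁻¹ (galUnits N τ z) = z := by
  apply Units.ext
  rw [coe_galUnits, coe_galUnits]
  exact (arithmeticRingAut (modularFunctionFieldFull N) τ).symm_apply_apply (z : FK N)

omit [NeZero N] in
theorem arith_inv_arith (τ : Qb ≃ₐ[ℚ] Qb) (x : FK N) :
    arithmeticRingAut (modularFunctionFieldFull N) τ⁻¹
      (arithmeticRingAut (modularFunctionFieldFull N) τ x) = x :=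
  (arithmeticRingAut (modularFunctionFieldFull N) τ).symm_apply_apply x

omit [NeZero N] in
theorem arith_arith_inv (τ : Qb ≃ₐ[ℚ] Qb) (x : FK N) :
    arithmeticRingAut (modularFunctionFieldFull N) τ
      (arithmeticRingAut (modularFunctionFieldFull N) τ⁻¹ x) = x :=
  (arithmeticRingAut (modularFunctionFieldFull N) τ).apply_symm_apply x

/-- **`hinv` for `TwoRedInput.lamData`** -/
theorem hinv_twoRed
    (T : TwoRedInput (redDataBar N A) (redData2 N A h) i1 i2 (goodUnitsMod N A h m) m ι)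
    (hc : RedCompat (redDataBar N A) (redData2 N A h))
    (hi1 : Function.Injective i1) (hi2 : Function.Injective i2)
    (ho : HasOrthoBases (redDataBar N A).A
      (ball2 (redDataBar N A) (redData2 N A h)) (rad2 (redDataBar N A) (redData2 N A h)))
    (hLgal : ∀ τ ∈ A.inertiaSubgroupIn ℚ, ∀ (y : goodUnitsMod N A h m)
      (hy : galUnits N τ (y : (FK N)ˣ) ∈ goodUnitsMod N A h m) (n : ℕ) (x : FK N),
      x ∈ T.L y n → arithmeticRingAut (modularFunctionFieldFull N) τ x ∈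
        T.L ⟨galUnits N τ (y : (FK N)ˣ), hy⟩ n) :
    ∀ τ ∈ A.inertiaSubgroupIn ℚ, ∀ z : goodUnitsMod N A h m,
      ∃ hz : galUnits N τ (z : (FK N)ˣ) ∈ goodUnitsMod N A h m,
        ∀ n, (T.lamData hc hi1 hi2 ho).Lam ⟨galUnits N τ (z : (FK N)ˣ), hz⟩ n =
          (T.lamData hc hi1 hi2 ho).Lam z n := by
  intro τ hτ z
  have hz : galUnits N τ (z : (FK N)ˣ) ∈ goodUnitsMod N A h m :=
    galUnits_mem_goodUnitsMod N A h hτ z.2
  have hτ' : τ⁻¹ ∈ A.inertiaSubgroupIn ℚ := inv_mem hτ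
  have hdec := Fermat.Agent.S05.mem_decompositionSubgroup_of_mem_inertiaSubgroupIn hτ
  have hdec' := Fermat.Agent.S05.mem_decompositionSubgroup_of_mem_inertiaSubgroupIn hτ'
  refine ⟨hz, fun n => ?_⟩
  ext w
  rw [T.mem_lamData_Lam hc hi1 hi2 ho, T.mem_lamData_Lam hc hi1 hi2 ho]
  constructor
  · rintro ⟨x, h1, h2, hL, a, b⟩
    have hy' : galUnits N τ⁻¹ ((⟨galUnits N τ (z : (FK N)ˣ), hz⟩ : goodUnitsMod N A h m) :
        (FK N)ˣ) ∈ goodUnitsMod N A h m := by
      show galUnits N τ⁻¹ (galUnits N τ (z : (FK N)ˣ)) ∈ _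
      rw [galUnits_inv_galUnits]; exact z.2
    have hL' := hLgal τ⁻¹ hτ' ⟨galUnits N τ (z : (FK N)ˣ), hz⟩ hy' n x hL
    have e : (⟨galUnits N τ⁻¹ ((⟨galUnits N τ (z : (FK N)ˣ), hz⟩ : goodUnitsMod N A h m) :
        (FK N)ˣ), hy'⟩ : goodUnitsMod N A h m) = z :=
      Subtype.ext (galUnits_inv_galUnits N τ (z : (FK N)ˣ))
    rw [e] at hL'
    have h1' := galF_mem_Rw1 hdec' h1
    have h2' := galF_mem_Rw2 (h := h) hdec' h2
    refine ⟨_, h1', h2', hL', ?_, ?_⟩
    · rw [a]; exact (red1_galF_of_inertia hτ' h1 h1').symm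
    · rw [b]; exact (red2_galF_of_inertia hτ' h2 h2').symm
  · rintro ⟨x, h1, h2, hL, a, b⟩
    have hL' := hLgal τ hτ z hz n x hL
    have h1' := galF_mem_Rw1 hdec h1
    have h2' := galF_mem_Rw2 (h := h) hdec h2
    refine ⟨_, h1', h2', hL', ?_, ?_⟩
    · rw [a]; exact (red1_galF_of_inertia hτ h1 h1').symm
    · rw [b]; exact (red2_galF_of_inertia hτ h2 h2').symm

/-- the equivariance hypothesis of `hinv_twoRed` when `T.L y n` is the `Lz` lattice of a chart `t`
fixed by the Galois action (e.g. `t = gen N d`, `jF N`, `jF N * jQ N h`) -/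
theorem hLgal_of_Lz
    (T : TwoRedInput (redDataBar N A) (redData2 N A h) i1 i2 (goodUnitsMod N A h m) m ι)
    (t : FK N) (ht : ∀ τ : Qb ≃ₐ[ℚ] Qb, arithmeticRingAut (modularFunctionFieldFull N) τ t = t)
    (hTL : ∀ (y : goodUnitsMod N A h m) (n : ℕ) (x : FK N),
      x ∈ T.L y n ↔ x ∈ Lz Qb m ((y : (FK N)ˣ) : FK N) t n) :
    ∀ τ ∈ A.inertiaSubgroupIn ℚ, ∀ (y : goodUnitsMod N A h m)
      (hy : galUnits N τ (y : (FK N)ˣ) ∈ goodUnitsMod N A h m) (n : ℕ) (x : FK N),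
      x ∈ T.L y n → arithmeticRingAut (modularFunctionFieldFull N) τ x ∈
        T.L ⟨galUnits N τ (y : (FK N)ˣ), hy⟩ n := by
  intro τ _ y hy n x hx
  rw [hTL] at hx ⊢
  exact (arith_mem_Lz_iff (modularFunctionFieldFull N) τ (ht τ)).2 hx

end

end Fermat.Agent.GK.SS
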