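/-
GATE-K / N10 (helper44): **the (SS) package at the two Gauss valuations of `F_N`, assembled.**

`ssPackage_twoRed : SSPackage N m A` from

* helper47's `TwoRedInput` (`GK/SS/LamOfTwoRed.lean`) at `R₁ = redDataBar N A`,
  `R₂ = redData2 N A h`, `U = goodUnitsMod N A h m`, with generic lattices `T.L y n = Lz` of a
  Galois-fixed chart `t`;
* the inputs of helper30's `Claim2.claim2_core` (`GK/SS/Claim2Core.lean`): the cusp-only graded
  family `P : ChartPair k (Ft × Ft)` with `hs hunit hTfin hT hdimT`.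

Everything else is discharged here:
`hnorm` = `hnorm_modular`, `hinv` = `hinv_twoRed` + `hLgal_of_Lz`, `hclaim2` = `hclaim2_of_core` +
`claim2_core` + helper47's `LamData.Lam_eq_Lam_one_of_one_mem` (the glueing of `Λ_1(b)` is `hT` after root extraction in
`Lfib`).
-/
import Fermat.Agent.GK.SS.HinvTwoRed
import Fermat.Agent.GK.SS.Hclaim2Wrap
import Fermat.Agent.GK.SS.Claim2Core
import Fermat.Agent.GK.SS.PackageOfLam

set_option autoImplicit false

namespace Fermat.Agent.GK.SS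

open Fermat.Agent.GJ.KumGroup Fermat.Agent.GJ.Kum.KumType Fermat.Agent.GK.Tate
open Fermat.Agent.GJ.J1 Fermat.Agent.GJ.J1.Val Fermat.Agent.GK.AL Fermat.Agent.GK.MultiVal
open Fermat.Agent.GK.SS.TwoRed Fermat.Agent.GK.Glue Fermat.Agent.GK.Core.Twist
open Fermat.Agent.GK.Core Fermat.Agent.S24 Fermat.Agent.GJ.J1.InstGen
open AlgebraicCurve ModularCurve IsLocalRing IntermediateField Module

/-- `ℚ̄`. -/
local notation "Qb" => AlgebraicClosure ℚ

section Root

variable {K F : Type*} [Field K] [Field F] [Algebra K F]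

/-- root extraction in `Lfib` (normality) -/
theorem mem_Lfib_of_pow {t x : F} {m b : ℕ} (hm : 0 < m)
    (h : x ^ m ∈ Lfib K t ((m * b : ℕ) : ℤ)) : x ∈ Lfib K t (b : ℤ) := by
  rw [mem_Lfib] at h ⊢
  obtain ⟨h1, h2⟩ := h
  refine ⟨fun c => (h1 c).of_pow hm, ?_⟩
  have e : t⁻¹ ^ ((m * b : ℕ) : ℤ) * x ^ m = (t⁻¹ ^ (b : ℤ) * x) ^ m := by
    rw [mul_pow, ← zpow_natCast (t⁻¹ ^ (b : ℤ)) m, ← zpow_mul]
    congr 2
    push_cast
    ring
  rw [e] at h2
  exact h2.of_pow hm

end Root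

section Package

variable (N : ℕ) [NeZero N] (A : ValuationSubring Qb) {q : ℕ} (h : ExactDvd q N) {m : ℕ}
variable {C1 C2 : Type} [CommRing C1] [Algebra (ResidueField A) C1] [CommRing C2]
  [Algebra (ResidueField A) C2]
  {i1 : C1 →ₐ[ResidueField A] FresBar N A} {i2 : C2 →ₐ[ResidueField A] FresBar N A}
  {ι : Type} [Fintype ι] [DecidableEq ι]

omit [DecidableEq ι] in
/-- the constants of a `TwoRedInput` on `goodUnitsMod` are the `cstRed` -/
theorem twoRed_c1_eq
    (T : TwoRedInput (redDataBar N A) (redData2 N A h) i1 i2 (goodUnitsMod N A h m) m ι)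
    (y : goodUnitsMod N A h m) :
    T.c1 y = (galVal1 N A).cstRed ((y : (FK N)ˣ) : FK N) := by
  obtain ⟨h1, e1⟩ := T.y_red1 y
  obtain ⟨h2, e2⟩ := red1_goodUnitsMod N A h y.2
  have : algebraMap (ResidueField A) (FresBar N A) (T.c1 y) =
      algebraMap (ResidueField A) (FresBar N A) ((galVal1 N A).cstRed ((y : (FK N)ˣ) : FK N)) := by
    rw [← e1, ← e2]
  exact (algebraMap (ResidueField A) (FresBar N A)).injective this

omit [DecidableEq ι] in
theorem twoRed_c2_eq
    (T : TwoRedInput (redDataBar N A) (redData2 N A h) i1 i2 (goodUnitsMod N A h m) m ι)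
    (y : goodUnitsMod N A h m) :
    T.c2 y = (galVal2 N A h).cstRed ((y : (FK N)ˣ) : FK N) := by
  obtain ⟨h1, e1⟩ := T.y_red2 y
  obtain ⟨h2, e2⟩ := red2_goodUnitsMod N A h y.2
  have : algebraMap (ResidueField A) (FresBar N A) (T.c2 y) =
      algebraMap (ResidueField A) (FresBar N A)
        ((galVal2 N A h).cstRed ((y : (FK N)ˣ) : FK N)) := by
    rw [← e1, ← e2]
  exact (algebraMap (ResidueField A) (FresBar N A)).injective this

variable [Infinite (ResidueField A)] [Nonempty ι]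

/-- **The (SS) package at `A`, assembled** from a `TwoRedInput` with `Lz` lattices and the inputs
of `claim2_core`. -/
noncomputable def ssPackage_twoRed (hA : A.LiesOverPrime q)
    (hmk : ((m : ℕ) : ResidueField A) ≠ 0)
    (x₀ : FK N) [IsGen Qb x₀]
    (T : TwoRedInput (redDataBar N A) (redData2 N A h) i1 i2 (goodUnitsMod N A h m) m ι)
    (hc : RedCompat (redDataBar N A) (redData2 N A h))
    (hi1 : Function.Injective i1) (hi2 : Function.Injective i2)
    (ho : HasOrthoBases (redDataBar N A).A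
      (ball2 (redDataBar N A) (redData2 N A h)) (rad2 (redDataBar N A) (redData2 N A h)))
    (hrk : RankOne (redDataBar N A).A)
    {t : FK N} (htgal : ∀ τ : Qb ≃ₐ[ℚ] Qb,
      arithmeticRingAut (modularFunctionFieldFull N) τ t = t)
    (htB : t ∈ ball2 (redDataBar N A) (redData2 N A h)) (htK : Transcendental Qb t)
    (hTL : ∀ (y : goodUnitsMod N A h m) (n : ℕ) (x : FK N),
      x ∈ T.L y n ↔ x ∈ Lz Qb m ((y : (FK N)ˣ) : FK N) t n)
    (P : ChartPair (ResidueField A) (FresBar N A × FresBar N A))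
    (hs : P.s = red2 (redDataBar N A) (redData2 N A h) ⟨t, htB⟩)
    (hunit : ∀ c : ResidueField A,
      IsUnit (P.s - algebraMap (ResidueField A) (FresBar N A × FresBar N A) c))
    (hTfin : ∀ n, FiniteDimensional (ResidueField A) (P.T n))
    (hT : ∀ (n : ℕ) (x : ball2 (redDataBar N A) (redData2 N A h)),
      (x : FK N) ∈ Lfib Qb t (n : ℤ) → red2 (redDataBar N A) (redData2 N A h) x ∈ P.T n)
    (g' c0 : ℕ) (hc0 : T.n0 ≤ c0)
    (hg' : @genusRR Qb (FK N) _ _ _ (Fermat.Agent.GJ.FF.finiteResidues x₀)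
        (Fermat.Agent.GJ.FF.PrincipalOf.hasPrincipalDivisors_gen x₀)
        (Fermat.Agent.GJ.FF.nonempty_place x₀) ≤ (g' : ℤ))
    (hdimT : ∀ n, c0 ≤ n →
      finrank (ResidueField A) (P.T n) + g' ≤ n * finrank Qb⟮t⟯ (FK N) + 1) :
    SSPackage N m A := by
  have hm0 : m ≠ 0 := by
    rintro rfl
    simp at hmk
  refine ssPackageOfLam (goodUnitsMod N A h m) (T.lamData hc hi1 hi2 ho)
    (hnorm_modular N A h hm0 hA)
    (hinv_twoRed N A h T hc hi1 hi2 ho (hLgal_of_Lz N A h T t htgal hTL)) ?_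
  -- `hclaim2`
  refine hclaim2_of_core (galVal1 N A) (galVal2 N A h) hm0 (T.lamData hc hi1 hi2 ho) ?_ t c0
    (fun b x => ∃ hx : x ∈ ball2 (redDataBar N A) (redData2 N A h),
      red2 (redDataBar N A) (redData2 N A h) ⟨x, hx⟩ ∈ P.T b) ?_ ?_
  · -- `c y = 1` means the two constants agree
    intro y hy
    have h1 : T.c2 y / T.c1 y = 1 := hy
    rw [← twoRed_c1_eq N A h T y, ← twoRed_c2_eq N A h T y]
    exact ((div_eq_one_iff_eq (T.c1_ne y)).1 h1).symm
  · -- `hglue`
    rintro z ⟨n, hn, h11⟩ b hb x hx1 hx2 hxL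
    have hxB : x ∈ ball2 (redDataBar N A) (redData2 N A h) := mem_ball2.2 ⟨hx1, hx2⟩
    refine ⟨hxB, ?_⟩
    have hbn : (T.lamData hc hi1 hi2 ho).n0 ≤ b := le_trans hc0 hb
    have hxT : x ∈ T.L z b := (hTL z b x).2 hxL
    obtain ⟨ha, hb'⟩ := T.le z b x hx1 hx2 hxT
    obtain ⟨z1, hz1⟩ := T.Ltf1_range b _ ha
    obtain ⟨z2, hz2⟩ := T.Ltf2_range b _ hb'
    have hmem : (z1, z2) ∈ (T.lamData hc hi1 hi2 ho).Lam z b :=
      T.mk_mem_lamData_Lam hc hi1 hi2 ho hx1 hx2 hxT hz1 hz2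
    rw [(T.lamData hc hi1 hi2 ho).Lam_eq_Lam_one_of_one_mem z n hn h11 b hbn,
      T.mem_lamData_Lam hc hi1 hi2 ho] at hmem
    obtain ⟨x', h1', h2', hL', a', b''⟩ := hmem
    have hx'L : x' ∈ Lfib Qb t (b : ℤ) := by
      have := (hTL 1 b x').1 hL'
      rw [mem_Lz] at this
      have e : x' ^ m * (((1 : goodUnitsMod N A h m) : (FK N)ˣ) : FK N) = x' ^ m := by
        simp
      rw [e] at this
      exact mem_Lfib_of_pow (Nat.pos_of_ne_zero hm0) this
    have hx'B : x' ∈ ball2 (redDataBar N A) (redData2 N A h) := mem_ball2.2 ⟨h1', h2'⟩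
    have := hT b ⟨x', hx'B⟩ hx'L
    have e2 : red2 (redDataBar N A) (redData2 N A h) ⟨x, hxB⟩ =
        red2 (redDataBar N A) (redData2 N A h) ⟨x', hx'B⟩ := by
      apply Prod.ext
      · show (redDataBar N A).red ⟨x, _⟩ = (redDataBar N A).red ⟨x', _⟩
        rw [← hz1, ← a']
      · show (redData2 N A h).red ⟨x, _⟩ = (redData2 N A h).red ⟨x', _⟩
        rw [← hz2, ← b'']
    rw [e2]
    exact this
  · -- the core
    intro y hv1 hv2 hdvd hL
    have hy1 : y - 1 ∈ rad2 (redDataBar N A) (redData2 N A h) := mem_rad2.2 ⟨hv1, hv2⟩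
    exact Claim2.claim2_core x₀ hc ho hrk htB htK P hs hunit hTfin hT g' c0 hg' hdimT hmk hy1 hdvd
      (fun b hb x hx => by
        obtain ⟨hxB, hmem⟩ := hL b hb x (mem_ball2.1 x.2).1 (mem_ball2.1 x.2).2 hx
        exact hmem)

end Package

end Fermat.Agent.GK.SS
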