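/-
GATE-K / N10 (helper44): the (SS) package at `A` from helper47's `ChartInput`
(`GK/SS/LamOfChart.lean`) at a common Galois-fixed Gauss chart `t` of the two Gauss valuations of
`F_N`, plus the inputs of `claim2_core`.

`ssPackage_chart` = `ssPackage_twoRed ∘ ChartInput.twoRedInput` (the `Lz` bridge is
`LGen.mem_Lgen_iff`).  So the FINAL instantiation (`Modular.lean`) has to produce, for every `A ∣ q`:
a `ChartInput` on `goodUnitsMod N A h m`, and `P hs hunit hTfin hT g' c0 hg' hdimT`.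
-/
import Fermat.Agent.GK.SS.PackageTwoRed
import Fermat.Agent.GK.SS.LamOfChart

set_option autoImplicit false

namespace Fermat.Agent.GK.SS

open Fermat.Agent.GJ.KumGroup Fermat.Agent.GJ.Kum.KumType Fermat.Agent.GK.Tate
open Fermat.Agent.GJ.J1 Fermat.Agent.GJ.J1.Val Fermat.Agent.GK.AL Fermat.Agent.GK.MultiVal
open Fermat.Agent.GK.SS.TwoRed Fermat.Agent.GK.Glue Fermat.Agent.GK.Core.Twist
open Fermat.Agent.GK.Core Fermat.Agent.S24 Fermat.Agent.GJ.J1.InstGen Fermat.Agent.RRh45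
open Fermat.Agent.GK.SS.LGen Fermat.Agent.GJ.FF.PrincipalOf
open AlgebraicCurve ModularCurve IsLocalRing IntermediateField Module

/-- `ℚ̄`. -/
local notation "Qb" => AlgebraicClosure ℚ

section

variable (N : ℕ) [NeZero N] (A : ValuationSubring Qb) {q : ℕ} (h : ExactDvd q N) {m : ℕ}
variable {C1 C2 : Type} [CommRing C1] [Algebra (ResidueField A) C1] [CommRing C2]
  [Algebra (ResidueField A) C2]
  {i1 : C1 →ₐ[ResidueField A] FresBar N A} {i2 : C2 →ₐ[ResidueField A] FresBar N A}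
  {ι : Type} [Fintype ι] [DecidableEq ι]
  [FiniteResidues Qb (FK N)] [HasPrincipalDivisors Qb (FK N)] [Nonempty (Place Qb (FK N))]
  [Infinite (ResidueField A)] [Nonempty ι]

/-- **The (SS) package at `A` from a `ChartInput`** at a Galois-fixed common Gauss chart. -/
noncomputable def ssPackage_chart (hA : A.LiesOverPrime q)
    (hmk : ((m : ℕ) : ResidueField A) ≠ 0)
    (x₀ : FK N) [IsGen Qb x₀] (H : Hyp Qb (FK N))
    {t : FK N} {ht1 : (redDataBar N A).IsGaussChart t} {ht2 : (redData2 N A h).IsGaussChart t}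
    (I : ChartInput (redDataBar N A) (redData2 N A h) i1 i2 (goodUnitsMod N A h m) m ι t ht1 ht2)
    (htK : Transcendental Qb t)
    (hc : RedCompat (redDataBar N A) (redData2 N A h))
    (hne : (redDataBar N A).Rw ≠ (redData2 N A h).Rw) [FiniteDimensional Qb⟮t⟯ (FK N)]
    (hdeg : finrank Qb⟮t⟯ (FK N) ≤
      finrank (ResidueField A)⟮(redDataBar N A).red ⟨t, ht1.1⟩⟯ (FresBar N A) +
        finrank (ResidueField A)⟮(redData2 N A h).red ⟨t, ht2.1⟩⟯ (FresBar N A))
    (hti1 : t⁻¹ ∈ (redDataBar N A).Rw) (hti2 : t⁻¹ ∈ (redData2 N A h).Rw)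
    (hi1 : Function.Injective i1) (hi2 : Function.Injective i2)
    (ho : HasOrthoBases (redDataBar N A).A
      (ball2 (redDataBar N A) (redData2 N A h)) (rad2 (redDataBar N A) (redData2 N A h)))
    (hrk : RankOne (redDataBar N A).A)
    (htgal : ∀ τ : Qb ≃ₐ[ℚ] Qb, arithmeticRingAut (modularFunctionFieldFull N) τ t = t)
    (P : ChartPair (ResidueField A) (FresBar N A × FresBar N A))
    (hs : P.s = red2 (redDataBar N A) (redData2 N A h)
      ⟨t, mem_ball2.2 ⟨ht1.1, ht2.1⟩⟩)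
    (hunit : ∀ c : ResidueField A,
      IsUnit (P.s - algebraMap (ResidueField A) (FresBar N A × FresBar N A) c))
    (hTfin : ∀ n, FiniteDimensional (ResidueField A) (P.T n))
    (hT : ∀ (n : ℕ) (x : ball2 (redDataBar N A) (redData2 N A h)),
      (x : FK N) ∈ Lfib Qb t (n : ℤ) → red2 (redDataBar N A) (redData2 N A h) x ∈ P.T n)
    (g' c0 : ℕ) (hc0 : max I.nS (I.nG H x₀ htK) ≤ c0)
    (hg' : genusRR Qb (FK N) ≤ (g' : ℤ))
    (hdimT : ∀ n, c0 ≤ n →
      finrank (ResidueField A) (P.T n) + g' ≤ n * finrank Qb⟮t⟯ (FK N) + 1) :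
    SSPackage N m A :=
  ssPackage_twoRed N A h hA hmk x₀ (I.twoRedInput H x₀ htK hc hne hdeg hti1 hti2) hc hi1 hi2 ho hrk
    htgal (mem_ball2.2 ⟨ht1.1, ht2.1⟩) htK
    (fun y n x => by
      show x ∈ Lgen H t m ((y : (FK N)ˣ) : FK N) n ↔ _
      rw [mem_Lgen_iff (H := H) x₀ htK I.m_ne_zero (ChartInput.y_ne_zero y) (I.U_dvd y), mem_Lz])
    P hs hunit hTfin hT g' c0 hc0 hg' hdimT

end

end Fermat.Agent.GK.SS
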