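/-
GATE-K / N10-MODULAR, layer 1 (helper56): the chart-level inputs of helper44's `ssPackage_chart`
(`GK/SS/PackageChart.lean`) at `F_N`, `q ∥ N`, `A` over `q`, for the symmetric chart
`tS = j * j_q` (helper23 `GK/Cusp/SymChart.lean`, helper92 `GK/Flat/SymDegreeInst.lean`):

* `rankOne_bar` : `Core.RankOne (redDataBar N A).A`;
* `tS_galois` : `tS` is fixed by the coefficientwise Galois action;
* `hdeg_tS_le`, `inv_tS_mem_Rw1`, `inv_tS_mem_Rw2`, `hasOrthoBases_FN`;
* the `U`-fields of helper47's `ChartInput` on `goodUnitsMod N A h m` (`U_dvd_goodUnitsMod`);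
* the component fields (`fin`, `dim`) for the residue function field `FresBar N A` and the chart
  `τ^(q+1)`, and the genus bookkeeping `genusRR = genusFF`.
-/
import Fermat.Agent.GK.SS.PackageChart
import Fermat.Agent.GK.SS.CompRiemann
import Fermat.Agent.GK.SS.CstRedInst
import Fermat.Agent.GK.Flat.SymDegreeInst
import Fermat.Agent.GK.Flat.NodesGeFN
import Fermat.Agent.GK.UQ.FrickeGal
import Fermat.Agent.GK.GenusFF
import Fermat.Agent.GJ.J1.K18Modular

set_option autoImplicit false
set_option linter.unusedSectionVars false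
set_option linter.style.haveILetI false

noncomputable section

namespace Fermat.Agent.GK.SS.Modular

open AlgebraicCurve IntermediateField Module IsLocalRing ModularCurve
open Fermat.Agent.S24 Fermat.Agent.S24_helper62 Fermat.Agent.RRh45
open Fermat.Agent.GJ.J1 Fermat.Agent.GJ.J1.Val Fermat.Agent.GJ.J1.InstGen
open Fermat.Agent.GJ.KumGroup Fermat.Agent.GJ.FF.PrincipalOf
open Fermat.Agent.GK.AL Fermat.Agent.GK.MultiVal Fermat.Agent.GK.Core
open Fermat.Agent.GK.CuspSep Fermat.Agent.GK.SymChart Fermat.Agent.GK.SymDegree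
open Fermat.Agent.GK.BallTwo Fermat.Agent.GK.Val.TwoVal

variable {q : ℕ} (N : ℕ) [NeZero N] [NeZero q] (A : ValuationSubring Kbar) (h : ExactDvd q N)

local notation "𝕜" => ResidueField A

include h in
/-- rank one of a valuation subring of `ℚ̄` over `q`, in the form of `claim2_core` -/
theorem rankOne_bar (hA : A.LiesOverPrime q) : RankOne (redDataBar N A).A := by
  haveI : Fact q.Prime := ⟨h.prime⟩
  exact Fermat.Agent.GJ.J1.K18Modular.hrank1_bar A hA

/-- the symmetric chart has rational coefficients -/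
theorem tS_galois (τ : Kbar ≃ₐ[ℚ] Kbar) :
    arithmeticRingAut (modularFunctionFieldFull N) τ (tS N h.dvd) = tS N h.dvd := by
  haveI : NeZero (1 : ℕ) := ⟨one_ne_zero⟩
  have h1 : jF N = jdF N 1 (one_dvd N) := by
    rw [jF_eq_gen]
    exact gen_eq_jdF (idxOne N)
  rw [tS, map_mul, h1, Fermat.Agent.GK.UQ.arithmeticRingAut_jdF,
    Fermat.Agent.GK.UQ.arithmeticRingAut_jdF]

variable (hA : A.LiesOverPrime q)

include hA in
/-- `hdeg` for the symmetric chart, inequality form -/
theorem hdeg_tS_le :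
    finrank Kbar⟮tS N h.dvd⟯ (FN N) ≤
      finrank 𝕜⟮(redDataBar N A).red ⟨tS N h.dvd, (isGaussChart1_tS N A h hA).1⟩⟯ (FresBar N A) +
        finrank 𝕜⟮(redData2 N A h).red ⟨tS N h.dvd, (isGaussChart2_tS N A h hA).1⟩⟯
          (FresBar N A) :=
  (hdeg_tS_red N A h hA (isGaussChart1_tS N A h hA) (isGaussChart2_tS N A h hA)).le

include hA in
theorem inv_tS_mem_Rw1 : (tS N h.dvd)⁻¹ ∈ (redDataBar N A).Rw :=
  ((mem_ballFN N A h).1 (Fermat.Agent.GK.NodesGeFN.inv_tS_mem N A h hA)).1

include hA in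
theorem inv_tS_mem_Rw2 : (tS N h.dvd)⁻¹ ∈ (redData2 N A h).Rw :=
  ((mem_ballFN N A h).1 (Fermat.Agent.GK.NodesGeFN.inv_tS_mem N A h hA)).2

include hA in
/-- orthonormal bases for `Rw₁ ⊓ Rw₂` at any level `q ∥ N` (through the symmetric chart) -/
theorem hasOrthoBases_FN :
    HasOrthoBases (redDataBar N A).A (ball2 (redDataBar N A) (redData2 N A h))
      (rad2 (redDataBar N A) (redData2 N A h)) := by
  haveI : FiniteDimensional Kbar⟮tS N h.dvd⟯ (FN N) := (isGen_tS N h.dvd).finite
  exact hasOrthoBases2 (redCompatFN N A h) (Rw1_ne_Rw2 N A h hA) (isGaussChart1_tS N A h hA)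
    (isGaussChart2_tS N A h hA) (hdeg_tS_le N A h hA)

/-- `m ∣ div y` for the admissible units -/
theorem U_dvd_goodUnitsMod {m : ℕ} (y : goodUnitsMod N A h m) (v : Place Kbar (FN N)) :
    (m : ℤ) ∣ v.ord (((y : (FK N)ˣ) : FK N)) :=
  y.2.1 v

end Fermat.Agent.GK.SS.Modular
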