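/-
GATE-K / N10-MODULAR, layer 2 (helper56): **the (SS) package at `F_N`, `q ∥ N`, `A` over `q`,
from the special-fibre facts**, with the coordinate ring `C` of the affine special fibre ABSTRACT.

Inputs (everything else is discharged here, through helper44 `ssPackage_chart`, helper47
`ChartInput` / `FrobNodes`, helper94 `HTGlue`, helper34 `NodalBridge`, helper49 `exists_hdimT_FN`,
helper92 `SymDegreeInst`, helper23 `SymChart`):

* `C` a Dedekind domain, not a field, with an injective `k`-algebra map into the residue function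
  field `(FresBar N A) = FresBar N A`, with image the integral closure of `k[τ]` (`hCreg`, `hCrange`);
* `Ψ : C →ₐ[k] C` the `k`-linear Frobenius (`hΨ`: compatible with `psiFN`, `hΨpow`: `Ψ C ⊂ C^q`);
* `J' ⊇ fixIdeal Ψ` the ideal of the nodes;
* **N6** `hB` : both reductions of `x ∈ Rw₁ ⊓ Rw₂` integral over `ℚ̄[j]` lie in `C` and are glued
  along `J'`; `hBsurj` : every glued pair is such a reduction (`B~ = gluedAlg Ψ J'`);
* the old lifts `hα`, `hβ` (chart at infinity);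
* `hconn` : the special fibre is connected (`Σ ≠ ∅`).
-/
import Fermat.Agent.GK.SS.ModularChart
import Fermat.Agent.GK.SS.ChartOfFrobGlue
import Fermat.Agent.GK.SS.HTGlue
import Fermat.Agent.GK.Flat.HdimTFN
import Fermat.Agent.GK.SS.ConnCore

set_option autoImplicit false
set_option linter.unusedSectionVars false
set_option linter.style.haveILetI false

noncomputable section

namespace Fermat.Agent.GK.SS.Modular

open AlgebraicCurve IntermediateField Module IsLocalRing ModularCurve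
open Fermat.Agent.S24 Fermat.Agent.S24_helper62 Fermat.Agent.RRh45 Fermat.Agent.RR
open Fermat.Agent.GJ.J1 Fermat.Agent.GJ.J1.Val Fermat.Agent.GJ.J1.InstGen
open Fermat.Agent.GJ.KumGroup Fermat.Agent.GJ.FF.PrincipalOf
open Fermat.Agent.GK.AL Fermat.Agent.GK.MultiVal Fermat.Agent.GK.Core
open Fermat.Agent.GK.CuspSep Fermat.Agent.GK.SymChart Fermat.Agent.GK.SymDegree
open Fermat.Agent.GK.BallTwo Fermat.Agent.GK.Val.TwoVal Fermat.Agent.GK.PsiFN
open Fermat.Agent.GK.FrobGlue Fermat.Agent.GK.NodalBridge Fermat.Agent.GK.NodalGraded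
open Fermat.Agent.GK.NodalPole Fermat.Agent.GK.PencilInf Fermat.Agent.GK.PencilInstS
open Fermat.Agent.GK.SS.TwoRed Fermat.Agent.GK.SS.FrobNodes Fermat.Agent.GK.SS.HTGlue
open Fermat.Agent.GK.SS.CompRiemann Fermat.Agent.GK.Core.Twist Fermat.Agent.GK.Core.TwistNodal

variable {q : ℕ} (N : ℕ) [NeZero N] [NeZero q] (A : ValuationSubring Kbar) (h : ExactDvd q N)


section Nodes

variable {C : Type} [CommRing C] [Algebra (ResidueField A) C] [Algebra C (FresBar N A)] [IsScalarTower (ResidueField A) C (FresBar N A)]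
  (hA : A.LiesOverPrime q)

/-- the glueing condition for the chart `τ^(1+q)` -/
theorem chart_sub_mem (hinj : Function.Injective (algebraMap C (FresBar N A)))
    (Ψ : C →ₐ[(ResidueField A)] C)
    (hΨ : ∀ c, algebraMap C (FresBar N A) (Ψ c) = psiFN N A h hA (algebraMap C (FresBar N A) c))
    {J' : Ideal C} (hfix : fixIdeal Ψ ≤ J') {gτ : C} (hgτ : algebraMap C (FresBar N A) gτ = tauF N A) :
    gτ ^ (1 + q) - Ψ (gτ ^ (1 + q)) ∈ J' := by
  have h1 : Ψ gτ = gτ ^ q := by
    apply hinj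
    rw [hΨ, hgτ, psiFN_tauF, map_pow, hgτ]
  have h2 : gτ ^ (1 + q) - Ψ (gτ ^ (1 + q)) = Ψ gτ * (gτ - Ψ (Ψ gτ)) := by
    rw [map_pow, h1, map_pow, h1]
    ring
  rw [h2]
  exact J'.mul_mem_left _ (hfix (sub_mem_fixIdeal Ψ gτ))

/-- `k`-rationality of the nodes -/
theorem nodes_rational [IsAlgClosed (ResidueField A)] (x₀ : (FresBar N A)) [IsGen (ResidueField A) x₀]
    (hinj : Function.Injective (algebraMap C (FresBar N A))) (hCf : ¬ IsField C)
    (Ψ : C →ₐ[(ResidueField A)] C) {J' : Ideal C} (hfix : fixIdeal Ψ ≤ J') :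
    ∀ P ∈ nodes J', Function.Surjective (algebraMap (ResidueField A) (C ⧸ P)) := by
  obtain ⟨-, -, -, -, -, -, hrat⟩ := exists_node_places (Ψ := Ψ) (J' := J') x₀ hinj hCf hfix
  intro P hP y
  obtain ⟨g, rfl⟩ := Ideal.Quotient.mk_surjective y
  obtain ⟨c, hc⟩ := hrat ⟨P, hP⟩ g
  refine ⟨c, ?_⟩
  rw [IsScalarTower.algebraMap_apply (ResidueField A) C (C ⧸ P), Ideal.Quotient.algebraMap_eq]
  exact (Ideal.Quotient.eq.2 hc).symm

end Nodes


section Main

variable {C : Type} [CommRing C] [Algebra (ResidueField A) C] [Algebra C (FresBar N A)]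
  [IsScalarTower (ResidueField A) C (FresBar N A)]

set_option maxHeartbeats 1600000 in
/-- **The (SS) package at `F_N` from the special-fibre facts** (see the file header). -/
theorem nonempty_ssPackage_fibre (hA : A.LiesOverPrime q) {m : ℕ}
    (hmk : ((m : ℕ) : ResidueField A) ≠ 0)
    [IsDedekindDomain C] (hCf : ¬ IsField C)
    (hinj : Function.Injective (algebraMap C (FresBar N A)))
    (hCreg : ∀ c : C, RegFin (ResidueField A) (tauF N A) (algebraMap C (FresBar N A) c))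
    (hCrange : ∀ z : FresBar N A, RegFin (ResidueField A) (tauF N A) z →
      z ∈ Set.range (algebraMap C (FresBar N A)))
    (Ψ : C →ₐ[ResidueField A] C) (hΨpow : ∀ a, ∃ b, Ψ a = b ^ q)
    (hΨ : ∀ c, algebraMap C (FresBar N A) (Ψ c) = psiFN N A h hA (algebraMap C (FresBar N A) c))
    (J' : Ideal C) (hfix : fixIdeal Ψ ≤ J')
    (hB : ∀ (x : FN N) (h1 : x ∈ (redDataBar N A).Rw) (h2 : x ∈ (redData2 N A h).Rw),
      RegFin Kbar (jF N) x →
      ∃ g g' : C, algebraMap C (FresBar N A) g = (redDataBar N A).red ⟨x, h1⟩ ∧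
        algebraMap C (FresBar N A) g' = (redData2 N A h).red ⟨x, h2⟩ ∧ g - Ψ g' ∈ J')
    (hBsurj : ∀ g g' : C, g - Ψ g' ∈ J' →
      ∃ (x : FN N) (h1 : x ∈ (redDataBar N A).Rw) (h2 : x ∈ (redData2 N A h).Rw),
        RegFin Kbar (jF N) x ∧ (redDataBar N A).red ⟨x, h1⟩ = algebraMap C (FresBar N A) g ∧
          (redData2 N A h).red ⟨x, h2⟩ = algebraMap C (FresBar N A) g')
    (mα mβ : ℕ)
    (hα : ∀ m : ℕ, mα ≤ m → ∀ y ∈ Lfib (ResidueField A) (tauF N A) (m : ℤ), ∃ x,
      ∃ hx : x ∈ (ballFN N A h).B,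
      RegFin Kbar (jF N * jdF N q h.dvd)⁻¹ ((jF N)⁻¹ ^ m * x) ∧
        (ballFN N A h).red ⟨x, hx⟩ = (y, psiFN N A h hA y))
    (hβ : ∀ m : ℕ, mβ ≤ m → ∀ y ∈ Lfib (ResidueField A) (tauF N A) (m : ℤ), ∃ x,
      ∃ hx : x ∈ (ballFN N A h).B,
      RegFin Kbar (jF N * jdF N q h.dvd)⁻¹ ((jdF N q h.dvd)⁻¹ ^ m * x) ∧
        (ballFN N A h).red ⟨x, hx⟩ = (psiFN N A h hA y, y)) :
    Nonempty (SSPackage N m A) := by
  classical
  -- instances on the generic fibre
  haveI hgenK : IsGen Kbar (jF N) := isGen_jF N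
  letI : FiniteResidues Kbar (FN N) := Fermat.Agent.GJ.FF.finiteResidues (jF N)
  letI : HasPrincipalDivisors Kbar (FN N) := hasPrincipalDivisors_gen (jF N)
  letI : Nonempty (Place Kbar (FN N)) := Fermat.Agent.GJ.FF.nonempty_place (jF N)
  have H : Hyp Kbar (FN N) := hyp_of_isGen (jF N)
  -- instances on the special fibre
  haveI hgenk : IsGen (ResidueField A) (tauF N A) := isGen_tauF N A
  haveI : IsAlgClosed (ResidueField A) :=
    Fermat.Agent.GJ.ResidueAlgClosed.isAlgClosed_residueField A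
  haveI : Infinite (ResidueField A) := IsAlgClosed.instInfinite
  letI : FiniteResidues (ResidueField A) (FresBar N A) :=
    Fermat.Agent.GJ.FF.finiteResidues (tauF N A)
  letI : HasPrincipalDivisors (ResidueField A) (FresBar N A) :=
    hasPrincipalDivisors_gen (tauF N A)
  letI : Nonempty (Place (ResidueField A) (FresBar N A)) :=
    Fermat.Agent.GJ.FF.nonempty_place (tauF N A)
  have Hk : Hyp (ResidueField A) (FresBar N A) := hyp_of_isGen (tauF N A)
  -- the nodes
  have hq2 : 2 ≤ q := h.prime.two_le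
  have hJ0 : J' ≠ ⊥ := fun h0 => fixIdeal_ne_bot Ψ hCf hq2 hΨpow (le_bot_iff.1 (h0 ▸ hfix))
  have hrad : J'.IsRadical := isRadical_of_fixIdeal_le Ψ hCf hq2 hΨpow hfix
  letI : Fintype ↥(nodes J') := (finite_nodes hCf hJ0).fintype
  have hJ : ∀ c : C, c ∈ J' ↔ ∀ m ∈ nodes J', c ∈ m := by
    intro c
    conv_lhs => rw [eq_sInf_nodes hJ0 hrad]
    rw [Ideal.mem_sInf]
  have hk := nodes_rational N A (tauF N A) hinj hCf Ψ hfix
  -- the chart on the special fibre
  have hτ0 : tauF N A ≠ 0 := tauF_ne_zero N A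
  have hs0 : tauF N A ^ (1 + q) ≠ 0 := pow_ne_zero _ hτ0
  have hstr : Transcendental (ResidueField A) (tauF N A ^ (1 + q)) :=
    (transcendental_tauF N A).pow (by omega)
  have hD : ExactPoles (tauF N A ^ (1 + q)) (Bound.poleDiv (ResidueField A) (tauF N A ^ (1 + q))) :=
    exactPoles_poleDiv hs0
  have hregpow : ∀ x : FresBar N A, RegFin (ResidueField A) (tauF N A ^ (1 + q)) x ↔
      RegFin (ResidueField A) (tauF N A) x :=
    fun x => Fermat.Agent.GK.Red.regFin_pow_iff (by omega)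
  have hC₁ : ∀ x : FresBar N A, RegFin (ResidueField A) (tauF N A ^ (1 + q)) x →
      x ∈ Set.range (algebraMap C (FresBar N A)) := fun x hx => hCrange x ((hregpow x).1 hx)
  obtain ⟨gτ, hgτ⟩ := hCrange (tauF N A) (regFin_self (tauF N A))
  have hgs : algebraMap C (FresBar N A) (gτ ^ (1 + q)) = tauF N A ^ (1 + q) := by
    rw [map_pow, hgτ]
  obtain ⟨P, Q, hPinj, hQinj, hdP, hdQ, hD₁, hD₂, hTeq⟩ :=
    exists_places_T (Ψ := Ψ) (J' := J') (tauF N A) hinj hCf hfix hJ hC₁ hC₁ ⟨_, hgs⟩ ⟨_, hgs⟩ hD hD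
  have hs : ((tauF N A ^ (1 + q), tauF N A ^ (1 + q)) : FresBar N A × FresBar N A) ∈
      T P Q (Bound.poleDiv (ResidueField A) (tauF N A ^ (1 + q)))
        (Bound.poleDiv (ResidueField A) (tauF N A ^ (1 + q))) 1 := by
    rw [← hTeq 1]
    have := mem_Tglue_of_regFin (Ψ := Ψ) (J' := J') (tauF N A) hD hD (n := 1)
      (chart_sub_mem N A h hA hinj Ψ hΨ hfix hgτ)
      (by rw [hgs]; exact regFin_self _) (by rw [hgs]; exact regFin_self _)
      (by rw [hgs, pow_one, inv_mul_cancel₀ hs0]; exact regFin_one _)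
      (by rw [hgs, pow_one, inv_mul_cancel₀ hs0]; exact regFin_one _)
    rwa [hgs] at this
  -- the chart on the generic fibre
  have ht1 := isGaussChart1_tS N A h hA
  have ht2 := isGaussChart2_tS N A h hA
  have hr1 : (redDataBar N A).red ⟨tS N h.dvd, ht1.1⟩ = tauF N A ^ (1 + q) := by
    rw [red1_tS N A h hA, add_comm]
  have hr2 : (redData2 N A h).red ⟨tS N h.dvd, ht2.1⟩ = tauF N A ^ (1 + q) := by
    rw [red2_tS N A h hA, add_comm]
  have hD1' : ExactPoles ((redDataBar N A).red ⟨tS N h.dvd, ht1.1⟩)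
      (Bound.poleDiv (ResidueField A) (tauF N A ^ (1 + q))) := by rw [hr1]; exact hD
  have hD2' : ExactPoles ((redData2 N A h).red ⟨tS N h.dvd, ht2.1⟩)
      (Bound.poleDiv (ResidueField A) (tauF N A ^ (1 + q))) := by rw [hr2]; exact hD
  have hs' : (((redDataBar N A).red ⟨tS N h.dvd, ht1.1⟩,
      (redData2 N A h).red ⟨tS N h.dvd, ht2.1⟩) : FresBar N A × FresBar N A) ∈
      T P Q (Bound.poleDiv (ResidueField A) (tauF N A ^ (1 + q)))
        (Bound.poleDiv (ResidueField A) (tauF N A ^ (1 + q))) 1 := by rw [hr1, hr2]; exact hs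
  haveI : FiniteDimensional Kbar⟮tS N h.dvd⟯ (FN N) := (isGen_tS N h.dvd).finite
  have hc := redCompatFN N A h
  have hne := Rw1_ne_Rw2 N A h hA
  have hdeg := hdeg_tS_le N A h hA
  have hti1 := inv_tS_mem_Rw1 N A h hA
  have hti2 := inv_tS_mem_Rw2 N A h hA
  have htK := transcendental_tS N h.dvd
  have hB' : ∀ (x : FN N) (h1 : x ∈ (redDataBar N A).Rw) (h2 : x ∈ (redData2 N A h).Rw),
      RegFin Kbar (tS N h.dvd) x →
      ∃ g g' : C, algebraMap C (FresBar N A) g = (redDataBar N A).red ⟨x, h1⟩ ∧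
        algebraMap C (FresBar N A) g' = (redData2 N A h).red ⟨x, h2⟩ ∧ g - Ψ g' ∈ J' :=
    fun x h1 h2 hx => hB x h1 h2 ((regFin_tS_iff N h.dvd h.prime x).1 hx)
  have hT := hT_chartPair (tauF N A) hc hne ht1 ht2 hdeg hti1 hti2 Ψ J' hD1' hD2' hB' hTeq hs'
  -- the node count
  have hfin : ∀ n, ∀ z ∈ T P Q (Bound.poleDiv (ResidueField A) (tauF N A ^ (1 + q)))
      (Bound.poleDiv (ResidueField A) (tauF N A ^ (1 + q))) n,
      z ∈ redAlg (ballFN N A h) (jF N * jdF N q h.dvd) := by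
    intro n z hz
    rw [← hTeq n] at hz
    obtain ⟨-, -, g, g', hg, hg', hgg'⟩ := hz
    obtain ⟨x, h1, h2, hreg, e1, e2⟩ := hBsurj g g' hgg'
    refine ⟨x, (mem_ballFN N A h).2 ⟨h1, h2⟩, (regFin_tS_iff N h.dvd h.prime x).2 hreg, ?_⟩
    exact Prod.ext (e1.trans hg) (e2.trans hg')
  obtain ⟨g', c0, hg', hg'eq, hdimT⟩ := Fermat.Agent.GK.NodesGeFN.exists_hdimT_FN N A h hA
    hPinj hQinj hdP hdQ hD₁ hD₂ hs mα mβ hα hβ hfin
  -- the coordinate ring inside the residue field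
  have hm0 : m ≠ 0 := by
    rintro rfl
    simp at hmk
  have hinjC : Function.Injective
      (IsScalarTower.toAlgHom (ResidueField A) C (FresBar N A)) := hinj
  have hint1 : ∀ c : C, RegFin (ResidueField A) ((redDataBar N A).red ⟨tS N h.dvd, ht1.1⟩)
      (IsScalarTower.toAlgHom (ResidueField A) C (FresBar N A) c) := by
    intro c
    rw [hr1]
    exact (hregpow _).2 (hCreg c)
  have hint2 : ∀ c : C, RegFin (ResidueField A) ((redData2 N A h).red ⟨tS N h.dvd, ht2.1⟩)
      (IsScalarTower.toAlgHom (ResidueField A) C (FresBar N A) c) := by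
    intro c
    rw [hr2]
    exact (hregpow _).2 (hCreg c)
  have hrange1 : ∀ z : FresBar N A,
      RegFin (ResidueField A) ((redDataBar N A).red ⟨tS N h.dvd, ht1.1⟩) z →
      ∃ r, IsScalarTower.toAlgHom (ResidueField A) C (FresBar N A) r = z := by
    intro z hz
    rw [hr1] at hz
    exact hC₁ z hz
  have hrange2 : ∀ z : FresBar N A,
      RegFin (ResidueField A) ((redData2 N A h).red ⟨tS N h.dvd, ht2.1⟩) z →
      ∃ r, IsScalarTower.toAlgHom (ResidueField A) C (FresBar N A) r = z := by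
    intro z hz
    rw [hr2] at hz
    exact hC₁ z hz
  obtain ⟨nSurj, hsurj⟩ := exists_nS_surj Ψ J' hk
    (IsScalarTower.toAlgHom (ResidueField A) C (FresBar N A))
    (IsScalarTower.toAlgHom (ResidueField A) C (FresBar N A)) hfix
    (s1 := (redDataBar N A).red ⟨tS N h.dvd, ht1.1⟩)
    (s2 := (redData2 N A h).red ⟨tS N h.dvd, ht2.1⟩)
    (by rw [hr1]; exact hs0) (by rw [hr2]; exact hs0) hint1 hint2
  obtain ⟨n1, hdim1⟩ := exists_dim_Lfib Hk (tauF N A) ht1.2
  obtain ⟨n2, hdim2⟩ := exists_dim_Lfib Hk (tauF N A) ht2.2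
  have hgFF : (genusRR (ResidueField A) (FresBar N A)).toNat =
      genusFF (ResidueField A) (FresBar N A) := by
    rw [Fermat.Agent.GK.GenusFF.genusRR_eq_genusFF (tauF N A)]
    exact Int.toNat_natCast _
  have hgnn : 0 ≤ genusRR Kbar (FN N) := genusRR_nonneg H
  have hBglue : ∀ (n : ℕ) x (h1 : x ∈ (redDataBar N A).Rw) (h2 : x ∈ (redData2 N A h).Rw),
      x ∈ Lfib Kbar (tS N h.dvd) (n : ℤ) → ∀ z1 z2 : C,
      IsScalarTower.toAlgHom (ResidueField A) C (FresBar N A) z1 = (redDataBar N A).red ⟨x, h1⟩ →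
      IsScalarTower.toAlgHom (ResidueField A) C (FresBar N A) z2 = (redData2 N A h).red ⟨x, h2⟩ →
      (z1, z2) ∈ gluedAlg Ψ J' := by
    intro n x h1 h2 hx z1 z2 e1 e2
    have hreg : RegFin Kbar (tS N h.dvd) x :=
      (Fermat.Agent.GJ.J1.G1.mem_Lfib_iff_of_isAlgClosed.mp hx).1
    obtain ⟨g, g2, hg, hg2, hgg⟩ := hB' x h1 h2 hreg
    have a1 : z1 = g := hinj (e1.trans hg.symm)
    have a2 : z2 = g2 := hinj (e2.trans hg2.symm)
    rw [a1, a2]
    exact hgg
  let I : ChartInput (redDataBar N A) (redData2 N A h)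
      (IsScalarTower.toAlgHom (ResidueField A) C (FresBar N A))
      (IsScalarTower.toAlgHom (ResidueField A) C (FresBar N A))
      (goodUnitsMod N A h m) m ↥(nodes J') (tS N h.dvd) ht1 ht2 :=
    { U_dvd := U_dvd_goodUnitsMod N A h
      c1 := fun y => (galVal1 N A).cstRed ((y : (FK N)ˣ) : FK N)
      c2 := fun y => (galVal2 N A h).cstRed ((y : (FK N)ˣ) : FK N)
      y_red1 := fun y => red1_goodUnitsMod N A h y.2
      y_red2 := fun y => red2_goodUnitsMod N A h y.2
      c1_ne := fun y => cstRed1_ne_zero_goodUnitsMod N A h y.2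
      c2_ne := fun y => cstRed2_ne_zero_goodUnitsMod N A h y.2
      fin1 := fun n => finiteDimensional_Lfib (tauF N A) ht1.2 n
      fin2 := fun n => finiteDimensional_Lfib (tauF N A) ht2.2 n
      range1 := fun n z hz => exists_of_mem_Lfib _ hrange1 n z hz
      range2 := fun n z hz => exists_of_mem_Lfib _ hrange2 n z hz
      e1 := e1 J' hk
      e2 := e2 Ψ J' hk
      nS := max nSurj (max n1 n2)
      surj := fun n hn => hsurj n (le_trans (le_max_left _ _) hn)
      g := (genusRR Kbar (FN N)).toNat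
      g1 := genusFF (ResidueField A) (FresBar N A)
      g2 := genusFF (ResidueField A) (FresBar N A)
      d1 := finrank (ResidueField A)⟮(redDataBar N A).red ⟨tS N h.dvd, ht1.1⟩⟯ (FresBar N A)
      d2 := finrank (ResidueField A)⟮(redData2 N A h).red ⟨tS N h.dvd, ht2.1⟩⟯ (FresBar N A)
      hg := (Int.toNat_of_nonneg hgnn).symm
      dim1 := fun n hn => by
        rw [← hgFF]
        exact hdim1 n (le_trans (le_trans (le_max_left _ _) (le_max_right _ _)) hn)
      dim2 := fun n hn => by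
        rw [← hgFF]
        exact hdim2 n (le_trans (le_trans (le_max_right _ _) (le_max_right _ _)) hn)
      hd := hdeg_tS_red N A h hA ht1 ht2
      nodes := by
        have e : ((genusRR Kbar (FN N)).toNat : ℤ) = genusRR Kbar (FN N) :=
          Int.toNat_of_nonneg hgnn
        have : ((genusRR Kbar (FN N)).toNat : ℤ) ≤ g' := e ▸ hg'
        have : (genusRR Kbar (FN N)).toNat ≤ g' := by exact_mod_cast this
        omega
      glue_one := glue_one_of_gluedAlg Ψ J' hk (redDataBar N A) (redData2 N A h) _ _ hBglue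
      hm := Nat.pos_of_ne_zero hm0 }
  -- connectedness of the special fibre (helper39, `GK/SS/ConnCore.lean`)
  have hdimT' : ∀ n, c0 ≤ n →
      finrank (ResidueField A) ((chartPair hD1' hD2' hs').T n) + g' ≤
        n * finrank Kbar⟮tS N h.dvd⟯ (FN N) + 1 := by
    intro n hn
    rw [chartPair_T]
    exact (hdimT n hn).le
  haveI : Nonempty ↥(nodes J') :=
    Fermat.Agent.GK.SS.Conn.nonempty_of_chartPair (jF N) hc (hasOrthoBases_FN N A h hA)
      (rankOne_bar N A h hA) (mem_ball2.2 ⟨ht1.1, ht2.1⟩) htK hD1' hD2' hs'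
      (chartPair_s_eq ht1 ht2 hD1' hD2' hs' (mem_ball2.2 ⟨ht1.1, ht2.1⟩))
      (hunit_chartPair ht1 ht2 hD1' hD2' hs') (hTfin_chartPair hD1' hD2' hs') hT g' c0 hg' hdimT'
  refine ⟨ssPackage_chart N A h hA hmk (jF N) H I htK hc hne hdeg hti1 hti2 hinjC hinjC
    (hasOrthoBases_FN N A h hA) (rankOne_bar N A h hA) (tS_galois N h)
    (chartPair hD1' hD2' hs') (chartPair_s_eq ht1 ht2 hD1' hD2' hs' _)
    (hunit_chartPair ht1 ht2 hD1' hD2' hs') (hTfin_chartPair hD1' hD2' hs') hT g'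
    (max c0 (max I.nS (I.nG H (jF N) htK))) (le_max_right _ _) hg' ?_⟩
  intro n hn
  rw [chartPair_T]
  have := hdimT n (le_trans (le_max_left _ _) hn)
  exact this.le

/-- `nonempty_ssPackage_fibre` with the (now redundant) connectedness hypothesis `hconn`
(kept for the importers of the first version of this file). -/
theorem nonempty_ssPackage_of_fibre (hA : A.LiesOverPrime q) {m : ℕ}
    (hmk : ((m : ℕ) : ResidueField A) ≠ 0)
    [IsDedekindDomain C] (hCf : ¬ IsField C)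
    (hinj : Function.Injective (algebraMap C (FresBar N A)))
    (hCreg : ∀ c : C, RegFin (ResidueField A) (tauF N A) (algebraMap C (FresBar N A) c))
    (hCrange : ∀ z : FresBar N A, RegFin (ResidueField A) (tauF N A) z →
      z ∈ Set.range (algebraMap C (FresBar N A)))
    (Ψ : C →ₐ[ResidueField A] C) (hΨpow : ∀ a, ∃ b, Ψ a = b ^ q)
    (hΨ : ∀ c, algebraMap C (FresBar N A) (Ψ c) = psiFN N A h hA (algebraMap C (FresBar N A) c))
    (J' : Ideal C) (hfix : fixIdeal Ψ ≤ J')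
    (hB : ∀ (x : FN N) (h1 : x ∈ (redDataBar N A).Rw) (h2 : x ∈ (redData2 N A h).Rw),
      RegFin Kbar (jF N) x →
      ∃ g g' : C, algebraMap C (FresBar N A) g = (redDataBar N A).red ⟨x, h1⟩ ∧
        algebraMap C (FresBar N A) g' = (redData2 N A h).red ⟨x, h2⟩ ∧ g - Ψ g' ∈ J')
    (hBsurj : ∀ g g' : C, g - Ψ g' ∈ J' →
      ∃ (x : FN N) (h1 : x ∈ (redDataBar N A).Rw) (h2 : x ∈ (redData2 N A h).Rw),
        RegFin Kbar (jF N) x ∧ (redDataBar N A).red ⟨x, h1⟩ = algebraMap C (FresBar N A) g ∧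
          (redData2 N A h).red ⟨x, h2⟩ = algebraMap C (FresBar N A) g')
    (mα mβ : ℕ)
    (hα : ∀ m : ℕ, mα ≤ m → ∀ y ∈ Lfib (ResidueField A) (tauF N A) (m : ℤ), ∃ x,
      ∃ hx : x ∈ (ballFN N A h).B,
      RegFin Kbar (jF N * jdF N q h.dvd)⁻¹ ((jF N)⁻¹ ^ m * x) ∧
        (ballFN N A h).red ⟨x, hx⟩ = (y, psiFN N A h hA y))
    (hβ : ∀ m : ℕ, mβ ≤ m → ∀ y ∈ Lfib (ResidueField A) (tauF N A) (m : ℤ), ∃ x,
      ∃ hx : x ∈ (ballFN N A h).B,
      RegFin Kbar (jF N * jdF N q h.dvd)⁻¹ ((jdF N q h.dvd)⁻¹ ^ m * x) ∧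
        (ballFN N A h).red ⟨x, hx⟩ = (psiFN N A h hA y, y))
    (_hconn : Nonempty ↥(nodes J')) :
    Nonempty (SSPackage N m A) :=
  nonempty_ssPackage_fibre N A h hA hmk hCf hinj hCreg hCrange Ψ hΨpow hΨ J' hfix hB hBsurj
    mα mβ hα hβ

end Main

end Fermat.Agent.GK.SS.Modular
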