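/-
GATE-K / (G1), special-fibre side at the level-`N` TYPE (helper40): the semilinear automorphism
`resFres N A σ hσ` of `FresBar N A` (`GK/SS/FrobSymmMod.lean`, coefficientwise action of
`σ ∈ D(A)`) against helper49's `k`-linear Frobenius `psiFN : y(Q) ↦ y(Q^q)` (`GK/Flat/PsiFN.lean`).

* `resFres_tauF` : `resFres σ τ = τ` (`τ = red₁ j` has coefficients in the prime field);
* `resFres_psiFN` : `resFres σ` commutes with `Ψ`;
* `regFin_resFres_of_fixed`, `regFin_resFres`, `regFin_inv_resFres` : `resFres σ` preserves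
  integrality over `k[s]` for every chart `s` it fixes (`τ`, `τ⁻¹`);
* `resFres_inv_resFres`, `resFres_resFres_inv` : `resFres σ⁻¹` is the inverse of `resFres σ`;
* `psiFN_resFres` : **`Ψ (resFres φ y) = y ^ q`** for a Frobenius `φ` at `A` (hypothesis `hΨS` of
  `FrobNodes.e1_nodePerm` / `frob_sq_of_frobNodes` with `S :=` the restriction of `resFres φ`);
* `psiFN_eq_pow_resFres_inv` : `Ψ y = (resFres φ⁻¹ y) ^ q` (hypothesis `hΨS'` of
  `FrobNodes.map_mem_of_symm`);
* `resSub` : the restriction of `resFres σ` to a stable subalgebra, `coe_resSub`.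
-/
import Fermat.Agent.GK.SS.FrobSymmMod
import Fermat.Agent.GK.Flat.PsiFN

set_option autoImplicit false

namespace Fermat.Agent.GK.SS

open HahnSeries ModularCurve IsLocalRing
open Fermat.Agent.S24 Fermat.Agent.GJ.J1 Fermat.Agent.GJ.J1.Val Fermat.Agent.GJ.Kum
open Fermat.Agent.GK.AL Fermat.Agent.GK.CuspSep Fermat.Agent.GK.PsiFN Fermat.Agent.GJ.J3

/-- `ℚ̄`. -/
local notation "Qb" => AlgebraicClosure ℚ

section

variable (N : ℕ) [NeZero N] (A : ValuationSubring Qb)

/-- `τ = red₁ j` is fixed by the coefficientwise action -/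
theorem resFres_tauF (σ : Qb ≃ₐ[ℚ] Qb) (hσ : σ ∈ A.decompositionSubgroup ℚ) :
    resFres N A σ hσ (tauF N A) = tauF N A := by
  apply Subtype.ext
  rw [coe_resFres, coe_tauF, coeffMap_jqModC]

/-- `resFres σ` maps `k[s]` into itself when it fixes `s` -/
theorem resFres_mem_adjoin (σ : Qb ≃ₐ[ℚ] Qb) (hσ : σ ∈ A.decompositionSubgroup ℚ)
    {s : FresBar N A} (hs : resFres N A σ hσ s = s) {z : FresBar N A}
    (hz : z ∈ Algebra.adjoin (ResidueField A) {s}) :
    resFres N A σ hσ z ∈ Algebra.adjoin (ResidueField A) {s} := by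
  induction hz using Algebra.adjoin_induction with
  | mem x hx =>
    rw [Set.mem_singleton_iff] at hx
    rw [hx, hs]
    exact Algebra.self_mem_adjoin_singleton _ _
  | algebraMap c =>
    rw [resFres_algebraMap]
    exact Subalgebra.algebraMap_mem _ _
  | add x y _ _ hx hy =>
    rw [map_add]
    exact add_mem hx hy
  | mul x y _ _ hx hy =>
    rw [map_mul]
    exact mul_mem hx hy

/-- `resFres σ` preserves integrality over `k[s]` for every chart `s` it fixes -/
theorem regFin_resFres_of_fixed (σ : Qb ≃ₐ[ℚ] Qb) (hσ : σ ∈ A.decompositionSubgroup ℚ)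
    {s : FresBar N A} (hs : resFres N A σ hσ s = s) {y : FresBar N A}
    (hy : RegFin (ResidueField A) s y) : RegFin (ResidueField A) s (resFres N A σ hσ y) := by
  let ψ : Algebra.adjoin (ResidueField A) {s} →+* Algebra.adjoin (ResidueField A) {s} :=
    ((resFres N A σ hσ).comp (Algebra.adjoin (ResidueField A) {s}).val.toRingHom).codRestrict
      (Algebra.adjoin (ResidueField A) {s}).toSubring
      (fun z => resFres_mem_adjoin N A σ hσ hs z.2)
  exact IsIntegral.map_of_comp_eq ψ (resFres N A σ hσ) (RingHom.ext fun _ => rfl) hy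

/-- the finite chart `k[τ]` -/
theorem regFin_resFres (σ : Qb ≃ₐ[ℚ] Qb) (hσ : σ ∈ A.decompositionSubgroup ℚ)
    {y : FresBar N A} (hy : RegFin (ResidueField A) (tauF N A) y) :
    RegFin (ResidueField A) (tauF N A) (resFres N A σ hσ y) :=
  regFin_resFres_of_fixed N A σ hσ (resFres_tauF N A σ hσ) hy

/-- the chart at infinity `k[τ⁻¹]` -/
theorem regFin_inv_resFres (σ : Qb ≃ₐ[ℚ] Qb) (hσ : σ ∈ A.decompositionSubgroup ℚ)
    {y : FresBar N A} (hy : RegFin (ResidueField A) (tauF N A)⁻¹ y) :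
    RegFin (ResidueField A) (tauF N A)⁻¹ (resFres N A σ hσ y) :=
  regFin_resFres_of_fixed N A σ hσ (by rw [map_inv₀, resFres_tauF]) hy

/-- `resk σ⁻¹` is the inverse of `resk σ` -/
theorem resk_inv_resk (σ : Qb ≃ₐ[ℚ] Qb) (hσ : σ ∈ A.decompositionSubgroup ℚ)
    (c : ResidueField A) : resk A σ⁻¹ (inv_mem hσ) (resk A σ hσ c) = c := by
  show (⟨σ⁻¹, inv_mem hσ⟩ : A.decompositionSubgroup ℚ) •
    ((⟨σ, hσ⟩ : A.decompositionSubgroup ℚ) • c) = c
  have e : (⟨σ⁻¹, inv_mem hσ⟩ : A.decompositionSubgroup ℚ) =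
      (⟨σ, hσ⟩ : A.decompositionSubgroup ℚ)⁻¹ := rfl
  rw [e, inv_smul_smul]

/-- `resFres σ⁻¹ ∘ resFres σ = id` -/
theorem resFres_inv_resFres (σ : Qb ≃ₐ[ℚ] Qb) (hσ : σ ∈ A.decompositionSubgroup ℚ)
    (y : FresBar N A) : resFres N A σ⁻¹ (inv_mem hσ) (resFres N A σ hσ y) = y := by
  apply Subtype.ext
  rw [coe_resFres, coe_resFres]
  ext n
  rw [coeffMap_coeff, coeffMap_coeff, resk_inv_resk]

/-- `resFres σ ∘ resFres σ⁻¹ = id` -/
theorem resFres_resFres_inv (σ : Qb ≃ₐ[ℚ] Qb) (hσ : σ ∈ A.decompositionSubgroup ℚ)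
    (y : FresBar N A) : resFres N A σ hσ (resFres N A σ⁻¹ (inv_mem hσ) y) = y := by
  have h1 := resFres_inv_resFres N A σ⁻¹ (inv_mem hσ) y
  have e : resFres N A σ⁻¹⁻¹ (inv_mem (inv_mem hσ)) = resFres N A σ hσ := by
    congr 1
  rwa [e] at h1

/-- the restriction of `resFres σ` to a stable subalgebra (the coordinate ring of a chart) -/
noncomputable def resSub (σ : Qb ≃ₐ[ℚ] Qb) (hσ : σ ∈ A.decompositionSubgroup ℚ)
    (Cs : Subalgebra (ResidueField A) (FresBar N A))
    (hCs : ∀ y ∈ Cs, resFres N A σ hσ y ∈ Cs) : Cs →+* Cs :=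
  RingHom.codRestrict ((resFres N A σ hσ).comp Cs.val.toRingHom) Cs (fun z => hCs z z.2)

@[simp] theorem coe_resSub (σ : Qb ≃ₐ[ℚ] Qb) (hσ : σ ∈ A.decompositionSubgroup ℚ)
    (Cs : Subalgebra (ResidueField A) (FresBar N A))
    (hCs : ∀ y ∈ Cs, resFres N A σ hσ y ∈ Cs) (z : Cs) :
    ((resSub N A σ hσ Cs hCs z : Cs) : FresBar N A) = resFres N A σ hσ (z : FresBar N A) := rfl

end

section Psi

variable {q : ℕ} (N : ℕ) [NeZero N] [NeZero q] (A : ValuationSubring Qb) (h : ExactDvd q N)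
  (hA : A.LiesOverPrime q)

/-- the coefficientwise action commutes with `Ψ : y(Q) ↦ y(Q^q)` -/
theorem resFres_psiFN (σ : Qb ≃ₐ[ℚ] Qb) (hσ : σ ∈ A.decompositionSubgroup ℚ) (y : FresBar N A) :
    resFres N A σ hσ (psiFN N A h hA y) = psiFN N A h hA (resFres N A σ hσ y) := by
  apply Subtype.ext
  rw [coe_resFres, coe_psiFN, coe_psiFN, coe_resFres, coeffMap_qExpand]

/-- **`Ψ (resFres φ y) = y ^ q`** for a Frobenius `φ` at `A` -/
theorem psiFN_resFres {φ : Qb ≃ₐ[ℚ] Qb} (hφ : A.IsFrobeniusAt φ q) (y : FresBar N A) :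
    psiFN N A h hA (resFres N A φ hφ.mem_decompositionSubgroup y) = y ^ q := by
  have : Fact q.Prime := ⟨h.prime⟩
  have : CharP (ResidueField A) q := charP_residue A h.prime hA
  have hφ' : resk A φ hφ.mem_decompositionSubgroup = frobenius (ResidueField A) q :=
    RingHom.ext fun c => by rw [resk_of_frobenius hφ, frobenius_def]
  apply Subtype.ext
  rw [coe_psiFN, coe_resFres, hφ']
  push_cast
  exact (QS.pow_char_eq_qExpand q _).symm

/-- **`Ψ y = (resFres φ⁻¹ y) ^ q`** for a Frobenius `φ` at `A` -/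
theorem psiFN_eq_pow_resFres_inv {φ : Qb ≃ₐ[ℚ] Qb} (hφ : A.IsFrobeniusAt φ q)
    (y : FresBar N A) :
    psiFN N A h hA y = resFres N A φ⁻¹ (inv_mem hφ.mem_decompositionSubgroup) y ^ q := by
  rw [← psiFN_resFres N A h hA hφ, resFres_resFres_inv]

end Psi

end Fermat.Agent.GK.SS
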