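/-
GATE-K / N10-MODULAR, layer 3 (helper56): `nonempty_ssPackage_of_fibre` (`GK/SS/ModularFibre.lean`)
at the level `N = N' ℓ`, `ℓ ∤ N'`, with the CONCRETE coordinate ring `C = CRing N' A` (helper15,
`GK/QS/FrobStable.lean`), `Ψ = psiC`, `J'` the node ideal of `B~ = BT N' ℓ A h`
(`GK/QS/BTilde.lean`, `exists_ideal_BT`), and the identification
`goodEquiv : FresBar N' A ≃ FresBar (N' ℓ) A` of helper49 (`GK/Flat/PsiFNGood.lean`).
-/
import Fermat.Agent.GK.SS.ModularFibre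
import Fermat.Agent.GK.QS.BTilde
import Fermat.Agent.GK.Flat.PsiFNGood
import Fermat.Agent.GK.Flat.OldLiftsFN

set_option autoImplicit false
set_option linter.unusedSectionVars false
set_option linter.style.haveILetI false

noncomputable section

namespace Fermat.Agent.GK.SS.Modular

open AlgebraicCurve IntermediateField Module IsLocalRing ModularCurve HahnSeries
open Fermat.Agent.S24 Fermat.Agent.S24_helper62
open Fermat.Agent.GJ.J1 Fermat.Agent.GJ.J1.Val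
open Fermat.Agent.GK.AL Fermat.Agent.GK.CuspSep Fermat.Agent.GK.BallTwo
open Fermat.Agent.GK.PsiFN Fermat.Agent.GK.PsiFNGood Fermat.Agent.GK.QS
open Fermat.Agent.GK.FrobGlue

section Level

variable (N' : ℕ) [NeZero N'] (ℓ : ℕ) [Fact ℓ.Prime] [NeZero ℓ]
variable (A : ValuationSubring Kbar) (h : ExactDvd ℓ (N' * ℓ)) (hA : A.LiesOverPrime ℓ)

/-- the coordinate ring of the good level inside the residue field of level `N' ℓ` -/
def iC : CRing N' A →ₐ[ResidueField A] FresBar (N' * ℓ) A :=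
  (goodEquiv A hA N' h).toAlgHom.comp (CRing N' A).val

theorem iC_apply (c : CRing N' A) :
    iC N' ℓ A h hA c = goodEquiv A hA N' h (c : FresBar N' A) := rfl

theorem coe_iC (c : CRing N' A) :
    ((iC N' ℓ A h hA c : FresBar (N' * ℓ) A) : LaurentSeries (ResidueField A)) = cVal N' A c := by
  rw [iC_apply, coe_goodEquiv, cVal_apply]

theorem iC_injective : Function.Injective (iC N' ℓ A h hA) := fun _ _ hab =>
  Subtype.ext ((goodEquiv A hA N' h).injective hab)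

theorem regFin_iC (c : CRing N' A) :
    RegFin (ResidueField A) (tauF (N' * ℓ) A) (iC N' ℓ A h hA c) := by
  rw [iC_apply, ← goodEquiv_jt A hA N' h]
  exact regFin_algEquiv (goodEquiv A hA N' h) c.2

theorem mem_range_iC {z : FresBar (N' * ℓ) A}
    (hz : RegFin (ResidueField A) (tauF (N' * ℓ) A) z) : z ∈ Set.range (iC N' ℓ A h hA) := by
  have h1 : RegFin (ResidueField A) (QS.jt N' A) ((goodEquiv A hA N' h).symm z) := by
    rw [← regFin_algEquiv_iff (goodEquiv A hA N' h), goodEquiv_jt, AlgEquiv.apply_symm_apply]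
    exact hz
  exact ⟨⟨(goodEquiv A hA N' h).symm z, h1⟩, by
    rw [iC_apply]
    exact AlgEquiv.apply_symm_apply _ z⟩

theorem iC_psiC (hℓN : ¬ ℓ ∣ N') (c : CRing N' A) :
    iC N' ℓ A h hA (psiC N' ℓ A hℓN hA c) = psiFN (N' * ℓ) A h hA (iC N' ℓ A h hA c) := by
  rw [iC_apply, iC_apply, psiFN_goodEquiv A hA N' h hℓN, coe_psiC]

/-- **N6 in the shape of `nonempty_ssPackage_of_fibre`**: both reductions of `x ∈ B` lie in `C`
and are glued along `J'`. -/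
theorem hB_of_range {J' : Ideal (CRing N' A)} (hℓN : ¬ ℓ ∣ N')
    (hBT : BT N' ℓ A h = gluedAlg (psiC N' ℓ A hℓN hA) J')
    (hrange : ∀ x : BRing N' ℓ A h, rho1 N' ℓ A h x ∈ Set.range (cVal N' A) ∧
      rho2 N' ℓ A h x ∈ Set.range (cVal N' A))
    (x : FN (N' * ℓ)) (h1 : x ∈ (redDataBar (N' * ℓ) A).Rw)
    (h2 : x ∈ (redData2 (N' * ℓ) A h).Rw) (hx : RegFin Kbar (jF (N' * ℓ)) x) :
    ∃ g g' : CRing N' A, iC N' ℓ A h hA g = (redDataBar (N' * ℓ) A).red ⟨x, h1⟩ ∧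
      iC N' ℓ A h hA g' = (redData2 (N' * ℓ) A h).red ⟨x, h2⟩ ∧
      g - psiC N' ℓ A hℓN hA g' ∈ J' := by
  obtain ⟨⟨g, hg⟩, ⟨g', hg'⟩⟩ := hrange ⟨x, hx, h1, h2⟩
  refine ⟨g, g', Subtype.ext ?_, Subtype.ext ?_, ?_⟩
  · rw [coe_iC, hg, rho1_apply]
  · rw [coe_iC, hg', rho2_apply]
  · have : (g, g') ∈ BT N' ℓ A h := (mem_BT N' ℓ A h).2 ⟨⟨x, hx, h1, h2⟩, hg.symm, hg'.symm⟩
    rw [hBT] at this
    exact this

/-- **`B~ = gluedAlg Ψ J'`, surjectivity half**, in the shape of `nonempty_ssPackage_of_fibre`. -/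
theorem hBsurj_of_BT {J' : Ideal (CRing N' A)} (hℓN : ¬ ℓ ∣ N')
    (hBT : BT N' ℓ A h = gluedAlg (psiC N' ℓ A hℓN hA) J')
    (g g' : CRing N' A) (hgg : g - psiC N' ℓ A hℓN hA g' ∈ J') :
    ∃ (x : FN (N' * ℓ)) (h1 : x ∈ (redDataBar (N' * ℓ) A).Rw)
      (h2 : x ∈ (redData2 (N' * ℓ) A h).Rw), RegFin Kbar (jF (N' * ℓ)) x ∧
        (redDataBar (N' * ℓ) A).red ⟨x, h1⟩ = iC N' ℓ A h hA g ∧
        (redData2 (N' * ℓ) A h).red ⟨x, h2⟩ = iC N' ℓ A h hA g' := by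
  have hmem : (g, g') ∈ BT N' ℓ A h := by
    rw [hBT]
    exact hgg
  obtain ⟨x, e1, e2⟩ := (mem_BT N' ℓ A h).1 hmem
  refine ⟨x.1, x.2.2.1, x.2.2.2, x.2.1, Subtype.ext ?_, Subtype.ext ?_⟩
  · rw [coe_iC, ← e1, rho1_apply]
  · rw [coe_iC, ← e2, rho2_apply]

include hA in
set_option synthInstance.maxHeartbeats 400000 in
set_option maxHeartbeats 1600000 in
/-- **The (SS) package at level `N' ℓ`** from the pending special-fibre inputs (the coordinate
ring is Dedekind, and the reductions of `B` land in it). -/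
theorem nonempty_ssPackage_mul (hℓN : ¬ ℓ ∣ N') (h2 : ℓ = 2 → 3 ∣ N') (h3 : ℓ = 3 → 2 ∣ N')
    {m : ℕ} (hmk : ((m : ℕ) : ResidueField A) ≠ 0)
    [IsDedekindDomain (CRing N' A)] (hCf : ¬ IsField (CRing N' A))
    (hrange : ∀ x : BRing N' ℓ A h, rho1 N' ℓ A h x ∈ Set.range (cVal N' A) ∧
      rho2 N' ℓ A h x ∈ Set.range (cVal N' A)) :
    Nonempty (SSPackage (N' * ℓ) m A) := by
  obtain ⟨J', hfix, hBT⟩ := exists_ideal_BT N' ℓ A h hℓN hA h2 h3
  obtain ⟨mα, hα⟩ := Fermat.Agent.GK.OldLiftsFN.exists_alpha_lifts_FN (N' * ℓ) A h hA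
    (fun e => Dvd.dvd.mul_right (h2 e) ℓ) (fun e => Dvd.dvd.mul_right (h3 e) ℓ)
  obtain ⟨mβ, hβ⟩ := Fermat.Agent.GK.OldLiftsFN.exists_beta_lifts_FN (N' * ℓ) A h hA
    (fun e => Dvd.dvd.mul_right (h2 e) ℓ) (fun e => Dvd.dvd.mul_right (h3 e) ℓ)
  letI : Algebra (CRing N' A) (FresBar (N' * ℓ) A) := (iC N' ℓ A h hA).toRingHom.toAlgebra
  haveI : IsScalarTower (ResidueField A) (CRing N' A) (FresBar (N' * ℓ) A) :=
    IsScalarTower.of_algebraMap_eq fun c => ((iC N' ℓ A h hA).commutes c).symm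
  exact nonempty_ssPackage_fibre (N' * ℓ) A h hA hmk hCf (iC_injective N' ℓ A h hA)
    (regFin_iC N' ℓ A h hA) (fun z hz => mem_range_iC N' ℓ A h hA hz)
    (psiC N' ℓ A hℓN hA) (exists_pow_eq_psiC N' ℓ A hℓN hA) (iC_psiC N' ℓ A h hA hℓN)
    J' hfix (hB_of_range N' ℓ A h hA hℓN hBT hrange) (hBsurj_of_BT N' ℓ A h hA hℓN hBT)
    mα mβ hα hβ

end Level

/-- **The pending special-fibre inputs**, at every level `N' ℓ`, `ℓ ∤ N'`, `A` over `ℓ`, under the
tame-chart side conditions of J1: the coordinate ring `CRing N' A` of the good level is a Dedekind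
domain (not a field), and both reductions of the ring `B` land in it (N6). -/
def FibreFacts : Prop :=
  ∀ (N' : ℕ) [NeZero N'] (ℓ : ℕ) [Fact ℓ.Prime] [NeZero ℓ] (A : ValuationSubring Kbar)
    (h : ExactDvd ℓ (N' * ℓ)), A.LiesOverPrime ℓ → ¬ ℓ ∣ N' →
    (ℓ = 2 → 3 ∣ N') → (ℓ = 3 → 2 ∣ N') →
    IsDedekindDomain (CRing N' A) ∧ ¬ IsField (CRing N' A) ∧
    (∀ x : BRing N' ℓ A h, rho1 N' ℓ A h x ∈ Set.range (cVal N' A) ∧
      rho2 N' ℓ A h x ∈ Set.range (cVal N' A))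

/-- **Semistability packages at the auxiliary levels** (the hypothesis of helper43's
`Tate.ssGateAux_of_package`), from the pending special-fibre inputs. -/
theorem auxPackages_of_fibreFacts (FF : FibreFacts) :
    ∀ (N : ℕ) [NeZero N] (q m : ℕ), q.Prime → q ∣ N → ¬ q ^ 2 ∣ N → ¬ q ∣ m →
      (q = 2 → 3 ∣ N) → (q = 3 → 2 ∣ N) → m ≠ 0 →
      ∀ A : ValuationSubring (AlgebraicClosure ℚ), A.LiesOverPrime q →
        Nonempty (SSPackage N m A) := by
  intro N _ q m hq hqN hq2 hqm h2 h3 _ A hA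
  obtain ⟨N', rfl⟩ := exists_eq_mul_left_of_dvd hqN
  haveI : Fact q.Prime := ⟨hq⟩
  haveI : NeZero q := ⟨hq.ne_zero⟩
  have hN'0 : N' ≠ 0 := fun h0 => NeZero.ne (N' * q) (by rw [h0, zero_mul])
  haveI : NeZero N' := ⟨hN'0⟩
  have h : ExactDvd q (N' * q) := ⟨hq, hqN, hq2⟩
  have hqN' : ¬ q ∣ N' := not_dvd_good N' h
  have hmk : ((m : ℕ) : ResidueField A) ≠ 0 := by
    haveI : CharP (ResidueField A) q := Fermat.Agent.GJ.J1.Val.charP_residue A hq hA
    rw [Ne, CharP.cast_eq_zero_iff (ResidueField A) q]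
    exact hqm
  have h2' : q = 2 → 3 ∣ N' := by
    intro e
    have h23 := h2 e
    rw [e] at h23
    exact (Nat.Coprime.dvd_of_dvd_mul_right (by norm_num) h23)
  have h3' : q = 3 → 2 ∣ N' := by
    intro e
    have h32 := h3 e
    rw [e] at h32
    exact (Nat.Coprime.dvd_of_dvd_mul_right (by norm_num) h32)
  obtain ⟨hDed, hCf, hrange⟩ := FF N' q A h hA hqN' h2' h3'
  exact nonempty_ssPackage_mul N' q A h hA hqN' h2' h3' hmk hCf hrange

end Fermat.Agent.GK.SS.Modular
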