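/-
GATE-K / N10-AUX (helper62): descent of the semistability gate `SSGate` along `N ∣ M`.

The GATE-K chain consumes J1 at the level `N' = N / q` (normality of the special fibre of
`X₀(N')` in residue characteristic `q`), which `GJ/J1` provides only under the tame-chart
conditions `q = 2 → 3 ∣ N'`, `q = 3 → 2 ∣ N'`.  The frozen S34 has no such restriction.

* `ssGate_of_dvd` : `N ∣ M`, `[F_M : F_N]` prime to `m`, `SSGate M q m ⟹ SSGate N q m`
  (the class of `σσu · u / (σu)²` is an `m`-th power in `F_M`, hence in `F_N` by helper40's norm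
  descent `Desc.exists_pow_eq_of_coprime_finrank`);
* `ssGate_of_aux` : `SSGate` at the auxiliary levels (`q = 2 → 3 ∣ N`, `q = 3 → 2 ∣ N`) gives
  `SSGate N q m` for ALL `q ∥ N`, `q ∤ m`  (`M := lcm(3, N)` resp. `lcm(2, N)`).
-/
import Fermat.Agent.GK.Tate.S34Top
import Fermat.Agent.GJ.J1.DescDegree

set_option autoImplicit false

noncomputable section

open AlgebraicCurve ModularCurve IntermediateField

namespace Fermat.Agent.GK.SS.AuxDescent

open Fermat.Agent.GJ.KumGroup Fermat.Agent.GJ.Kum.KumType Fermat.Agent.GJ.J1.Desc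
open Fermat.Agent.GK.Tate Fermat.Agent.S24

local notation "GQ" => (AlgebraicClosure ℚ ≃ₐ[ℚ] AlgebraicClosure ℚ)

variable {N M : ℕ} [NeZero N] [NeZero M]

/-- `F_N ≤ F_M` inside `ℚ̄((q))` for `N ∣ M`. -/
theorem fk_le (h : N ∣ M) : modularFunctionFieldBar N ≤ modularFunctionFieldBar M :=
  fieldL_le (L := Kbar) h

/-- the inclusion `F_N → F_M` on units -/
def inclUnits (h : N ∣ M) : (FK N)ˣ →* (FK M)ˣ :=
  Units.map ((inclusion (fk_le h) : FK N →ₐ[Kb] FK M) : FK N →* FK M)

theorem coe_inclUnits' (h : N ∣ M) (u : (FK N)ˣ) :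
    ((inclUnits h u : (FK M)ˣ) : FK M) = inclusion (fk_le h) (u : FK N) := by
  rw [inclUnits, Units.coe_map]
  rfl

@[simp]
theorem coe_inclUnits (h : N ∣ M) (u : (FK N)ˣ) :
    (((inclUnits h u : (FK M)ˣ) : FK M) : LaurentSeries Kb) = ((u : FK N) : LaurentSeries Kb) := by
  rw [coe_inclUnits', IntermediateField.coe_inclusion]

/-- the Galois action commutes with the inclusion -/
theorem galUnits_inclUnits (h : N ∣ M) (σ : GQ) (u : (FK N)ˣ) :
    galUnits M σ (inclUnits h u) = inclUnits h (galUnits N σ u) := by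
  refine Units.ext (Subtype.ext ?_)
  rw [coe_galUnits, coe_arithmeticRingAut_apply, coe_inclUnits, coe_inclUnits, coe_galUnits,
    coe_arithmeticRingAut_apply]

/-- the relative degree is positive -/
theorem relfinrank_pos (h : N ∣ M) :
    0 < relfinrank (modularFunctionFieldBar N) (modularFunctionFieldBar M) := by
  have h1 := dedekindPsi_mul_relfinrank (N := N) (N' := M) h
  have h2 := dedekindPsi_pos M
  rcases Nat.eq_zero_or_pos (relfinrank (modularFunctionFieldBar N) (modularFunctionFieldBar M))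
    with h0 | h0
  · rw [h0, mul_zero] at h1; omega
  · exact h0

/-- `m`-divisible units stay `m`-divisible at the higher level -/
theorem inclUnits_mem (h : N ∣ M) (m : ℕ) {u : (FK N)ˣ} (hu : u ∈ pDivUnits Kb (FK N) m) :
    inclUnits h u ∈ pDivUnits Kb (FK M) m := by
  let _ : Algebra (FK N) (FK M) := (inclusion (fk_le h)).toRingHom.toAlgebra
  have : IsScalarTower Kb (FK N) (FK M) := IsScalarTower.of_algebraMap_eq fun x => rfl
  have hfr : Module.finrank (FK N) (FK M) =
      relfinrank (modularFunctionFieldBar N) (modularFunctionFieldBar M) :=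
    finrank_inclusion_eq_relfinrank (fk_le h)
  have hpos : 0 < Module.finrank (FK N) (FK M) := by rw [hfr]; exact relfinrank_pos h
  have : FiniteDimensional (FK N) (FK M) := Module.finite_of_finrank_pos hpos
  have : Algebra.IsAlgebraic (FK N) (FK M) := Algebra.IsAlgebraic.of_finite (FK N) (FK M)
  intro P'
  obtain ⟨e, -, he⟩ := exists_ord_algebraMap (F := FK N) P'
  have : ((inclUnits h u : (FK M)ˣ) : FK M) = algebraMap (FK N) (FK M) (u : FK N) :=
    coe_inclUnits' h u
  rw [this, he]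
  exact Dvd.dvd.mul_left (hu _) e

/-- **norm descent on units**: a unit of `F_N` that is an `m`-th power in `F_M` is an `m`-th power
in `F_N`, when `[F_M : F_N]` is prime to `m`. -/
theorem exists_pow_of_inclUnits (h : N ∣ M) {m : ℕ}
    (hcop : (relfinrank (modularFunctionFieldBar N) (modularFunctionFieldBar M)).Coprime m)
    {a : (FK N)ˣ} {w : (FK M)ˣ} (haw : inclUnits h a = w ^ m) : ∃ v : (FK N)ˣ, a = v ^ m := by
  let _ : Algebra (FK N) (FK M) := (inclusion (fk_le h)).toRingHom.toAlgebra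
  have hfr : Module.finrank (FK N) (FK M) =
      relfinrank (modularFunctionFieldBar N) (modularFunctionFieldBar M) :=
    finrank_inclusion_eq_relfinrank (fk_le h)
  have hpos : 0 < Module.finrank (FK N) (FK M) := by rw [hfr]; exact relfinrank_pos h
  have : FiniteDimensional (FK N) (FK M) := Module.finite_of_finrank_pos hpos
  have h1 : algebraMap (FK N) (FK M) (a : FK N) = ((w : (FK M)ˣ) : FK M) ^ m := by
    have h2 := congrArg (fun x : (FK M)ˣ => (x : FK M)) haw
    simp only [Units.val_pow_eq_pow_val] at h2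
    rw [← h2]
    exact (coe_inclUnits' h a).symm
  obtain ⟨v, hv0, hv⟩ := exists_pow_eq_of_coprime_finrank (hfr ▸ hcop) a.ne_zero h1
  exact ⟨Units.mk0 v hv0, Units.ext (by simpa using hv)⟩

variable {q m : ℕ}

/-- **SSGate descends** from the level `M` to a level `N ∣ M` when `[F_M : F_N]` is prime to
`m`. -/
theorem ssGate_of_dvd (h : N ∣ M)
    (hcop : (relfinrank (modularFunctionFieldBar N) (modularFunctionFieldBar M)).Coprime m)
    (hM : SSGate M q m) : SSGate N q m := by
  rw [ssGate_iff] at hM ⊢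
  intro A hA σ hσ x
  obtain ⟨u, rfl⟩ := exists_rep x
  set u' : pDivUnits Kb (FK M) m := ⟨inclUnits h u, inclUnits_mem h m u.2⟩ with hu'
  have hup := hM A hA σ hσ (Additive.ofMul (Kum.mk u'))
  rw [gal_mk, gal_mk] at hup ⊢
  -- both sides as classes of products
  rw [← ofMul_mul, ← ofMul_mul, ← map_mul, ← map_mul] at hup ⊢
  have hup' := Additive.ofMul.injective hup
  obtain ⟨w, hw⟩ := (Kum.mk_eq_mk_iff).1 hup'
  -- the quotient downstairs
  set a : (FK N)ˣ := (galUnits N σ u * galUnits N σ u) *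
    (galUnits N σ (galUnits N σ u) * u)⁻¹ with ha
  have haw : inclUnits h a = w ^ m := by
    have e1 : inclUnits h (galUnits N σ u) = galUnits M σ (inclUnits h u) :=
      (galUnits_inclUnits h σ u).symm
    have e2 : inclUnits h (galUnits N σ (galUnits N σ u)) =
        galUnits M σ (galUnits M σ (inclUnits h u)) := by
      rw [← galUnits_inclUnits, ← galUnits_inclUnits]
    have hw' : galUnits M σ (inclUnits h u) * galUnits M σ (inclUnits h u) =
        galUnits M σ (galUnits M σ (inclUnits h u)) * inclUnits h u * w ^ m := by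
      simpa [hu'] using hw
    rw [ha, map_mul, map_inv, map_mul, map_mul, e1, e2, hw']
    rw [mul_comm _ (w ^ m), mul_inv_cancel_right]
  obtain ⟨v, hv⟩ := exists_pow_of_inclUnits h hcop haw
  refine congrArg Additive.ofMul ((Kum.mk_eq_mk_iff).2 ⟨v, ?_⟩)
  show galUnits N σ u * galUnits N σ u = galUnits N σ (galUnits N σ u) * u * v ^ m
  rw [← hv, ha]
  rw [mul_comm _ ((galUnits N σ u * galUnits N σ u) * _), inv_mul_cancel_right]

/-- `q ∥ N` is inherited by `lcm(r, N)` for a prime `r ≠ q`. -/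
theorem exactly_dvd_lcm {q r : ℕ} (hq : q.Prime) (hr : r.Prime) (hqr : q ≠ r) {N : ℕ}
    (hqN : q ∣ N) (hq2 : ¬ q ^ 2 ∣ N) : q ∣ Nat.lcm r N ∧ ¬ q ^ 2 ∣ Nat.lcm r N := by
  refine ⟨hqN.trans (Nat.dvd_lcm_right r N), fun hd => hq2 ?_⟩
  have h1 : q ^ 2 ∣ r * N := hd.trans (Nat.lcm_dvd_mul r N)
  have hcop : Nat.Coprime (q ^ 2) r :=
    Nat.Coprime.pow_left 2 ((Nat.coprime_primes hq hr).2 hqr)
  exact hcop.dvd_of_dvd_mul_left h1

/-- **all levels from the auxiliary levels.** -/
theorem ssGate_of_aux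
    (hAux : ∀ (N : ℕ) [NeZero N] (q m : ℕ), q.Prime → q ∣ N → ¬ q ^ 2 ∣ N → ¬ q ∣ m →
      (q = 2 → 3 ∣ N) → (q = 3 → 2 ∣ N) → SSGate N q m)
    (N : ℕ) [NeZero N] (q m : ℕ) (hq : q.Prime) (hqN : q ∣ N) (hq2 : ¬ q ^ 2 ∣ N)
    (hqm : ¬ q ∣ m) : SSGate N q m := by
  by_cases h2 : q = 2
  · subst h2
    obtain ⟨h1, h1'⟩ := exactly_dvd_lcm Nat.prime_two Nat.prime_three (by decide) hqN hq2
    exact ssGate_of_dvd (Nat.dvd_lcm_right 3 N) (coprime_relfinrank_lcm_three N hqm)
      (hAux (Nat.lcm 3 N) 2 m Nat.prime_two h1 h1' hqm (fun _ => Nat.dvd_lcm_left 3 N)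
        (fun h32 => absurd h32 (by decide)))
  by_cases h3 : q = 3
  · subst h3
    obtain ⟨h1, h1'⟩ := exactly_dvd_lcm Nat.prime_three Nat.prime_two (by decide) hqN hq2
    exact ssGate_of_dvd (Nat.dvd_lcm_right 2 N) (coprime_relfinrank_lcm_two N hqm)
      (hAux (Nat.lcm 2 N) 3 m Nat.prime_three h1 h1' hqm (fun h32 => absurd h32 (by decide))
        (fun _ => Nat.dvd_lcm_left 2 N))
  · exact hAux N q m hq hqN hq2 hqm (fun h => absurd h h2) (fun h => absurd h h3)

end Fermat.Agent.GK.SS.AuxDescent
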