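/-
GATE-K / N10-MODULAR, final layer (helper56): **`fibreFacts : SS.Modular.FibreFacts`**, hence the
semistability packages at the auxiliary levels, `Tate.SSGateAux`, and the frozen S34 through
helper43's `Tate.s34_of_ssGateAux`.

(1)(2) `GK/SS/CRingFacts.lean`; (3) helper15 `GK/QS/RhoRange.lean` `rho_mem_range_cVal`.
-/
import Fermat.Agent.GK.SS.Modular
import Fermat.Agent.GK.SS.CRingFacts
import Fermat.Agent.GK.QS.RhoRange
import Fermat.Agent.GK.Tate.S34Aux

set_option autoImplicit false

namespace Fermat.Agent.GK.SS.Modular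

open Fermat.Agent.GK.QS

/-- **The special-fibre inputs of the (SS) package hold.** -/
theorem fibreFacts : FibreFacts := by
  intro N' _ ℓ _ _ A h hA hℓN _ _
  exact ⟨isDedekindDomain_CRing N' ℓ A hA, not_isField_CRing N' A,
    fun x => rho_mem_range_cVal N' ℓ A h hA hℓN x⟩

/-- **Semistability packages at the auxiliary levels**: for every level `N`, every prime `q ∥ N`
(with `3 ∣ N` if `q = 2`, `2 ∣ N` if `q = 3`), every `m ≠ 0` prime to `q` and every valuation
subring `A` of `ℚ̄` over `q`. -/
theorem auxPackages :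
    ∀ (N : ℕ) [NeZero N] (q m : ℕ), q.Prime → q ∣ N → ¬ q ^ 2 ∣ N → ¬ q ∣ m →
      (q = 2 → 3 ∣ N) → (q = 3 → 2 ∣ N) → m ≠ 0 →
      ∀ A : ValuationSubring (AlgebraicClosure ℚ), A.LiesOverPrime q →
        Nonempty (SSPackage N m A) :=
  auxPackages_of_fibreFacts fibreFacts

/-- **The semistability gate at the auxiliary levels** (helper43, `GK/Tate/S34Aux.lean`). -/
theorem ssGateAux : Fermat.Agent.GK.Tate.SSGateAux :=
  Fermat.Agent.GK.Tate.ssGateAux_of_package auxPackages

end Fermat.Agent.GK.SS.Modular
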