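/-
GATE-K / G1-AUX (helper27): descent of (G1) `φ² = q²` on `K = ker r₁ ∩ ker r₂` along `N ∣ M`.

The input (G1) of the S35 gate (helper40's `SS.frob_sq_on_kerRed_inf`) is proved through the nodal
structure of the fibre at level `N`, which consumes J1 at the level `N / q` in residue
characteristic `q` — available only under the tame-chart conditions `q = 2 → 3 ∣ N`,
`q = 3 → 2 ∣ N` (helper62, `GK/SS/AuxDescent.lean`).  The frozen S35 has no such restriction.
The other inputs of the S35 route ((b), (TR), (t), GateAbs) are level-free, so only (G1) has to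
descend:

* `frob_sq_of_dvd` : `N ∣ M`, `[F_M : F_N]` prime to `m`, `W_M ∘ incl = incl ∘ W_N`:
  (G1) at level `M` ⟹ (G1) at level `N`  (the inclusion `Kum_m(F_N) → Kum_m(F_M)` is
  Galois-equivariant, maps `ker r₁`, `ker r₂` into `ker r₁`, `ker r₂` — same `q`-expansion, same
  Gauss valuation, helper32's `isCPrin_inclusion_iff` — and is injective by helper40's norm
  descent);
* `wAut_inclusion` : helper42's Atkin–Lehner involutions at the levels `N ∣ M` (both exactly
  divisible by `q`) are compatible with the inclusion `F_N ⊂ F_M`;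
* `FrobSqAt h m` : the statement (G1) at level `N` (`h : ExactDvd q N`), all places over `q`, all
  Frobenius lifts;  `frobSqAt_of_aux` : (G1) at the auxiliary levels ⟹ (G1) at ALL levels `q ∥ N`,
  `q ∤ m`.
-/
import Fermat.Agent.GK.SS.AuxDescent
import Fermat.Agent.GK.UqKroneckerU

set_option autoImplicit false

noncomputable section

open AlgebraicCurve ModularCurve IntermediateField

namespace Fermat.Agent.GK.SS.FrobSqAux

open Fermat.Agent.GJ.KumGroup Fermat.Agent.GJ.Kum.KumType Fermat.Agent.GJ.J1.Desc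
open Fermat.Agent.GJ.J1 Fermat.Agent.GJ.J1.Val
open Fermat.Agent.GK.Tate Fermat.Agent.S24 Fermat.Agent.GK.SS.AuxDescent
open Fermat.Agent.GK.UqKronecker Fermat.Agent.GK.AL
open Fermat.Agent.S24_helper62 Fermat.Agent.S24_helper82

local notation "GQ" => (AlgebraicClosure ℚ ≃ₐ[ℚ] AlgebraicClosure ℚ)

/-- `ℚ̄`. -/
local notation "Qb" => AlgebraicClosure ℚ

variable {N M : ℕ} [NeZero N] [NeZero M]

/-! ### the inclusion on `m`-divisible units -/

/-- the inclusion `F_N → F_M` on `m`-divisible units -/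
def inclDiv (h : N ∣ M) (m : ℕ) (u : pDivUnits Kb (FK N) m) : pDivUnits Kb (FK M) m :=
  ⟨inclUnits h u, inclUnits_mem h m u.2⟩

@[simp]
theorem coe_inclDiv (h : N ∣ M) (m : ℕ) (u : pDivUnits Kb (FK N) m) :
    ((inclDiv h m u : pDivUnits Kb (FK M) m) : (FK M)ˣ) = inclUnits h u := rfl

/-- equal classes downstairs give equal classes upstairs -/
theorem mk_inclDiv_eq (h : N ∣ M) {m : ℕ} {u v : pDivUnits Kb (FK N) m}
    (huv : (Kum.mk u : Kum Kb (FK N) m) = Kum.mk v) :
    (Kum.mk (inclDiv h m u) : Kum Kb (FK M) m) = Kum.mk (inclDiv h m v) := by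
  obtain ⟨w, hw⟩ := (Kum.mk_eq_mk_iff).1 huv
  refine (Kum.mk_eq_mk_iff).2 ⟨inclUnits h w, ?_⟩
  show inclUnits h (v : (FK N)ˣ) = inclUnits h (u : (FK N)ˣ) * inclUnits h w ^ m
  rw [hw, map_mul, map_pow]

/-- **injectivity**: equal classes upstairs give equal classes downstairs when `[F_M : F_N]` is
prime to `m`. -/
theorem mk_eq_of_mk_inclDiv_eq (h : N ∣ M) {m : ℕ}
    (hcop : (relfinrank (modularFunctionFieldBar N) (modularFunctionFieldBar M)).Coprime m)
    {u v : pDivUnits Kb (FK N) m}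
    (huv : (Kum.mk (inclDiv h m u) : Kum Kb (FK M) m) = Kum.mk (inclDiv h m v)) :
    (Kum.mk u : Kum Kb (FK N) m) = Kum.mk v := by
  obtain ⟨w, hw⟩ := (Kum.mk_eq_mk_iff).1 huv
  have haw : inclUnits h ((v : (FK N)ˣ) * (u : (FK N)ˣ)⁻¹) = w ^ m := by
    have hw' : inclUnits h (v : (FK N)ˣ) = inclUnits h (u : (FK N)ˣ) * w ^ m := hw
    rw [map_mul, map_inv, hw', mul_comm _ (w ^ m), mul_inv_cancel_right]
  obtain ⟨a, ha⟩ := exists_pow_of_inclUnits h hcop haw
  refine (Kum.mk_eq_mk_iff).2 ⟨a, ?_⟩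
  rw [← ha, mul_comm (v : (FK N)ˣ), mul_inv_cancel_left]

/-- the Galois action commutes with the inclusion, on `m`-divisible units -/
theorem gal_mk_inclDiv (h : N ∣ M) (m : ℕ) (σ : GQ) (u : pDivUnits Kb (FK N) m) :
    gal M m σ (Additive.ofMul (Kum.mk (inclDiv h m u))) =
      Additive.ofMul (Kum.mk (inclDiv h m ⟨galUnits N σ u, galUnits_mem N m σ u u.2⟩)) := by
  rw [gal_mk]
  refine congrArg (fun v => Additive.ofMul (Kum.mk v)) (Subtype.ext ?_)
  exact galUnits_inclUnits h σ (u : (FK N)ˣ)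

/-! ### the kernels of the reductions -/

/-- `ker r₁` goes up: a class with a representative that is a constant times a principal unit of
the Gauss valuation at level `N` has one at level `M`. -/
theorem isCPrin_inclUnits_iff (h : N ∣ M) (A : ValuationSubring Qb) (u : (FK N)ˣ) :
    IsCPrin (hasGaussFrac_bar M A) ((inclUnits h u : (FK M)ˣ) : FK M) ↔
      IsCPrin (hasGaussFrac_bar N A) (u : FK N) := by
  rw [coe_inclUnits']
  exact isCPrin_inclusion_iff (hasGaussFrac_bar N A) (hasGaussFrac_bar M A) (fk_le h) (u : FK N)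

/-- **(G1) descends** from the level `M` to a level `N ∣ M` when `[F_M : F_N]` is prime to `m` and
the two automorphisms `W_N`, `W_M` are compatible with the inclusion. -/
theorem frob_sq_of_dvd (h : N ∣ M) {m : ℕ}
    (hcop : (relfinrank (modularFunctionFieldBar N) (modularFunctionFieldBar M)).Coprime m)
    (A : ValuationSubring Qb) (WN : FK N ≃+* FK N) (WM : FK M ≃+* FK M)
    (hW : ∀ x : FK N, WM (inclusion (fk_le h) x) = inclusion (fk_le h) (WN x))
    (φ : GQ) (q : ℕ)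
    (hM : ∀ x : Additive (Kum Kb (FK M) m), x ∈ kerRed M A m → x ∈ kerRedW M A WM m →
      gal M m φ (gal M m φ x) = (q ^ 2) • x)
    (x : Additive (Kum Kb (FK N) m)) (hx1 : x ∈ kerRed N A m) (hx2 : x ∈ kerRedW N A WN m) :
    gal N m φ (gal N m φ x) = (q ^ 2) • x := by
  obtain ⟨u, rfl⟩ := exists_rep x
  obtain ⟨u1, hu1, hu1x⟩ := mem_kerRed.mp hx1
  obtain ⟨u2, hu2, hu2x⟩ := mem_kerRedW.mp hx2
  have e1 : (Kum.mk u1 : Kum Kb (FK N) m) = Kum.mk u := Additive.ofMul.injective hu1x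
  have e2 : (Kum.mk u2 : Kum Kb (FK N) m) = Kum.mk u := Additive.ofMul.injective hu2x
  -- the class upstairs lies in both kernels
  have hy1 : Additive.ofMul (Kum.mk (inclDiv h m u)) ∈ kerRed M A m := by
    refine mem_kerRed.mpr ⟨inclDiv h m u1, ?_, congrArg Additive.ofMul (mk_inclDiv_eq h e1)⟩
    exact (isCPrin_inclUnits_iff h A (u1 : (FK N)ˣ)).mpr hu1
  have hy2 : Additive.ofMul (Kum.mk (inclDiv h m u)) ∈ kerRedW M A WM m := by
    refine mem_kerRedW.mpr ⟨inclDiv h m u2, ?_, congrArg Additive.ofMul (mk_inclDiv_eq h e2)⟩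
    show IsCPrin (hasGaussFrac_bar M A) (WM ((inclUnits h (u2 : (FK N)ˣ) : (FK M)ˣ) : FK M))
    rw [coe_inclUnits', hW]
    exact (isCPrin_inclusion_iff (hasGaussFrac_bar N A) (hasGaussFrac_bar M A) (fk_le h) _).mpr hu2
  have key := hM _ hy1 hy2
  rw [gal_mk_inclDiv, gal_mk_inclDiv] at key
  -- `q² • [ι u] = [ι (u ^ q²)]`
  have hpow : ((q ^ 2) • Additive.ofMul (Kum.mk (inclDiv h m u)) : Additive (Kum Kb (FK M) m)) =
      Additive.ofMul (Kum.mk (inclDiv h m (u ^ (q ^ 2)))) := by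
    rw [← ofMul_pow, ← map_pow]
    refine congrArg (fun v => Additive.ofMul (Kum.mk v)) (Subtype.ext ?_)
    show inclUnits h (u : (FK N)ˣ) ^ (q ^ 2) = inclUnits h ((u ^ (q ^ 2) : pDivUnits Kb (FK N) m) : (FK N)ˣ)
    rw [Subgroup.coe_pow, map_pow]
  rw [hpow] at key
  have key' := mk_eq_of_mk_inclDiv_eq h hcop (Additive.ofMul.injective key)
  rw [gal_mk, gal_mk, ← ofMul_pow, ← map_pow]
  exact congrArg Additive.ofMul key'

/-! ### compatibility of the Atkin–Lehner involutions -/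

section WAut

variable {q : ℕ}

/-- the generator `j(q^d)` of `F_N` is the generator `j(q^d)` of `F_M` -/
theorem inclusion_gen (h : N ∣ M) (d : DivIdx N) :
    inclusion (fk_le h) (gen N d) = gen M ⟨d.1, d.2.trans h⟩ := by
  rw [gen_eq_jdF, gen_eq_jdF]
  exact Subtype.ext rfl

/-- **the Atkin–Lehner involutions at the levels `N ∣ M` are compatible with `F_N ⊂ F_M`.** -/
theorem wAut_inclusion (h : N ∣ M) (hN : ExactDvd q N) (hM : ExactDvd q M) (f : FN N) :
    wAut hM (inclusion (fk_le h) f) = inclusion (fk_le h) (wAut hN f) := by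
  have key : ((wAut hM : FN M ≃ₐ[Kbar] FN M) : FN M →ₐ[Kbar] FN M).comp
      (inclusion (fk_le h)) =
      (inclusion (fk_le h)).comp ((wAut hN : FN N ≃ₐ[Kbar] FN N) : FN N →ₐ[Kbar] FN N) := by
    apply algHom_ext_gen
    intro d
    show wAut hM (inclusion (fk_le h) (gen N d)) = inclusion (fk_le h) (wAut hN (gen N d))
    rw [inclusion_gen h, wAut_gen, wAut_gen, inclusion_gen h]
    refine congrArg (gen M) (Subtype.ext ?_)
    show (swapFun hM ⟨d.1, d.2.trans h⟩).1 = (swapFun hN d).1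
    by_cases hqd : q ∣ d.1
    · rw [swapFun_of_dvd hM (d := ⟨d.1, d.2.trans h⟩) hqd, swapFun_of_dvd hN hqd]
    · rw [swapFun_of_not_dvd hM (d := ⟨d.1, d.2.trans h⟩) hqd, swapFun_of_not_dvd hN hqd]
  exact DFunLike.congr_fun key f

end WAut

/-! ### (G1) at all levels from the auxiliary levels -/

/-- **the statement (G1)** at the level `N`, `q ∥ N`, modulus `m`: for every place `A` over `q` and
every Frobenius lift `φ` at `A`, `φ² = q²` on `ker r₁ ∩ ker r₂ ⊂ Kum_m(F_N)`. -/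
def FrobSqAt {q : ℕ} (hN : ExactDvd q N) (m : ℕ) : Prop :=
  ∀ A : ValuationSubring Qb, A.LiesOverPrime q → ∀ φ : GQ, A.IsFrobeniusAt φ q →
    ∀ x : Additive (Kum Kb (FK N) m), x ∈ kerRed N A m → x ∈ kerRed₂ hN A m →
      gal N m φ (gal N m φ x) = (q ^ 2) • x

/-- (G1) descends along `N ∣ M` of degree prime to `m`. -/
theorem frobSqAt_of_dvd {q : ℕ} (h : N ∣ M) {m : ℕ}
    (hcop : (relfinrank (modularFunctionFieldBar N) (modularFunctionFieldBar M)).Coprime m)
    (hN : ExactDvd q N) (hM : ExactDvd q M) (hG : FrobSqAt hM m) : FrobSqAt hN m := by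
  intro A hA φ hφ x hx1 hx2
  exact frob_sq_of_dvd h hcop A _ _ (fun f => wAut_inclusion h hN hM f) φ q
    (fun y hy1 hy2 => hG A hA φ hφ y hy1 hy2) x hx1 hx2

/-- **(G1) at all levels from the auxiliary levels.** -/
theorem frobSqAt_of_aux
    (hAux : ∀ (N : ℕ) [NeZero N] (q m : ℕ) (hN : ExactDvd q N), ¬ q ∣ m →
      (q = 2 → 3 ∣ N) → (q = 3 → 2 ∣ N) → FrobSqAt hN m)
    (N : ℕ) [NeZero N] (q m : ℕ) (hN : ExactDvd q N) (hqm : ¬ q ∣ m) : FrobSqAt hN m := by
  by_cases h2 : q = 2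
  · subst h2
    obtain ⟨h1, h1'⟩ := exactly_dvd_lcm Nat.prime_two Nat.prime_three (by decide) hN.dvd hN.not_sq
    have hM : ExactDvd 2 (Nat.lcm 3 N) := ⟨Nat.prime_two, h1, h1'⟩
    exact frobSqAt_of_dvd (Nat.dvd_lcm_right 3 N) (coprime_relfinrank_lcm_three N hqm) hN hM
      (hAux (Nat.lcm 3 N) 2 m hM hqm (fun _ => Nat.dvd_lcm_left 3 N)
        (fun h32 => absurd h32 (by decide)))
  by_cases h3 : q = 3
  · subst h3
    obtain ⟨h1, h1'⟩ := exactly_dvd_lcm Nat.prime_three Nat.prime_two (by decide) hN.dvd hN.not_sq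
    have hM : ExactDvd 3 (Nat.lcm 2 N) := ⟨Nat.prime_three, h1, h1'⟩
    exact frobSqAt_of_dvd (Nat.dvd_lcm_right 2 N) (coprime_relfinrank_lcm_two N hqm) hN hM
      (hAux (Nat.lcm 2 N) 3 m hM hqm (fun h32 => absurd h32 (by decide))
        (fun _ => Nat.dvd_lcm_left 2 N))
  · exact hAux N q m hN hqm (fun h => absurd h h2) (fun h => absurd h h3)

end Fermat.Agent.GK.SS.FrobSqAux
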