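/-
GATE-K / (G1) for S35 (helper44): **`φ² = q²` on `kerRed ⊓ kerRed₂` at `F_N`, `q ∥ N`, from the
special-fibre facts** — the S35 twin of helper56's `nonempty_ssPackage_of_fibre`
(`GK/SS/ModularFibre.lean`), with the same hypotheses (abstract Dedekind coordinate ring `C`,
`Ψ`, `J'`, N6 `hB hBsurj`, old lifts `hα hβ`, `Σ ≠ ∅`) plus helper40's four Frobenius facts
(`hΨJ`, `S`, `hΨS`, `hS`).

* `exists_chartInput_of_fibre` : the EXPORTING twin of helper56's construction: the `ChartInput`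
  `I` at the symmetric chart with `I.e1 = FrobNodes.e1`, `I.e2 = FrobNodes.e2`, and the
  `claim2_core` block `P hs hunit hTfin hT g' c0 hg' hdimT` (proof = helper56's, verbatim);
* `frobSq_fibre` : (G1) through helper40 `frob_sq_of_frobNodes` and helper30
  `Claim2Plug.hclaim2_units_of_core` (`frobSq_of_fibre` : the v1 name, with an unused `hconn`).
-/
import Fermat.Agent.GK.SS.ModularFibre
import Fermat.Agent.GK.SS.FrobSqNodes
import Fermat.Agent.GK.SS.Claim2Plug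

set_option autoImplicit false
set_option linter.unusedSectionVars false
set_option linter.style.haveILetI false

noncomputable section

namespace Fermat.Agent.GK.SS.Modular

open AlgebraicCurve IntermediateField Module IsLocalRing ModularCurve
open Fermat.Agent.S24 Fermat.Agent.S24_helper62 Fermat.Agent.RRh45 Fermat.Agent.RR
open Fermat.Agent.GJ.J1 Fermat.Agent.GJ.J1.Val Fermat.Agent.GJ.J1.InstGen
open Fermat.Agent.GJ.KumGroup Fermat.Agent.GJ.FF.PrincipalOf
open Fermat.Agent.GK.AL Fermat.Agent.GK.MultiVal Fermat.Agent.GK.Core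
open Fermat.Agent.GK.CuspSep Fermat.Agent.GK.SymChart Fermat.Agent.GK.SymDegree
open Fermat.Agent.GK.BallTwo Fermat.Agent.GK.Val.TwoVal Fermat.Agent.GK.PsiFN
open Fermat.Agent.GK.FrobGlue Fermat.Agent.GK.NodalBridge Fermat.Agent.GK.NodalGraded
open Fermat.Agent.GK.NodalPole Fermat.Agent.GK.PencilInf Fermat.Agent.GK.PencilInstS
open Fermat.Agent.GK.SS.TwoRed Fermat.Agent.GK.SS.FrobNodes Fermat.Agent.GK.SS.HTGlue
open Fermat.Agent.GK.SS.CompRiemann Fermat.Agent.GK.Core.Twist Fermat.Agent.GK.Core.TwistNodal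

variable {q : ℕ} (N : ℕ) [NeZero N] [NeZero q] (A : ValuationSubring Kbar) (h : ExactDvd q N)

attribute [local instance] Fermat.Agent.RR.ModularBar.finiteResidues
  Fermat.Agent.RR.ModularBar.hasPrincipalDivisors Fermat.Agent.RR.ModularBar.nonempty_place

section Main

variable {C : Type} [CommRing C] [Algebra (ResidueField A) C] [Algebra C (FresBar N A)]
  [IsScalarTower (ResidueField A) C (FresBar N A)]

set_option maxHeartbeats 1600000 in
/-- **the `ChartInput` and the `claim2_core` block at `F_N` from the special-fibre facts**,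
EXPORTED (helper56's construction in `nonempty_ssPackage_of_fibre`). -/
theorem exists_chartInput_of_fibre (hA : A.LiesOverPrime q) {m : ℕ}
    (hmk : ((m : ℕ) : ResidueField A) ≠ 0)
    [IsDedekindDomain C] (hCf : ¬ IsField C)
    (hinj : Function.Injective (algebraMap C (FresBar N A)))
    (hCreg : ∀ c : C, RegFin (ResidueField A) (tauF N A) (algebraMap C (FresBar N A) c))
    (hCrange : ∀ z : FresBar N A, RegFin (ResidueField A) (tauF N A) z →
      z ∈ Set.range (algebraMap C (FresBar N A)))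
    (Ψ : C →ₐ[ResidueField A] C) (hΨpow : ∀ a, ∃ b, Ψ a = b ^ q)
    (hΨ : ∀ c, algebraMap C (FresBar N A) (Ψ c) = psiFN N A h hA (algebraMap C (FresBar N A) c))
    (J' : Ideal C) (hfix : fixIdeal Ψ ≤ J')
    (hB : ∀ (x : FN N) (h1 : x ∈ (redDataBar N A).Rw) (h2 : x ∈ (redData2 N A h).Rw),
      RegFin Kbar (jF N) x →
      ∃ g g' : C, algebraMap C (FresBar N A) g = (redDataBar N A).red ⟨x, h1⟩ ∧
        algebraMap C (FresBar N A) g' = (redData2 N A h).red ⟨x, h2⟩ ∧ g - Ψ g' ∈ J')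
    (hBsurj : ∀ g g' : C, g - Ψ g' ∈ J' →
      ∃ (x : FN N) (h1 : x ∈ (redDataBar N A).Rw) (h2 : x ∈ (redData2 N A h).Rw),
        RegFin Kbar (jF N) x ∧ (redDataBar N A).red ⟨x, h1⟩ = algebraMap C (FresBar N A) g ∧
          (redData2 N A h).red ⟨x, h2⟩ = algebraMap C (FresBar N A) g')
    (mα mβ : ℕ)
    (hα : ∀ m : ℕ, mα ≤ m → ∀ y ∈ Lfib (ResidueField A) (tauF N A) (m : ℤ), ∃ x,
      ∃ hx : x ∈ (ballFN N A h).B,
      RegFin Kbar (jF N * jdF N q h.dvd)⁻¹ ((jF N)⁻¹ ^ m * x) ∧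
        (ballFN N A h).red ⟨x, hx⟩ = (y, psiFN N A h hA y))
    (hβ : ∀ m : ℕ, mβ ≤ m → ∀ y ∈ Lfib (ResidueField A) (tauF N A) (m : ℤ), ∃ x,
      ∃ hx : x ∈ (ballFN N A h).B,
      RegFin Kbar (jF N * jdF N q h.dvd)⁻¹ ((jdF N q h.dvd)⁻¹ ^ m * x) ∧
        (ballFN N A h).red ⟨x, hx⟩ = (psiFN N A h hA y, y))
    [Fintype ↥(nodes J')] :
    ∃ (hk : ∀ P ∈ nodes J', Function.Surjective (algebraMap (ResidueField A) (C ⧸ P)))
      (I : ChartInput (redDataBar N A) (redData2 N A h)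
        (IsScalarTower.toAlgHom (ResidueField A) C (FresBar N A))
        (IsScalarTower.toAlgHom (ResidueField A) C (FresBar N A))
        (goodUnitsMod N A h m) m ↥(nodes J') (tS N h.dvd)
        (isGaussChart1_tS N A h hA) (isGaussChart2_tS N A h hA)),
      I.e1 = e1 J' hk ∧ I.e2 = e2 Ψ J' hk ∧ Nonempty ↥(nodes J') ∧
      ∃ Pc : ChartPair (ResidueField A) (FresBar N A × FresBar N A),
        Pc.s = red2 (redDataBar N A) (redData2 N A h)
          ⟨tS N h.dvd, mem_ball2.2 ⟨(isGaussChart1_tS N A h hA).1,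
            (isGaussChart2_tS N A h hA).1⟩⟩ ∧
        (∀ c : ResidueField A,
          IsUnit (Pc.s - algebraMap (ResidueField A) (FresBar N A × FresBar N A) c)) ∧
        (∀ n, FiniteDimensional (ResidueField A) (Pc.T n)) ∧
        (∀ (n : ℕ) (x : ball2 (redDataBar N A) (redData2 N A h)),
          (x : FN N) ∈ Lfib Kbar (tS N h.dvd) (n : ℤ) →
            red2 (redDataBar N A) (redData2 N A h) x ∈ Pc.T n) ∧
        ∃ g' c0 : ℕ, genusRR Kbar (FN N) ≤ (g' : ℤ) ∧
          ∀ n, c0 ≤ n →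
            finrank (ResidueField A) (Pc.T n) + g' ≤
              n * finrank Kbar⟮tS N h.dvd⟯ (FN N) + 1 := by
  classical
  -- instances on the generic fibre
  haveI hgenK : IsGen Kbar (jF N) := isGen_jF N
  have H : Hyp Kbar (FN N) := hyp_of_isGen (jF N)
  -- instances on the special fibre
  haveI hgenk : IsGen (ResidueField A) (tauF N A) := isGen_tauF N A
  haveI : IsAlgClosed (ResidueField A) :=
    Fermat.Agent.GJ.ResidueAlgClosed.isAlgClosed_residueField A
  haveI : Infinite (ResidueField A) := IsAlgClosed.instInfinite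
  letI : FiniteResidues (ResidueField A) (FresBar N A) :=
    Fermat.Agent.GJ.FF.finiteResidues (tauF N A)
  letI : HasPrincipalDivisors (ResidueField A) (FresBar N A) :=
    hasPrincipalDivisors_gen (tauF N A)
  letI : Nonempty (Place (ResidueField A) (FresBar N A)) :=
    Fermat.Agent.GJ.FF.nonempty_place (tauF N A)
  have Hk : Hyp (ResidueField A) (FresBar N A) := hyp_of_isGen (tauF N A)
  -- the nodes
  have hq2 : 2 ≤ q := h.prime.two_le
  have hJ0 : J' ≠ ⊥ := fun h0 => fixIdeal_ne_bot Ψ hCf hq2 hΨpow (le_bot_iff.1 (h0 ▸ hfix))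
  have hrad : J'.IsRadical := isRadical_of_fixIdeal_le Ψ hCf hq2 hΨpow hfix
  have hJ : ∀ c : C, c ∈ J' ↔ ∀ m ∈ nodes J', c ∈ m := by
    intro c
    conv_lhs => rw [eq_sInf_nodes hJ0 hrad]
    rw [Ideal.mem_sInf]
  have hk := nodes_rational N A (tauF N A) hinj hCf Ψ hfix
  -- the chart on the special fibre
  have hτ0 : tauF N A ≠ 0 := tauF_ne_zero N A
  have hs0 : tauF N A ^ (1 + q) ≠ 0 := pow_ne_zero _ hτ0
  have hstr : Transcendental (ResidueField A) (tauF N A ^ (1 + q)) :=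
    (transcendental_tauF N A).pow (by omega)
  have hD : ExactPoles (tauF N A ^ (1 + q)) (Bound.poleDiv (ResidueField A) (tauF N A ^ (1 + q))) :=
    exactPoles_poleDiv hs0
  have hregpow : ∀ x : FresBar N A, RegFin (ResidueField A) (tauF N A ^ (1 + q)) x ↔
      RegFin (ResidueField A) (tauF N A) x :=
    fun x => Fermat.Agent.GK.Red.regFin_pow_iff (by omega)
  have hC₁ : ∀ x : FresBar N A, RegFin (ResidueField A) (tauF N A ^ (1 + q)) x →
      x ∈ Set.range (algebraMap C (FresBar N A)) := fun x hx => hCrange x ((hregpow x).1 hx)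
  obtain ⟨gτ, hgτ⟩ := hCrange (tauF N A) (regFin_self (tauF N A))
  have hgs : algebraMap C (FresBar N A) (gτ ^ (1 + q)) = tauF N A ^ (1 + q) := by
    rw [map_pow, hgτ]
  obtain ⟨P, Q, hPinj, hQinj, hdP, hdQ, hD₁, hD₂, hTeq⟩ :=
    exists_places_T (Ψ := Ψ) (J' := J') (tauF N A) hinj hCf hfix hJ hC₁ hC₁ ⟨_, hgs⟩ ⟨_, hgs⟩ hD hD
  have hs : ((tauF N A ^ (1 + q), tauF N A ^ (1 + q)) : FresBar N A × FresBar N A) ∈
      T P Q (Bound.poleDiv (ResidueField A) (tauF N A ^ (1 + q)))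
        (Bound.poleDiv (ResidueField A) (tauF N A ^ (1 + q))) 1 := by
    rw [← hTeq 1]
    have := mem_Tglue_of_regFin (Ψ := Ψ) (J' := J') (tauF N A) hD hD (n := 1)
      (chart_sub_mem N A h hA hinj Ψ hΨ hfix hgτ)
      (by rw [hgs]; exact regFin_self _) (by rw [hgs]; exact regFin_self _)
      (by rw [hgs, pow_one, inv_mul_cancel₀ hs0]; exact regFin_one _)
      (by rw [hgs, pow_one, inv_mul_cancel₀ hs0]; exact regFin_one _)
    rwa [hgs] at this
  -- the chart on the generic fibre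
  have ht1 := isGaussChart1_tS N A h hA
  have ht2 := isGaussChart2_tS N A h hA
  have hr1 : (redDataBar N A).red ⟨tS N h.dvd, ht1.1⟩ = tauF N A ^ (1 + q) := by
    rw [red1_tS N A h hA, add_comm]
  have hr2 : (redData2 N A h).red ⟨tS N h.dvd, ht2.1⟩ = tauF N A ^ (1 + q) := by
    rw [red2_tS N A h hA, add_comm]
  have hD1' : ExactPoles ((redDataBar N A).red ⟨tS N h.dvd, ht1.1⟩)
      (Bound.poleDiv (ResidueField A) (tauF N A ^ (1 + q))) := by rw [hr1]; exact hD
  have hD2' : ExactPoles ((redData2 N A h).red ⟨tS N h.dvd, ht2.1⟩)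
      (Bound.poleDiv (ResidueField A) (tauF N A ^ (1 + q))) := by rw [hr2]; exact hD
  have hs' : (((redDataBar N A).red ⟨tS N h.dvd, ht1.1⟩,
      (redData2 N A h).red ⟨tS N h.dvd, ht2.1⟩) : FresBar N A × FresBar N A) ∈
      T P Q (Bound.poleDiv (ResidueField A) (tauF N A ^ (1 + q)))
        (Bound.poleDiv (ResidueField A) (tauF N A ^ (1 + q))) 1 := by rw [hr1, hr2]; exact hs
  haveI : FiniteDimensional Kbar⟮tS N h.dvd⟯ (FN N) := (isGen_tS N h.dvd).finite
  have hc := redCompatFN N A h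
  have hne := Rw1_ne_Rw2 N A h hA
  have hdeg := hdeg_tS_le N A h hA
  have hti1 := inv_tS_mem_Rw1 N A h hA
  have hti2 := inv_tS_mem_Rw2 N A h hA
  have htK := transcendental_tS N h.dvd
  have hB' : ∀ (x : FN N) (h1 : x ∈ (redDataBar N A).Rw) (h2 : x ∈ (redData2 N A h).Rw),
      RegFin Kbar (tS N h.dvd) x →
      ∃ g g' : C, algebraMap C (FresBar N A) g = (redDataBar N A).red ⟨x, h1⟩ ∧
        algebraMap C (FresBar N A) g' = (redData2 N A h).red ⟨x, h2⟩ ∧ g - Ψ g' ∈ J' :=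
    fun x h1 h2 hx => hB x h1 h2 ((regFin_tS_iff N h.dvd h.prime x).1 hx)
  have hT := hT_chartPair (tauF N A) hc hne ht1 ht2 hdeg hti1 hti2 Ψ J' hD1' hD2' hB' hTeq hs'
  -- the node count
  have hfin : ∀ n, ∀ z ∈ T P Q (Bound.poleDiv (ResidueField A) (tauF N A ^ (1 + q)))
      (Bound.poleDiv (ResidueField A) (tauF N A ^ (1 + q))) n,
      z ∈ redAlg (ballFN N A h) (jF N * jdF N q h.dvd) := by
    intro n z hz
    rw [← hTeq n] at hz
    obtain ⟨-, -, g, g', hg, hg', hgg'⟩ := hz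
    obtain ⟨x, h1, h2, hreg, e1, e2⟩ := hBsurj g g' hgg'
    refine ⟨x, (mem_ballFN N A h).2 ⟨h1, h2⟩, (regFin_tS_iff N h.dvd h.prime x).2 hreg, ?_⟩
    exact Prod.ext (e1.trans hg) (e2.trans hg')
  obtain ⟨g', c0, hg', hg'eq, hdimT⟩ := Fermat.Agent.GK.NodesGeFN.exists_hdimT_FN N A h hA
    hPinj hQinj hdP hdQ hD₁ hD₂ hs mα mβ hα hβ hfin
  -- the coordinate ring inside the residue field
  have hm0 : m ≠ 0 := by
    rintro rfl
    simp at hmk
  have hinjC : Function.Injective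
      (IsScalarTower.toAlgHom (ResidueField A) C (FresBar N A)) := hinj
  have hint1 : ∀ c : C, RegFin (ResidueField A) ((redDataBar N A).red ⟨tS N h.dvd, ht1.1⟩)
      (IsScalarTower.toAlgHom (ResidueField A) C (FresBar N A) c) := by
    intro c
    rw [hr1]
    exact (hregpow _).2 (hCreg c)
  have hint2 : ∀ c : C, RegFin (ResidueField A) ((redData2 N A h).red ⟨tS N h.dvd, ht2.1⟩)
      (IsScalarTower.toAlgHom (ResidueField A) C (FresBar N A) c) := by
    intro c
    rw [hr2]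
    exact (hregpow _).2 (hCreg c)
  have hrange1 : ∀ z : FresBar N A,
      RegFin (ResidueField A) ((redDataBar N A).red ⟨tS N h.dvd, ht1.1⟩) z →
      ∃ r, IsScalarTower.toAlgHom (ResidueField A) C (FresBar N A) r = z := by
    intro z hz
    rw [hr1] at hz
    exact hC₁ z hz
  have hrange2 : ∀ z : FresBar N A,
      RegFin (ResidueField A) ((redData2 N A h).red ⟨tS N h.dvd, ht2.1⟩) z →
      ∃ r, IsScalarTower.toAlgHom (ResidueField A) C (FresBar N A) r = z := by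
    intro z hz
    rw [hr2] at hz
    exact hC₁ z hz
  obtain ⟨nSurj, hsurj⟩ := exists_nS_surj Ψ J' hk
    (IsScalarTower.toAlgHom (ResidueField A) C (FresBar N A))
    (IsScalarTower.toAlgHom (ResidueField A) C (FresBar N A)) hfix
    (s1 := (redDataBar N A).red ⟨tS N h.dvd, ht1.1⟩)
    (s2 := (redData2 N A h).red ⟨tS N h.dvd, ht2.1⟩)
    (by rw [hr1]; exact hs0) (by rw [hr2]; exact hs0) hint1 hint2
  obtain ⟨n1, hdim1⟩ := exists_dim_Lfib Hk (tauF N A) ht1.2
  obtain ⟨n2, hdim2⟩ := exists_dim_Lfib Hk (tauF N A) ht2.2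
  have hgFF : (genusRR (ResidueField A) (FresBar N A)).toNat =
      genusFF (ResidueField A) (FresBar N A) := by
    rw [Fermat.Agent.GK.GenusFF.genusRR_eq_genusFF (tauF N A)]
    exact Int.toNat_natCast _
  have hgnn : 0 ≤ genusRR Kbar (FN N) := genusRR_nonneg H
  have hBglue : ∀ (n : ℕ) x (h1 : x ∈ (redDataBar N A).Rw) (h2 : x ∈ (redData2 N A h).Rw),
      x ∈ Lfib Kbar (tS N h.dvd) (n : ℤ) → ∀ z1 z2 : C,
      IsScalarTower.toAlgHom (ResidueField A) C (FresBar N A) z1 = (redDataBar N A).red ⟨x, h1⟩ →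
      IsScalarTower.toAlgHom (ResidueField A) C (FresBar N A) z2 = (redData2 N A h).red ⟨x, h2⟩ →
      (z1, z2) ∈ gluedAlg Ψ J' := by
    intro n x h1 h2 hx z1 z2 e1 e2
    have hreg : RegFin Kbar (tS N h.dvd) x :=
      (Fermat.Agent.GJ.J1.G1.mem_Lfib_iff_of_isAlgClosed.mp hx).1
    obtain ⟨g, g2, hg, hg2, hgg⟩ := hB' x h1 h2 hreg
    have a1 : z1 = g := hinj (e1.trans hg.symm)
    have a2 : z2 = g2 := hinj (e2.trans hg2.symm)
    rw [a1, a2]
    exact hgg
  let I : ChartInput (redDataBar N A) (redData2 N A h)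
      (IsScalarTower.toAlgHom (ResidueField A) C (FresBar N A))
      (IsScalarTower.toAlgHom (ResidueField A) C (FresBar N A))
      (goodUnitsMod N A h m) m ↥(nodes J') (tS N h.dvd) ht1 ht2 :=
    { U_dvd := U_dvd_goodUnitsMod N A h
      c1 := fun y => (galVal1 N A).cstRed ((y : (FK N)ˣ) : FK N)
      c2 := fun y => (galVal2 N A h).cstRed ((y : (FK N)ˣ) : FK N)
      y_red1 := fun y => red1_goodUnitsMod N A h y.2
      y_red2 := fun y => red2_goodUnitsMod N A h y.2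
      c1_ne := fun y => cstRed1_ne_zero_goodUnitsMod N A h y.2
      c2_ne := fun y => cstRed2_ne_zero_goodUnitsMod N A h y.2
      fin1 := fun n => finiteDimensional_Lfib (tauF N A) ht1.2 n
      fin2 := fun n => finiteDimensional_Lfib (tauF N A) ht2.2 n
      range1 := fun n z hz => exists_of_mem_Lfib _ hrange1 n z hz
      range2 := fun n z hz => exists_of_mem_Lfib _ hrange2 n z hz
      e1 := e1 J' hk
      e2 := e2 Ψ J' hk
      nS := max nSurj (max n1 n2)
      surj := fun n hn => hsurj n (le_trans (le_max_left _ _) hn)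
      g := (genusRR Kbar (FN N)).toNat
      g1 := genusFF (ResidueField A) (FresBar N A)
      g2 := genusFF (ResidueField A) (FresBar N A)
      d1 := finrank (ResidueField A)⟮(redDataBar N A).red ⟨tS N h.dvd, ht1.1⟩⟯ (FresBar N A)
      d2 := finrank (ResidueField A)⟮(redData2 N A h).red ⟨tS N h.dvd, ht2.1⟩⟯ (FresBar N A)
      hg := (Int.toNat_of_nonneg hgnn).symm
      dim1 := fun n hn => by
        rw [← hgFF]
        exact hdim1 n (le_trans (le_trans (le_max_left _ _) (le_max_right _ _)) hn)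
      dim2 := fun n hn => by
        rw [← hgFF]
        exact hdim2 n (le_trans (le_trans (le_max_right _ _) (le_max_right _ _)) hn)
      hd := hdeg_tS_red N A h hA ht1 ht2
      nodes := by
        have e : ((genusRR Kbar (FN N)).toNat : ℤ) = genusRR Kbar (FN N) :=
          Int.toNat_of_nonneg hgnn
        have : ((genusRR Kbar (FN N)).toNat : ℤ) ≤ g' := e ▸ hg'
        have : (genusRR Kbar (FN N)).toNat ≤ g' := by exact_mod_cast this
        omega
      glue_one := glue_one_of_gluedAlg Ψ J' hk (redDataBar N A) (redData2 N A h) _ _ hBglue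
      hm := Nat.pos_of_ne_zero hm0 }
  have hdimT' : ∀ n, c0 ≤ n →
      finrank (ResidueField A) ((chartPair hD1' hD2' hs').T n) + g' ≤
        n * finrank Kbar⟮tS N h.dvd⟯ (FN N) + 1 := by
    intro n hn
    rw [chartPair_T]
    exact (hdimT n hn).le
  have hne' : Nonempty ↥(nodes J') :=
    Fermat.Agent.GK.SS.Conn.nonempty_of_chartPair (jF N) hc (hasOrthoBases_FN N A h hA)
      (rankOne_bar N A h hA) (mem_ball2.2 ⟨ht1.1, ht2.1⟩) htK hD1' hD2' hs'
      (chartPair_s_eq ht1 ht2 hD1' hD2' hs' (mem_ball2.2 ⟨ht1.1, ht2.1⟩))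
      (hunit_chartPair ht1 ht2 hD1' hD2' hs') (hTfin_chartPair hD1' hD2' hs') hT g' c0 hg' hdimT'
  exact ⟨hk, I, rfl, rfl, hne', chartPair hD1' hD2' hs', chartPair_s_eq ht1 ht2 hD1' hD2' hs' _,
    hunit_chartPair ht1 ht2 hD1' hD2' hs', hTfin_chartPair hD1' hD2' hs', hT, g', c0, hg', hdimT'⟩

open Fermat.Agent.GJ.Kum Fermat.Agent.GJ.Kum.KumType Fermat.Agent.GK.Tate
open Fermat.Agent.GK.UqKronecker Fermat.Agent.GK.SS.LGen in
set_option maxHeartbeats 1600000 in
/-- **(G1) at `F_N`, `q ∥ N`, from the special-fibre facts**: `φ² = q²` on `kerRed ⊓ kerRed₂`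
for a Frobenius `φ` at `A`.  Hypotheses = those of helper56's `nonempty_ssPackage_fibre` (NO
connectedness hypothesis: `Σ ≠ ∅` is helper39's `Conn.nonempty_of_chartPair`) + the four Frobenius
facts of helper40's `frob_sq_of_frobNodes`. -/
theorem frobSq_fibre (hA : A.LiesOverPrime q) {m : ℕ}
    (hmk : ((m : ℕ) : ResidueField A) ≠ 0)
    [IsDedekindDomain C] (hCf : ¬ IsField C)
    (hinj : Function.Injective (algebraMap C (FresBar N A)))
    (hCreg : ∀ c : C, RegFin (ResidueField A) (tauF N A) (algebraMap C (FresBar N A) c))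
    (hCrange : ∀ z : FresBar N A, RegFin (ResidueField A) (tauF N A) z →
      z ∈ Set.range (algebraMap C (FresBar N A)))
    (Ψ : C →ₐ[ResidueField A] C) (hΨpow : ∀ a, ∃ b, Ψ a = b ^ q)
    (hΨ : ∀ c, algebraMap C (FresBar N A) (Ψ c) = psiFN N A h hA (algebraMap C (FresBar N A) c))
    (J' : Ideal C) (hfix : fixIdeal Ψ ≤ J')
    (hB : ∀ (x : FN N) (h1 : x ∈ (redDataBar N A).Rw) (h2 : x ∈ (redData2 N A h).Rw),
      RegFin Kbar (jF N) x →
      ∃ g g' : C, algebraMap C (FresBar N A) g = (redDataBar N A).red ⟨x, h1⟩ ∧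
        algebraMap C (FresBar N A) g' = (redData2 N A h).red ⟨x, h2⟩ ∧ g - Ψ g' ∈ J')
    (hBsurj : ∀ g g' : C, g - Ψ g' ∈ J' →
      ∃ (x : FN N) (h1 : x ∈ (redDataBar N A).Rw) (h2 : x ∈ (redData2 N A h).Rw),
        RegFin Kbar (jF N) x ∧ (redDataBar N A).red ⟨x, h1⟩ = algebraMap C (FresBar N A) g ∧
          (redData2 N A h).red ⟨x, h2⟩ = algebraMap C (FresBar N A) g')
    (mα mβ : ℕ)
    (hα : ∀ m : ℕ, mα ≤ m → ∀ y ∈ Lfib (ResidueField A) (tauF N A) (m : ℤ), ∃ x,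
      ∃ hx : x ∈ (ballFN N A h).B,
      RegFin Kbar (jF N * jdF N q h.dvd)⁻¹ ((jF N)⁻¹ ^ m * x) ∧
        (ballFN N A h).red ⟨x, hx⟩ = (y, psiFN N A h hA y))
    (hβ : ∀ m : ℕ, mβ ≤ m → ∀ y ∈ Lfib (ResidueField A) (tauF N A) (m : ℤ), ∃ x,
      ∃ hx : x ∈ (ballFN N A h).B,
      RegFin Kbar (jF N * jdF N q h.dvd)⁻¹ ((jdF N q h.dvd)⁻¹ ^ m * x) ∧
        (ballFN N A h).red ⟨x, hx⟩ = (psiFN N A h hA y, y))
    (hΨJ : ∀ d ∈ J', Ψ d ∈ J')
    {φ : Kbar ≃ₐ[ℚ] Kbar} (hφ : A.IsFrobeniusAt φ q)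
    (S : C → C) (hΨS : ∀ a, Ψ (S a) = a ^ q)
    (hS : ∀ r, algebraMap C (FresBar N A) (S r) =
      resFres N A φ hφ.mem_decompositionSubgroup (algebraMap C (FresBar N A) r))
    (x : Additive (Kum Kbar (FK N) m)) (hx : x ∈ kerRed N A m ⊓ kerRed₂ h A m) :
    gal N m φ (gal N m φ x) = (q ^ 2) • x := by
  classical
  have hq2 : 2 ≤ q := h.prime.two_le
  have hJ0 : J' ≠ ⊥ := fun h0 => fixIdeal_ne_bot Ψ hCf hq2 hΨpow (le_bot_iff.1 (h0 ▸ hfix))
  letI : Fintype ↥(nodes J') := (finite_nodes hCf hJ0).fintype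
  obtain ⟨hk, I, hIe1, hIe2, hconn, Pc, hs, hunit, hTfin, hT, g', c0, hg', hdimT⟩ :=
    exists_chartInput_of_fibre N A h hA hmk hCf hinj hCreg hCrange Ψ hΨpow hΨ J' hfix hB hBsurj
      mα mβ hα hβ
  haveI hgenK : IsGen Kbar (jF N) := isGen_jF N
  have H : Hyp Kbar (FN N) := hyp_of_isGen (jF N)
  haveI : IsAlgClosed (ResidueField A) :=
    Fermat.Agent.GJ.ResidueAlgClosed.isAlgClosed_residueField A
  haveI : Infinite (ResidueField A) := IsAlgClosed.instInfinite
  haveI : FiniteDimensional Kbar⟮tS N h.dvd⟯ (FN N) := (isGen_tS N h.dvd).finite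
  have ht1 := isGaussChart1_tS N A h hA
  have ht2 := isGaussChart2_tS N A h hA
  have hc := redCompatFN N A h
  have hne := Rw1_ne_Rw2 N A h hA
  have hdeg := hdeg_tS_le N A h hA
  have hti1 := inv_tS_mem_Rw1 N A h hA
  have hti2 := inv_tS_mem_Rw2 N A h hA
  have htK := transcendental_tS N h.dvd
  have ho := hasOrthoBases_FN N A h hA
  have hrk := rankOne_bar N A h hA
  have hm0 : m ≠ 0 := I.m_ne_zero
  have hinjC : Function.Injective
      (IsScalarTower.toAlgHom (ResidueField A) C (FresBar N A)) := hinj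
  set T := I.twoRedInput H (jF N) htK hc hne hdeg hti1 hti2 with hTdef
  have hTL : ∀ (y : goodUnitsMod N A h m) (n : ℕ) (x : FK N),
      x ∈ T.L y n ↔ x ∈ Lz Kbar m ((y : (FK N)ˣ) : FK N) (tS N h.dvd) n := by
    intro y n x
    show x ∈ Lgen H (tS N h.dvd) m ((y : (FK N)ˣ) : FK N) n ↔ _
    rw [mem_Lgen_iff (H := H) (jF N) htK hm0 (ChartInput.y_ne_zero y) (I.U_dvd y), mem_Lz]
  have hclaim2 := Fermat.Agent.GK.SS.Claim2Plug.hclaim2_units_of_core (jF N) hc ho hrk
    (mem_ball2.2 ⟨ht1.1, ht2.1⟩) htK Pc hs hunit hTfin hT g' c0 hg' hdimT hmk hinjC hinjC T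
    (fun y n x hx => (hTL y n x).2 hx)
    (fun n x hx => by
      have hx' : x ∈ Lgen H (tS N h.dvd) m
          (((1 : goodUnitsMod N A h m) : (FK N)ˣ) : FK N) n := hx
      rw [OneMemClass.coe_one, Units.val_one, Lgen_one (H := H) (m := m) (jF N) htK n] at hx'
      exact hx')
    I.U_dvd
  exact frob_sq_of_frobNodes Ψ J' hk T hA hm0 hc hinjC hinjC ho (tS N h.dvd) (tS_galois N h) hTL
    hIe1 hIe2 hfix hΨJ hφ S hΨS hS hS hclaim2 x hx

open Fermat.Agent.GJ.Kum Fermat.Agent.GJ.Kum.KumType Fermat.Agent.GK.Tate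
open Fermat.Agent.GK.UqKronecker in
/-- v1 name of `frobSq_fibre` (extra unused connectedness hypothesis). -/
theorem frobSq_of_fibre (hA : A.LiesOverPrime q) {m : ℕ}
    (hmk : ((m : ℕ) : ResidueField A) ≠ 0)
    [IsDedekindDomain C] (hCf : ¬ IsField C)
    (hinj : Function.Injective (algebraMap C (FresBar N A)))
    (hCreg : ∀ c : C, RegFin (ResidueField A) (tauF N A) (algebraMap C (FresBar N A) c))
    (hCrange : ∀ z : FresBar N A, RegFin (ResidueField A) (tauF N A) z →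
      z ∈ Set.range (algebraMap C (FresBar N A)))
    (Ψ : C →ₐ[ResidueField A] C) (hΨpow : ∀ a, ∃ b, Ψ a = b ^ q)
    (hΨ : ∀ c, algebraMap C (FresBar N A) (Ψ c) = psiFN N A h hA (algebraMap C (FresBar N A) c))
    (J' : Ideal C) (hfix : fixIdeal Ψ ≤ J')
    (hB : ∀ (x : FN N) (h1 : x ∈ (redDataBar N A).Rw) (h2 : x ∈ (redData2 N A h).Rw),
      RegFin Kbar (jF N) x →
      ∃ g g' : C, algebraMap C (FresBar N A) g = (redDataBar N A).red ⟨x, h1⟩ ∧
        algebraMap C (FresBar N A) g' = (redData2 N A h).red ⟨x, h2⟩ ∧ g - Ψ g' ∈ J')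
    (hBsurj : ∀ g g' : C, g - Ψ g' ∈ J' →
      ∃ (x : FN N) (h1 : x ∈ (redDataBar N A).Rw) (h2 : x ∈ (redData2 N A h).Rw),
        RegFin Kbar (jF N) x ∧ (redDataBar N A).red ⟨x, h1⟩ = algebraMap C (FresBar N A) g ∧
          (redData2 N A h).red ⟨x, h2⟩ = algebraMap C (FresBar N A) g')
    (mα mβ : ℕ)
    (hα : ∀ m : ℕ, mα ≤ m → ∀ y ∈ Lfib (ResidueField A) (tauF N A) (m : ℤ), ∃ x,
      ∃ hx : x ∈ (ballFN N A h).B,
      RegFin Kbar (jF N * jdF N q h.dvd)⁻¹ ((jF N)⁻¹ ^ m * x) ∧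
        (ballFN N A h).red ⟨x, hx⟩ = (y, psiFN N A h hA y))
    (hβ : ∀ m : ℕ, mβ ≤ m → ∀ y ∈ Lfib (ResidueField A) (tauF N A) (m : ℤ), ∃ x,
      ∃ hx : x ∈ (ballFN N A h).B,
      RegFin Kbar (jF N * jdF N q h.dvd)⁻¹ ((jdF N q h.dvd)⁻¹ ^ m * x) ∧
        (ballFN N A h).red ⟨x, hx⟩ = (psiFN N A h hA y, y))
    (_hconn : Nonempty ↥(nodes J'))
    (hΨJ : ∀ d ∈ J', Ψ d ∈ J')
    {φ : Kbar ≃ₐ[ℚ] Kbar} (hφ : A.IsFrobeniusAt φ q)
    (S : C → C) (hΨS : ∀ a, Ψ (S a) = a ^ q)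
    (hS : ∀ r, algebraMap C (FresBar N A) (S r) =
      resFres N A φ hφ.mem_decompositionSubgroup (algebraMap C (FresBar N A) r))
    (x : Additive (Kum Kbar (FK N) m)) (hx : x ∈ kerRed N A m ⊓ kerRed₂ h A m) :
    gal N m φ (gal N m φ x) = (q ^ 2) • x :=
  frobSq_fibre N A h hA hmk hCf hinj hCreg hCrange Ψ hΨpow hΨ J' hfix hB hBsurj mα mβ hα hβ hΨJ hφ
    S hΨS hS x hx

end Main

end Fermat.Agent.GK.SS.Modular
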