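/-
GATE-K / (G1) for S35, layer 3 (helper44): `frobSq_of_fibre` (`GK/SS/ModularFibreG1.lean`) at the
level `N = N' ℓ`, `ℓ ∤ N'`, with the CONCRETE coordinate ring `C = CRing N' A`, `Ψ = psiC`, `J'` the
node ideal of `B~` — the S35 twin of helper56's `nonempty_ssPackage_mul` / `auxPackages_of_fibreFacts`
(`GK/SS/Modular.lean`), with helper40's Frobenius facts plugged in
(`QS.psiC_map_mem_of_BT_eq`, `QS.coeffC`, `QS.psiC_coeffC`).

* `frobSq_mul` : (G1) at level `N' ℓ` from the same pending special-fibre inputs as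
  `nonempty_ssPackage_mul`;
* **`frobSqAt_aux_of_fibreFacts`** : `FibreFacts → ` the hypothesis `hAux` of helper27's
  `FrobSqAux.frobSqAt_of_aux` VERBATIM;
* **`frobSqAt_of_fibreFacts`** : `FibreFacts → ∀ N q m (hN : ExactDvd q N), ¬ q ∣ m → FrobSqAt hN m`;
* **`s35Gate_of_fibreFacts`** : `FibreFacts → S35Final.S35Gate` (helper82 `s35Gate_of_aux`): S34 and
  S35 now hang on the SAME Prop `FibreFacts`.
-/
import Fermat.Agent.GK.SS.Modular
import Fermat.Agent.GK.SS.ModularFibreG1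
import Fermat.Agent.GK.QS.BTildeGal
import Fermat.Agent.GK.SS.FrobSqAux
import Fermat.Agent.GK.S35.GateAux

set_option autoImplicit false
set_option linter.unusedSectionVars false
set_option linter.style.haveILetI false

noncomputable section

namespace Fermat.Agent.GK.SS.Modular

open AlgebraicCurve IntermediateField Module IsLocalRing ModularCurve HahnSeries
open Fermat.Agent.S24 Fermat.Agent.S24_helper62
open Fermat.Agent.GJ.J1 Fermat.Agent.GJ.J1.Val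
open Fermat.Agent.GK.AL Fermat.Agent.GK.CuspSep Fermat.Agent.GK.BallTwo
open Fermat.Agent.GK.PsiFN Fermat.Agent.GK.PsiFNGood Fermat.Agent.GK.QS
open Fermat.Agent.GK.FrobGlue
open Fermat.Agent.GJ.Kum Fermat.Agent.GJ.KumGroup Fermat.Agent.GJ.Kum.KumType
open Fermat.Agent.GK.Tate Fermat.Agent.GK.UqKronecker

section Level

variable (N' : ℕ) [NeZero N'] (ℓ : ℕ) [Fact ℓ.Prime] [NeZero ℓ]
variable (A : ValuationSubring Kbar) (h : ExactDvd ℓ (N' * ℓ)) (hA : A.LiesOverPrime ℓ)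

/-- the coefficientwise action on `C` is the restriction of `resFres` -/
theorem iC_coeffC (hℓN : ¬ ℓ ∣ N') {σ : Kbar ≃ₐ[ℚ] Kbar} (hσ : σ ∈ A.decompositionSubgroup ℚ)
    (c : CRing N' A) :
    iC N' ℓ A h hA (coeffC N' ℓ A hℓN hA (resk A σ hσ) c) =
      resFres (N' * ℓ) A σ hσ (iC N' ℓ A h hA c) := by
  apply Subtype.ext
  rw [coe_iC, coe_resFres, coe_iC, cVal_coeffC]

set_option synthInstance.maxHeartbeats 400000 in
set_option maxHeartbeats 1600000 in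
include hA in
/-- **(G1) at level `N' ℓ`** from the pending special-fibre inputs (same as
`nonempty_ssPackage_mul`). -/
theorem frobSq_mul (hℓN : ¬ ℓ ∣ N') (h2 : ℓ = 2 → 3 ∣ N') (h3 : ℓ = 3 → 2 ∣ N')
    {m : ℕ} (hmk : ((m : ℕ) : ResidueField A) ≠ 0)
    [IsDedekindDomain (CRing N' A)] (hCf : ¬ IsField (CRing N' A))
    (hrange : ∀ x : BRing N' ℓ A h, rho1 N' ℓ A h x ∈ Set.range (cVal N' A) ∧
      rho2 N' ℓ A h x ∈ Set.range (cVal N' A))
    {φ : Kbar ≃ₐ[ℚ] Kbar} (hφ : A.IsFrobeniusAt φ ℓ)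
    (x : Additive (Kum Kbar (FK (N' * ℓ)) m))
    (hx : x ∈ kerRed (N' * ℓ) A m ⊓ kerRed₂ h A m) :
    gal (N' * ℓ) m φ (gal (N' * ℓ) m φ x) = (ℓ ^ 2) • x := by
  obtain ⟨J', hfix, hBT⟩ := exists_ideal_BT N' ℓ A h hℓN hA h2 h3
  obtain ⟨mα, hα⟩ := Fermat.Agent.GK.OldLiftsFN.exists_alpha_lifts_FN (N' * ℓ) A h hA
    (fun e => Dvd.dvd.mul_right (h2 e) ℓ) (fun e => Dvd.dvd.mul_right (h3 e) ℓ)
  obtain ⟨mβ, hβ⟩ := Fermat.Agent.GK.OldLiftsFN.exists_beta_lifts_FN (N' * ℓ) A h hA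
    (fun e => Dvd.dvd.mul_right (h2 e) ℓ) (fun e => Dvd.dvd.mul_right (h3 e) ℓ)
  letI : Algebra (CRing N' A) (FresBar (N' * ℓ) A) := (iC N' ℓ A h hA).toRingHom.toAlgebra
  haveI : IsScalarTower (ResidueField A) (CRing N' A) (FresBar (N' * ℓ) A) :=
    IsScalarTower.of_algebraMap_eq fun c => ((iC N' ℓ A h hA).commutes c).symm
  exact frobSq_fibre (N' * ℓ) A h hA hmk hCf (iC_injective N' ℓ A h hA)
    (regFin_iC N' ℓ A h hA) (fun z hz => mem_range_iC N' ℓ A h hA hz)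
    (psiC N' ℓ A hℓN hA) (exists_pow_eq_psiC N' ℓ A hℓN hA) (iC_psiC N' ℓ A h hA hℓN)
    J' hfix (hB_of_range N' ℓ A h hA hℓN hBT hrange) (hBsurj_of_BT N' ℓ A h hA hℓN hBT)
    mα mβ hα hβ
    (psiC_map_mem_of_BT_eq N' ℓ A h hℓN hA hBT hφ) hφ
    (coeffC N' ℓ A hℓN hA (resk A φ hφ.mem_decompositionSubgroup))
    (psiC_coeffC N' ℓ A hℓN hA _ (Fermat.Agent.GK.SS.resk_of_frobenius hφ))
    (iC_coeffC N' ℓ A h hA hℓN hφ.mem_decompositionSubgroup) x hx

end Level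

open Fermat.Agent.GK.SS.FrobSqAux in
/-- **(G1) at the auxiliary levels** (the hypothesis `hAux` of helper27's
`FrobSqAux.frobSqAt_of_aux`), from the pending special-fibre inputs. -/
theorem frobSqAt_aux_of_fibreFacts (FF : FibreFacts) :
    ∀ (N : ℕ) [NeZero N] (q m : ℕ) (hN : ExactDvd q N), ¬ q ∣ m →
      (q = 2 → 3 ∣ N) → (q = 3 → 2 ∣ N) → FrobSqAt hN m := by
  intro N _ q m hN hqm h2 h3 A hA φ hφ x hx1 hx2
  have hq := hN.prime
  obtain ⟨N', rfl⟩ := exists_eq_mul_left_of_dvd hN.dvd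
  haveI : Fact q.Prime := ⟨hq⟩
  haveI : NeZero q := ⟨hq.ne_zero⟩
  have hN'0 : N' ≠ 0 := fun h0 => NeZero.ne (N' * q) (by rw [h0, zero_mul])
  haveI : NeZero N' := ⟨hN'0⟩
  have hqN' : ¬ q ∣ N' := not_dvd_good N' hN
  have hmk : ((m : ℕ) : ResidueField A) ≠ 0 := by
    haveI : CharP (ResidueField A) q := Fermat.Agent.GJ.J1.Val.charP_residue A hq hA
    rw [Ne, CharP.cast_eq_zero_iff (ResidueField A) q]
    exact hqm
  have h2' : q = 2 → 3 ∣ N' := by
    intro e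
    have h23 := h2 e
    rw [e] at h23
    exact (Nat.Coprime.dvd_of_dvd_mul_right (by norm_num) h23)
  have h3' : q = 3 → 2 ∣ N' := by
    intro e
    have h32 := h3 e
    rw [e] at h32
    exact (Nat.Coprime.dvd_of_dvd_mul_right (by norm_num) h32)
  obtain ⟨hDed, hCf, hrange⟩ := FF N' q A hN hA hqN' h2' h3'
  exact frobSq_mul N' q A hN hA hqN' h2' h3' hmk hCf hrange hφ x ⟨hx1, hx2⟩

open Fermat.Agent.GK.SS.FrobSqAux in
/-- **(G1) at ALL levels `q ∥ N`, `q ∤ m`**, from the pending special-fibre inputs. -/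
theorem frobSqAt_of_fibreFacts (FF : FibreFacts) (N : ℕ) [NeZero N] (q m : ℕ)
    (hN : ExactDvd q N) (hqm : ¬ q ∣ m) : FrobSqAt hN m :=
  frobSqAt_of_aux (frobSqAt_aux_of_fibreFacts FF) N q m hN hqm

/-- **The S35 gate from the pending special-fibre inputs** — the SAME `FibreFacts` as S34
(helper56 `auxPackages_of_fibreFacts`).  Then `Fermat/Agent/S35.lean` is
`S35Final.s35_of_gate (s35Gate_of_fibreFacts fibreFacts) …`. -/
theorem s35Gate_of_fibreFacts (FF : FibreFacts) : Fermat.Agent.GK.Tate.S35Final.S35Gate :=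
  Fermat.Agent.GK.S35.s35Gate_of_aux (frobSqAt_aux_of_fibreFacts FF)

end Fermat.Agent.GK.SS.Modular
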