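/-
GATE-K / N10 (helper44): **the (SS) package at the symmetric chart `tS = j · j_q`**, with every
valuation-theoretic / generic-fibre / Galois input of `ssPackage_chart` DISCHARGED, and the
top-level reduction of helper43's `SSGateAll` (hence of the frozen S34) to the special-fibre
geometry at the auxiliary levels.

* `arith_tS` (Galois fixes `tS`), `natCast_residue_ne_zero` (`q ∤ m ⟹ m ≠ 0` in the residue
  field), `rankOne_redDataBar`, `hasOrthoBases_FN` (helper45 `TwoVal.hasOrthoBases` at any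
  `q ∥ N`), `inv_tS_mem_Rw1/2`, `finiteDimensional_tS`;
* **`ssPackage_tS`** : `Nonempty (SSPackage N m A)` from helper47's `ChartInput` at `t = tS` over
  `goodUnitsMod N A h m` + `hi1 hi2` + the `claim2_core` inputs `P hs hunit hTfin hT g' c0 hg'
  hdimT` (NO threshold hypothesis relating `c0` to the `ChartInput`);
* `TSGeom N A h hA m` : the same inputs bundled as ONE structure (the target of `Modular.lean`);
* **`ssGateAll_of_tsGeom`** : `(∀ N q h m, q ∤ m → (q = 2 → 3 ∣ N) → (q = 3 → 2 ∣ N) → ∀ A hA,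
  Nonempty (TSGeom N A h hA m)) → SSGateAll`  (helper62 `ssGate_of_aux` + `ssGate_of_package`).
  Then `Fermat/Agent/S34.lean` is `s34_of_ssGateAll (ssGateAll_of_tsGeom tsGeom)`.
-/
import Fermat.Agent.GK.SS.PackageChart
import Fermat.Agent.GK.Flat.SymDegreeInst
import Fermat.Agent.GJ.J1.ResidueAlgClosed
import Fermat.Agent.GJ.AuxL.RankOneA
import Fermat.Agent.RR.ModularBar
import Fermat.Agent.GK.SS.AuxDescent
import Fermat.Agent.GK.Tate.S34Final

set_option autoImplicit false

namespace Fermat.Agent.GK.SS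

open Fermat.Agent.GJ.KumGroup Fermat.Agent.GJ.Kum.KumType Fermat.Agent.GK.Tate
open Fermat.Agent.GJ.J1 Fermat.Agent.GJ.J1.Val Fermat.Agent.GK.AL Fermat.Agent.GK.MultiVal
open Fermat.Agent.GK.SS.TwoRed Fermat.Agent.GK.Glue Fermat.Agent.GK.Core.Twist
open Fermat.Agent.GK.Core Fermat.Agent.S24 Fermat.Agent.GJ.J1.InstGen Fermat.Agent.RRh45
open Fermat.Agent.GK.SS.LGen Fermat.Agent.GJ.FF.PrincipalOf
open Fermat.Agent.GK.SymChart Fermat.Agent.GK.SymDegree Fermat.Agent.GK.BallTwo
open AlgebraicCurve ModularCurve IsLocalRing IntermediateField Module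

/-- `ℚ̄`. -/
local notation "Qb" => AlgebraicClosure ℚ

section

variable (N : ℕ) [NeZero N] (A : ValuationSubring Qb) {q : ℕ} [NeZero q] (h : ExactDvd q N)

/-- the symmetric chart is Galois-fixed (rational `q`-expansion coefficients) -/
theorem arith_tS (τ : Qb ≃ₐ[ℚ] Qb) :
    arithmeticRingAut (modularFunctionFieldFull N) τ (tS N h.dvd) = tS N h.dvd := by
  have h1 : arithmeticRingAut (modularFunctionFieldFull N) τ (jF N) = jF N := by
    rw [jF_eq_gen]; exact galF_gen τ _
  have h2 : arithmeticRingAut (modularFunctionFieldFull N) τ (jdF N q h.dvd) = jdF N q h.dvd := by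
    rw [← gen_eq_jdF (⟨q, h.dvd⟩ : Fermat.Agent.S24_helper62.DivIdx N)]; exact galF_gen τ _
  rw [tS, map_mul, h1, h2]

omit [NeZero N] [NeZero q] in
include h in
/-- the residue characteristic does not divide `m` -/
theorem natCast_residue_ne_zero (hA : A.LiesOverPrime q) {m : ℕ} (hqm : ¬ q ∣ m) :
    ((m : ℕ) : ResidueField A) ≠ 0 := by
  have : CharP (ResidueField A) q := Fermat.Agent.GJ.Kum.charP_residueField A h.prime hA
  rw [Ne, CharP.cast_eq_zero_iff (ResidueField A) q]
  exact hqm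

omit [NeZero q] in
include h in
/-- `A` has rank one -/
theorem rankOne_redDataBar (hA : A.LiesOverPrime q) : RankOne (redDataBar N A).A :=
  fun _ _ _ hx hc =>
    Fermat.Agent.GJ.AuxL.RankOneA.exists_pow_valuation_le A h.prime hA hx hc

/-- orthonormal bases of the semilocal ball at any `q ∥ N` (helper45 `TwoVal.hasOrthoBases`) -/
theorem hasOrthoBases_FN (hA : A.LiesOverPrime q) :
    HasOrthoBases (redDataBar N A).A
      (ball2 (redDataBar N A) (redData2 N A h)) (rad2 (redDataBar N A) (redData2 N A h)) := by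
  obtain ⟨N', rfl⟩ := exists_eq_mul_left_of_dvd h.dvd
  have : Fact q.Prime := ⟨h.prime⟩
  have hN'0 : N' ≠ 0 := fun h0 => NeZero.ne (N' * q) (by rw [h0, zero_mul])
  have : NeZero N' := ⟨hN'0⟩
  have hqN' : ¬ q ∣ N' := fun hd => h.not_sq (by rw [pow_two]; exact Nat.mul_dvd_mul hd dvd_rfl)
  exact Fermat.Agent.GK.Val.TwoVal.hasOrthoBases N' q A h hqN' hA

theorem inv_tS_mem_Rw1 (hA : A.LiesOverPrime q) : (tS N h.dvd)⁻¹ ∈ (redDataBar N A).Rw := by
  have : (tS N h.dvd)⁻¹ ∈ (ballFN N A h).B := by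
    rw [tS, mul_inv]
    exact (ballFN N A h).B.mul_mem (inv_jF_mem_ballFN N A h hA) (inv_jq_mem_ballFN N A h hA)
  exact ((mem_ballFN N A h).1 this).1

theorem inv_tS_mem_Rw2 (hA : A.LiesOverPrime q) : (tS N h.dvd)⁻¹ ∈ (redData2 N A h).Rw := by
  have : (tS N h.dvd)⁻¹ ∈ (ballFN N A h).B := by
    rw [tS, mul_inv]
    exact (ballFN N A h).B.mul_mem (inv_jF_mem_ballFN N A h hA) (inv_jq_mem_ballFN N A h hA)
  exact ((mem_ballFN N A h).1 this).2

theorem finiteDimensional_tS : FiniteDimensional Qb⟮tS N h.dvd⟯ (FK N) := by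
  have h1 := finrank_tS N h
  have h2 : 0 < dedekindPsi N := by
    rw [← (Fermat.Agent.S24_helper62.m9 N).2.2]
    have := (Fermat.Agent.S24_helper62.m9 N).2.1
    exact Module.finrank_pos
  exact FiniteDimensional.of_finrank_pos (by rw [h1]; omega)


attribute [local instance] Fermat.Agent.RR.ModularBar.finiteResidues
  Fermat.Agent.RR.ModularBar.hasPrincipalDivisors Fermat.Agent.RR.ModularBar.nonempty_place

section Package

variable {m : ℕ}
variable {C1 C2 : Type} [CommRing C1] [Algebra (ResidueField A) C1] [CommRing C2]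
  [Algebra (ResidueField A) C2]
  {i1 : C1 →ₐ[ResidueField A] FresBar N A} {i2 : C2 →ₐ[ResidueField A] FresBar N A}
  {ι : Type} [Fintype ι] [DecidableEq ι] [Nonempty ι]

/-- **The (SS) package at `A ∣ q ∥ N` from the special-fibre geometry at the symmetric chart**
`tS = j · j_q`.  All valuation-side, generic-fibre and Galois inputs of `ssPackage_chart` are
discharged. -/
theorem ssPackage_tS (hA : A.LiesOverPrime q) (hqm : ¬ q ∣ m)
    (I : ChartInput (redDataBar N A) (redData2 N A h) i1 i2 (goodUnitsMod N A h m) m ι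
      (tS N h.dvd) (isGaussChart1_tS N A h hA) (isGaussChart2_tS N A h hA))
    (hi1 : Function.Injective i1) (hi2 : Function.Injective i2)
    (P : ChartPair (ResidueField A) (FresBar N A × FresBar N A))
    (hs : P.s = red2 (redDataBar N A) (redData2 N A h)
      ⟨tS N h.dvd, mem_ball2.2 ⟨(isGaussChart1_tS N A h hA).1, (isGaussChart2_tS N A h hA).1⟩⟩)
    (hunit : ∀ c : ResidueField A,
      IsUnit (P.s - algebraMap (ResidueField A) (FresBar N A × FresBar N A) c))
    (hTfin : ∀ n, FiniteDimensional (ResidueField A) (P.T n))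
    (hT : ∀ (n : ℕ) (x : ball2 (redDataBar N A) (redData2 N A h)),
      (x : FK N) ∈ Lfib Qb (tS N h.dvd) (n : ℤ) →
        red2 (redDataBar N A) (redData2 N A h) x ∈ P.T n)
    (g' c0 : ℕ)
    (hg' : genusRR Qb (FK N) ≤ (g' : ℤ))
    (hdimT : ∀ n, c0 ≤ n →
      finrank (ResidueField A) (P.T n) + g' ≤ n * finrank Qb⟮tS N h.dvd⟯ (FK N) + 1) :
    Nonempty (SSPackage N m A) := by
  have := Fermat.Agent.RR.ModularBar.isGen_jF N
  have := finiteDimensional_tS N h
  have ht1 := isGaussChart1_tS N A h hA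
  have ht2 := isGaussChart2_tS N A h hA
  have H : Hyp Qb (FK N) := hyp_of_isGen (jF N)
  have htK : Transcendental Qb (tS N h.dvd) := transcendental_tS N h.dvd
  exact ⟨ssPackage_chart N A h hA (natCast_residue_ne_zero N A h hA hqm) (jF N) H I htK
    (redCompatFN N A h) (Rw1_ne_Rw2 N A h hA) (hdeg_tS_red N A h hA ht1 ht2).le
    (inv_tS_mem_Rw1 N A h hA) (inv_tS_mem_Rw2 N A h hA) hi1 hi2 (hasOrthoBases_FN N A h hA)
    (rankOne_redDataBar N A h hA) (arith_tS N h) P hs hunit hTfin hT g'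
    (max c0 (max I.nS (I.nG H (jF N) htK))) (le_max_right _ _) hg'
    (fun n hn => hdimT n (le_trans (le_max_left _ _) hn))⟩

end Package

/-- **The special-fibre geometry at `(N, q, m, A)`**: exactly the inputs of `ssPackage_tS`
(helper47's `ChartInput` at the symmetric chart + the `claim2_core` family). -/
structure TSGeom (hA : A.LiesOverPrime q) (m : ℕ) where
  /-- coordinate ring of the first component -/
  C1 : Type
  /-- coordinate ring of the second component -/
  C2 : Type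
  [ring1 : CommRing C1]
  [alg1 : Algebra (ResidueField A) C1]
  [ring2 : CommRing C2]
  [alg2 : Algebra (ResidueField A) C2]
  /-- `C1 ⊂ Ft` -/
  i1 : C1 →ₐ[ResidueField A] FresBar N A
  /-- `C2 ⊂ Ft` -/
  i2 : C2 →ₐ[ResidueField A] FresBar N A
  /-- the nodes -/
  ι : Type
  [fin : Fintype ι]
  [dec : DecidableEq ι]
  [ne : Nonempty ι]
  /-- helper47's chart input -/
  I : ChartInput (redDataBar N A) (redData2 N A h) i1 i2 (goodUnitsMod N A h m) m ι
      (tS N h.dvd) (isGaussChart1_tS N A h hA) (isGaussChart2_tS N A h hA)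
  hi1 : Function.Injective i1
  hi2 : Function.Injective i2
  /-- the cusp-only graded family of `claim2_core` -/
  P : ChartPair (ResidueField A) (FresBar N A × FresBar N A)
  hs : P.s = red2 (redDataBar N A) (redData2 N A h)
      ⟨tS N h.dvd, mem_ball2.2 ⟨(isGaussChart1_tS N A h hA).1, (isGaussChart2_tS N A h hA).1⟩⟩
  hunit : ∀ c : ResidueField A,
      IsUnit (P.s - algebraMap (ResidueField A) (FresBar N A × FresBar N A) c)
  hTfin : ∀ n, FiniteDimensional (ResidueField A) (P.T n)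
  hT : ∀ (n : ℕ) (x : ball2 (redDataBar N A) (redData2 N A h)),
      (x : FK N) ∈ Lfib Qb (tS N h.dvd) (n : ℤ) →
        red2 (redDataBar N A) (redData2 N A h) x ∈ P.T n
  /-- genus bound -/
  g' : ℕ
  /-- threshold -/
  c0 : ℕ
  hg' : genusRR Qb (FK N) ≤ (g' : ℤ)
  hdimT : ∀ n, c0 ≤ n →
      finrank (ResidueField A) (P.T n) + g' ≤ n * finrank Qb⟮tS N h.dvd⟯ (FK N) + 1

/-- the package from the geometry -/
theorem ssPackage_of_tsGeom (hA : A.LiesOverPrime q) {m : ℕ} (hqm : ¬ q ∣ m)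
    (G : TSGeom N A h hA m) : Nonempty (SSPackage N m A) := by
  let _ := G.ring1
  let _ := G.alg1
  let _ := G.ring2
  let _ := G.alg2
  let _ := G.fin
  let _ := G.dec
  have := G.ne
  exact ssPackage_tS N A h hA hqm G.I G.hi1 G.hi2 G.P G.hs G.hunit G.hTfin G.hT G.g' G.c0 G.hg'
    G.hdimT

end

/-- **The semistability gate at all levels from the special-fibre geometry at the auxiliary
levels** (`q = 2 → 3 ∣ N`, `q = 3 → 2 ∣ N`). -/
theorem ssGateAll_of_tsGeom
    (hG : ∀ (N : ℕ) [NeZero N] (q : ℕ) [NeZero q] (h : ExactDvd q N) (m : ℕ), ¬ q ∣ m →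
      (q = 2 → 3 ∣ N) → (q = 3 → 2 ∣ N) →
      ∀ (A : ValuationSubring Qb) (hA : A.LiesOverPrime q), Nonempty (TSGeom N A h hA m)) :
    SSGateAll := by
  intro N _ p q hp hq hqp hqN hq2 n
  have hqm : ¬ q ∣ p ^ n := fun hd => hqp ((Nat.prime_dvd_prime_iff_eq hq hp).1 (hq.dvd_of_dvd_pow hd))
  refine Fermat.Agent.GK.SS.AuxDescent.ssGate_of_aux ?_ N q (p ^ n) hq hqN hq2 hqm
  intro M _ q' m' hq' hqM hqM2 hqm' h2 h3
  have : NeZero q' := ⟨hq'.ne_zero⟩
  have hm' : m' ≠ 0 := fun h0 => hqm' (h0 ▸ dvd_zero q')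
  refine ssGate_of_package hm' fun A hA => ?_
  obtain ⟨G⟩ := hG M q' ⟨hq', hqM, hqM2⟩ m' hqm' h2 h3 A hA
  exact ssPackage_of_tsGeom M A ⟨hq', hqM, hqM2⟩ hA hqm' G

end Fermat.Agent.GK.SS
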