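/-
GATE-K / (G1) at `q ∥ N`, on top of helper44's assembled (SS) package (helper40).

The SAME inputs as `ssPackage_twoRed` / `ssPackage_chart` / `ssPackage_tS` / `TSGeom`
(`GK/SS/PackageTwoRed.lean`, `PackageChart.lean`, `PackageTS.lean`), plus the Frobenius symmetry of
the special fibre, give (G1) `φ² = q²` on `ker r₁ ∩ ker r₂`:

* `hclaim2_twoRed` : Claim 2 for `T.lamData`, as a STANDALONE theorem (the proof is the `hclaim2`
  block of helper44's `ssPackage_twoRed`, verbatim);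
* `frobSq_twoRed`, `frobSq_chart`, `frobSq_tS` : (G1) at `(N, q, m, A, φ)` at the three levels of
  helper44's stack;
* `TSFrob G φ hφ` : the Frobenius symmetry of a `TSGeom` (`S_j` on the coordinate rings with
  `i_j (S_j r) = resFres φ (i_j r)`, the node involution `perm` with
  `e_j (perm x) (S_j a) = (e_j x a) ^ q`);
* `frobSq_of_tsGeom` : (G1) from `G : TSGeom N A h hA m` and `TSFrob G φ hφ`;
* **`frobSqAt_of_tsGeom`** : helper27's `FrobSqAux.FrobSqAt hN m` at ALL levels `q ∥ N`, `q ∤ m`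
  from the geometry + Frobenius symmetry at the auxiliary levels.
-/
import Fermat.Agent.GK.SS.PackageTS
import Fermat.Agent.GK.SS.FrobSqNodes
import Fermat.Agent.GK.SS.FrobSqAux

set_option autoImplicit false

namespace Fermat.Agent.GK.SS

open Fermat.Agent.GJ.KumGroup Fermat.Agent.GJ.Kum.KumType Fermat.Agent.GK.Tate
open Fermat.Agent.GJ.J1 Fermat.Agent.GJ.J1.Val Fermat.Agent.GK.AL Fermat.Agent.GK.MultiVal
open Fermat.Agent.GK.SS.TwoRed Fermat.Agent.GK.Glue Fermat.Agent.GK.Core.Twist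
open Fermat.Agent.GK.Core Fermat.Agent.S24 Fermat.Agent.GJ.J1.InstGen Fermat.Agent.RRh45
open Fermat.Agent.GK.SS.LGen Fermat.Agent.GJ.FF.PrincipalOf Fermat.Agent.GK.UqKronecker
open Fermat.Agent.GK.SymChart Fermat.Agent.GK.SymDegree Fermat.Agent.GK.BallTwo
open AlgebraicCurve ModularCurve IsLocalRing IntermediateField Module

/-- `ℚ̄`. -/
local notation "Qb" => AlgebraicClosure ℚ

section TwoRed

variable (N : ℕ) [NeZero N] (A : ValuationSubring Qb) {q : ℕ} (h : ExactDvd q N) {m : ℕ}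
variable {C1 C2 : Type} [CommRing C1] [Algebra (ResidueField A) C1] [CommRing C2]
  [Algebra (ResidueField A) C2]
  {i1 : C1 →ₐ[ResidueField A] FresBar N A} {i2 : C2 →ₐ[ResidueField A] FresBar N A}
  {ι : Type} [Fintype ι] [DecidableEq ι]
variable [Infinite (ResidueField A)] [Nonempty ι]

/-- **Claim 2 for the two-reduction package**, standalone (the `hclaim2` block of helper44's
`ssPackage_twoRed`). -/
theorem hclaim2_twoRed (hmk : ((m : ℕ) : ResidueField A) ≠ 0)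
    (x₀ : FK N) [IsGen Qb x₀]
    (T : TwoRedInput (redDataBar N A) (redData2 N A h) i1 i2 (goodUnitsMod N A h m) m ι)
    (hc : RedCompat (redDataBar N A) (redData2 N A h))
    (hi1 : Function.Injective i1) (hi2 : Function.Injective i2)
    (ho : HasOrthoBases (redDataBar N A).A
      (ball2 (redDataBar N A) (redData2 N A h)) (rad2 (redDataBar N A) (redData2 N A h)))
    (hrk : RankOne (redDataBar N A).A)
    {t : FK N}
    (htB : t ∈ ball2 (redDataBar N A) (redData2 N A h)) (htK : Transcendental Qb t)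
    (hTL : ∀ (y : goodUnitsMod N A h m) (n : ℕ) (x : FK N),
      x ∈ T.L y n ↔ x ∈ Lz Qb m ((y : (FK N)ˣ) : FK N) t n)
    (P : ChartPair (ResidueField A) (FresBar N A × FresBar N A))
    (hs : P.s = red2 (redDataBar N A) (redData2 N A h) ⟨t, htB⟩)
    (hunit : ∀ c : ResidueField A,
      IsUnit (P.s - algebraMap (ResidueField A) (FresBar N A × FresBar N A) c))
    (hTfin : ∀ n, FiniteDimensional (ResidueField A) (P.T n))
    (hT : ∀ (n : ℕ) (x : ball2 (redDataBar N A) (redData2 N A h)),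
      (x : FK N) ∈ Lfib Qb t (n : ℤ) → red2 (redDataBar N A) (redData2 N A h) x ∈ P.T n)
    (g' c0 : ℕ) (hc0 : T.n0 ≤ c0)
    (hg' : @genusRR Qb (FK N) _ _ _ (Fermat.Agent.GJ.FF.finiteResidues x₀)
        (Fermat.Agent.GJ.FF.PrincipalOf.hasPrincipalDivisors_gen x₀)
        (Fermat.Agent.GJ.FF.nonempty_place x₀) ≤ (g' : ℤ))
    (hdimT : ∀ n, c0 ≤ n →
      finrank (ResidueField A) (P.T n) + g' ≤ n * finrank Qb⟮t⟯ (FK N) + 1) :
    ∀ z : goodUnitsMod N A h m,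
      (∃ n, T.n0 ≤ n ∧ ((1 : C1), (1 : C2)) ∈ (T.lamData hc hi1 hi2 ho).Lam z n) →
      ∃ c ∈ cstUnits N, ∃ w : (FK N)ˣ, (z : (FK N)ˣ) = c * w ^ m := by
  have hm0 : m ≠ 0 := by
    rintro rfl
    simp at hmk
  refine hclaim2_of_core (galVal1 N A) (galVal2 N A h) hm0 (T.lamData hc hi1 hi2 ho) ?_ t c0
    (fun b x => ∃ hx : x ∈ ball2 (redDataBar N A) (redData2 N A h),
      red2 (redDataBar N A) (redData2 N A h) ⟨x, hx⟩ ∈ P.T b) ?_ ?_
  · -- `c y = 1` means the two constants agree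
    intro y hy
    have h1 : T.c2 y / T.c1 y = 1 := hy
    rw [← twoRed_c1_eq N A h T y, ← twoRed_c2_eq N A h T y]
    exact ((div_eq_one_iff_eq (T.c1_ne y)).1 h1).symm
  · -- `hglue`
    rintro z ⟨n, hn, h11⟩ b hb x hx1 hx2 hxL
    have hxB : x ∈ ball2 (redDataBar N A) (redData2 N A h) := mem_ball2.2 ⟨hx1, hx2⟩
    refine ⟨hxB, ?_⟩
    have hbn : (T.lamData hc hi1 hi2 ho).n0 ≤ b := le_trans hc0 hb
    have hxT : x ∈ T.L z b := (hTL z b x).2 hxL
    obtain ⟨ha, hb'⟩ := T.le z b x hx1 hx2 hxT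
    obtain ⟨z1, hz1⟩ := T.Ltf1_range b _ ha
    obtain ⟨z2, hz2⟩ := T.Ltf2_range b _ hb'
    have hmem : (z1, z2) ∈ (T.lamData hc hi1 hi2 ho).Lam z b :=
      T.mk_mem_lamData_Lam hc hi1 hi2 ho hx1 hx2 hxT hz1 hz2
    rw [(T.lamData hc hi1 hi2 ho).Lam_eq_Lam_one_of_one_mem z n hn h11 b hbn,
      T.mem_lamData_Lam hc hi1 hi2 ho] at hmem
    obtain ⟨x', h1', h2', hL', a', b''⟩ := hmem
    have hx'L : x' ∈ Lfib Qb t (b : ℤ) := by
      have := (hTL 1 b x').1 hL'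
      rw [mem_Lz] at this
      have e : x' ^ m * (((1 : goodUnitsMod N A h m) : (FK N)ˣ) : FK N) = x' ^ m := by
        simp
      rw [e] at this
      exact mem_Lfib_of_pow (Nat.pos_of_ne_zero hm0) this
    have hx'B : x' ∈ ball2 (redDataBar N A) (redData2 N A h) := mem_ball2.2 ⟨h1', h2'⟩
    have := hT b ⟨x', hx'B⟩ hx'L
    have e2 : red2 (redDataBar N A) (redData2 N A h) ⟨x, hxB⟩ =
        red2 (redDataBar N A) (redData2 N A h) ⟨x', hx'B⟩ := by
      apply Prod.ext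
      · show (redDataBar N A).red ⟨x, _⟩ = (redDataBar N A).red ⟨x', _⟩
        rw [← hz1, ← a']
      · show (redData2 N A h).red ⟨x, _⟩ = (redData2 N A h).red ⟨x', _⟩
        rw [← hz2, ← b'']
    rw [e2]
    exact this
  · -- the core
    intro y hv1 hv2 hdvd hL
    have hy1 : y - 1 ∈ rad2 (redDataBar N A) (redData2 N A h) := mem_rad2.2 ⟨hv1, hv2⟩
    exact Claim2.claim2_core x₀ hc ho hrk htB htK P hs hunit hTfin hT g' c0 hg' hdimT hmk hy1 hdvd
      (fun b hb x hx => by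
        obtain ⟨hxB, hmem⟩ := hL b hb x (mem_ball2.1 x.2).1 (mem_ball2.1 x.2).2 hx
        exact hmem)

/-- **(G1) at `(N, q, m, A, φ)`** from the inputs of `ssPackage_twoRed` and the Frobenius symmetry
of the special fibre. -/
theorem frobSq_twoRed (hA : A.LiesOverPrime q)
    (hmk : ((m : ℕ) : ResidueField A) ≠ 0)
    (x₀ : FK N) [IsGen Qb x₀]
    (T : TwoRedInput (redDataBar N A) (redData2 N A h) i1 i2 (goodUnitsMod N A h m) m ι)
    (hc : RedCompat (redDataBar N A) (redData2 N A h))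
    (hi1 : Function.Injective i1) (hi2 : Function.Injective i2)
    (ho : HasOrthoBases (redDataBar N A).A
      (ball2 (redDataBar N A) (redData2 N A h)) (rad2 (redDataBar N A) (redData2 N A h)))
    (hrk : RankOne (redDataBar N A).A)
    {t : FK N} (htgal : ∀ τ : Qb ≃ₐ[ℚ] Qb,
      arithmeticRingAut (modularFunctionFieldFull N) τ t = t)
    (htB : t ∈ ball2 (redDataBar N A) (redData2 N A h)) (htK : Transcendental Qb t)
    (hTL : ∀ (y : goodUnitsMod N A h m) (n : ℕ) (x : FK N),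
      x ∈ T.L y n ↔ x ∈ Lz Qb m ((y : (FK N)ˣ) : FK N) t n)
    (P : ChartPair (ResidueField A) (FresBar N A × FresBar N A))
    (hs : P.s = red2 (redDataBar N A) (redData2 N A h) ⟨t, htB⟩)
    (hunit : ∀ c : ResidueField A,
      IsUnit (P.s - algebraMap (ResidueField A) (FresBar N A × FresBar N A) c))
    (hTfin : ∀ n, FiniteDimensional (ResidueField A) (P.T n))
    (hT : ∀ (n : ℕ) (x : ball2 (redDataBar N A) (redData2 N A h)),
      (x : FK N) ∈ Lfib Qb t (n : ℤ) → red2 (redDataBar N A) (redData2 N A h) x ∈ P.T n)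
    (g' c0 : ℕ) (hc0 : T.n0 ≤ c0)
    (hg' : @genusRR Qb (FK N) _ _ _ (Fermat.Agent.GJ.FF.finiteResidues x₀)
        (Fermat.Agent.GJ.FF.PrincipalOf.hasPrincipalDivisors_gen x₀)
        (Fermat.Agent.GJ.FF.nonempty_place x₀) ≤ (g' : ℤ))
    (hdimT : ∀ n, c0 ≤ n →
      finrank (ResidueField A) (P.T n) + g' ≤ n * finrank Qb⟮t⟯ (FK N) + 1)
    {φ : Qb ≃ₐ[ℚ] Qb} (hφ : A.IsFrobeniusAt φ q)
    (S1 : C1 → C1) (S2 : C2 → C2)
    (hS1 : ∀ r, i1 (S1 r) = resFres N A φ hφ.mem_decompositionSubgroup (i1 r))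
    (hS2 : ∀ r, i2 (S2 r) = resFres N A φ hφ.mem_decompositionSubgroup (i2 r))
    (perm : Equiv.Perm ι) (hperm : ∀ x, perm (perm x) = x)
    (he1 : ∀ x a, T.e1 (perm x) (S1 a) = T.e1 x a ^ q)
    (he2 : ∀ x b, T.e2 (perm x) (S2 b) = T.e2 x b ^ q)
    (x : Additive (Kum Qb (FK N) m)) (hx1 : x ∈ kerRed N A m) (hx2 : x ∈ kerRed₂ h A m) :
    gal N m φ (gal N m φ x) = (q ^ 2) • x := by
  have hm0 : m ≠ 0 := by
    rintro rfl
    simp at hmk
  exact frob_sq_of_twoRedInput_Lz T hA hm0 hc hi1 hi2 ho t htgal hTL hφ S1 S2 hS1 hS2 perm hperm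
    he1 he2
    (hclaim2_twoRed N A h hmk x₀ T hc hi1 hi2 ho hrk htB htK hTL P hs hunit hTfin hT g' c0 hc0
      hg' hdimT) x ⟨hx1, hx2⟩

end TwoRed

section Chart

variable (N : ℕ) [NeZero N] (A : ValuationSubring Qb) {q : ℕ} (h : ExactDvd q N) {m : ℕ}
variable {C1 C2 : Type} [CommRing C1] [Algebra (ResidueField A) C1] [CommRing C2]
  [Algebra (ResidueField A) C2]
  {i1 : C1 →ₐ[ResidueField A] FresBar N A} {i2 : C2 →ₐ[ResidueField A] FresBar N A}
  {ι : Type} [Fintype ι] [DecidableEq ι]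
  [FiniteResidues Qb (FK N)] [HasPrincipalDivisors Qb (FK N)] [Nonempty (Place Qb (FK N))]
  [Infinite (ResidueField A)] [Nonempty ι]

/-- **(G1) from a `ChartInput`** at a Galois-fixed common Gauss chart (inputs of
`ssPackage_chart` + the Frobenius symmetry). -/
theorem frobSq_chart (hA : A.LiesOverPrime q)
    (hmk : ((m : ℕ) : ResidueField A) ≠ 0)
    (x₀ : FK N) [IsGen Qb x₀] (H : Hyp Qb (FK N))
    {t : FK N} {ht1 : (redDataBar N A).IsGaussChart t} {ht2 : (redData2 N A h).IsGaussChart t}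
    (I : ChartInput (redDataBar N A) (redData2 N A h) i1 i2 (goodUnitsMod N A h m) m ι t ht1 ht2)
    (htK : Transcendental Qb t)
    (hc : RedCompat (redDataBar N A) (redData2 N A h))
    (hne : (redDataBar N A).Rw ≠ (redData2 N A h).Rw) [FiniteDimensional Qb⟮t⟯ (FK N)]
    (hdeg : finrank Qb⟮t⟯ (FK N) ≤
      finrank (ResidueField A)⟮(redDataBar N A).red ⟨t, ht1.1⟩⟯ (FresBar N A) +
        finrank (ResidueField A)⟮(redData2 N A h).red ⟨t, ht2.1⟩⟯ (FresBar N A))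
    (hti1 : t⁻¹ ∈ (redDataBar N A).Rw) (hti2 : t⁻¹ ∈ (redData2 N A h).Rw)
    (hi1 : Function.Injective i1) (hi2 : Function.Injective i2)
    (ho : HasOrthoBases (redDataBar N A).A
      (ball2 (redDataBar N A) (redData2 N A h)) (rad2 (redDataBar N A) (redData2 N A h)))
    (hrk : RankOne (redDataBar N A).A)
    (htgal : ∀ τ : Qb ≃ₐ[ℚ] Qb, arithmeticRingAut (modularFunctionFieldFull N) τ t = t)
    (P : ChartPair (ResidueField A) (FresBar N A × FresBar N A))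
    (hs : P.s = red2 (redDataBar N A) (redData2 N A h)
      ⟨t, mem_ball2.2 ⟨ht1.1, ht2.1⟩⟩)
    (hunit : ∀ c : ResidueField A,
      IsUnit (P.s - algebraMap (ResidueField A) (FresBar N A × FresBar N A) c))
    (hTfin : ∀ n, FiniteDimensional (ResidueField A) (P.T n))
    (hT : ∀ (n : ℕ) (x : ball2 (redDataBar N A) (redData2 N A h)),
      (x : FK N) ∈ Lfib Qb t (n : ℤ) → red2 (redDataBar N A) (redData2 N A h) x ∈ P.T n)
    (g' c0 : ℕ) (hc0 : max I.nS (I.nG H x₀ htK) ≤ c0)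
    (hg' : genusRR Qb (FK N) ≤ (g' : ℤ))
    (hdimT : ∀ n, c0 ≤ n →
      finrank (ResidueField A) (P.T n) + g' ≤ n * finrank Qb⟮t⟯ (FK N) + 1)
    {φ : Qb ≃ₐ[ℚ] Qb} (hφ : A.IsFrobeniusAt φ q)
    (S1 : C1 → C1) (S2 : C2 → C2)
    (hS1 : ∀ r, i1 (S1 r) = resFres N A φ hφ.mem_decompositionSubgroup (i1 r))
    (hS2 : ∀ r, i2 (S2 r) = resFres N A φ hφ.mem_decompositionSubgroup (i2 r))
    (perm : Equiv.Perm ι) (hperm : ∀ x, perm (perm x) = x)
    (he1 : ∀ x a, I.e1 (perm x) (S1 a) = I.e1 x a ^ q)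
    (he2 : ∀ x b, I.e2 (perm x) (S2 b) = I.e2 x b ^ q)
    (x : Additive (Kum Qb (FK N) m)) (hx1 : x ∈ kerRed N A m) (hx2 : x ∈ kerRed₂ h A m) :
    gal N m φ (gal N m φ x) = (q ^ 2) • x :=
  frobSq_twoRed N A h hA hmk x₀ (I.twoRedInput H x₀ htK hc hne hdeg hti1 hti2) hc hi1 hi2 ho hrk
    htgal (mem_ball2.2 ⟨ht1.1, ht2.1⟩) htK
    (fun y n x => by
      show x ∈ Lgen H t m ((y : (FK N)ˣ) : FK N) n ↔ _
      rw [mem_Lgen_iff (H := H) x₀ htK I.m_ne_zero (ChartInput.y_ne_zero y) (I.U_dvd y), mem_Lz])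
    P hs hunit hTfin hT g' c0 hc0 hg' hdimT hφ S1 S2 hS1 hS2 perm hperm he1 he2 x hx1 hx2

end Chart

section TS

variable (N : ℕ) [NeZero N] (A : ValuationSubring Qb) {q : ℕ} [NeZero q] (h : ExactDvd q N)

attribute [local instance] Fermat.Agent.RR.ModularBar.finiteResidues
  Fermat.Agent.RR.ModularBar.hasPrincipalDivisors Fermat.Agent.RR.ModularBar.nonempty_place

section Package

variable {m : ℕ}
variable {C1 C2 : Type} [CommRing C1] [Algebra (ResidueField A) C1] [CommRing C2]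
  [Algebra (ResidueField A) C2]
  {i1 : C1 →ₐ[ResidueField A] FresBar N A} {i2 : C2 →ₐ[ResidueField A] FresBar N A}
  {ι : Type} [Fintype ι] [DecidableEq ι] [Nonempty ι]

/-- **(G1) at the symmetric chart `tS = j · j_q`** (inputs of `ssPackage_tS` + the Frobenius
symmetry). -/
theorem frobSq_tS (hA : A.LiesOverPrime q) (hqm : ¬ q ∣ m)
    (I : ChartInput (redDataBar N A) (redData2 N A h) i1 i2 (goodUnitsMod N A h m) m ι
      (tS N h.dvd) (isGaussChart1_tS N A h hA) (isGaussChart2_tS N A h hA))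
    (hi1 : Function.Injective i1) (hi2 : Function.Injective i2)
    (P : ChartPair (ResidueField A) (FresBar N A × FresBar N A))
    (hs : P.s = red2 (redDataBar N A) (redData2 N A h)
      ⟨tS N h.dvd, mem_ball2.2 ⟨(isGaussChart1_tS N A h hA).1, (isGaussChart2_tS N A h hA).1⟩⟩)
    (hunit : ∀ c : ResidueField A,
      IsUnit (P.s - algebraMap (ResidueField A) (FresBar N A × FresBar N A) c))
    (hTfin : ∀ n, FiniteDimensional (ResidueField A) (P.T n))
    (hT : ∀ (n : ℕ) (x : ball2 (redDataBar N A) (redData2 N A h)),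
      (x : FK N) ∈ Lfib Qb (tS N h.dvd) (n : ℤ) →
        red2 (redDataBar N A) (redData2 N A h) x ∈ P.T n)
    (g' c0 : ℕ)
    (hg' : genusRR Qb (FK N) ≤ (g' : ℤ))
    (hdimT : ∀ n, c0 ≤ n →
      finrank (ResidueField A) (P.T n) + g' ≤ n * finrank Qb⟮tS N h.dvd⟯ (FK N) + 1)
    {φ : Qb ≃ₐ[ℚ] Qb} (hφ : A.IsFrobeniusAt φ q)
    (S1 : C1 → C1) (S2 : C2 → C2)
    (hS1 : ∀ r, i1 (S1 r) = resFres N A φ hφ.mem_decompositionSubgroup (i1 r))
    (hS2 : ∀ r, i2 (S2 r) = resFres N A φ hφ.mem_decompositionSubgroup (i2 r))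
    (perm : Equiv.Perm ι) (hperm : ∀ x, perm (perm x) = x)
    (he1 : ∀ x a, I.e1 (perm x) (S1 a) = I.e1 x a ^ q)
    (he2 : ∀ x b, I.e2 (perm x) (S2 b) = I.e2 x b ^ q)
    (x : Additive (Kum Qb (FK N) m)) (hx1 : x ∈ kerRed N A m) (hx2 : x ∈ kerRed₂ h A m) :
    gal N m φ (gal N m φ x) = (q ^ 2) • x := by
  have := Fermat.Agent.RR.ModularBar.isGen_jF N
  have := finiteDimensional_tS N h
  have ht1 := isGaussChart1_tS N A h hA
  have ht2 := isGaussChart2_tS N A h hA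
  have H : Hyp Qb (FK N) := hyp_of_isGen (jF N)
  have htK : Transcendental Qb (tS N h.dvd) := transcendental_tS N h.dvd
  exact frobSq_chart N A h hA (natCast_residue_ne_zero N A h hA hqm) (jF N) H I htK
    (redCompatFN N A h) (Rw1_ne_Rw2 N A h hA) (hdeg_tS_red N A h hA ht1 ht2).le
    (inv_tS_mem_Rw1 N A h hA) (inv_tS_mem_Rw2 N A h hA) hi1 hi2 (hasOrthoBases_FN N A h hA)
    (rankOne_redDataBar N A h hA) (arith_tS N h) P hs hunit hTfin hT g'
    (max c0 (max I.nS (I.nG H (jF N) htK))) (le_max_right _ _) hg'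
    (fun n hn => hdimT n (le_trans (le_max_left _ _) hn))
    hφ S1 S2 hS1 hS2 perm hperm he1 he2 x hx1 hx2

end Package

attribute [local instance] TSGeom.ring1 TSGeom.alg1 TSGeom.ring2 TSGeom.alg2 TSGeom.fin
  TSGeom.dec TSGeom.ne

/-- **The Frobenius symmetry of the special-fibre geometry** `G : TSGeom N A h hA m` for a
Frobenius element `φ` at `A`: the coefficientwise Frobenius on the two coordinate rings and the
Frobenius involution of the nodes. -/
structure TSFrob {hA : A.LiesOverPrime q} {m : ℕ} (G : TSGeom N A h hA m) (φ : Qb ≃ₐ[ℚ] Qb)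
    (hφ : A.IsFrobeniusAt φ q) where
  /-- the coefficientwise Frobenius on the first coordinate ring -/
  S1 : G.C1 → G.C1
  /-- the coefficientwise Frobenius on the second coordinate ring -/
  S2 : G.C2 → G.C2
  hS1 : ∀ r, G.i1 (S1 r) = resFres N A φ hφ.mem_decompositionSubgroup (G.i1 r)
  hS2 : ∀ r, G.i2 (S2 r) = resFres N A φ hφ.mem_decompositionSubgroup (G.i2 r)
  /-- the Frobenius involution of the nodes -/
  perm : Equiv.Perm G.ι
  hperm : ∀ x, perm (perm x) = x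
  he1 : ∀ x a, G.I.e1 (perm x) (S1 a) = G.I.e1 x a ^ q
  he2 : ∀ x b, G.I.e2 (perm x) (S2 b) = G.I.e2 x b ^ q

/-- **(G1) from the special-fibre geometry and its Frobenius symmetry.** -/
theorem frobSq_of_tsGeom (hA : A.LiesOverPrime q) {m : ℕ} (hqm : ¬ q ∣ m)
    (G : TSGeom N A h hA m) {φ : Qb ≃ₐ[ℚ] Qb} (hφ : A.IsFrobeniusAt φ q)
    (Fr : TSFrob N A h G φ hφ)
    (x : Additive (Kum Qb (FK N) m)) (hx1 : x ∈ kerRed N A m) (hx2 : x ∈ kerRed₂ h A m) :
    gal N m φ (gal N m φ x) = (q ^ 2) • x :=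
  frobSq_tS N A h hA hqm G.I G.hi1 G.hi2 G.P G.hs G.hunit G.hTfin G.hT G.g' G.c0 G.hg' G.hdimT
    hφ Fr.S1 Fr.S2 Fr.hS1 Fr.hS2 Fr.perm Fr.hperm Fr.he1 Fr.he2 x hx1 hx2

end TS

/-- **(G1) at all levels `q ∥ N`, `q ∤ m`** (helper27's `FrobSqAt`) from the special-fibre geometry
and its Frobenius symmetry at the auxiliary levels (`q = 2 → 3 ∣ N`, `q = 3 → 2 ∣ N`). -/
theorem frobSqAt_of_tsGeom
    (hG : ∀ (N : ℕ) [NeZero N] (q : ℕ) [NeZero q] (h : ExactDvd q N) (m : ℕ), ¬ q ∣ m →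
      (q = 2 → 3 ∣ N) → (q = 3 → 2 ∣ N) →
      ∀ (A : ValuationSubring Qb) (hA : A.LiesOverPrime q) (φ : Qb ≃ₐ[ℚ] Qb)
        (hφ : A.IsFrobeniusAt φ q),
        ∃ G : TSGeom N A h hA m, Nonempty (TSFrob N A h G φ hφ))
    (N : ℕ) [NeZero N] (q m : ℕ) (hN : ExactDvd q N) (hqm : ¬ q ∣ m) :
    Fermat.Agent.GK.SS.FrobSqAux.FrobSqAt hN m := by
  refine Fermat.Agent.GK.SS.FrobSqAux.frobSqAt_of_aux ?_ N q m hN hqm
  intro M _ q' m' hM hqm' h2 h3 A hA φ hφ x hx1 hx2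
  have : NeZero q' := ⟨hM.prime.ne_zero⟩
  obtain ⟨G, ⟨Fr⟩⟩ := hG M q' hM m' hqm' h2 h3 A hA φ hφ
  exact frobSq_of_tsGeom M A hM hA hqm' G hφ Fr x hx1 hx2

end Fermat.Agent.GK.SS
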