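/-
GATE-K / CONNECTEDNESS, concrete half (helper30, for helper39's STACK RULING 3 (c)).

The abstract two-fibre lattice datum `CoreDataNP` that `Claim2.claim2_core` builds internally, here
EXPORTED for the trivial unit `y = 1` (`γ = 1`, `m = 1`, `T = ∅`), in the binders of
`claim2_core` (no `y`, no `hLam`):

`exists_coreData_one` : `∃ D : CoreDataNP R1.A (ball2 R1 R2) (rad2 R1 R2) R1.res red2`, with
  (A) `D.LD b = D.L 0 b`,
  (B) `x ∈ D.L a 0 → x ∈ D.L 0 b → x` is a constant (no poles),
  (C) `P.T 0 ≤ D.Lt a b` for all `a b`.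

These are the inputs of the idempotent-lifting argument (`squeeze_L` on both charts, Newton,
`boundedTorsion`) showing that every idempotent of `P.T 0` is a constant pair, i.e. that the
special fibre is connected (`Nonempty ι` for helper33's `chartPair`).
-/
import Fermat.Agent.GK.SS.Claim2Core

set_option autoImplicit false

noncomputable section

open AlgebraicCurve IntermediateField Module

namespace Fermat.Agent.GK.SS.Claim2Data

open Fermat.Agent.S24 Fermat.Agent.RRh45 Fermat.Agent.GJ.J1 Fermat.Agent.GJ.J1.InstGen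
open Fermat.Agent.GK.MultiVal Fermat.Agent.GK.Core Fermat.Agent.GK.SS.GenSideLD
open Fermat.Agent.GJ.FF.PrincipalOf Fermat.Agent.GJ.J1.G1
open Fermat.Agent.GJ.J1.KummerRedData Fermat.Agent.GK.Core.Twist Fermat.Agent.GK.SS.Claim2

variable {K F : Type*} [Field K] [Field F] [Algebra K F]

/-! ### Generic fibre: `LD` for the trivial unit, and "no poles ⟹ constant" -/

section generic

variable [IsAlgClosed K] (x₀ : F) [IsGen K x₀]

omit [IsAlgClosed K] in
/-- two distinct constants are not both zeros of `t - ·` at the same place -/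
theorem ord_sub_const_nonpos_of_pos {t : F} {v : Place K F} {c c' : K} (hcc : c ≠ c')
    (hc : 0 < v.ord (t - algebraMap K F c)) : v.ord (t - algebraMap K F c') ≤ 0 := by
  by_contra hpos
  rw [not_le] at hpos
  have hne : algebraMap K F (c - c') ≠ 0 := (map_ne_zero _).mpr (sub_ne_zero.mpr hcc)
  have h1 : Fermat.Agent.RR.Bound.Vle v (t - algebraMap K F c') (-1) :=
    vle_of_neg_le_ord (by omega)
  have h2 : Fermat.Agent.RR.Bound.Vle v (t - algebraMap K F c) (-1) :=
    vle_of_neg_le_ord (by omega)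
  have e : algebraMap K F (c - c') = (t - algebraMap K F c') - (t - algebraMap K F c) := by
    rw [map_sub]; ring
  have h3 := neg_le_ord_of_vle hne (e ▸ h1.sub h2)
  rw [PlaceB.ord_algebraMap v (sub_ne_zero.mpr hcc)] at h3
  omega

include x₀ in
/-- for the trivial unit, `L(D_1 + b E₂) = L(0 E₁ + b E₂)` -/
theorem ldCond_one_iff {t : F} (ht : Transcendental K t) (t2 : K) (b : ℕ) (x : F) :
    LDCond t 1 (1 : F) 1 t2 b x ↔ x ∈ Lspace K t (weight (∅ : Finset K) t2 0 b) ((0 : ℕ) : ℤ) := by
  classical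
  have hFR : FiniteResidues K F := Fermat.Agent.GJ.FF.finiteResidues x₀
  by_cases hx : x = 0
  · subst hx
    exact ⟨fun _ => zero_mem _, fun _ P => Or.inl rfl⟩
  have hw : ∀ c, weight (∅ : Finset K) t2 0 b c = if c = t2 then (b : ℤ) else 0 := by
    intro c
    unfold weight
    simp
  rw [Fermat.Agent.GJ.J1.PlaceLattice.mem_Lspace_iff_ord x₀ ht _ _ hx]
  constructor
  · intro h v
    have hv := (h v).resolve_left hx
    simp only [Nat.cast_one, one_mul, sub_self, add_zero] at hv
    refine ⟨fun c hc => ?_, fun hvt => ?_⟩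
    · rw [hw c]
      by_cases hct : c = t2
      · subst hct
        rw [if_pos rfl]
        rw [max_eq_left hc.le] at hv
        linarith
      · rw [if_neg hct, zero_mul, zero_add]
        have h2 : v.ord (t - algebraMap K F t2) ≤ 0 := ord_sub_const_nonpos_of_pos hct hc
        rw [max_eq_right h2] at hv
        linarith
    · have h2 : v.ord (t - algebraMap K F t2) ≤ 0 := ord_sub_nonpos_of_ord_neg hvt t2
      rw [max_eq_right h2] at hv
      simp only [Nat.cast_zero, neg_zero, zero_mul, zero_add]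
      linarith
  · intro h P
    right
    obtain ⟨h1, h2⟩ := h P
    simp only [Nat.cast_one, one_mul, sub_self, add_zero]
    have hb : (0 : ℤ) ≤ (b : ℤ) := Int.natCast_nonneg b
    by_cases hvt : 0 ≤ P.ord t
    · haveI : Module.Finite K P.ResidueField := FiniteResidues.finite P
      obtain ⟨c, hc⟩ := Fermat.Agent.GJ.J1.PlaceLattice.exists_const_ord_pos P ht hvt
      have h3 := h1 c hc
      rw [hw c] at h3
      by_cases hct : c = t2
      · subst hct
        rw [if_pos rfl] at h3
        rw [max_eq_left hc.le]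
        linarith
      · rw [if_neg hct, zero_mul, zero_add] at h3
        have : (0 : ℤ) ≤ (b : ℤ) * max (P.ord (t - algebraMap K F t2)) 0 :=
          mul_nonneg hb (le_max_right _ _)
        linarith
    · rw [not_le] at hvt
      have h3 := h2 hvt
      simp only [Nat.cast_zero, neg_zero, zero_mul, zero_add] at h3
      have : (0 : ℤ) ≤ (b : ℤ) * max (P.ord (t - algebraMap K F t2)) 0 :=
        mul_nonneg hb (le_max_right _ _)
      linarith

include x₀ in
/-- poles only over `t = ∞` and poles only over `t = t2` ⟹ no poles -/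
theorem mem_Lspace_zero_of_mem_of_mem {t : F} (ht : Transcendental K t) (t2 : K) (a b : ℕ)
    {x : F} (h1 : x ∈ Lspace K t (weight (∅ : Finset K) t2 a 0) ((a : ℕ) : ℤ))
    (h2 : x ∈ Lspace K t (weight (∅ : Finset K) t2 0 b) ((0 : ℕ) : ℤ)) :
    x ∈ Lspace K t (weight (∅ : Finset K) t2 0 0) ((0 : ℕ) : ℤ) := by
  classical
  by_cases hx : x = 0
  · subst hx; exact zero_mem _
  rw [Fermat.Agent.GJ.J1.PlaceLattice.mem_Lspace_iff_ord x₀ ht _ _ hx] at h1 h2 ⊢
  intro v
  refine ⟨fun c hc => ?_, fun hvt => (h2 v).2 hvt⟩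
  have := (h1 v).1 c hc
  have hw : weight (∅ : Finset K) t2 a 0 c = 0 := by unfold weight; simp
  have hw' : weight (∅ : Finset K) t2 0 0 c = 0 := by unfold weight; simp
  rw [hw] at this
  rw [hw']
  exact this

end generic

/-! ### The exported core datum for `y = 1` -/

section Core

variable {k Ft1 Ft2 : Type*} [Field k] [Field Ft1] [Algebra k Ft1] [Field Ft2] [Algebra k Ft2]
variable {R1 : RedData K F k Ft1} {R2 : RedData K F k Ft2}
variable [IsAlgClosed K] (x₀ : F) [IsGen K x₀]

include x₀ in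
/-- **The core datum of Claim 2 for the trivial unit**, with the three facts needed by the
idempotent-lifting (connectedness) argument. -/
theorem exists_coreData_one [Infinite k] (hc : RedCompat R1 R2)
    {t : F} (htB : t ∈ ball2 R1 R2) (htK : Transcendental K t)
    (P : ChartPair k (Ft1 × Ft2)) (hs : P.s = red2 R1 R2 ⟨t, htB⟩)
    (hunit : ∀ c : k, IsUnit (P.s - algebraMap k (Ft1 × Ft2) c))
    (hTfin : ∀ n, FiniteDimensional k (P.T n))
    (hT : ∀ (n : ℕ) (x : ball2 R1 R2), (x : F) ∈ Lfib K t (n : ℤ) → red2 R1 R2 x ∈ P.T n)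
    (g' c0 : ℕ)
    (hg' : @genusRR K F _ _ _ (Fermat.Agent.GJ.FF.finiteResidues x₀)
        (hasPrincipalDivisors_gen x₀) (Fermat.Agent.GJ.FF.nonempty_place x₀) ≤ (g' : ℤ))
    (hdimT : ∀ n, c0 ≤ n → finrank k (P.T n) + g' ≤ n * finrank K⟮t⟯ F + 1) :
    ∃ D : CoreDataNP R1.A (ball2 R1 R2) (rad2 R1 R2) R1.res (red2 R1 R2).toAddMonoidHom,
      (∀ b, D.LD b = D.L 0 b) ∧
      (∀ (a b : ℕ) (x : F), x ∈ D.L a 0 → x ∈ D.L 0 b → ∃ c : K, x = algebraMap K F c) ∧
      (∀ a b, P.T 0 ≤ D.Lt a b) := by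
  classical
  have H : Hyp K F := hyp_of_isGen x₀
  have htc : ∀ c : K, t ≠ algebraMap K F c := fun c h => htK (h ▸ isAlgebraic_algebraMap c)
  have h10 : (1 : F) ≠ 0 := one_ne_zero
  have hm0 : (1 : ℕ) ≠ 0 := one_ne_zero
  -- `T = ∅` and `t2`
  obtain ⟨t2, ht2A, ht2T, hsep⟩ := exists_t2 R1 (∅ : Finset K)
  have ht2img : R1.res ⟨t2, ht2A⟩ ∉ resImage R1 (∅ : Finset K) := by
    intro h
    obtain ⟨c, hcT, hcA, hres⟩ := (mem_resImage R1).mp h
    exact hsep c hcT hcA hres
  -- the twisting pair
  set Q : TwistPair P :=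
    P.ofRoots (resImage R1 (∅ : Finset K)) (mult R1 (∅ : Finset K)) (1 + big R1 (∅ : Finset K))
      (R1.res ⟨t2, ht2A⟩) ht2img hunit with hQ
  have he1 : Q.e1 = (∅ : Finset K).card + 1 := by
    rw [hQ, ChartPair.ofRoots_e1]
    have := sum_mult_add_big R1 (∅ : Finset K)
    omega
  have he2 : Q.e2 = 1 := rfl
  have hp1 : Q.p1 = red2 R1 R2 (Phi1B hc htB (∅ : Finset K)) := by
    rw [hQ, ChartPair.ofRoots_p1, red2_Phi1B, hs]
  have hp2 : Q.p2 = red2 R1 R2 (Phi2B hc htB ht2A) := by
    rw [hQ, ChartPair.ofRoots_p2, red2_Phi2B, hs]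
  have hn : 0 < finrank K⟮t⟯ F := by
    have : FiniteDimensional K⟮t⟯ F := H.fd t htK
    exact Module.finrank_pos
  -- the generic side for `γ = 1`, `m = 1`
  obtain ⟨G, hGm, hGu, hGd1, hGd2, hGg, hGL, hGLD, -⟩ :=
    exists_genSide_of_dvd_LD x₀ htK hm0 h10 h10
      (fun P => by rw [sub_self]; exact dvd_zero _) (∅ : Finset K)
      (fun P hP => absurd (sub_self _) hP) t2 ht2T
  have hGu' : G.u = 1 := by rw [hGu, div_one]
  have hGg' : G.g ≤ g' := by
    have : (G.g : ℤ) ≤ (g' : ℤ) := hGg ▸ hg'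
    exact_mod_cast this
  let D : CoreDataNP R1.A (ball2 R1 R2) (rad2 R1 R2) R1.res (red2 R1 R2).toAddMonoidHom :=
    { L := G.L
      LD := G.LD
      Lt := Q.Lt
      d1 := G.d1
      d2 := G.d2
      g := G.g
      c := c0 * finrank K⟮t⟯ F
      a0 := G.a0
      m := G.m
      u := G.u
      n1 := G.n1
      L_mono := G.L_mono
      LD_mono := G.LD_mono
      Lt_mono := fun ha hb => Q.Lt_mono ha hb
      one_mem := G.one_mem
      L_mul := G.L_mul
      LD_mul := G.LD_mul
      LD_le := G.LD_le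
      book := G.book
      L_fin := G.L_fin
      Lt_fin := Q.Lt_fin hTfin
      red_L := by
        intro a b x hx
        rw [hGL a b] at hx
        have h1 := twist_L (A := R1.A) htc (∅ : Finset K) t2 ht2T a b hx
        set X : ball2 R1 R2 := x * Phi1B hc htB (∅ : Finset K) ^ a * Phi2B hc htB ht2A ^ b with hX
        have hXcoe : ((X : ball2 R1 R2) : F) =
            (x : F) * Phi1 R1.A t (∅ : Finset K) ^ a * (t - algebraMap K F t2) ^ b := by
          rw [hX]
          push_cast
          rw [coe_Phi1B, coe_Phi2B]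
        have h2 := hT (a * ((∅ : Finset K).card + 1) + b) X (by rw [hXcoe]; exact h1)
        show red2 R1 R2 x ∈ Q.Lt a b
        rw [Q.mem_Lt', he1, he2, mul_one, hp1, hp2]
        rw [hX, map_mul, map_mul, map_pow, map_pow] at h2
        exact h2
      red_LD := by
        intro b _ x hx
        have hx' := (hGLD b x).mp hx
        have h1 := twist_LD x₀ htK hm0 h10 t2 b hx'
        set X : ball2 R1 R2 := x * Phi2B hc htB ht2A ^ b with hX
        have hXcoe : ((X : ball2 R1 R2) : F) = (x : F) * (t - algebraMap K F t2) ^ b := by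
          rw [hX]
          push_cast
          rw [coe_Phi2B]
        have h1' : ((X : ball2 R1 R2) : F) ∈ Lfib K t ((b : ℕ) : ℤ) := by
          rw [hXcoe]
          simpa using h1
        have h2 := hT b X h1'
        show red2 R1 R2 x ∈ Q.Lt 0 b
        rw [Q.mem_Lt_zero_left, he2, mul_one, hp2]
        rw [hX, map_mul, map_pow] at h2
        exact h2
      one_mem_Lt := by
        show (red2 R1 R2) 1 ∈ Q.Lt 0 0
        rw [map_one]; exact Q.one_mem_Lt
      d1_pos := G.d1_pos
      d2_pos := G.d2_pos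
      dim_L := G.dim_L
      dim_LD := G.dim_LD
      dim_Lt := by
        intro a b hcab
        rw [hGd1, hGd2] at hcab ⊢
        have := Q.dim_Lt (d := finrank K⟮t⟯ F) (g := g') (c0 := c0) hn hdimT a b
          (by rw [he1, he2, one_mul]; exact hcab)
        rw [he1, he2, one_mul] at this
        omega
      Lt_inf := Q.Lt_inf
      hm := by rw [hGm]; simp
      u_mem := G.u_mem
      u_val := by rw [hGu', sub_self]; exact zero_mem _
      u_trick := G.u_trick }
  refine ⟨D, ?_, ?_, ?_⟩
  · -- (A)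
    intro b
    ext x
    show x ∈ G.LD b ↔ x ∈ G.L 0 b
    rw [hGLD b x, hGL 0 b, ldCond_one_iff x₀ htK t2 b x]
  · -- (B)
    intro a b x hxa hxb
    have hxa' : x ∈ Lspace K t (weight (∅ : Finset K) t2 a 0) ((a : ℕ) : ℤ) := by
      rw [← hGL a 0]; exact hxa
    have hxb' : x ∈ Lspace K t (weight (∅ : Finset K) t2 0 b) ((0 : ℕ) : ℤ) := by
      rw [← hGL 0 b]; exact hxb
    have h0 := mem_Lspace_zero_of_mem_of_mem x₀ htK t2 a b hxa' hxb'
    have hw : weight (∅ : Finset K) t2 0 0 = 0 := by
      funext c; unfold weight; simp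
    have hfin : FiniteDimensional K ↥(Lfib K t 0) := by
      have := G.L_fin 0 0
      rw [hGL 0 0, hw] at this
      exact this
    rw [hw] at h0
    obtain ⟨c, hc⟩ := Lfib_zero_le t
      (fun y hy => mem_range_of_isIntegral_of_isAlgClosed y hy) x h0
    exact ⟨c, hc.symm⟩
  · -- (C)
    intro a b z hz
    show z ∈ Q.Lt a b
    rw [Q.mem_Lt]
    have := P.mul_mem_T hz (Q.tw_mem a b)
    rwa [zero_add] at this

end Core

end Fermat.Agent.GK.SS.Claim2Data
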