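/-
GATE-K / hclaim2-PLUG (helper30): the composition

  helper47 `TwoRed.TwoRedInput.lamData` (GK/SS/LamOfTwoRed.lean)
    + `Claim2.claim2_core` (GK/SS/Claim2Core.lean)
  ⟹ `hclaim2` in the CONSUMER form of `ssPackageOfLam` (GK/SS/PackageOfLam.lean) and of
     `frob_sq_on_kerRed_inf_goodUnits` (GK/SS/FrobSqKer2.lean):

  `∀ z : U, (∃ n, D.n0 ≤ n ∧ (1, 1) ∈ D.Lam z n) → z = const * w ^ m`.

* `LamPlug.Lam_le_of_one_mem` : generic `LamData`: if `(1, 1) ∈ Lam y n` for one `n ≥ n0`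
  (all glueing constants of `y` are `1`), then `Lam y b ≤ Lam 1 b` for every `b ≥ n0`.
* `hclaim2_of_core` : the composition (field form), `hclaim2_units_of_core` : units form.

The generic spaces `T.L y n` enter only through the two bridge hypotheses `hL`, `hL1`
(= helper47's `LGen.mem_Lgen_iff`, `LGen.Lgen_one`), and `U` through `hU` (`U ≤ pDivUnits`).
-/
import Fermat.Agent.GK.SS.Claim2Core
import Fermat.Agent.GK.SS.LamOfTwoRed

set_option autoImplicit false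

noncomputable section

open AlgebraicCurve IntermediateField Module

namespace Fermat.Agent.GK.SS.Claim2Plug

open Fermat.Agent.S24 Fermat.Agent.RRh45 Fermat.Agent.GJ.J1 Fermat.Agent.GJ.J1.InstGen
open Fermat.Agent.GK.MultiVal Fermat.Agent.GK.Core Fermat.Agent.GK.SS.GenSideLD
open Fermat.Agent.GJ.FF.PrincipalOf Fermat.Agent.GJ.J1.G1
open Fermat.Agent.GK.Glue Fermat.Agent.GK.SS.TwoRed Fermat.Agent.GK.SS.Claim2
open Fermat.Agent.GJ.J1.KummerRedData Fermat.Agent.GK.Core.Twist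

/-! ### Generic `LamData`: trivial glueing constants -/

namespace LamPlug

variable {k : Type*} [Field k] [Infinite k] {R1 R2 : Type*} [CommRing R1] [Algebra k R1]
  [CommRing R2] [Algebra k R2] {ι : Type*} [Fintype ι] [DecidableEq ι] {Y : Type*} [CommGroup Y]
  {m : ℕ} (D : LamData k R1 R2 ι Y m)

/-- `(1, 1) ∈ Lam y n` for one `n ≥ n0` forces the glueing constants at level `n` to be `1` -/
theorem xi_eq_one_of_one_mem {y : Y} {n : ℕ} (hn : D.n0 ≤ n)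
    (h : ((1 : R1), (1 : R2)) ∈ D.Lam y n) : D.xi y n = 1 := by
  refine D.xi_unique y n hn h 1 (fun x => ?_) fun x => ?_
  · simp only [map_one, Pi.one_apply, mul_one]
  · simp only [map_one]
    exact one_ne_zero

/-- the glueing constants are `1` at every level `b ≥ n0` -/
theorem xi_eq_one_of_one_mem' {y : Y} {n : ℕ} (hn : D.n0 ≤ n)
    (h : ((1 : R1), (1 : R2)) ∈ D.Lam y n) {b : ℕ} (hb : D.n0 ≤ b) : D.xi y b = 1 := by
  have h1 := D.xi_add y b n hb hn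
  have h2 := D.xi_add y n b hn hb
  rw [Nat.add_comm n b] at h2
  rw [← h1, h2]
  exact xi_eq_one_of_one_mem D hn h

/-- **trivial glueing constants**: `Lam y b ≤ Lam 1 b` for `b ≥ n0` -/
theorem Lam_le_of_one_mem {y : Y} {n : ℕ} (hn : D.n0 ≤ n)
    (h : ((1 : R1), (1 : R2)) ∈ D.Lam y n) {b : ℕ} (hb : D.n0 ≤ b) :
    D.Lam y b ≤ D.Lam 1 b := by
  intro w hw
  obtain ⟨a1, a2, a3⟩ := (D.xi_spec y b hb w).1 hw
  refine (D.xi_spec 1 b hb w).2 ⟨a1, a2, fun x => ?_⟩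
  rw [a3 x, xi_eq_one_of_one_mem' D hn h hb, D.xi_one b hb]

end LamPlug

/-! ### The composition -/

variable {K F k Ft1 Ft2 : Type*} [Field K] [Field F] [Algebra K F] [Field k]
  [Field Ft1] [Algebra k Ft1] [Field Ft2] [Algebra k Ft2]
  {C1 C2 : Type*} [CommRing C1] [Algebra k C1] [CommRing C2] [Algebra k C2]
  {R1 : RedData K F k Ft1} {R2 : RedData K F k Ft2}
  {i1 : C1 →ₐ[k] Ft1} {i2 : C2 →ₐ[k] Ft2} {U : Subgroup Fˣ} {m : ℕ}
  {ι : Type*} [Fintype ι]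

section scale

variable (T : TwoRedInput R1 R2 i1 i2 U m ι)

/-- the two constant reductions of a unit with `(1, 1) ∈ Lam z n` agree (one node suffices) -/
theorem c1_eq_c2_of_one_mem [Infinite k] [DecidableEq ι] [Nonempty ι] (hc : RedCompat R1 R2)
    (hi1 : Function.Injective i1) (hi2 : Function.Injective i2)
    (ho : HasOrthoBases R1.A (ball2 R1 R2) (rad2 R1 R2)) {z : ↥U} {n : ℕ}
    (h : ((1 : C1), (1 : C2)) ∈ (T.lamData hc hi1 hi2 ho).Lam z n) : T.c1 z = T.c2 z := by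
  obtain ⟨x, h1, h2, hL, e1, e2⟩ := (T.mem_lamData_Lam hc hi1 hi2 ho).1 h
  obtain ⟨hz1, ez1⟩ := T.y_red1 z
  obtain ⟨hz2, ez2⟩ := T.y_red2 z
  simp only [map_one] at e1 e2
  have hy1 : x ^ m * ((z : Fˣ) : F) ∈ R1.Rw := R1.Rw.mul_mem _ _ (pow_mem h1 m) hz1
  have hy2 : x ^ m * ((z : Fˣ) : F) ∈ R2.Rw := R2.Rw.mul_mem _ _ (pow_mem h2 m) hz2
  have r1 : R1.red ⟨x ^ m * ((z : Fˣ) : F), hy1⟩ = algebraMap k Ft1 (T.c1 z) := by
    have : (⟨x ^ m * ((z : Fˣ) : F), hy1⟩ : R1.Rw) = ⟨x, h1⟩ ^ m * ⟨((z : Fˣ) : F), hz1⟩ := rfl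
    rw [this, map_mul, map_pow, ← e1, one_pow, one_mul, ez1]
  have r2 : R2.red ⟨x ^ m * ((z : Fˣ) : F), hy2⟩ = algebraMap k Ft2 (T.c2 z) := by
    have : (⟨x ^ m * ((z : Fˣ) : F), hy2⟩ : R2.Rw) = ⟨x, h2⟩ ^ m * ⟨((z : Fˣ) : F), hz2⟩ := rfl
    rw [this, map_mul, map_pow, ← e2, one_pow, one_mul, ez2]
  obtain ⟨j⟩ := ‹Nonempty ι›
  have := T.glue_one (m * n) _ hy1 hy2 (T.L_pow z n x hL) j (algebraMap k C1 (T.c1 z))
    (algebraMap k C2 (T.c2 z)) (by rw [AlgHom.commutes, r1]) (by rw [AlgHom.commutes, r2])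
  rwa [AlgHom.commutes, AlgHom.commutes] at this

end scale

section main

variable [IsAlgClosed K] (x₀ : F) [IsGen K x₀]

include x₀ in
/-- **`hclaim2` from `claim2_core`** (field form).  For helper47's reduced-lattice package
`T.lamData` of two reduction data: if the constant pair `(1, 1)` lies in `Lam z n` for some
`n ≥ n0`, then `z` is a constant times an `m`-th power.

`hL`, `hL1` are the two halves of helper47's `LGen.mem_Lgen_iff` / `LGen.Lgen_one` that are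
used; `hU` is `U ≤ pDivUnits K F m`. -/
theorem hclaim2_of_core [Infinite k] [DecidableEq ι] [Nonempty ι] (hc : RedCompat R1 R2)
    (ho : HasOrthoBases R1.A (ball2 R1 R2) (rad2 R1 R2)) (hrk : RankOne R1.A)
    {t : F} (htB : t ∈ ball2 R1 R2) (htK : Transcendental K t)
    (P : ChartPair k (Ft1 × Ft2)) (hs : P.s = red2 R1 R2 ⟨t, htB⟩)
    (hunit : ∀ c : k, IsUnit (P.s - algebraMap k (Ft1 × Ft2) c))
    (hTfin : ∀ n, FiniteDimensional k (P.T n))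
    (hT : ∀ (n : ℕ) (x : ball2 R1 R2), (x : F) ∈ Lfib K t (n : ℤ) → red2 R1 R2 x ∈ P.T n)
    (g' c0 : ℕ)
    (hg' : @genusRR K F _ _ _ (Fermat.Agent.GJ.FF.finiteResidues x₀)
        (hasPrincipalDivisors_gen x₀) (Fermat.Agent.GJ.FF.nonempty_place x₀) ≤ (g' : ℤ))
    (hdimT : ∀ n, c0 ≤ n → finrank k (P.T n) + g' ≤ n * finrank K⟮t⟯ F + 1)
    (hm : (m : k) ≠ 0)
    (hi1 : Function.Injective i1) (hi2 : Function.Injective i2)
    (T : TwoRedInput R1 R2 i1 i2 U m ι)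
    (hL : ∀ (y : ↥U) (n : ℕ) (x : F),
      x ^ m * ((y : Fˣ) : F) ∈ Lfib K t ((m * n : ℕ) : ℤ) → x ∈ T.L y n)
    (hL1 : ∀ (n : ℕ) (x : F), x ∈ T.L 1 n → x ∈ Lfib K t (n : ℤ))
    (hU : ∀ (y : ↥U) (v : Place K F), (m : ℤ) ∣ v.ord ((y : Fˣ) : F))
    (z : ↥U)
    (hz : ∃ n, (T.lamData hc hi1 hi2 ho).n0 ≤ n ∧
      ((1 : C1), (1 : C2)) ∈ (T.lamData hc hi1 hi2 ho).Lam z n) :
    ∃ c : K, c ≠ 0 ∧ ∃ w : F, w ≠ 0 ∧ ((z : Fˣ) : F) = algebraMap K F c * w ^ m := by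
  classical
  obtain ⟨n, hn, h11⟩ := hz
  have hcc : T.c1 z = T.c2 z := c1_eq_c2_of_one_mem T hc hi1 hi2 ho h11
  obtain ⟨hz1, ez1⟩ := T.y_red1 z
  obtain ⟨hz2, ez2⟩ := T.y_red2 z
  obtain ⟨a, ha⟩ := R1.res_surjective (T.c1 z)⁻¹
  have hc1 := T.c1_ne z
  have ha0 : (a : K) ≠ 0 := by
    intro h0
    have : a = 0 := Subtype.ext h0
    rw [this, map_zero] at ha
    exact inv_ne_zero hc1 ha.symm
  have haF : algebraMap K F (a : K) ≠ 0 := (map_ne_zero _).mpr ha0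
  have hz0 : ((z : Fˣ) : F) ≠ 0 := (z : Fˣ).ne_zero
  have haB : algebraMap K F (a : K) ∈ ball2 R1 R2 := algebraMap_mem_ball2 hc a.2
  have hzB : ((z : Fˣ) : F) ∈ ball2 R1 R2 := mem_ball2.mpr ⟨hz1, hz2⟩
  -- the scaled unit reduces to `(1, 1)`
  have hred : red2 R1 R2 (⟨algebraMap K F (a : K), haB⟩ * ⟨((z : Fˣ) : F), hzB⟩) = 1 := by
    rw [map_mul, red2_algebraMap hc a.2, red2_mk hz1 hz2, ez1, ez2, ← hcc, Subtype.coe_eta, ha,
      Prod.algebraMap_apply, Prod.mk_mul_mk, ← map_mul, ← map_mul, inv_mul_cancel₀ hc1, map_one,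
      map_one]
    rfl
  have hy1 : algebraMap K F (a : K) * ((z : Fˣ) : F) - 1 ∈ rad2 R1 R2 := by
    have h0 : red2 R1 R2 (⟨algebraMap K F (a : K), haB⟩ * ⟨((z : Fˣ) : F), hzB⟩ - 1) = 0 := by
      rw [map_sub, hred, map_one, sub_self]
    exact ((isRedSystem2 hc).red_ker _).1 h0
  have hdvd : ∀ v : Place K F, (m : ℤ) ∣ v.ord (algebraMap K F (a : K) * ((z : Fˣ) : F)) := by
    intro v
    rw [Place.ord_mul _ haF hz0, PlaceB.ord_algebraMap v ha0, zero_add]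
    exact hU z v
  -- the reduced lattices of the scaled unit land in `P.T b`
  have hLam : ∀ b : ℕ, max c0 (T.lamData hc hi1 hi2 ho).n0 ≤ b → ∀ x : ball2 R1 R2,
      (x : F) ^ m * (algebraMap K F (a : K) * ((z : Fˣ) : F)) ∈ Lfib K t ((m * b : ℕ) : ℤ) →
        red2 R1 R2 x ∈ P.T b := by
    intro b hb x hx
    have hb0 : (T.lamData hc hi1 hi2 ho).n0 ≤ b := le_trans (le_max_right _ _) hb
    have hxb := mem_ball2.mp x.2
    have hxz : (x : F) ^ m * ((z : Fˣ) : F) ∈ Lfib K t ((m * b : ℕ) : ℤ) := by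
      have e : (x : F) ^ m * ((z : Fˣ) : F) =
          (a : K)⁻¹ • ((x : F) ^ m * (algebraMap K F (a : K) * ((z : Fˣ) : F))) := by
        rw [Algebra.smul_def, map_inv₀]
        field_simp
      rw [e]
      exact (Lfib K t _).smul_mem _ hx
    have hxL : (x : F) ∈ T.L z b := hL z b x hxz
    obtain ⟨e1, e2⟩ := T.apply_core_ρ hc hi1 hi2 hxL hxb.1 hxb.2
    have hw : ((T.core hc hi1 hi2).ρ1 (x : F), (T.core hc hi1 hi2).ρ2 (x : F)) ∈
        (T.lamData hc hi1 hi2 ho).Lam z b :=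
      T.mk_mem_lamData_Lam hc hi1 hi2 ho hxb.1 hxb.2 hxL e1 e2
    have hw1 := LamPlug.Lam_le_of_one_mem (T.lamData hc hi1 hi2 ho) hn h11 hb0 hw
    obtain ⟨x', h1', h2', hL', e1', e2'⟩ := (T.mem_lamData_Lam hc hi1 hi2 ho).1 hw1
    have hx'fib : x' ∈ Lfib K t (b : ℤ) := hL1 b x' hL'
    have hx'T := hT b ⟨x', mem_ball2.mpr ⟨h1', h2'⟩⟩ hx'fib
    have heq : red2 R1 R2 ⟨x', mem_ball2.mpr ⟨h1', h2'⟩⟩ = red2 R1 R2 x := by
      rw [red2_mk h1' h2', red2_apply x, ← e1', ← e2', e1, e2]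
    rwa [heq] at hx'T
  obtain ⟨v, hv0, hv⟩ := claim2_core x₀ hc ho hrk htB htK P hs hunit hTfin hT g'
    (max c0 (T.lamData hc hi1 hi2 ho).n0) hg'
    (fun n hn' => hdimT n (le_trans (le_max_left _ _) hn')) hm hy1 hdvd hLam
  refine ⟨(a : K)⁻¹, inv_ne_zero ha0, v, hv0, ?_⟩
  rw [← hv, map_inv₀]
  field_simp

include x₀ in
/-- **`hclaim2` from `claim2_core`** (units form = the consumer shape of `ssPackageOfLam` and
`frob_sq_on_kerRed_inf_goodUnits`, with `cstUnits = (Units.map (algebraMap K F)).range`). -/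
theorem hclaim2_units_of_core [Infinite k] [DecidableEq ι] [Nonempty ι] (hc : RedCompat R1 R2)
    (ho : HasOrthoBases R1.A (ball2 R1 R2) (rad2 R1 R2)) (hrk : RankOne R1.A)
    {t : F} (htB : t ∈ ball2 R1 R2) (htK : Transcendental K t)
    (P : ChartPair k (Ft1 × Ft2)) (hs : P.s = red2 R1 R2 ⟨t, htB⟩)
    (hunit : ∀ c : k, IsUnit (P.s - algebraMap k (Ft1 × Ft2) c))
    (hTfin : ∀ n, FiniteDimensional k (P.T n))
    (hT : ∀ (n : ℕ) (x : ball2 R1 R2), (x : F) ∈ Lfib K t (n : ℤ) → red2 R1 R2 x ∈ P.T n)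
    (g' c0 : ℕ)
    (hg' : @genusRR K F _ _ _ (Fermat.Agent.GJ.FF.finiteResidues x₀)
        (hasPrincipalDivisors_gen x₀) (Fermat.Agent.GJ.FF.nonempty_place x₀) ≤ (g' : ℤ))
    (hdimT : ∀ n, c0 ≤ n → finrank k (P.T n) + g' ≤ n * finrank K⟮t⟯ F + 1)
    (hm : (m : k) ≠ 0)
    (hi1 : Function.Injective i1) (hi2 : Function.Injective i2)
    (T : TwoRedInput R1 R2 i1 i2 U m ι)
    (hL : ∀ (y : ↥U) (n : ℕ) (x : F),
      x ^ m * ((y : Fˣ) : F) ∈ Lfib K t ((m * n : ℕ) : ℤ) → x ∈ T.L y n)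
    (hL1 : ∀ (n : ℕ) (x : F), x ∈ T.L 1 n → x ∈ Lfib K t (n : ℤ))
    (hU : ∀ (y : ↥U) (v : Place K F), (m : ℤ) ∣ v.ord ((y : Fˣ) : F)) :
    ∀ z : ↥U, (∃ n, (T.lamData hc hi1 hi2 ho).n0 ≤ n ∧
        ((1 : C1), (1 : C2)) ∈ (T.lamData hc hi1 hi2 ho).Lam z n) →
      ∃ c ∈ (Units.map ((algebraMap K F : K →+* F) : K →* F)).range, ∃ w : Fˣ,
        (z : Fˣ) = c * w ^ m := by
  intro z hz
  obtain ⟨c, hc0, w, hw0, h⟩ := hclaim2_of_core x₀ hc ho hrk htB htK P hs hunit hTfin hT g' c0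
    hg' hdimT hm hi1 hi2 T hL hL1 hU z hz
  refine ⟨Units.map ((algebraMap K F : K →+* F) : K →* F) (Units.mk0 c hc0), ⟨_, rfl⟩,
    Units.mk0 w hw0, Units.ext ?_⟩
  rw [h]
  simp

end main

end Fermat.Agent.GK.SS.Claim2Plug
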