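/-
GATE-K / CONNECTEDNESS, the plug (helper30; hedge twin of helper39's planned `ConnCore`).

In the binders of `Claim2.claim2_core` (the `P`-block `hs hunit hTfin hT g' c0 hg' hdimT`):

* `idem_const_core` : every idempotent of `P.T 0` is a constant pair `(κ, κ)`;
* `one_zero_notMem_T_zero` : `(1, 0) ∉ P.T 0` (the special fibre is connected);
* `nonempty_nodes` : for helper33's nodal `chartPair`, the node set `ι` is NONEMPTY
  (= the `[Nonempty ι]` hypothesis of `ssPackage_twoRed` / `TSGeom` / `hclaim2_of_core`).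
-/
import Fermat.Agent.GK.SS.Claim2Data
import Fermat.Agent.GK.Core.IdemLiftNP
import Fermat.Agent.GK.Core.TwistNodal

set_option autoImplicit false

noncomputable section

open AlgebraicCurve IntermediateField Module

namespace Fermat.Agent.GK.SS.ConnPlug

open Fermat.Agent.S24 Fermat.Agent.RRh45 Fermat.Agent.GJ.J1 Fermat.Agent.GJ.J1.InstGen
open Fermat.Agent.GK.MultiVal Fermat.Agent.GK.Core
open Fermat.Agent.GJ.FF.PrincipalOf
open Fermat.Agent.GK.Core.Twist Fermat.Agent.GK.SS.Claim2 Fermat.Agent.GK.SS.Claim2Data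
open Fermat.Agent.GK.Core.IdemLift

variable {K F : Type*} [Field K] [Field F] [Algebra K F]
variable {k Ft1 Ft2 : Type*} [Field k] [Field Ft1] [Algebra k Ft1] [Field Ft2] [Algebra k Ft2]
variable {R1 : RedData K F k Ft1} {R2 : RedData K F k Ft2}
variable [IsAlgClosed K] (x₀ : F) [IsGen K x₀]

include x₀ in
/-- **Idempotents of `P.T 0` are constant pairs.** -/
theorem idem_const_core [Infinite k] (hc : RedCompat R1 R2)
    (ho : HasOrthoBases R1.A (ball2 R1 R2) (rad2 R1 R2)) (hrk : RankOne R1.A)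
    {t : F} (htB : t ∈ ball2 R1 R2) (htK : Transcendental K t)
    (P : ChartPair k (Ft1 × Ft2)) (hs : P.s = red2 R1 R2 ⟨t, htB⟩)
    (hunit : ∀ c : k, IsUnit (P.s - algebraMap k (Ft1 × Ft2) c))
    (hTfin : ∀ n, FiniteDimensional k (P.T n))
    (hT : ∀ (n : ℕ) (x : ball2 R1 R2), (x : F) ∈ Lfib K t (n : ℤ) → red2 R1 R2 x ∈ P.T n)
    (g' c0 : ℕ)
    (hg' : @genusRR K F _ _ _ (Fermat.Agent.GJ.FF.finiteResidues x₀)
        (hasPrincipalDivisors_gen x₀) (Fermat.Agent.GJ.FF.nonempty_place x₀) ≤ (g' : ℤ))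
    (hdimT : ∀ n, c0 ≤ n → finrank k (P.T n) + g' ≤ n * finrank K⟮t⟯ F + 1)
    {ξ : Ft1 × Ft2} (hξ : IsIdempotentElem ξ) (hξT : ξ ∈ P.T 0) :
    ∃ κ : k, ξ = algebraMap k (Ft1 × Ft2) κ := by
  obtain ⟨D, hA, hB, hC⟩ :=
    exists_coreData_one x₀ hc htB htK P hs hunit hTfin hT g' c0 hg' hdimT
  obtain ⟨κ, ⟨c, hκc⟩, hκred⟩ := idem_eq_red_const (isNormPair2 hc) ho (red2 R1 R2)
    (isRedSystem2 hc) hrk D hA hB hξ (hC _ _ hξT) (hC _ _ hξT)
  have hcB : algebraMap K F c ∈ ball2 R1 R2 := hκc ▸ κ.2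
  have hcA : c ∈ R1.A := ((isNormPair2 hc).algebraMap_mem_iff c).1 hcB
  refine ⟨R1.res ⟨c, hcA⟩, ?_⟩
  rw [← hκred, ← red2_algebraMap hc hcA]
  congr 1
  exact Subtype.ext hκc

include x₀ in
/-- **The special fibre is connected**: `(1, 0)` is not a section of `P.T 0`. -/
theorem one_zero_notMem_T_zero [Infinite k] (hc : RedCompat R1 R2)
    (ho : HasOrthoBases R1.A (ball2 R1 R2) (rad2 R1 R2)) (hrk : RankOne R1.A)
    {t : F} (htB : t ∈ ball2 R1 R2) (htK : Transcendental K t)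
    (P : ChartPair k (Ft1 × Ft2)) (hs : P.s = red2 R1 R2 ⟨t, htB⟩)
    (hunit : ∀ c : k, IsUnit (P.s - algebraMap k (Ft1 × Ft2) c))
    (hTfin : ∀ n, FiniteDimensional k (P.T n))
    (hT : ∀ (n : ℕ) (x : ball2 R1 R2), (x : F) ∈ Lfib K t (n : ℤ) → red2 R1 R2 x ∈ P.T n)
    (g' c0 : ℕ)
    (hg' : @genusRR K F _ _ _ (Fermat.Agent.GJ.FF.finiteResidues x₀)
        (hasPrincipalDivisors_gen x₀) (Fermat.Agent.GJ.FF.nonempty_place x₀) ≤ (g' : ℤ))
    (hdimT : ∀ n, c0 ≤ n → finrank k (P.T n) + g' ≤ n * finrank K⟮t⟯ F + 1) :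
    (((1 : Ft1), (0 : Ft2)) : Ft1 × Ft2) ∉ P.T 0 := by
  intro h10
  have hid : IsIdempotentElem (((1 : Ft1), (0 : Ft2)) : Ft1 × Ft2) := by
    show ((1 : Ft1), (0 : Ft2)) * ((1 : Ft1), (0 : Ft2)) = ((1 : Ft1), (0 : Ft2))
    rw [Prod.mk_mul_mk, one_mul, mul_zero]
  obtain ⟨κ, hκ⟩ := idem_const_core x₀ hc ho hrk htB htK P hs hunit hTfin hT g' c0 hg' hdimT
    hid h10
  rw [Prod.algebraMap_apply, Prod.mk.injEq] at hκ
  obtain ⟨h1, h2⟩ := hκ
  have hκ0 : κ = 0 := by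
    have : algebraMap k Ft2 κ = algebraMap k Ft2 0 := by rw [← h2, map_zero]
    exact (algebraMap k Ft2).injective this
  rw [hκ0, map_zero] at h1
  exact one_ne_zero h1

section nodal

open Fermat.Agent.GK.NodalGraded Fermat.Agent.GK.Core.TwistNodal

variable {ι : Type*} {Pn : ι → Place k Ft1} {Qn : ι → Place k Ft2}
  {D₁ : Divisor k Ft1} {D₂ : Divisor k Ft2} {t₁ : Ft1} {t₂ : Ft2}

include x₀ in
/-- **The node set is nonempty** for helper33's nodal `chartPair`, under the `P`-block of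
`claim2_core` / `ssPackage_twoRed`. -/
theorem nonempty_nodes [Infinite k] (hc : RedCompat R1 R2)
    (ho : HasOrthoBases R1.A (ball2 R1 R2) (rad2 R1 R2)) (hrk : RankOne R1.A)
    {t : F} (htB : t ∈ ball2 R1 R2) (htK : Transcendental K t)
    (ht₁ : ExactPoles t₁ D₁) (ht₂ : ExactPoles t₂ D₂)
    (hsT : ((t₁, t₂) : Ft1 × Ft2) ∈ T Pn Qn D₁ D₂ 1)
    (hs : (chartPair ht₁ ht₂ hsT).s = red2 R1 R2 ⟨t, htB⟩)
    (hunit : ∀ c : k, IsUnit ((chartPair ht₁ ht₂ hsT).s - algebraMap k (Ft1 × Ft2) c))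
    (hTfin : ∀ n, FiniteDimensional k ((chartPair ht₁ ht₂ hsT).T n))
    (hT : ∀ (n : ℕ) (x : ball2 R1 R2), (x : F) ∈ Lfib K t (n : ℤ) →
      red2 R1 R2 x ∈ (chartPair ht₁ ht₂ hsT).T n)
    (g' c0 : ℕ)
    (hg' : @genusRR K F _ _ _ (Fermat.Agent.GJ.FF.finiteResidues x₀)
        (hasPrincipalDivisors_gen x₀) (Fermat.Agent.GJ.FF.nonempty_place x₀) ≤ (g' : ℤ))
    (hdimT : ∀ n, c0 ≤ n →
      finrank k ((chartPair ht₁ ht₂ hsT).T n) + g' ≤ n * finrank K⟮t⟯ F + 1) :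
    Nonempty ι := by
  by_contra hne
  rw [not_nonempty_iff] at hne
  refine one_zero_notMem_T_zero x₀ hc ho hrk htB htK (chartPair ht₁ ht₂ hsT) hs hunit hTfin hT
    g' c0 hg' hdimT ?_
  rw [chartPair_T, mem_T]
  refine ⟨?_, Submodule.zero_mem _, fun j => isEmptyElim j⟩
  rw [zero_smul]
  exact one_mem_riemannRochSpace_zero

end nodal

end Fermat.Agent.GK.SS.ConnPlug
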