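/-
GATE-K / N10-MODULAR (helper49, hedge of the C-RING and N6-range leaves): conjuncts (1), (2), (3) of
helper56's `SS.Modular.FibreFacts` (`GK/SS/Modular.lean`):

* `isDedekindDomain_CRing` : the coordinate ring `C = CRing N' A` (integral closure of `k[j~]` in the
  residue field of level `N'`) is a Dedekind domain — `IsIntegralClosure.isDedekindDomain` over the
  PID `k[j~]`, the residue field being finite separable over `k(j~)` (`ord j~ = -1`);
* `not_isField_CRing` : `C` is not a field (`k[j~] ⊂ C` is integral and `k[j~] ≃ k[X]`);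
* `regFin_red_of_regFin` : K-RED for the two valuations at `F_N`, `q ∥ N`: both reductions of
  `x ∈ Rw₁ ∩ Rw₂` regular off the cusps are regular off `τ = ∞` (helper96 `redRegFinOn_ball2` at the
  symmetric chart `tS = j j_q`);
* `rho_mem_range_cVal` : conjunct (3), `rho1 x, rho2 x ∈ range cVal` for `x ∈ BRing`.
-/
import Fermat.Agent.GK.SS.Modular
import Fermat.Agent.GK.Red.TwoRed
import Fermat.Agent.GJ.J1.ChartAKLB
import Fermat.Agent.GJ.J1.RiemannFibres

set_option autoImplicit false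
set_option linter.unusedSectionVars false
set_option linter.style.haveILetI false

noncomputable section

namespace Fermat.Agent.GK.SS.FF123

open AlgebraicCurve IntermediateField Module IsLocalRing ModularCurve HahnSeries Polynomial
open scoped IntermediateField.algebraAdjoinAdjoin
open Fermat.Agent.S24 Fermat.Agent.S24_helper62
open Fermat.Agent.GJ.J1 Fermat.Agent.GJ.J1.Val Fermat.Agent.GJ.J1.Haupt
open Fermat.Agent.GK.AL Fermat.Agent.GK.MultiVal
open Fermat.Agent.GK.CuspSep Fermat.Agent.GK.SymChart Fermat.Agent.GK.SymDegree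
open Fermat.Agent.GK.BallTwo Fermat.Agent.GK.PsiFN Fermat.Agent.GK.PsiFNGood Fermat.Agent.GK.QS
open Fermat.Agent.GK.SS.Modular

/-! ### (1), (2): the coordinate ring of the good level -/

section CRing

variable (N' : ℕ) [NeZero N'] (A : ValuationSubring Kbar)

local notation "𝕜" => ResidueField A

/-- `k[j~] → C` -/
def adjoinToC : Algebra.adjoin 𝕜 {QS.jt N' A} →+* CRing N' A where
  toFun z := ⟨(z : FresBar N' A), isIntegral_algebraMap (R := Algebra.adjoin 𝕜 {QS.jt N' A}) (x := z)⟩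
  map_one' := Subtype.ext rfl
  map_mul' _ _ := Subtype.ext rfl
  map_zero' := Subtype.ext rfl
  map_add' _ _ := Subtype.ext rfl

theorem coe_adjoinToC (z : Algebra.adjoin 𝕜 {QS.jt N' A}) :
    ((adjoinToC N' A z : CRing N' A) : FresBar N' A) = (z : FresBar N' A) := rfl

theorem transcendental_jt : Transcendental 𝕜 (QS.jt N' A) := (isGaussChart_jF N' A).2

/-- **(1)** `C = CRing N' A` is a Dedekind domain. -/
theorem isDedekindDomain_CRing {ℓ : ℕ} [Fact ℓ.Prime] (hA : A.LiesOverPrime ℓ) :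
    IsDedekindDomain (CRing N' A) := by
  have hℓ : ℓ.Prime := Fact.out
  haveI : CharP 𝕜 ℓ := charP_residue A hℓ hA
  haveI : IsAlgClosed 𝕜 := Fermat.Agent.GJ.ResidueAlgClosed.isAlgClosed_residueField A
  haveI : PerfectRing 𝕜 ℓ := PerfectField.toPerfectRing ℓ
  haveI : FiniteDimensional Kbar⟮jF N'⟯ (FN N') := Val.finiteDimensional_jF N'
  obtain ⟨hfd, -⟩ := Fermat.Agent.GJ.S37.ResDeg.RedData.finrank_red_le (redDataBar N' A)
    (isGaussChart_jF N' A).1 (isGaussChart_jF N' A).2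
  haveI : FiniteDimensional 𝕜⟮QS.jt N' A⟯ (FresBar N' A) := hfd
  haveI : Algebra.IsSeparable 𝕜⟮QS.jt N' A⟯ (FresBar N' A) :=
    Fermat.Agent.GJ.J1.G1.isSeparable_adjoin_of_embedding ℓ (FresBar N' A).val (QS.jt N' A)
      (hord_jF N' A hℓ (isGaussChart_jF N' A).1)
  letI : Algebra (Algebra.adjoin 𝕜 {QS.jt N' A}) (CRing N' A) := (adjoinToC N' A).toAlgebra
  haveI : IsScalarTower (Algebra.adjoin 𝕜 {QS.jt N' A}) (CRing N' A) (FresBar N' A) :=
    IsScalarTower.of_algebraMap_eq fun _ => rfl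
  haveI : IsIntegralClosure (CRing N' A) (Algebra.adjoin 𝕜 {QS.jt N' A}) (FresBar N' A) :=
    { algebraMap_injective := Subtype.val_injective
      isIntegral_iff := fun {x} => ⟨fun hx => ⟨⟨x, hx⟩, rfl⟩, fun ⟨y, hy⟩ => hy ▸ y.2⟩ }
  exact IsIntegralClosure.isDedekindDomain (Algebra.adjoin 𝕜 {QS.jt N' A}) 𝕜⟮QS.jt N' A⟯
    (FresBar N' A) (CRing N' A)

/-- **(2)** `C` is not a field. -/
theorem not_isField_CRing : ¬ IsField (CRing N' A) := by
  intro hF
  letI : Algebra (Algebra.adjoin 𝕜 {QS.jt N' A}) (CRing N' A) := (adjoinToC N' A).toAlgebra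
  have hinj : Function.Injective (algebraMap (Algebra.adjoin 𝕜 {QS.jt N' A}) (CRing N' A)) :=
    fun a b hab => Subtype.ext (congrArg (fun c : CRing N' A => (c : FresBar N' A)) hab)
  haveI : Algebra.IsIntegral (Algebra.adjoin 𝕜 {QS.jt N' A}) (CRing N' A) := by
    refine ⟨fun c => ?_⟩
    have hc : IsIntegral (Algebra.adjoin 𝕜 {QS.jt N' A}) (c : FresBar N' A) := c.2
    obtain ⟨p, hp, hpc⟩ := hc
    refine ⟨p, hp, Subtype.ext ?_⟩
    have h1 : ((Polynomial.eval₂ (algebraMap (Algebra.adjoin 𝕜 {QS.jt N' A}) (CRing N' A)) c p :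
        CRing N' A) : FresBar N' A) =
        Polynomial.eval₂ (algebraMap (Algebra.adjoin 𝕜 {QS.jt N' A}) (FresBar N' A))
          (c : FresBar N' A) p := by
      rw [Polynomial.eval₂_eq_sum_range, Polynomial.eval₂_eq_sum_range]
      simp only [AddSubmonoidClass.coe_finsetSum, MulMemClass.coe_mul, SubmonoidClass.coe_pow]
      rfl
    rw [h1, hpc]
    rfl
  have hA0 : IsField (Algebra.adjoin 𝕜 {QS.jt N' A}) := isField_of_isIntegral_of_isField hinj hF
  have hbij : Function.Bijective (aevalAdjoinHom (K := 𝕜) (QS.jt N' A)) :=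
    ⟨aevalAdjoinHom_injective (transcendental_jt N' A), aevalAdjoin_surjective (QS.jt N' A)⟩
  exact Polynomial.not_isField 𝕜
    ((RingEquiv.ofBijective _ hbij).toMulEquiv.isField hA0)

end CRing

/-! ### K-RED for the two valuations at `F_N`, `q ∥ N` -/

section KRed

variable {q : ℕ} (N : ℕ) [NeZero N] [NeZero q] (A : ValuationSubring Kbar) (h : ExactDvd q N)
  (hA : A.LiesOverPrime q)

local notation "𝕜" => ResidueField A

include hA

/-- **K-RED**: both reductions of an element of `Rw₁ ∩ Rw₂` integral over `ℚ̄[j]` are integral over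
`k[τ]`. -/
theorem regFin_red_of_regFin (x : FN N) (h1 : x ∈ (redDataBar N A).Rw)
    (h2 : x ∈ (redData2 N A h).Rw) (hx : RegFin Kbar (jF N) x) :
    RegFin 𝕜 (tauF N A) ((redDataBar N A).red ⟨x, h1⟩) ∧
      RegFin 𝕜 (tauF N A) ((redData2 N A h).red ⟨x, h2⟩) := by
  have ht1 := isGaussChart1_tS N A h hA
  have ht2 := isGaussChart2_tS N A h hA
  haveI : FiniteDimensional Kbar⟮tS N h.dvd⟯ (FN N) := (isGen_tS N h.dvd).finite
  obtain ⟨H1, H2⟩ := Fermat.Agent.GK.Red.redRegFinOn_ball2 (redCompatFN N A h)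
    (Rw1_ne_Rw2 N A h hA) ht1 ht2 (hdeg_tS_le N A h hA)
  have hxS : RegFin Kbar (tS N h.dvd) x := (regFin_tS_iff N h.dvd h.prime x).2 hx
  have hb : x ∈ ball2 (redDataBar N A) (redData2 N A h) := mem_ball2.mpr ⟨h1, h2⟩
  have r1 := H1 ht1.1 x h1 hb hxS
  have r2 := H2 ht2.1 x h2 hb hxS
  rw [red1_tS N A h hA] at r1
  rw [red2_tS N A h hA] at r2
  exact ⟨(Fermat.Agent.GK.Red.regFin_pow_iff (Nat.succ_pos q)).1 r1,
    (Fermat.Agent.GK.Red.regFin_pow_iff (Nat.succ_pos q)).1 r2⟩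

end KRed

/-! ### (3): the reductions of `B` lie in `C × C` -/

section Range

variable (N' : ℕ) [NeZero N'] (ℓ : ℕ) [Fact ℓ.Prime] [NeZero ℓ]
variable (A : ValuationSubring Kbar) (h : ExactDvd ℓ (N' * ℓ)) (hA : A.LiesOverPrime ℓ)

include hA

/-- **(3)** `rho1 x, rho2 x ∈ range cVal` for `x ∈ B`. -/
theorem rho_mem_range_cVal (x : BRing N' ℓ A h) :
    rho1 N' ℓ A h x ∈ Set.range (cVal N' A) ∧ rho2 N' ℓ A h x ∈ Set.range (cVal N' A) := by
  haveI : NeZero (N' * ℓ) := ⟨mul_ne_zero (NeZero.ne N') (NeZero.ne ℓ)⟩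
  obtain ⟨r1, r2⟩ := regFin_red_of_regFin (N' * ℓ) A h hA x.1 x.2.2.1 x.2.2.2 x.2.1
  obtain ⟨c1, hc1⟩ := mem_range_iC N' ℓ A h hA r1
  obtain ⟨c2, hc2⟩ := mem_range_iC N' ℓ A h hA r2
  refine ⟨⟨c1, ?_⟩, ⟨c2, ?_⟩⟩
  · rw [← coe_iC N' ℓ A h hA c1, hc1, rho1_apply]
  · rw [← coe_iC N' ℓ A h hA c2, hc2, rho2_apply]

end Range

end Fermat.Agent.GK.SS.FF123
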