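/-
GATE-K / (G1), assembled on helper47's reduction core (helper40).

`frob_sq_on_kerRed_inf_of_core` : for `F_N = ℚ̄(X₀(N))`, a reduction core `C` over a group `U` of
admissible units containing every `u` with `IsCPrin u ∧ IsCPrin (W u)`, the data of
`RedCore.toLamData`, a symmetry `Sy` of the core whose automorphism is the coefficientwise action of
a Frobenius lift `φ` (`fk = (·)^q`, `perm² = 1`), and Claim 2 in the consumer form of
`ssPackageOfLam`:   `gal φ (gal φ x) = q² • x`   for every `x ∈ kerRed N A m ⊓ kerRedW N A W m`.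
This is (G1) of helper82 2231 / (H1) of helper27 2300 with every hypothesis in the builder's own
language.
-/
import Fermat.Agent.GK.SS.FrobSqKer
import Fermat.Agent.GK.SS.LamOfRedFrob

set_option autoImplicit false

namespace Fermat.Agent.GK.SS

open Module ModularCurve
open Fermat.Agent.GJ.J1 Fermat.Agent.GJ.J1.Val Fermat.Agent.GJ.Kum Fermat.Agent.GJ.KumGroup
open Fermat.Agent.GJ.Kum.KumType Fermat.Agent.GK.Tate Fermat.Agent.GK.Glue
open Fermat.Agent.GK.UqKronecker Fermat.Agent.GK.MultiVal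

/-- `ℚ̄`. -/
local notation "Qb" => AlgebraicClosure ℚ

variable {N : ℕ} [NeZero N] {A : ValuationSubring Qb} {m : ℕ}
variable {k : Type*} [Field k] [Infinite k] {R1 R2 : Type*} [CommRing R1] [Algebra k R1]
  [CommRing R2] [Algebra k R2] {ι : Type*} [Fintype ι] [DecidableEq ι]

/-- **(G1) on a reduction core.** -/
theorem frob_sq_on_kerRed_inf_of_core (hm : m ≠ 0) (W : FK N ≃+* FK N)
    (hWc : ∀ c : Qb, W (algebraMap Qb (FK N) c) = algebraMap Qb (FK N) c)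
    (hinc : Incomparable ![RwBar N A, (RwBar N A).comap (W : FK N →+* FK N)])
    (U : Subgroup (FK N)ˣ)
    (hU : ∀ u : (FK N)ˣ, IsCPrin (hasGaussFrac_bar N A) (u : FK N) →
      IsCPrin (hasGaussFrac_bar N A) (W (u : FK N)) → u ∈ U)
    (C : RedCore Qb (FK N) k R1 R2 U m)
    (e1 : ι → R1 →ₐ[k] k) (e2 : ι → R2 →ₐ[k] k)
    (Lt1 : ℕ → Submodule k R1) (Lt2 : ℕ → Submodule k R2)
    (fin1 : ∀ n, FiniteDimensional k (Lt1 n)) (fin2 : ∀ n, FiniteDimensional k (Lt2 n))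
    (one_mem1 : ∀ n, (1 : R1) ∈ Lt1 n) (one_mem2 : ∀ n, (1 : R2) ∈ Lt2 n) (n0 : ℕ)
    (surj : ∀ n, n0 ≤ n → ∀ a b : ι → k,
      ∃ z1 ∈ Lt1 n, ∃ z2 ∈ Lt2 n, (∀ x, e1 x z1 = a x) ∧ ∀ x, e2 x z2 = b x)
    (le : ∀ y n, ∀ x ∈ C.LA y n, C.ρ1 x ∈ Lt1 n ∧ C.ρ2 x ∈ Lt2 n)
    (dim : ∀ y n, n0 ≤ n →
      finrank k (C.Lam y n) + Fintype.card ι = finrank k (Lt1 n) + finrank k (Lt2 n))
    (glue_one : ∀ n, ∀ x ∈ C.LA 1 n, ∀ j, e1 j (C.ρ1 x) = e2 j (C.ρ2 x))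
    (φ : Qb ≃ₐ[ℚ] Qb) (Sy : C.Symm)
    (hg : ∀ x : FK N, Sy.g x = arithmeticRingAut (modularFunctionFieldFull N) φ x)
    (q : ℕ) (fk : k →+* k) (hq : ∀ c, fk c = c ^ q) (perm : Equiv.Perm ι)
    (hperm : ∀ x, perm (perm x) = x)
    (he1 : ∀ x a, e1 (perm x) (Sy.S1 a) = fk (e1 x a))
    (he2 : ∀ x b, e2 (perm x) (Sy.S2 b) = fk (e2 x b))
    (hclaim2 : ∀ z : U, (∃ n, n0 ≤ n ∧ ((1 : R1), (1 : R2)) ∈ C.Lam z n) →
      ∃ c ∈ cstUnits N, ∃ w : (FK N)ˣ, (z : (FK N)ˣ) = c * w ^ m)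
    (x : Additive (Kum Qb (FK N) m)) (hx1 : x ∈ kerRed N A m) (hx2 : x ∈ kerRedW N A W m) :
    gal N m φ (gal N m φ x) = (q ^ 2) • x := by
  have hm0 : 0 < m := Nat.pos_of_ne_zero hm
  refine frob_sq_on_kerRed_inf hm W hWc hinc U hU
    (C.toLamData e1 e2 Lt1 Lt2 fin1 fin2 one_mem1 one_mem2 n0 surj le dim glue_one hm0) φ
    (RedCore.toSemiSymm e1 e2 Lt1 Lt2 fin1 fin2 one_mem1 one_mem2 n0 surj le dim glue_one hm0 Sy
      fk perm he1 he2) ?_ q hq hperm hclaim2 x hx1 hx2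
  intro z
  refine Units.ext ?_
  show Sy.g ((z : (FK N)ˣ) : FK N) = _
  rw [hg]
  rfl

end Fermat.Agent.GK.SS
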