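/-
GATE-K / N10 (SS) ASSEMBLY, layer 3a (helper44): from helper47's reduced-lattice package
`Glue.LamData` (GK/Glue/GlueCore.lean), indexed by a subgroup `U` of admissible units of `F_N`,
to the semistability package `SSPackage N m A` of `GK/SS/Gate.lean`.

Inputs (all hypotheses, to be discharged by the concrete construction of `Λ_z = red (L(D_z+nE)_A)`):

* `D : LamData k R1 R2 ι ↥U m` with at least one node (`Nonempty ι`), `k` infinite;
* `hnorm` : after scaling by a constant, `σ u / u ∈ U` for all inertia `σ`;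
* `hinv`  : inertia preserves `U` and the reduced lattices, `Λ_{τ z} = Λ_z`;
* `One y` : "both reductions of `y` are `1`", with `hcOne : c y = 1 → One y`
  (e.g. `U` = units with `red₁ = 1`, `red₂ = κ` constant, `c y = κ⁻¹`);
* `hclaim` (= Claim 2 + `kummer_finish`): `One y` and `(1, 1) ∈ Λ_y(n)` force `y ∈ ℚ̄ˣ · F_N^{×m}`.

Output: `ssPackageOfLamData : SSPackage N m A`, with `X := (ι → k)ˣ` and
`ξ z := LamData.xi z n0` (glueing constants), multiplicative by `xi_mul`/`xi_add`.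
-/
import Fermat.Agent.GK.SS.Gate
import Fermat.Agent.GK.Glue.GlueCore

set_option autoImplicit false

namespace Fermat.Agent.GK.SS

open Fermat.Agent.GJ.KumGroup Fermat.Agent.GJ.Kum.KumType Fermat.Agent.GK.Tate
open Fermat.Agent.GK.Glue

/-- `ℚ̄`. -/
local notation "Qb" => AlgebraicClosure ℚ

variable {N : ℕ} [NeZero N] {m : ℕ} {A : ValuationSubring Qb}
variable {U : Subgroup (FK N)ˣ}
variable {k : Type} [Field k] [Infinite k] {R1 R2 : Type} [CommRing R1] [Algebra k R1]
  [CommRing R2] [Algebra k R2] {ι : Type} [Fintype ι] [DecidableEq ι]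

/-- the glueing constants at the threshold level, as a monoid hom `U →* (ι → k)` -/
noncomputable def xiHom (D : LamData k R1 R2 ι ↥U m) : ↥U →* (ι → k) where
  toFun y := D.xi y D.n0
  map_one' := D.xi_one D.n0 le_rfl
  map_mul' y y' := by
    rw [← D.xi_mul y y' D.n0 D.n0 le_rfl le_rfl, D.xi_add (y * y') D.n0 D.n0 le_rfl le_rfl]

theorem xiHom_apply (D : LamData k R1 R2 ι ↥U m) (y : ↥U) : xiHom D y = D.xi y D.n0 := rfl

/-- **the semistability package from a reduced-lattice package.** -/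
noncomputable def ssPackageOfLamData [Nonempty ι] (D : LamData k R1 R2 ι ↥U m)
    (hnorm : ∀ u ∈ pDivUnits Qb (FK N) m, ∃ c ∈ cstUnits N,
      ∀ σ ∈ A.inertiaSubgroupIn ℚ, galUnits N σ (c * u) / (c * u) ∈ U)
    (hinv : ∀ τ ∈ A.inertiaSubgroupIn ℚ, ∀ z : U,
      ∃ hz : galUnits N τ (z : (FK N)ˣ) ∈ U,
        D.Lam ⟨galUnits N τ (z : (FK N)ˣ), hz⟩ D.n0 = D.Lam z D.n0)
    (One : ↥U → Prop) (hcOne : ∀ y : ↥U, D.c y = 1 → One y)
    (hclaim : ∀ y : ↥U, One y → ((1 : R1), (1 : R2)) ∈ D.Lam y D.n0 →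
      ∃ c ∈ cstUnits N, ∃ w : (FK N)ˣ, (y : (FK N)ˣ) = c * w ^ m) :
    SSPackage N m A where
  U := U
  X := (ι → k)ˣ
  instX := inferInstance
  ξ := (xiHom D).toHomUnits
  norm := hnorm
  inv := by
    intro τ hτ z
    obtain ⟨hz, hΛ⟩ := hinv τ hτ z
    refine ⟨hz, Units.ext ?_⟩
    rw [MonoidHom.coe_toHomUnits, MonoidHom.coe_toHomUnits, xiHom_apply, xiHom_apply]
    exact D.xi_congr D.n0 le_rfl hΛ
  triv := by
    intro z hz
    have h1 : D.xi z D.n0 = 1 := by
      have := congrArg Units.val hz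
      rwa [MonoidHom.coe_toHomUnits, xiHom_apply, Units.val_one] at this
    have hc : D.c z = 1 := by
      obtain ⟨x⟩ := ‹Nonempty ι›
      rw [← D.xi_pow z D.n0 le_rfl x, h1, Pi.one_apply, one_pow]
    exact hclaim z (hcOne z hc) (D.one_mem_Lam_of_xi z D.n0 le_rfl h1)

end Fermat.Agent.GK.SS
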